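import Fermat.Agent.Theta.QForm
import Mathlib.Algebra.Module.ZLattice.Covolume
import Mathlib.MeasureTheory.Measure.Lebesgue.VolumeOfBalls

/-!
# The number of lattice points in an ellipse, with values prime to twice the determinant

A positive form of determinant `D` takes values at most `X` at about `π X / √D` points; if its first
coefficient is prime to `2n`, `n` the determinant, the proportion with value prime to `2n` is
`∏ (1 - 1/p)` over the primes `p ∣ 2n`.
-/

set_option autoImplicit false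

noncomputable section

open Filter Topology Module MeasureTheory
open scoped Real

namespace FA.OrderTheta

open FA.Theta

/-- The number of lattice points of an ellipse. -/
theorem tendsto_card_ellipse {D : ℕ} (Q : BQF D) :
    Tendsto (fun X : ℕ => ({v : ℤ × ℤ | Q.val v ≤ (X : ℤ)}.ncard : ℝ) / X) atTop
      (𝓝 (π / Real.sqrt D)) := by
  have hA : (0 : ℝ) < Q.a := by exact_mod_cast Q.pos
  have hD : (0 : ℝ) < D := by exact_mod_cast Q.D_pos
  have hdet : (Q.a : ℝ) * Q.c - (Q.b : ℝ) ^ 2 = D := by exact_mod_cast Q.det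
  set r := Real.sqrt Q.a with hrd
  set s := Real.sqrt D with hsd
  have hr : 0 < r := Real.sqrt_pos.mpr hA
  have hs : 0 < s := Real.sqrt_pos.mpr hD
  have hr2 : r ^ 2 = Q.a := Real.sq_sqrt hA.le
  have hs2 : s ^ 2 = D := Real.sq_sqrt hD.le
  let w : Fin 2 → ℂ := ![⟨r, 0⟩, ⟨(Q.b : ℝ) / r, s / r⟩]
  have hli : LinearIndependent ℝ w := by
    rw [LinearIndependent.pair_iff]
    intro x y h
    have h1 := congrArg Complex.re h
    have h2 := congrArg Complex.im h
    simp only [Complex.add_re, Complex.add_im, Complex.smul_re, Complex.smul_im, smul_eq_mul,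
      Complex.zero_re, Complex.zero_im, mul_zero, zero_add, mul_eq_zero] at h1 h2
    have hy : y = 0 := h2.resolve_right (div_ne_zero hs.ne' hr.ne')
    rw [hy, zero_mul, add_zero, mul_eq_zero] at h1
    exact ⟨h1.resolve_right hr.ne', hy⟩
  let e : Basis (Fin 2) ℝ ℂ := basisOfLinearIndependentOfCardEqFinrank hli
    (by rw [Fintype.card_fin, Complex.finrank_real_complex])
  have he : ⇑e = w := coe_basisOfLinearIndependentOfCardEqFinrank hli _
  let L : Submodule ℤ ℂ := Submodule.span ℤ (Set.range e)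
  have hcov : ZLattice.covolume L = s := by
    rw [ZLattice.covolume_eq_measure_fundamentalDomain L volume
        (ZSpan.isAddFundamentalDomain e volume),
      ZSpan.measureReal_fundamentalDomain e volume Complex.orthonormalBasisOneI.toBasis,
      measureReal_congr (ZSpan.fundamentalDomain_ae_parallelepiped _ volume)]
    simp only [OrthonormalBasis.coe_toBasis, measureReal_def,
      OrthonormalBasis.volume_parallelepiped, ENNReal.toReal_one, mul_one]
    rw [Basis.det_apply, Matrix.det_fin_two, he]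
    simp only [Basis.toMatrix_apply, w, Matrix.cons_val_zero, Matrix.cons_val_one,
      OrthonormalBasis.coe_toBasis_repr_apply, Complex.orthonormalBasisOneI_repr_apply,
      Matrix.cons_val_fin_one, mul_zero, sub_zero]
    rw [mul_div_cancel₀ _ hr.ne', abs_of_pos hs]
  let T : ℤ × ℤ → ℂ := fun v => v.1 • w 0 + v.2 • w 1
  have hTre : ∀ v, (T v).re = (v.1 : ℝ) * r + (v.2 : ℝ) * ((Q.b : ℝ) / r) := fun v => by
    simp [T, w]
  have hTim : ∀ v, (T v).im = (v.2 : ℝ) * (s / r) := fun v => by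
    simp [T, w]
  have hnorm : ∀ v, Complex.normSq (T v) = ((Q.val v : ℤ) : ℝ) := fun v => by
    rw [Complex.normSq_apply, hTre, hTim]
    simp only [BQF.val, Int.cast_id]
    push_cast
    field_simp
    rw [hr2, hs2]
    linear_combination (-(v.2 : ℝ) ^ 2) * hdet
  have hTinj : Function.Injective T := fun v v' h => by
    have h1 := congrArg Complex.re h
    have h2 := congrArg Complex.im h
    rw [hTre, hTre] at h1
    rw [hTim, hTim] at h2
    have e2 : v.2 = v'.2 := by exact_mod_cast mul_right_cancel₀ (div_ne_zero hs.ne' hr.ne') h2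
    rw [e2] at h1
    exact Prod.ext (by exact_mod_cast mul_right_cancel₀ hr.ne' (add_right_cancel h1)) e2
  have hL : (L : Set ℂ) = Set.range T := by
    ext z
    rw [SetLike.mem_coe, Submodule.mem_span_range_iff_exists_fun, he, Set.mem_range]
    refine ⟨fun ⟨c, hc⟩ => ⟨(c 0, c 1), by rw [← hc, Fin.sum_univ_two]⟩,
      fun ⟨v, hv⟩ => ⟨![v.1, v.2], by rw [← hv, Fin.sum_univ_two]; rfl⟩⟩
  have hball : {x : ℂ | x ∈ Set.univ ∧ Complex.normSq x ≤ 1} = Metric.closedBall 0 1 := by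
    ext x
    simp only [Set.mem_univ, true_and, Set.mem_ofPred_eq, mem_closedBall_zero_iff,
      Complex.normSq_eq_norm_sq]
    rw [sq_le_one_iff₀ (norm_nonneg x)]
  have h := ZLattice.covolume.tendsto_card_le_div' L (X := Set.univ) (F := fun x => Complex.normSq x)
    (fun _ _ _ _ => Set.mem_univ _)
    (fun x r _ => by
      rw [Complex.finrank_real_complex, Complex.real_smul, map_mul, Complex.normSq_ofReal]; ring)
    (by rw [hball]; exact Metric.isBounded_closedBall)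
    (by rw [hball]; exact measurableSet_closedBall)
    (by rw [hball, frontier_closedBall _ one_ne_zero]; exact Measure.addHaar_sphere _ _ _)
  rw [hball, hcov, measureReal_def, Complex.volume_closedBall] at h
  simp only [ENNReal.ofReal_one, one_pow, one_mul, ENNReal.coe_toReal, NNReal.coe_real_pi] at h
  refine (h.comp tendsto_natCast_atTop_atTop).congr fun X => ?_
  rw [Function.comp_apply]
  congr 2
  rw [← Set.ncard_image_of_injective _ hTinj, ← Nat.card_coe_set_eq]
  refine Nat.card_congr (Equiv.setCongr (Set.ext fun z => ?_))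
  simp only [Set.mem_inter_iff, Set.mem_ofPred_eq, Set.mem_univ, true_and, hL, Set.mem_range,
    Set.mem_image]
  constructor
  · rintro ⟨hz, v, rfl⟩
    rw [hnorm] at hz
    exact ⟨v, by exact_mod_cast hz, rfl⟩
  · rintro ⟨v, hv, rfl⟩
    exact ⟨by rw [hnorm]; exact_mod_cast hv, v, rfl⟩

variable {n : ℕ} (Q : BQF n)

theorem val_nonneg (v : ℤ × ℤ) : 0 ≤ Q.val v := by
  have h : 0 ≤ Q.a * Q.val v := by
    rw [show Q.a * Q.val v = (Q.a * v.1 + Q.b * v.2) ^ 2 + (n : ℤ) * v.2 ^ 2 by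
      simp only [BQF.val, Int.cast_id]; linear_combination v.2 ^ 2 * Q.det]
    positivity
  exact nonneg_of_mul_nonneg_right h Q.pos

theorem finite_val_le (X : ℤ) : {v : ℤ × ℤ | Q.val v ≤ X}.Finite :=
  ((Finset.Icc (0 : ℤ) X).finite_toSet.biUnion fun k _ => Q.finite_val_eq k).subset fun v hv =>
    Set.mem_iUnion₂.mpr ⟨Q.val v, Finset.mem_coe.mpr (Finset.mem_Icc.mpr ⟨val_nonneg Q v, hv⟩), rfl⟩

/-- The linear form congruent to a square root of `a Q` modulo every prime dividing `2n`. -/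
def lin (v : ℤ × ℤ) : ℤ := Q.a * v.1 + (Q.b + n) * v.2

theorem dvd_val_iff {p : ℕ} (hp : p.Prime) (hpn : p ∣ 2 * n) (hpa : ¬ (p : ℤ) ∣ Q.a) (v : ℤ × ℤ) :
    (p : ℤ) ∣ Q.val v ↔ (p : ℤ) ∣ lin Q v := by
  have hp' := Nat.prime_iff_prime_int.mp hp
  have hd : (p : ℤ) ∣ Q.a * Q.val v - lin Q v ^ 2 := by
    rw [show Q.a * Q.val v - lin Q v ^ 2 =
      (n : ℤ) * (1 - n) * v.2 ^ 2 + 2 * n * (-((Q.a * v.1 + Q.b * v.2) * v.2)) by
      simp only [BQF.val, Int.cast_id, lin]; linear_combination v.2 ^ 2 * Q.det]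
    have h2n : (p : ℤ) ∣ 2 * n := by exact_mod_cast Int.natCast_dvd_natCast.mpr hpn
    refine dvd_add (Dvd.dvd.mul_right ?_ _) (h2n.mul_right _)
    rcases hp.dvd_mul.mp hpn with h | h
    · obtain rfl := (Nat.prime_dvd_prime_iff_eq hp Nat.prime_two).mp h
      obtain ⟨k, hk⟩ := Int.even_or_odd' (n : ℤ)
      rcases hk with hk | hk <;> rw [hk]
      · exact Dvd.dvd.mul_right (dvd_mul_right _ _) _
      · exact Dvd.dvd.mul_left ⟨-k, by push_cast; ring⟩ _
    · exact (Int.natCast_dvd_natCast.mpr h).mul_right _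
  constructor
  · exact fun h => hp'.dvd_of_dvd_pow ((dvd_sub_right (h.mul_left _)).mp hd)
  · exact fun h => ((hp'.dvd_or_dvd ((dvd_sub_left (h.pow two_ne_zero)).mp hd)).resolve_left hpa)

theorem ncard_lin {d : ℕ} (hd : 0 < d) (hda : IsCoprime Q.a (d : ℤ)) :
    ∃ Q' : BQF (d ^ 2 * n), ∀ X : ℤ,
      {v : ℤ × ℤ | Q.val v ≤ X ∧ (d : ℤ) ∣ lin Q v}.ncard = {v : ℤ × ℤ | Q'.val v ≤ X}.ncard := by
  obtain ⟨u, w, huw⟩ := id hda
  set t := -u * (Q.b + n)
  have hd' : (0 : ℤ) < d := by exact_mod_cast hd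
  let Q' : BQF (d ^ 2 * n) :=
    ⟨Q.a * d ^ 2, d * (Q.a * t + Q.b), Q.a * t ^ 2 + 2 * Q.b * t + Q.c,
      mul_pos Q.pos (pow_pos hd' 2),
      by push_cast; linear_combination (d : ℤ) ^ 2 * Q.det,
      Nat.mul_pos (pow_pos hd 2) Q.D_pos⟩
  refine ⟨Q', fun X => ?_⟩
  set φ : ℤ × ℤ → ℤ × ℤ := fun v => ((d : ℤ) * v.1 + t * v.2, v.2)
  have hφ : Function.Injective φ := fun v v' h => by
    have h1 := congrArg Prod.fst h
    have h2 : v.2 = v'.2 := (congrArg Prod.snd h : (φ v).2 = (φ v').2)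
    simp only [φ, h2, add_left_inj] at h1
    exact Prod.ext (mul_left_cancel₀ hd'.ne' h1) h2
  have hval : ∀ v, Q'.val v = Q.val (φ v) := fun v => by
    simp only [BQF.val, Int.cast_id, φ, Q']
    ring
  rw [← Set.ncard_image_of_injective {v | Q'.val v ≤ X} hφ]
  congr 1
  ext v
  simp only [Set.mem_ofPred_eq, Set.mem_image]
  constructor
  · rintro ⟨hv, hdv⟩
    obtain ⟨k, hk⟩ : (d : ℤ) ∣ v.1 - t * v.2 := by
      refine hda.symm.dvd_of_dvd_mul_left ?_
      have : Q.a * (v.1 - t * v.2) = lin Q v - (d : ℤ) * (w * (Q.b + n) * v.2) := by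
        simp only [lin, t]; linear_combination (Q.b + (n : ℤ)) * v.2 * huw
      rw [this]
      exact dvd_sub hdv (dvd_mul_right _ _)
    have e : φ (k, v.2) = v := Prod.ext (by simp only [φ]; linarith) rfl
    exact ⟨(k, v.2), by rw [hval, e]; exact hv, e⟩
  · rintro ⟨z, hz, rfl⟩
    refine ⟨by rw [← hval]; exact hz, ?_⟩
    exact ⟨Q.a * z.1 + w * (Q.b + n) * z.2, by
      simp only [lin, φ, t]; linear_combination -(Q.b + (n : ℤ)) * z.2 * huw⟩

/-- The number of points with value at most `X` and prime to `4n`. -/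
theorem tendsto_card_coprime (ha : IsCoprime Q.a ((4 * n : ℕ) : ℤ)) :
    Tendsto (fun X : ℕ =>
      ({v : ℤ × ℤ | Q.val v ≤ (X : ℤ) ∧ (Q.val v).natAbs.Coprime (4 * n)}.ncard : ℝ) / X) atTop
      (𝓝 (π / Real.sqrt n * ∏ p ∈ (4 * n).primeFactors, (1 - (p : ℝ)⁻¹))) := by
  classical
  have hn : 4 * n ≠ 0 := by have := Q.D_pos; omega
  set P := (4 * n).primeFactors
  have hP : ∀ {p}, p ∈ P → p.Prime ∧ p ∣ 2 * n ∧ ¬ (p : ℤ) ∣ Q.a := fun {p} h => by
    obtain ⟨hp, hd, -⟩ := Nat.mem_primeFactors.mp h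
    refine ⟨hp, ?_, fun hpa => ?_⟩
    · rcases hp.dvd_mul.mp hd with h | h
      · exact (hp.dvd_of_dvd_pow (show p ∣ 2 ^ 2 from h)).mul_right n
      · exact h.mul_left 2
    · exact (Nat.prime_iff_prime_int.mp hp).not_isUnit
        (ha.isUnit_of_dvd' hpa (Int.natCast_dvd_natCast.mpr hd))
  let S : ℕ → Finset (ℤ × ℤ) := fun X => (finite_val_le Q X).toFinset
  have hmem : ∀ X v, v ∈ S X ↔ Q.val v ≤ (X : ℤ) := fun X v => by simp [S]
  -- inclusion and exclusion
  have hind : ∀ v, (if (Q.val v).natAbs.Coprime (4 * n) then (1 : ℝ) else 0) =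
      ∑ T ∈ P.powerset, (-1 : ℝ) ^ T.card *
        if ((∏ p ∈ T, p : ℕ) : ℤ) ∣ lin Q v then (1 : ℝ) else 0 := fun v => by
    have hprod : ∀ T ∈ P.powerset, (if ((∏ p ∈ T, p : ℕ) : ℤ) ∣ lin Q v then (1 : ℝ) else 0) =
        ∏ p ∈ T, if (p : ℤ) ∣ lin Q v then (1 : ℝ) else 0 := by
      intro T hT
      rw [Finset.mem_powerset] at hT
      rw [Finset.prod_boole]
      refine if_congr ?_ (by simp) (by simp)
      refine ⟨fun h p hp => dvd_trans (Int.natCast_dvd_natCast.mpr (Finset.dvd_prod_of_mem _ hp)) h,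
        fun h => Int.natCast_dvd.mpr (Finset.prod_primes_dvd _ (fun p hp => (hP (hT hp)).1.prime)
          fun p hp => Int.natCast_dvd.mp (h p hp))⟩
    have hsub := Finset.prod_sub (fun _ : ℕ => (1 : ℝ)) (fun p : ℕ => if (p : ℤ) ∣ lin Q v then (1 : ℝ) else 0) P
    simp only [Finset.prod_const_one, mul_one] at hsub
    rw [Finset.sum_congr rfl fun T hT => by rw [hprod T hT], ← hsub]
    split_ifs with h
    · refine (Finset.prod_eq_one fun p hp => ?_).symm
      obtain ⟨hp', hp2, hpa⟩ := hP hp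
      rw [if_neg fun hl => hp'.not_dvd_one (h ▸ Nat.dvd_gcd
        (Int.natCast_dvd.mp ((dvd_val_iff Q hp' hp2 hpa v).mpr hl)) (Nat.dvd_of_mem_primeFactors hp)),
        sub_zero]
    · obtain ⟨p, hp, hpv, hpn⟩ := Nat.Prime.not_coprime_iff_dvd.mp h
      have hpP : p ∈ P := Nat.mem_primeFactors.mpr ⟨hp, hpn, hn⟩
      obtain ⟨-, hp2, hpa⟩ := hP hpP
      refine (Finset.prod_eq_zero hpP ?_).symm
      rw [if_pos ((dvd_val_iff Q hp hp2 hpa v).mp (Int.natCast_dvd.mpr hpv)), sub_self]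
  have hcount : ∀ X : ℕ,
      ({v : ℤ × ℤ | Q.val v ≤ (X : ℤ) ∧ (Q.val v).natAbs.Coprime (4 * n)}.ncard : ℝ) =
      ∑ T ∈ P.powerset, (-1 : ℝ) ^ T.card *
        ({v : ℤ × ℤ | Q.val v ≤ (X : ℤ) ∧ ((∏ p ∈ T, p : ℕ) : ℤ) ∣ lin Q v}.ncard : ℝ) := fun X => by
    have e : ∀ (p : ℤ × ℤ → Prop) [DecidablePred p],
        ({v : ℤ × ℤ | Q.val v ≤ (X : ℤ) ∧ p v}.ncard : ℝ) =
          ∑ v ∈ S X, if p v then (1 : ℝ) else 0 := fun p _ => by
      rw [Finset.sum_boole, ← Set.ncard_coe_finset]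
      congr 2
      ext v
      simp [hmem]
    simp only [e]
    rw [Finset.sum_congr rfl fun v _ => hind v, Finset.sum_comm]
    simp only [Finset.mul_sum]
  have hlim : ∀ T ∈ P.powerset, Tendsto (fun X : ℕ => (-1 : ℝ) ^ T.card *
      (({v : ℤ × ℤ | Q.val v ≤ (X : ℤ) ∧ ((∏ p ∈ T, p : ℕ) : ℤ) ∣ lin Q v}.ncard : ℝ) / X)) atTop
      (𝓝 ((-1 : ℝ) ^ T.card * (π / Real.sqrt n * ∏ p ∈ T, (p : ℝ)⁻¹))) := by
    intro T hT
    rw [Finset.mem_powerset] at hT
    set d := ∏ p ∈ T, p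
    have hd : 0 < d := Finset.prod_pos fun p hp => (hP (hT hp)).1.pos
    have hda : IsCoprime Q.a (d : ℤ) := ha.of_isCoprime_of_dvd_right
      (Int.natCast_dvd_natCast.mpr (Finset.prod_primes_dvd _ (fun p hp => (hP (hT hp)).1.prime)
        fun p hp => Nat.dvd_of_mem_primeFactors (hT hp)))
    obtain ⟨Q', hQ'⟩ := ncard_lin Q hd hda
    refine Tendsto.const_mul _ ?_
    have hval : π / Real.sqrt n * ∏ p ∈ T, (p : ℝ)⁻¹ = π / Real.sqrt ((d ^ 2 * n : ℕ) : ℝ) := by
      rw [Finset.prod_inv_distrib, ← Nat.cast_prod, Nat.cast_mul, Nat.cast_pow,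
        Real.sqrt_mul (by positivity), Real.sqrt_sq (Nat.cast_nonneg d), div_mul_eq_div_div_swap,
        ← div_eq_mul_inv]
    rw [hval]
    exact (tendsto_card_ellipse Q').congr fun X => by rw [hQ']
  have hsum : π / Real.sqrt n * ∏ p ∈ P, (1 - (p : ℝ)⁻¹) =
      ∑ T ∈ P.powerset, (-1 : ℝ) ^ T.card * (π / Real.sqrt n * ∏ p ∈ T, (p : ℝ)⁻¹) := by
    rw [Finset.prod_sub, Finset.mul_sum]
    simp only [Finset.prod_const_one, mul_one]
    exact Finset.sum_congr rfl fun T _ => by ring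
  rw [hsum]
  refine (tendsto_finsetSum P.powerset hlim).congr fun X => ?_
  rw [hcount, Finset.sum_div]
  exact Finset.sum_congr rfl fun T _ => by ring

end FA.OrderTheta
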