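import Fermat.Agent.ThetaOne.OrderExt
import Mathlib.Data.Int.Interval

/-!
# The classes of `ℤ[√-n]` are the reduced primitive forms

Every class contains exactly one ideal `(a, b + √-n)` whose form `(a, 2b, c)` is reduced.  So the
class number is the number of reduced primitive forms of determinant `n`, a finite computation.
-/

set_option autoImplicit false

noncomputable section

open Ideal

namespace FA.OrderTheta

/-- `(a, b)` gives a reduced primitive form `(a, 2b, (b² + n)/a)`. -/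
def IsRed (n a : ℕ) (b : ℤ) : Prop :=
  0 < a ∧ (a : ℤ) ∣ b ^ 2 + n ∧ Int.gcd (Int.gcd a (2 * b)) ((b ^ 2 + n) / a) = 1 ∧
    2 * |b| ≤ a ∧ (a : ℤ) * a ≤ b ^ 2 + n ∧ ((2 * |b| = a ∨ (a : ℤ) * a = b ^ 2 + n) → 0 ≤ b)

instance instDecidableIsRed (n a : ℕ) (b : ℤ) : Decidable (IsRed n a b) := by
  unfold IsRed; infer_instance

/-- The reduced forms with first coefficient at most `M`. -/
def redSet (n M : ℕ) : Finset (ℕ × ℤ) :=
  (Finset.range (M + 1) ×ˢ Finset.Icc (-(M : ℤ)) M).filter fun t => IsRed n t.1 t.2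

theorem bezout_of_gcd {a b c : ℤ} (h : Int.gcd (Int.gcd a b) c = 1) :
    ∃ u v w : ℤ, u * a + v * c + w * b = 1 := by
  have h1 := Int.gcd_eq_gcd_ab (Int.gcd a b : ℤ) c
  have h2 := Int.gcd_eq_gcd_ab a b
  rw [h] at h1
  refine ⟨Int.gcdA a b * Int.gcdA (Int.gcd a b : ℤ) c, Int.gcdB (Int.gcd a b : ℤ) c,
    Int.gcdB a b * Int.gcdA (Int.gcd a b : ℤ) c, ?_⟩
  push_cast at h1
  linear_combination -h1 - Int.gcdA (Int.gcd a b : ℤ) c * h2

theorem gcd_of_bezout {a b c : ℤ} (h : ∃ u v w : ℤ, u * a + v * c + w * b = 1) :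
    Int.gcd (Int.gcd a b) c = 1 := by
  obtain ⟨u, v, w, e⟩ := h
  have hg : ((Int.gcd (Int.gcd a b) c : ℕ) : ℤ) ∣ 1 := e ▸ dvd_add (dvd_add
    (((Int.gcd_dvd_left _ _).trans (Int.gcd_dvd_left _ _)).mul_left u)
    ((Int.gcd_dvd_right _ _).mul_left v))
    (((Int.gcd_dvd_left _ _).trans (Int.gcd_dvd_right _ _)).mul_left w)
  exact Nat.dvd_one.mp (Int.natCast_dvd_natCast.mp (by simpa using hg))

variable {n : ℕ} [NeZero n]

section root

variable {a : ℕ} {b c : ℤ} (ha : 0 < a) (h : (a : ℤ) * c - b ^ 2 = n)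
  (hp : ∃ u v w : ℤ, u * a + v * c + w * (2 * b) = 1)

/-- The ideal depends only on `b` modulo `a`. -/
theorem rootII_congr {b' c' : ℤ} (h' : (a : ℤ) * c' - b' ^ 2 = n)
    (hp' : ∃ u v w : ℤ, u * a + v * c' + w * (2 * b') = 1) (hd : (a : ℤ) ∣ b - b') :
    rootII a b c ha h hp = rootII a b' c' ha h' hp' := by
  refine Subtype.ext (Ideal.ext fun x => ?_)
  rw [mem_rootII, mem_rootII,
    show x.re - b' * x.im = (x.re - b * x.im) + (b - b') * x.im by ring]
  exact (dvd_add_left (hd.mul_right _)).symm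

include h hp in
omit [NeZero n] in
theorem neg_mid : (a : ℤ) * c - (-b) ^ 2 = n ∧
    ∃ u v w : ℤ, u * a + v * c + w * (2 * -b) = 1 := by
  obtain ⟨u, v, w, e⟩ := hp
  exact ⟨by rw [neg_sq]; exact h, u, v, -w, by linear_combination e⟩

theorem conj_rootII :
    conj (rootII a b c ha h hp) = rootII a (-b) c ha (neg_mid h hp).1 (neg_mid h hp).2 := by
  refine Subtype.ext (Ideal.ext fun x => ?_)
  rw [coe_conj, mem_conjI_iff, mem_rootII, mem_rootII]
  simp

theorem cls_rootII_swap {c' : ℕ} (hc : 0 < c') (hcc : (c' : ℤ) = c)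
    (h' : (c' : ℤ) * a - b ^ 2 = n) (hp' : ∃ u v w : ℤ, u * c' + v * a + w * (2 * b) = 1) :
    cls (rootII c' b (a : ℤ) hc h' hp') = (cls (rootII a b c ha h hp))⁻¹ := by
  subst hcc
  set I := rootII a b (c' : ℤ) ha h hp
  set J := rootII c' b (a : ℤ) hc h' hp'
  set z : Ord n := ⟨b, 1⟩
  have hz0 : z ≠ 0 := fun e => by
    have := congrArg Zsqrtd.im e
    simp [z] at this
  obtain ⟨u, v, w, e⟩ := hp
  have hzI : z ∈ (I : Ideal (Ord n)) := (mem_rootII ..).mpr (by simp [z])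
  have hzJ : z ∈ (J : Ideal (Ord n)) := (mem_rootII ..).mpr (by simp [z])
  have haI : (a : Ord n) ∈ (I : Ideal (Ord n)) := (mem_rootII ..).mpr (by simp)
  have hcJ : (c' : Ord n) ∈ (J : Ideal (Ord n)) := (mem_rootII ..).mpr (by simp)
  have hac : (a : Ord n) * (c' : Ord n) = z * star z := by
    ext <;> simp [z] <;> linarith [h]
  have hmem : z ∈ ((I * J : II n) : Ideal (Ord n)) := by
    rw [Submonoid.coe_mul]
    have hb : ((2 * b : ℤ) : Ord n) = z + star z := by ext <;> simp [z]; ring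
    have hval : z = (u : Ord n) * ((a : Ord n) * z) + (v : Ord n) * (z * (c' : Ord n)) +
        (w : Ord n) * (z * z + (a : Ord n) * (c' : Ord n)) := by
      have := congrArg (Int.cast : ℤ → Ord n) e
      push_cast at this hb
      linear_combination -z * this + (w : Ord n) * z * hb - (w : Ord n) * hac
    rw [hval]
    exact add_mem (add_mem (Ideal.mul_mem_left _ _ (mul_mem_mul haI hzJ))
      (Ideal.mul_mem_left _ _ (mul_mem_mul hzI hcJ)))
      (Ideal.mul_mem_left _ _ (add_mem (mul_mem_mul hzI hzJ) (mul_mem_mul haI hcJ)))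
  obtain ⟨K, hK, hn⟩ := exists_factor_elem hz0 hmem
  rw [norm_eq, map_mul, nrm_rootII, nrm_rootII] at hn
  have hK1 : nrm K = 1 := by
    have h0 : ((a * c' : ℕ) : ℤ) ≠ 0 := by exact_mod_cast (Nat.mul_pos ha hc).ne'
    exact_mod_cast mul_left_cancel₀ h0 (b := (nrm K : ℤ)) (c := 1) (by
      simp [z] at hn; push_cast; linarith)
  rw [eq_one_of_nrm_eq_one hK1, mul_one] at hK
  have := congrArg cls hK
  rw [cls_prin, map_mul] at this
  exact eq_inv_of_mul_eq_one_right this.symm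

/-- A value of the form is the norm of an ideal of the class. -/
theorem exists_ideal_of_value (x y : ℤ) (hxy : x ≠ 0 ∨ y ≠ 0) :
    ∃ K : II n, cls K = cls (rootII a b c ha h hp) ∧
      (nrm K : ℤ) = (a : ℤ) * x ^ 2 + 2 * b * x * y + c * y ^ 2 := by
  set z : Ord n := ⟨(a : ℤ) * x + b * y, y⟩
  have ha' : (a : ℤ) ≠ 0 := by exact_mod_cast ha.ne'
  have hz0 : z ≠ 0 := fun e => by
    have hy : y = 0 := congrArg Zsqrtd.im e
    have hx : (a : ℤ) * x + b * y = 0 := congrArg Zsqrtd.re e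
    rw [hy, mul_zero, add_zero] at hx
    exact hxy.elim (fun k => k ((mul_eq_zero.mp hx).resolve_left ha')) fun k => k hy
  have hzI : z ∈ (rootII a b c ha h hp : Ideal (Ord n)) :=
    (mem_rootII ha h hp).mpr ⟨x, by simp [z]⟩
  obtain ⟨K, hK, hn⟩ := exists_factor_elem hz0 hzI
  refine ⟨conj K, ?_, ?_⟩
  · have := congrArg cls hK
    rw [cls_prin, map_mul] at this
    rw [cls_conj, eq_inv_of_mul_eq_one_right this.symm, inv_inv]
  · rw [norm_root_elem h, nrm_rootII] at hn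
    rw [nrm_conj]
    exact (mul_left_cancel₀ ha' hn).symm

/-- An ideal of the class of `(a, b + √-n)` gives a value of the form, with its generator. -/
theorem exists_value_of_ideal {K : II n} (hK : cls K = cls (rootII a b c ha h hp)) :
    ∃ (x y : ℤ) (hz : (⟨(a : ℤ) * x - b * y, y⟩ : Ord n) ≠ 0),
      conj (rootII a b c ha h hp) * K = prin ⟨(a : ℤ) * x - b * y, y⟩ hz ∧
      (a : ℤ) * x ^ 2 - 2 * b * x * y + c * y ^ 2 = nrm K := by
  set J := conj (rootII a b c ha h hp) with hJ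
  obtain ⟨z, hz0, hz⟩ := exists_gen_of_cls (I := J * K) (by
    rw [hJ, map_mul, cls_conj, hK, inv_mul_cancel])
  have hzJ : z ∈ (J : Ideal (Ord n)) := by
    have := congrArg (fun I : II n => (I : Ideal (Ord n))) hz
    simp only [Submonoid.coe_mul, coe_prin] at this
    exact Ideal.mul_le_left (this.symm ▸ mem_span_singleton_self z)
  rw [hJ, conj_rootII, mem_rootII] at hzJ
  obtain ⟨x, hx⟩ := hzJ
  have he : z = ⟨(a : ℤ) * x - b * z.im, z.im⟩ := Zsqrtd.ext (by simp; linarith) rfl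
  refine ⟨x, z.im, he ▸ hz0, hz.trans (Subtype.ext (by rw [coe_prin, coe_prin, ← he])), ?_⟩
  have hn : z.norm = (a : ℤ) * nrm K := by
    rw [← nrm_prin z hz0, ← hz, map_mul, hJ, nrm_conj, nrm_rootII]; push_cast; rfl
  refine mul_left_cancel₀ (by exact_mod_cast ha.ne' : (a : ℤ) ≠ 0) ?_
  rw [← hn, norm_eq]
  have : z.re = (a : ℤ) * x - b * z.im := congrArg Zsqrtd.re he
  rw [this]
  linear_combination z.im ^ 2 * h

end root

/-- An ideal of least norm in its class is an ideal `(a, b + √-n)`. -/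
theorem exists_rootII_of_min (J : II n)
    (hmin : ∀ K : II n, cls K = cls J → nrm K ∣ nrm J → nrm J ≤ nrm K) :
    ∃ (b c : ℤ) (h : (nrm J : ℤ) * c - b ^ 2 = n)
      (hp : ∃ u v w : ℤ, u * nrm J + v * c + w * (2 * b) = 1),
      J = rootII (nrm J) b c (nrm_pos J) h hp := by
  obtain ⟨e₁, e₂, -, -, -, -, -, hmem, -, -, -⟩ := exists_basis J
  set g := Int.gcd e₁.im e₂.im
  have ha := nrm_pos J
  set a := nrm J with hadef
  have him : ∀ x ∈ (J : Ideal (Ord n)), (g : ℤ) ∣ x.im := fun x hx => by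
    obtain ⟨u, v, rfl⟩ := (hmem x).mp hx
    simp only [Zsqrtd.im_add, Zsqrtd.im_mul, Zsqrtd.re_intCast, Zsqrtd.im_intCast, zero_mul,
      add_zero]
    exact dvd_add ((Int.gcd_dvd_left _ _).mul_left u) ((Int.gcd_dvd_right _ _).mul_left v)
  have hre : ∀ x ∈ (J : Ideal (Ord n)), (g : ℤ) ∣ x.re := fun x hx => by
    simpa using him _ (Ideal.mul_mem_left _ Zsqrtd.sqrtd hx)
  have hg0 : 0 < g := by
    refine Nat.pos_of_ne_zero fun e => ?_
    have := him _ (Ideal.mul_mem_right (Zsqrtd.sqrtd) _ (nrm_mem J))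
    rw [e, Nat.cast_zero, zero_dvd_iff] at this
    simp at this
    exact (nrm_pos J).ne' this
  have hgne : ((g : ℕ) : Ord n) ≠ 0 := natCast_ne_zero_of_pos hg0
  have hle : (J : Ideal (Ord n)) ≤ (prin (g : Ord n) hgne : II n) := fun x hx => by
    rw [coe_prin, mem_span_singleton, ← Int.cast_natCast (R := Ord n) g, Zsqrtd.intCast_dvd]
    exact ⟨hre x hx, him x hx⟩
  obtain ⟨J', hJ'⟩ := exists_factor hle
  have hg1 : g = 1 := by
    have h1 := hmin J' (by rw [hJ', map_mul, cls_prin, one_mul]) ⟨_, (congrArg nrm hJ').trans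
      (by rw [map_mul, mul_comm])⟩
    have h2 : nrm J = g * g * nrm J' := by
      have e : (nrm (prin (g : Ord n) hgne) : ℤ) = ((g * g : ℕ) : ℤ) := by
        rw [nrm_prin, Zsqrtd.norm_natCast]; push_cast; rfl
      rw [hJ', map_mul, Int.natCast_inj.mp e]
    have := nrm_pos J'
    have h3 : g * g * nrm J' ≤ 1 * nrm J' := by rw [one_mul, ← h2]; exact h1
    have := Nat.le_of_mul_le_mul_right h3 this
    nlinarith
  obtain ⟨z, hz, hzim⟩ : ∃ z ∈ (J : Ideal (Ord n)), z.im = 1 := by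
    refine ⟨(Int.gcdA e₁.im e₂.im : Ord n) * e₁ + (Int.gcdB e₁.im e₂.im : Ord n) * e₂,
      (hmem _).mpr ⟨_, _, rfl⟩, ?_⟩
    have := Int.gcd_eq_gcd_ab e₁.im e₂.im
    simp only [g] at hg1
    rw [hg1] at this
    simp only [Zsqrtd.im_add, Zsqrtd.im_mul, Zsqrtd.re_intCast, Zsqrtd.im_intCast, zero_mul,
      add_zero]
    push_cast at this
    linarith
  set b := z.re
  obtain ⟨c, hc⟩ := nrm_dvd_norm hz
  rw [norm_eq, hzim, one_pow, mul_one] at hc
  have h : (a : ℤ) * c - b ^ 2 = n := by rw [← hc]; ring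
  -- the integers in `J`
  have hint : ∀ x ∈ (J : Ideal (Ord n)), (a : ℤ) ∣ x.re - b * x.im := fun x hx => by
    have hk : ((x.re - b * x.im : ℤ) : Ord n) ∈ (J : Ideal (Ord n)) := by
      have : ((x.re - b * x.im : ℤ) : Ord n) = x - (x.im : Ord n) * z := by
        ext <;> simp [hzim, b]; ring
      rw [this]
      exact sub_mem hx (Ideal.mul_mem_left _ _ hz)
    have hm : z * star (((x.re - b * x.im : ℤ)) : Ord n) ∈ span {(a : Ord n)} := by
      rw [hadef, ← mul_conj]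
      exact mul_mem_mul hz (star_mem_conjI hk)
    rw [mem_span_singleton, ← Int.cast_natCast (R := Ord n) a, Zsqrtd.intCast_dvd] at hm
    simpa [hzim] using hm.2
  have hiff : ∀ x, x ∈ (J : Ideal (Ord n)) ↔ (a : ℤ) ∣ x.re - b * x.im := fun x =>
    ⟨hint x, fun ⟨k, hk⟩ => by
      have : x = (k : Ord n) * (a : Ord n) + (x.im : Ord n) * z :=
        Zsqrtd.ext (by simp [b]; linarith) (by simp [hzim])
      rw [this]
      exact add_mem (Ideal.mul_mem_left _ _ (nrm_mem J)) (Ideal.mul_mem_left _ _ hz)⟩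
  have hspan : ∀ w ∈ (J : Ideal (Ord n)) * conjI J, ∃ U V W W' : ℤ,
      w.re = a * (a * U + c * V + b * W) ∧ w.im = a * W' ∧ 2 ∣ W - W' := by
    intro w hw
    induction hw using Submodule.mul_induction_on' with
    | mem_mul_mem x hx y hy =>
      obtain ⟨k, hk⟩ := hint x hx
      obtain ⟨k', hk'⟩ := hint _ (mem_conjI_iff.mp hy)
      simp only [Zsqrtd.re_star, Zsqrtd.im_star] at hk'
      refine ⟨k * k', -(x.im * y.im), x.im * k' - k * y.im, x.im * k' + k * y.im, ?_, ?_,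
        ⟨-(k * y.im), by ring⟩⟩
      · rw [Zsqrtd.re_mul]
        linear_combination y.re * hk + b * x.im * hk' + (a : ℤ) * k * hk' + x.im * y.im * h
      · rw [Zsqrtd.im_mul]
        linear_combination y.im * hk + x.im * hk'
    | add x _ y _ hx hy =>
      obtain ⟨U, V, W, W', h1, h2, h3⟩ := hx
      obtain ⟨U₂, V₂, W₂, W₂', h1', h2', h3'⟩ := hy
      refine ⟨U + U₂, V + V₂, W + W₂, W' + W₂', ?_, ?_, ?_⟩
      · rw [Zsqrtd.re_add, h1, h1']; ring
      · rw [Zsqrtd.im_add, h2, h2']; ring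
      · rw [show W + W₂ - (W' + W₂') = (W - W') + (W₂ - W₂') by ring]; exact dvd_add h3 h3'
  have hp : ∃ u v w : ℤ, u * a + v * c + w * (2 * b) = 1 := by
    obtain ⟨U, V, W, W', h1, h2, r, hr⟩ := hspan (a : Ord n)
      (by rw [mul_conj]; exact mem_span_singleton_self _)
    have ha' : (a : ℤ) ≠ 0 := by exact_mod_cast ha.ne'
    simp only [Zsqrtd.re_natCast, Zsqrtd.im_natCast] at h1 h2
    have hW' : W' = 0 := (mul_eq_zero.mp h2.symm).resolve_left ha'
    have h1' : (a : ℤ) * U + c * V + b * W = 1 := mul_left_cancel₀ ha' (by linarith)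
    exact ⟨U, V, r, by rw [hW', sub_zero] at hr; rw [hr] at h1'; linarith⟩
  exact ⟨b, c, h, hp, Subtype.ext (Ideal.ext fun x => (hiff x).trans (mem_rootII _ h hp).symm)⟩

section red

variable {a : ℕ} {b : ℤ} (hr : IsRed n a b)

include hr in
omit [NeZero n] in
theorem red_det : (a : ℤ) * ((b ^ 2 + n) / a) - b ^ 2 = n := by
  rw [Int.mul_ediv_cancel' hr.2.1]; ring

/-- The ideal of a reduced form. -/
def redII : II n :=
  rootII a b ((b ^ 2 + n) / a) hr.1 (red_det hr) (bezout_of_gcd hr.2.2.1)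

include hr in
omit [NeZero n] in
/-- A reduced form takes no smaller value than `a`, and `a` only at the obvious places. -/
theorem red_value {x y : ℤ} (hxy : x ≠ 0 ∨ y ≠ 0) :
    (a : ℤ) ≤ (a : ℤ) * x ^ 2 - 2 * b * x * y + (b ^ 2 + n) / a * y ^ 2 ∧
      ((a : ℤ) * x ^ 2 - 2 * b * x * y + (b ^ 2 + n) / a * y ^ 2 = a →
        (y = 0 ∧ (x = 1 ∨ x = -1)) ∨
          ((a : ℤ) * a = b ^ 2 + n ∧ x = 0 ∧ (y = 1 ∨ y = -1))) := by
  obtain ⟨ha, hd, hg, hb, hac, -⟩ := hr
  set c := (b ^ 2 + (n : ℤ)) / a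
  have hc : (a : ℤ) * c = b ^ 2 + n := Int.mul_ediv_cancel' hd
  have ha' : (0 : ℤ) < a := by exact_mod_cast ha
  have hca : (a : ℤ) ≤ c := le_of_mul_le_mul_left (hc ▸ hac) ha'
  have h1 : 2 * b * x * y ≤ 2 * |b| * (|x| * |y|) := by
    have := le_abs_self (2 * b * x * y)
    rwa [show |2 * b * x * y| = 2 * |b| * (|x| * |y|) by
      rw [abs_mul, abs_mul, abs_mul, abs_two]; ring] at this
  have hX := abs_nonneg x
  have hY := abs_nonneg y
  have hx2 : x ^ 2 = |x| ^ 2 := (sq_abs x).symm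
  have hy2 : y ^ 2 = |y| ^ 2 := (sq_abs y).symm
  rw [hx2, hy2]
  set X := |x| with hXd
  set Y := |y| with hYd
  have hXY : 0 ≤ X * Y := mul_nonneg hX hY
  have hs : 1 ≤ (X - Y) ^ 2 + X * Y := by
    rcases eq_or_ne X Y with e | e
    · have : 1 ≤ X := by
        rcases hxy with h | h
        · exact hXd ▸ Int.one_le_abs h
        · exact e ▸ hYd ▸ Int.one_le_abs h
      rw [e] at this ⊢
      nlinarith
    · have : 1 ≤ (X - Y) ^ 2 := by
        have : 0 < (X - Y) ^ 2 := by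
          have := sub_ne_zero.mpr e
          positivity
        omega
      linarith
  have key : (a : ℤ) * ((X - Y) ^ 2 + X * Y) + ((a : ℤ) - 2 * |b|) * (X * Y) + (c - a) * Y ^ 2 ≤
      (a : ℤ) * X ^ 2 - 2 * b * x * y + c * Y ^ 2 := by nlinarith
  have hlow : (a : ℤ) ≤ (a : ℤ) * ((X - Y) ^ 2 + X * Y) := le_mul_of_one_le_right ha'.le hs
  have hp1 : 0 ≤ ((a : ℤ) - 2 * |b|) * (X * Y) := mul_nonneg (by linarith) hXY
  have hp2 : 0 ≤ (c - a) * Y ^ 2 := mul_nonneg (by linarith) (sq_nonneg Y)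
  refine ⟨by linarith, fun e => ?_⟩
  have e1 : (X - Y) ^ 2 + X * Y = 1 := by
    refine mul_left_cancel₀ ha'.ne' ?_
    rw [mul_one]
    linarith
  have e2 : ((a : ℤ) - 2 * |b|) * (X * Y) = 0 := by linarith
  have e3 : (c - a) * Y ^ 2 = 0 := by linarith
  rcases eq_or_ne Y 0 with hY0 | hY0
  · left
    rw [hY0] at e1
    have hX1 : X = 1 := by nlinarith
    exact ⟨abs_eq_zero.mp (hYd ▸ hY0), (abs_eq zero_le_one).mp (hXd ▸ hX1)⟩
  · right
    have hceq : c = a := sub_eq_zero.mp ((mul_eq_zero.mp e3).resolve_right (pow_ne_zero 2 hY0))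
    have hY1 : 1 ≤ Y := by omega
    rcases eq_or_ne X 0 with hX0 | hX0
    · rw [hX0] at e1
      have hYe : Y = 1 := by nlinarith
      exact ⟨by rw [← hc, hceq], abs_eq_zero.mp (hXd ▸ hX0), (abs_eq zero_le_one).mp (hYd ▸ hYe)⟩
    · exfalso
      have hab : (a : ℤ) = 2 * |b| :=
        sub_eq_zero.mp ((mul_eq_zero.mp e2).resolve_right (mul_ne_zero hX0 hY0))
      have hdb : (a : ℤ) ∣ 2 * b := by
        rw [← dvd_abs, abs_mul, abs_two, ← hab]
      have h1 : (a : ℤ) ∣ ((Int.gcd (Int.gcd a (2 * b)) c : ℕ) : ℤ) :=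
        Int.dvd_coe_gcd (Int.dvd_coe_gcd dvd_rfl hdb) (hceq ▸ dvd_rfl)
      rw [hg, Nat.cast_one] at h1
      have : (a : ℤ) = 1 := Int.eq_one_of_dvd_one ha'.le h1
      omega

end red

theorem red_le_of_cls {a a' : ℕ} {b b' : ℤ} (hr : IsRed n a b) (hr' : IsRed n a' b')
    (h : cls (redII hr) = cls (redII hr')) : a ≤ a' := by
  obtain ⟨x, y, hz, -, hn⟩ := exists_value_of_ideal hr.1 (red_det hr) (bezout_of_gcd hr.2.2.1)
    (K := redII hr') h.symm
  have hxy : x ≠ 0 ∨ y ≠ 0 := by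
    by_contra hc
    push Not at hc
    exact hz (by rw [hc.1, hc.2]; ext <;> simp)
  have := (red_value hr hxy).1
  rw [hn, show nrm (redII hr') = a' from nrm_rootII ..] at this
  exact_mod_cast this

theorem red_unique {a a' : ℕ} {b b' : ℤ} (hr : IsRed n a b) (hr' : IsRed n a' b')
    (h : cls (redII hr) = cls (redII hr')) : a = a' ∧ b = b' := by
  obtain rfl : a = a' := le_antisymm (red_le_of_cls hr hr' h) (red_le_of_cls hr' hr h.symm)
  refine ⟨rfl, ?_⟩
  obtain ⟨x, y, hz, hI, hn⟩ := exists_value_of_ideal hr.1 (red_det hr) (bezout_of_gcd hr.2.2.1)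
    (K := redII hr') h.symm
  rw [show nrm (redII hr') = a from nrm_rootII ..] at hn
  have hxy : x ≠ 0 ∨ y ≠ 0 := by
    by_contra hc
    push Not at hc
    exact hz (by rw [hc.1, hc.2]; ext <;> simp)
  have ha' : (0 : ℤ) < a := by exact_mod_cast hr.1
  obtain ⟨-, -, -, hb, -, htie⟩ := id hr
  obtain ⟨-, -, -, hb', -, htie'⟩ := id hr'
  have hbb : |b - b'| ≤ a ∧ |b + b'| ≤ a := by
    have h1 := abs_le.mp (le_refl |b|)
    have h2 := abs_le.mp (le_refl |b'|)
    constructor <;> rw [abs_le] <;> constructor <;> linarith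
  have hcase : ∀ d : ℤ, (a : ℤ) ∣ d → |d| ≤ a → d = 0 ∨ d = a ∨ d = -a := fun d hd hle => by
    obtain ⟨k, rfl⟩ := hd
    rw [abs_mul, abs_of_pos ha'] at hle
    have : |k| ≤ 1 := le_of_mul_le_mul_left (by linarith) ha'
    rw [abs_le] at this
    rcases (show k = 0 ∨ k = 1 ∨ k = -1 by omega) with e | e | e <;> subst e <;> simp
  rcases (red_value hr hxy).2 hn with ⟨hy, hx⟩ | ⟨hac, hx, hy⟩
  · -- the two ideals are equal
    have hgen : (⟨(a : ℤ) * x - b * y, y⟩ : Ord n) * (x : Ord n) = (a : Ord n) := by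
      rcases hx with e | e <;> subst e <;> ext <;> simp [hy]
    have he : ((conj (redII hr) * redII hr' : II n) : Ideal (Ord n)) = span {(a : Ord n)} := by
      rw [show conj (redII hr) * redII hr' = _ from hI, coe_prin, ← hgen]
      refine (span_singleton_eq_span_singleton.mpr (associated_mul_unit_right _ _ ?_))
      rcases hx with e | e <;> subst e <;> simp
    have heq : (redII hr' : Ideal (Ord n)) = redII hr := by
      refine mul_left_cancel_II (P := conj (redII hr)) ?_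
      rw [← Submonoid.coe_mul, he, coe_conj, mul_comm, mul_conj,
        show nrm (redII hr) = a from nrm_rootII ..]
    have hs : (⟨b', 1⟩ : Ord n) ∈ (redII hr' : Ideal (Ord n)) :=
      (mem_rootII ..).mpr (by simp)
    rw [heq] at hs
    have hd : (a : ℤ) ∣ b' - b := by simpa using (mem_rootII ..).mp hs
    rcases hcase _ hd (by rw [abs_sub_comm]; exact hbb.1) with e | e | e
    · omega
    · have hb2 : 2 * |b| = a ∧ b < 0 := by
        rcases abs_cases b with hh | hh <;> rcases abs_cases b' with hh' | hh' <;> omega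
      have := htie (Or.inl hb2.1)
      omega
    · have hb2 : 2 * |b'| = a ∧ b' < 0 := by
        rcases abs_cases b with hh | hh <;> rcases abs_cases b' with hh' | hh' <;> omega
      have := htie' (Or.inl hb2.1)
      omega
  · -- `a = c`: the second ideal would be the conjugate
    subst hx
    have hc : (b ^ 2 + (n : ℤ)) / a = (a : ℕ) := by
      rw [← hac, Int.mul_ediv_cancel_left _ ha'.ne']
    have hbb' : 0 ≤ b := htie (Or.inr hac)
    have hK : (a : Ord n) * ⟨b', 1⟩ ∈ span {(⟨(a : ℤ) * 0 - b * y, y⟩ : Ord n)} := by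
      have he : ((conj (redII hr) * redII hr' : II n) : Ideal (Ord n)) =
          span {(⟨(a : ℤ) * 0 - b * y, y⟩ : Ord n)} := by
        rw [show conj (redII hr) * redII hr' = _ from hI, coe_prin]
      rw [← he, Submonoid.coe_mul]
      refine mul_mem_mul ?_ ((mem_rootII ..).mpr (by simp))
      rw [coe_conj, mem_conjI_iff, star_natCast]
      exact (mem_rootII ..).mpr (by simp)
    have hd : (a : ℤ) ∣ b + b' := by
      rw [mem_span_singleton] at hK
      obtain ⟨w, hw⟩ := hK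
      have h1 := congrArg Zsqrtd.re hw
      have h2 := congrArg Zsqrtd.im hw
      simp only [Zsqrtd.re_mul, Zsqrtd.im_mul, Zsqrtd.re_natCast, Zsqrtd.im_natCast] at h1 h2
      exact ⟨-(y * w.im), mul_left_cancel₀ ha'.ne' (by
        linear_combination h1 + b * h2 + y * w.im * hac)⟩
    rcases hcase _ hd hbb.2 with e | e | e
    · have h0 : 0 ≤ b' := htie' (Or.inr (by rw [show b' = -b by linarith, neg_sq]; exact hac))
      omega
    · rcases abs_cases b with hh | hh <;> rcases abs_cases b' with hh' | hh' <;> omega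
    · rcases abs_cases b with hh | hh <;> rcases abs_cases b' with hh' | hh' <;> omega

theorem exists_red (g : Cl n) : ∃ (a : ℕ) (b : ℤ) (hr : IsRed n a b), cls (redII hr) = g := by
  classical
  have hex : ∃ k, ∃ K : II n, nrm K = k ∧ cls K = g := by
    obtain ⟨K, hK⟩ := cls_surjective g
    exact ⟨_, K, rfl, hK⟩
  obtain ⟨J, hJn, rfl⟩ := Nat.find_spec hex
  have hmin : ∀ K : II n, cls K = cls J → nrm J ≤ nrm K := fun K hK => by
    rw [hJn]; exact Nat.find_min' hex ⟨K, rfl, hK⟩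
  obtain ⟨b₀, c₀, h₀, hp₀, hJ⟩ := exists_rootII_of_min J fun K hK _ => hmin K hK
  set a := nrm J
  have ha : 0 < a := nrm_pos J
  have ha' : (0 : ℤ) < a := by exact_mod_cast ha
  obtain ⟨b, hb2, hb3⟩ : ∃ b : ℤ, (a : ℤ) ∣ b₀ - b ∧ (-(a : ℤ) < 2 * b ∧ 2 * b ≤ a) := by
    have hm := Int.emod_nonneg b₀ ha'.ne'
    have hl := Int.emod_lt_of_pos b₀ ha'
    have hdm : (a : ℤ) ∣ b₀ - b₀ % a :=
      ⟨b₀ / a, by rw [Int.emod_def]; ring⟩
    by_cases hle : 2 * (b₀ % a) ≤ a
    · exact ⟨_, hdm, by omega, hle⟩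
    · refine ⟨b₀ % a - a, ?_, by omega, by omega⟩
      rw [show b₀ - (b₀ % a - a) = b₀ - b₀ % a + a by ring]
      exact dvd_add hdm dvd_rfl
  have hdvd : (a : ℤ) ∣ b ^ 2 + n := by
    obtain ⟨k, hk⟩ := hb2
    exact ⟨c₀ - k * (b₀ + b), by linear_combination -h₀ - (b₀ + b) * hk⟩
  set c := (b ^ 2 + (n : ℤ)) / a with hcdef
  have hc : (a : ℤ) * c = b ^ 2 + n := Int.mul_ediv_cancel' hdvd
  have hdet : (a : ℤ) * c - b ^ 2 = n := by rw [hc]; ring
  have hp : ∃ u v w : ℤ, u * a + v * c + w * (2 * b) = 1 := by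
    obtain ⟨k, hk⟩ := hb2
    obtain ⟨u, v, w, e⟩ := hp₀
    have hc0 : c₀ = c + 2 * b * k + a * k ^ 2 := by
      refine mul_left_cancel₀ ha'.ne' ?_
      linear_combination h₀ - hdet + (b₀ + b + a * k) * hk
    refine ⟨u + v * k ^ 2 + 2 * w * k, v, w + v * k, ?_⟩
    linear_combination e - v * hc0 - 2 * w * hk
  have hJ' : J = rootII a b c ha hdet hp :=
    hJ.trans (rootII_congr (n := n) ha h₀ hp₀ hdet hp hb2)
  have hac : (a : ℤ) * a ≤ b ^ 2 + n := by
    obtain ⟨K, hK, hKn⟩ := exists_ideal_of_value ha hdet hp 0 1 (Or.inr one_ne_zero)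
    have := hmin K (by rw [hK, ← hJ'])
    have h2 : (a : ℤ) ≤ c := by
      have : (a : ℤ) ≤ (nrm K : ℤ) := by exact_mod_cast this
      rw [hKn] at this
      linarith
    rw [← hc]
    exact mul_le_mul_of_nonneg_left h2 ha'.le
  have habs : 2 * |b| ≤ (a : ℤ) := by rcases abs_cases b with hh | hh <;> omega
  by_cases htie : (a : ℤ) * a = b ^ 2 + n ∧ b < 0
  · obtain ⟨htie, hneg⟩ := htie
    have hca : ((a : ℕ) : ℤ) = c := mul_left_cancel₀ ha'.ne' (htie.trans hc.symm)
    have hdet' : (a : ℤ) * (a : ℤ) - b ^ 2 = n := by rw [htie]; ring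
    have hp' : ∃ u v w : ℤ, u * (a : ℤ) + v * (a : ℤ) + w * (2 * b) = 1 := by
      rw [← hca] at hp; exact hp
    have hsw := cls_rootII_swap (n := n) ha hdet hp (c' := a) ha hca hdet' hp'
    have hr : IsRed n a (-b) := by
      refine ⟨ha, by rwa [neg_sq], ?_, by rwa [abs_neg], by rwa [neg_sq], fun _ => by omega⟩
      rw [neg_sq, ← hcdef]
      obtain ⟨u, v, w, e⟩ := hp
      exact gcd_of_bezout ⟨u, v, -w, by linear_combination e⟩
    refine ⟨a, -b, hr, ?_⟩
    rw [← inv_inj, ← cls_conj, show redII hr = _ from rfl, redII, conj_rootII,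
      rootII_congr (n := n) ha _ _ hdet' hp' (by simp), hsw, ← hJ']
  · have hr : IsRed n a b := by
      refine ⟨ha, hdvd, gcd_of_bezout hp, habs, hac, ?_⟩
      rintro (e | e)
      · rcases abs_cases b with hh | hh <;> omega
      · by_contra hneg
        exact htie ⟨e, by omega⟩
    exact ⟨a, b, hr, by rw [hJ']; rfl⟩

omit [NeZero n] in
theorem mem_redSet {M : ℕ} (hM : 4 * n < 3 * (M + 1) ^ 2) {a : ℕ} {b : ℤ} (hr : IsRed n a b) :
    (a, b) ∈ redSet n M := by
  obtain ⟨-, -, -, hb, hac, -⟩ := id hr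
  have h4 : 3 * ((a : ℤ) * a) ≤ 4 * n := by nlinarith [sq_abs b, abs_nonneg b]
  have hM' : 4 * (n : ℤ) < 3 * ((M : ℤ) + 1) ^ 2 := by exact_mod_cast hM
  have haM : (a : ℤ) ≤ M := by
    by_contra hc
    push Not at hc
    nlinarith
  simp only [redSet, Finset.mem_filter, Finset.mem_product, Finset.mem_range, Finset.mem_Icc]
  refine ⟨⟨by omega, ?_⟩, hr⟩
  rcases abs_cases b with hh | hh <;> omega

/-- Reduced forms and classes correspond. -/
theorem redSet_bijective {M : ℕ} (hM : 4 * n < 3 * (M + 1) ^ 2) :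
    Function.Bijective fun t : redSet n M => cls (redII (Finset.mem_filter.mp t.2).2) := by
  refine ⟨fun t t' h => ?_, fun g => ?_⟩
  · obtain ⟨h1, h2⟩ := red_unique _ _ h
    exact Subtype.ext (Prod.ext h1 h2)
  · obtain ⟨a, b, hr, rfl⟩ := exists_red g
    exact ⟨⟨(a, b), mem_redSet hM hr⟩, rfl⟩

/-- **The class number is the number of reduced primitive forms.** -/
theorem card_cl_eq_redSet (M : ℕ) (hM : 4 * n < 3 * (M + 1) ^ 2) :
    Nat.card (Cl n) = (redSet n M).card := by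
  rw [← Nat.card_eq_finsetCard]
  exact (Nat.card_congr (Equiv.ofBijective _ (redSet_bijective hM))).symm

theorem card_cl_examples :
    Nat.card (Cl 1) = 1 ∧ Nat.card (Cl 5) = 2 ∧ Nat.card (Cl 14) = 4 ∧ Nat.card (Cl 27) = 3 := by
  refine ⟨?_, ?_, ?_, ?_⟩
  · rw [card_cl_eq_redSet 1 (by norm_num)]; decide +kernel
  · rw [card_cl_eq_redSet 2 (by norm_num)]; decide +kernel
  · rw [card_cl_eq_redSet 4 (by norm_num)]; decide +kernel
  · rw [card_cl_eq_redSet 6 (by norm_num)]; decide +kernel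

end FA.OrderTheta
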