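import Fermat.Agent.ThetaOne.OrderForm
import Fermat.Agent.Twists.KroneckerChar
import Fermat.Agent.ThetaOne.OrderPoints
import Fermat.Agent.ThetaOne.OrderReduced
import Mathlib.NumberTheory.LSeries.DirichletContinuation
import Mathlib.NumberTheory.LSeries.SumCoeff
import Mathlib.NumberTheory.LSeries.Convolution

/-!
# Dirichlet's mass formula and class number formula for `ℤ[√-n]`

For `m` prime to `4n` the classes represent `m` in all `2 ∑_{d ∣ m} χ(d)` times, `χ = (-n / ·)`.
Counting the lattice points of the forms gives `L(1, χ) = π h / (2 √n)`.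
-/

set_option autoImplicit false

noncomputable section

open Filter Topology Finset
open scoped Real LSeries.notation

namespace FA.OrderTheta

open FA.Theta

variable {n : ℕ} [NeZero n]

theorem signChar_ne_one : signChar n ≠ 1 := by
  intro h
  have hn := NeZero.pos n
  have : NeZero (4 * n) := ⟨by omega⟩
  set m := 4 * n - 1 with hm
  have hcop : m.Coprime (4 * n) := by
    rw [show 4 * n = m + 1 by omega]
    exact Nat.coprime_self_add_right.mpr (Nat.coprime_one_right m)
  have h1 : signChar n (m : ZMod (4 * n)) = 1 := by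
    rw [h, MulChar.one_apply ((ZMod.isUnit_iff_coprime _ _).mpr hcop)]
  rw [signChar, FA.Twists.twistChar_natCast _ hcop] at h1
  have hodd : Odd m := Nat.odd_iff.mpr (by omega)
  have h2 : jacobiSym (-(n : ℤ)) m = -1 := by
    have e4 : Int.gcd 2 m = 1 := by
      show Nat.gcd 2 m = 1
      exact (Nat.coprime_two_left.mpr hodd).gcd_eq_one
    calc jacobiSym (-(n : ℤ)) m = jacobiSym (2 ^ 2 * -(n : ℤ)) m := by
          rw [jacobiSym.mul_left, jacobiSym.sq_one' e4, one_mul]
      _ = jacobiSym (-1) m := jacobiSym.mod_left' (Int.modEq_iff_dvd.mpr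
          ⟨1, by have : (m : ℤ) = 4 * n - 1 := by omega
                 linarith⟩)
      _ = -1 := by rw [jacobiSym.at_neg_one hodd, ZMod.χ₄_nat_three_mod_four (by omega)]
  rw [h2] at h1
  norm_num at h1

/-- `∑_{d ∣ m} χ(d)`. -/
def charSum (n : ℕ) [NeZero n] (m : ℕ) : ℂ := ∑ d ∈ m.divisors, signChar n (d : ZMod (4 * n))

theorem charSum_prime_mul {l : ℕ} (hl : l.Prime) {m : ℕ} (hm : m ≠ 0) :
    charSum n (l * m) + signChar n (l : ZMod (4 * n)) * (if l ∣ m then charSum n (m / l) else 0) =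
      (1 + signChar n (l : ZMod (4 * n))) * charSum n m := by
  classical
  set χ := fun d : ℕ => signChar n (d : ZMod (4 * n))
  have hmul : ∀ k, k ≠ 0 → ∑ d ∈ ((l * k).divisors.filter (l ∣ ·)), χ d = χ l * charSum n k := by
    intro k hk
    rw [charSum, Finset.mul_sum]
    refine (Finset.sum_nbij (fun e => l * e) ?_ ?_ ?_ ?_).symm
    · intro e he
      rw [Nat.mem_divisors] at he
      exact Finset.mem_filter.mpr ⟨Nat.mem_divisors.mpr
        ⟨mul_dvd_mul_left l he.1, mul_ne_zero hl.ne_zero hk⟩, dvd_mul_right _ _⟩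
    · exact fun e _ e' _ h => mul_left_cancel₀ hl.ne_zero h
    · intro d hd
      obtain ⟨hd1, e, rfl⟩ := Finset.mem_filter.mp hd
      exact ⟨e, Nat.mem_divisors.mpr
        ⟨Nat.dvd_of_mul_dvd_mul_left hl.pos (Nat.dvd_of_mem_divisors hd1), hk⟩, rfl⟩
    · intro e _
      simp only [χ, Nat.cast_mul, map_mul]
  have hnot : (l * m).divisors.filter (fun d => ¬ l ∣ d) = m.divisors.filter (fun d => ¬ l ∣ d) := by
    ext d
    simp only [Finset.mem_filter, Nat.mem_divisors]
    refine ⟨fun ⟨⟨h1, _⟩, h2⟩ => ⟨⟨?_, hm⟩, h2⟩,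
      fun ⟨⟨h1, _⟩, h2⟩ => ⟨⟨h1.mul_left l, mul_ne_zero hl.ne_zero hm⟩, h2⟩⟩
    exact ((hl.coprime_iff_not_dvd.mpr h2).symm).dvd_of_dvd_mul_left h1
  have e1 : charSum n (l * m) =
      ∑ d ∈ (l * m).divisors.filter (l ∣ ·), χ d + ∑ d ∈ m.divisors.filter (fun d => ¬ l ∣ d), χ d := by
    rw [← hnot, Finset.sum_filter_add_sum_filter_not]; rfl
  have e2 : charSum n m =
      ∑ d ∈ m.divisors.filter (l ∣ ·), χ d + ∑ d ∈ m.divisors.filter (fun d => ¬ l ∣ d), χ d := by
    rw [Finset.sum_filter_add_sum_filter_not]; rfl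
  rw [e1, hmul m hm]
  split_ifs with hd
  · obtain ⟨k, rfl⟩ := hd
    rw [Nat.mul_div_cancel_left _ hl.pos]
    rw [hmul k (right_ne_zero_of_mul hm)] at e2
    linear_combination -e2
  · rw [Finset.filter_eq_empty_iff.mpr fun d hd' (h : l ∣ d) =>
      hd (h.trans (Nat.dvd_of_mem_divisors hd')), Finset.sum_empty, zero_add] at e2
    linear_combination -e2

variable [Fintype (Cl n)]

/-- **Dirichlet's mass formula.** -/
theorem coef_one_eq_charSum (hn : 1 < n) {m : ℕ} (hm : m.Coprime (4 * n)) :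
    coef (1 : Cl n →* ℂˣ) m = charSum n m := by
  induction m using Nat.strong_induction_on with
  | _ m ih =>
    have hm0 : m ≠ 0 := fun e => by
      rw [e, Nat.coprime_zero_left] at hm
      omega
    by_cases h1 : m = 1
    · rw [h1, coef_one hn]
      simp [charSum]
    obtain ⟨l, hl, m', rfl⟩ := Nat.exists_prime_and_dvd h1
    have hlN : ¬ l ∣ 4 * n := hl.coprime_iff_not_dvd.mp hm.coprime_mul_right
    have hm' : m' ≠ 0 := right_ne_zero_of_mul hm0
    have hcm : m'.Coprime (4 * n) := hm.coprime_mul_left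
    have hlt : m' < l * m' := lt_mul_of_one_lt_left (Nat.pos_of_ne_zero hm') hl.one_lt
    have hA := coef_hecke hn (1 : Cl n →* ℂˣ) hl hlN m'
    have hl1 : coef (1 : Cl n →* ℂˣ) l = 1 + signChar n (l : ZMod (4 * n)) := by
      rcases signChar_prime hl hlN with ⟨hsq, hε⟩ | ⟨hno, hε⟩
      · obtain ⟨P, hP⟩ := (exists_nrm_iff hl (not_dvd_two_mul hlN)).mpr hsq
        rw [coef_prime_split hn _ hl hlN hP, hε]
        simp
      · rw [coef_prime_inert _ hl hno, hε]; ring
    have hdiv : (if l ∣ m' then coef (1 : Cl n →* ℂˣ) (m' / l) else 0) =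
        if l ∣ m' then charSum n (m' / l) else 0 := by
      split_ifs with hd
      · exact ih _ (lt_of_le_of_lt (Nat.div_le_self _ _) hlt)
          (hcm.coprime_dvd_left (Nat.div_dvd_of_dvd hd))
      · rfl
    rw [hl1, ih m' hlt hcm, hdiv] at hA
    linear_combination hA - charSum_prime_mul (n := n) hl hm'

omit [Fintype (Cl n)] in
theorem cnt_rootII {a : ℕ} {b c : ℤ} (ha : 0 < a) (h : (a : ℤ) * c - b ^ 2 = n)
    (hp : ∃ u v w : ℤ, u * a + v * c + w * (2 * b) = 1) (k : ℕ) :
    cnt (rootII a b c ha h hp) k =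
      {v : ℤ × ℤ | (a : ℤ) * v.1 ^ 2 + 2 * b * v.1 * v.2 + c * v.2 ^ 2 = (k : ℤ)}.ncard := by
  have ha' : (a : ℤ) ≠ 0 := by exact_mod_cast ha.ne'
  set φ : ℤ × ℤ → Ord n := fun v => ⟨(a : ℤ) * v.1 + b * v.2, v.2⟩
  have hφ : Function.Injective φ := fun v v' e => by
    have h1 : (φ v).re = (φ v').re := congrArg Zsqrtd.re e
    have h2 : v.2 = v'.2 := (congrArg Zsqrtd.im e : (φ v).im = (φ v').im)
    simp only [φ, h2, add_left_inj] at h1
    exact Prod.ext (mul_left_cancel₀ ha' h1) h2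
  rw [cnt, ← Set.ncard_image_of_injective _ hφ]
  congr 1
  ext x
  simp only [cntSet, Set.mem_ofPred_eq, Set.mem_image, mem_rootII ha h hp, nrm_rootII ha h hp]
  constructor
  · rintro ⟨⟨u, hu⟩, hn⟩
    have e : φ (u, x.im) = x := Zsqrtd.ext (by simp only [φ]; linarith) rfl
    refine ⟨(u, x.im), mul_left_cancel₀ ha' ?_, e⟩
    rw [← e, norm_root_elem h] at hn
    linear_combination hn
  · rintro ⟨v, hv, rfl⟩
    refine ⟨⟨v.1, by simp [φ]⟩, ?_⟩
    rw [norm_root_elem h, hv]
    ring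

omit [Fintype (Cl n)] in
/-- Every class contains an ideal `(a, b + √-n)` with `a` prime to a given number. -/
theorem exists_rootII_coprime (g : Cl n) {N : ℕ} (hN : N ≠ 0) :
    ∃ (a : ℕ) (b c : ℤ) (ha : 0 < a) (h : (a : ℤ) * c - b ^ 2 = n)
      (hp : ∃ u v w : ℤ, u * a + v * c + w * (2 * b) = 1),
      a.Coprime N ∧ cls (rootII a b c ha h hp) = g := by
  classical
  have hex : ∃ k, ∃ K : II n, nrm K = k ∧ k.Coprime N ∧ cls K = g := by
    obtain ⟨K, hK, hKg⟩ := exists_coprime_rep g hN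
    exact ⟨_, K, rfl, hK, hKg⟩
  obtain ⟨J, hJn, hJc, rfl⟩ := Nat.find_spec hex
  obtain ⟨b, c, h, hp, hJ⟩ := exists_rootII_of_min J fun K hK hd => by
    rw [hJn]
    exact Nat.find_min' hex ⟨K, rfl, (hJn ▸ hJc).coprime_dvd_left hd, hK⟩
  exact ⟨nrm J, b, c, nrm_pos J, h, hp, hJn ▸ hJc, by rw [← hJ]⟩

omit [Fintype (Cl n)] in
/-- The average number of representations by one class. -/
theorem tendsto_sum_cnt (g : Cl n) :
    Tendsto (fun X : ℕ => (∑ k ∈ Icc 1 X, if k.Coprime (4 * n) then (cnt (rep g) k : ℝ) else 0) / X)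
      atTop (𝓝 (π / Real.sqrt n * ∏ p ∈ (4 * n).primeFactors, (1 - (p : ℝ)⁻¹))) := by
  classical
  obtain ⟨a, b, c, ha, h, hp, hcop, hg⟩ := exists_rootII_coprime g
    (N := 4 * n) (mul_ne_zero four_ne_zero (NeZero.ne n))
  let Q : BQF n := ⟨a, b, c, by exact_mod_cast ha, h, NeZero.pos n⟩
  have hQv : ∀ v : ℤ × ℤ, Q.val v = (a : ℤ) * v.1 ^ 2 + 2 * b * v.1 * v.2 + c * v.2 ^ 2 := fun v => by
    simp [BQF.val, Q]
  refine (tendsto_card_coprime Q (Nat.isCoprime_iff_coprime.mpr hcop)).congr fun X => ?_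
  congr 1
  have hcnt : ∀ k, cnt (rep g) k = {v : ℤ × ℤ | Q.val v = (k : ℤ)}.ncard := fun k => by
    rw [cnt_congr (J := rootII a b c ha h hp) (by rw [cls_rep, hg]) k, cnt_rootII]
    simp only [hQv]
  simp only [hcnt]
  set S := (finite_val_le Q X).toFinset.filter fun v => (Q.val v).natAbs.Coprime (4 * n) with hS
  have hcard : {v : ℤ × ℤ | Q.val v ≤ (X : ℤ) ∧ (Q.val v).natAbs.Coprime (4 * n)}.ncard = S.card := by
    rw [← Set.ncard_coe_finset]; congr 1; ext v; simp [hS]
  have hmaps : ∀ v ∈ S, (Q.val v).natAbs ∈ Icc 1 X := fun v hv => by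
    obtain ⟨hv, hc⟩ := Finset.mem_filter.mp hv
    rw [Set.Finite.mem_toFinset, Set.mem_ofPred_eq] at hv
    have := val_nonneg Q v
    refine Finset.mem_Icc.mpr ⟨Nat.one_le_iff_ne_zero.mpr fun e => ?_, by omega⟩
    rw [e, Nat.coprime_zero_left] at hc
    have := NeZero.pos n
    omega
  rw [hcard, Finset.card_eq_sum_card_fiberwise hmaps, Nat.cast_sum]
  refine Finset.sum_congr rfl fun k hk => ?_
  rw [Finset.mem_Icc] at hk
  split_ifs with hc
  · rw [← Set.ncard_coe_finset]
    congr 2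
    ext v
    have := val_nonneg Q v
    simp only [hS, Finset.coe_filter, Finset.mem_filter, Set.Finite.mem_toFinset, Set.mem_ofPred_eq]
    refine ⟨fun ⟨_, e⟩ => by omega, fun e => ⟨⟨by omega, ?_⟩, by omega⟩⟩
    rwa [show (Q.val v).natAbs = k by omega]
  · rw [Finset.filter_eq_empty_iff.mpr fun v hv (e : (Q.val v).natAbs = k) =>
      hc (e ▸ (Finset.mem_filter.mp hv).2), Finset.card_empty, Nat.cast_zero]

omit [Fintype (Cl n)] in
/-- **Dirichlet's class number formula for `ℤ[√-n]`.** -/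
theorem lFunction_one_eq (hn : 1 < n) :
    haveI : NeZero (4 * n) := ⟨mul_ne_zero four_ne_zero (NeZero.ne n)⟩
    DirichletCharacter.LFunction (signChar n) 1 =
      ((π * Nat.card (Cl n) / (2 * Real.sqrt n) : ℝ) : ℂ) := by
  classical
  have : NeZero (4 * n) := ⟨mul_ne_zero four_ne_zero (NeZero.ne n)⟩
  have := finite_cl (N := n)
  let _ : Fintype (Cl n) := Fintype.ofFinite _
  set P : ℝ := ∏ p ∈ (4 * n).primeFactors, (1 - (p : ℝ)⁻¹)
  set f : ℕ → ℂ := ↗(1 : DirichletCharacter ℂ (4 * n)) ⍟ ↗(signChar n) with hf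
  -- the coefficients are the numbers of representations
  have hcoef : ∀ k : ℕ, k ≠ 0 → f k = ((1 / 2 * ∑ g : Cl n,
      if k.Coprime (4 * n) then (cnt (rep g) k : ℝ) else 0 : ℝ) : ℂ) := by
    intro k hk
    rw [hf, LSeries.convolution_def]
    beta_reduce
    split_ifs with hc
    · have e : ((1 / 2 * ∑ g : Cl n, (cnt (rep g) k : ℝ) : ℝ) : ℂ) = coef (1 : Cl n →* ℂˣ) k := by
        simp [coef]
      rw [e, coef_one_eq_charSum hn hc, charSum,
        Nat.sum_divisorsAntidiagonal' (fun d e : ℕ =>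
          (1 : DirichletCharacter ℂ (4 * n)) (d : ZMod (4 * n)) * signChar n (e : ZMod (4 * n)))]
      refine Finset.sum_congr rfl fun d hd => ?_
      rw [MulChar.one_apply ((ZMod.isUnit_iff_coprime _ _).mpr (hc.coprime_dvd_left
        (Nat.div_dvd_of_dvd (Nat.dvd_of_mem_divisors hd)))), one_mul]
    · refine (Finset.sum_eq_zero fun x hx => ?_).trans (by simp)
      obtain ⟨hx, -⟩ := Nat.mem_divisorsAntidiagonal.mp hx
      by_cases h1 : x.1.Coprime (4 * n)
      · have h2 : ¬ x.2.Coprime (4 * n) := fun h2 => hc (hx ▸ Nat.Coprime.mul_left h1 h2)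
        rw [MulChar.map_nonunit (signChar n) (mt (ZMod.isUnit_iff_coprime _ _).mp h2), mul_zero]
      · rw [MulChar.map_nonunit (1 : DirichletCharacter ℂ (4 * n))
          (mt (ZMod.isUnit_iff_coprime _ _).mp h1), zero_mul]
  -- their average
  have hlim : Tendsto (fun X : ℕ => (∑ k ∈ Icc 1 X, f k) / X) atTop
      (𝓝 ((Nat.card (Cl n) * (π / (2 * Real.sqrt n)) * P : ℝ) : ℂ)) := by
    have hR := (tendsto_finsetSum (Finset.univ : Finset (Cl n))
      fun g _ => tendsto_sum_cnt (n := n) g).const_mul (1 / 2 : ℝ)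
    rw [Finset.sum_const, Finset.card_univ, ← Nat.card_eq_fintype_card, nsmul_eq_mul] at hR
    rw [show (Nat.card (Cl n) : ℝ) * (π / (2 * Real.sqrt n)) * P =
      1 / 2 * ((Nat.card (Cl n) : ℝ) * (π / Real.sqrt n * P)) by ring]
    refine ((Complex.continuous_ofReal.tendsto _).comp hR).congr fun X => ?_
    rw [Function.comp_apply, Finset.sum_congr rfl fun k hk => hcoef k (by
      rw [Finset.mem_Icc] at hk; omega), ← Complex.ofReal_sum, ← Complex.ofReal_natCast,
      ← Complex.ofReal_div]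
    congr 1
    rw [← Finset.sum_div, ← Finset.mul_sum, Finset.sum_comm, mul_div_assoc]
  have hsum : ∀ s : ℝ, 1 < s → LSeriesSummable f s := fun s hs => by
    have hs' : 1 < (s : ℂ).re := by simpa using hs
    exact LSeriesSummable.convolution (ZMod.LSeriesSummable_of_one_lt_re _ hs')
      (ZMod.LSeriesSummable_of_one_lt_re _ hs')
  have hres := LSeries_tendsto_sub_mul_nhds_one_of_tendsto_sum_div hlim hsum
  have hcast : Tendsto (fun s : ℝ => (s : ℂ)) (𝓝[>] 1) (𝓝[≠] (1 : ℂ)) := by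
    refine tendsto_nhdsWithin_iff.mpr ⟨?_, eventually_nhdsWithin_of_forall fun s hs => ?_⟩
    · exact (Complex.continuous_ofReal.tendsto' 1 1 (by simp)).mono_left nhdsWithin_le_nhds
    · simp only [Set.mem_compl_iff, Set.mem_singleton_iff, Complex.ofReal_eq_one]
      exact ne_of_gt hs
  have hprod : Tendsto (fun s : ℝ => ((s : ℂ) - 1) * LSeries f s) (𝓝[>] 1)
      (𝓝 ((∏ p ∈ (4 * n).primeFactors, (1 - (p : ℂ)⁻¹)) *
        DirichletCharacter.LFunction (signChar n) 1)) := by
    refine (((DirichletCharacter.LFunctionTrivChar_residue_one (N := 4 * n)).comp hcast).mul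
      (((DirichletCharacter.differentiable_LFunction signChar_ne_one).continuous.tendsto 1).comp
        (hcast.mono_right nhdsWithin_le_nhds))).congr'
      (eventually_nhdsWithin_of_forall fun s hs => ?_)
    have hs' : 1 < (s : ℂ).re := by simpa using hs
    simp only [Function.comp_apply]
    rw [hf, LSeries_convolution' (ZMod.LSeriesSummable_of_one_lt_re _ hs')
      (ZMod.LSeriesSummable_of_one_lt_re _ hs'), DirichletCharacter.LFunctionTrivChar,
      DirichletCharacter.LFunction_eq_LSeries _ hs', DirichletCharacter.LFunction_eq_LSeries _ hs']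
    ring
  have huniq := tendsto_nhds_unique hprod hres
  have hP : (∏ p ∈ (4 * n).primeFactors, (1 - (p : ℂ)⁻¹)) = ((P : ℝ) : ℂ) := by
    simp [P]
  have hP0 : ((P : ℝ) : ℂ) ≠ 0 := by
    rw [Ne, Complex.ofReal_eq_zero, Finset.prod_eq_zero_iff]
    rintro ⟨p, hp, e⟩
    have h2 := (Nat.prime_of_mem_primeFactors hp).two_le
    rw [sub_eq_zero, eq_comm, inv_eq_one] at e
    exact absurd e (by exact_mod_cast (by omega : p ≠ 1))
  rw [hP] at huniq
  refine mul_left_cancel₀ hP0 (huniq.trans ?_)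
  push_cast
  ring

end FA.OrderTheta
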