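import Fermat.Agent.ThetaOne.SineValue
import Mathlib.NumberTheory.LSeries.DirichletContinuation
import Mathlib.NumberTheory.LSeries.Nonvanishing
import Mathlib.NumberTheory.DirichletCharacter.Orthogonality
import Mathlib.RingTheory.Polynomial.Cyclotomic.Roots
import Mathlib.FieldTheory.Minpoly.IsIntegrallyClosed
import Mathlib.Analysis.Complex.Polynomial.Basic

/-!
# Values `L(1, χ)` and cyclotomic units

* `lFunction_one_primitive`: `L(1, χ) = -(τ(χ)/N) ∑ χ⁻¹(a) log (1 - e^(-2π i a/N))`.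
* `sineLog`, `sineLog_kernel`: `c` even with sum zero and `∑ c(a) log sin(π ab/p) = 0` for all `b` is zero.
* `sineLog_galois`: one integral relation among the `log sin(π a / p)` gives all its conjugates.
-/

set_option autoImplicit false

noncomputable section

open Finset
open scoped Real ZMod

namespace FA.OrderTheta

theorem circlePoint_val {N : ℕ} [NeZero N] (j : ZMod N) :
    circlePoint ((j.val : ℝ) / N) = ZMod.stdAddChar j := by
  rw [circlePoint, ZMod.stdAddChar_apply, ZMod.toCircle_apply]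
  push_cast
  ring_nf

theorem val_div_mem_Ioo {N : ℕ} [NeZero N] {j : ZMod N} (hj : j ≠ 0) :
    (j.val : ℝ) / N ∈ Set.Ioo (0 : ℝ) 1 := by
  have hN : (0 : ℝ) < N := by exact_mod_cast NeZero.pos N
  refine ⟨div_pos ?_ hN, (div_lt_one hN).mpr (by exact_mod_cast ZMod.val_lt j)⟩
  exact_mod_cast Nat.pos_of_ne_zero ((ZMod.val_ne_zero j).mpr hj)

theorem expZeta_one_val {N : ℕ} [NeZero N] {j : ZMod N} (hj : j ≠ 0) :
    HurwitzZeta.expZeta (ZMod.toAddCircle j) 1 = -Complex.log (1 - ZMod.stdAddChar j) := by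
  rw [ZMod.toAddCircle_apply, expZeta_one (val_div_mem_Ioo hj), circlePoint_val]

/-- **`L(1, χ)` for primitive `χ`.** -/
theorem lFunction_one_primitive {N : ℕ} [NeZero N] (hN : 1 < N) {χ : DirichletCharacter ℂ N}
    (hχ : χ.IsPrimitive) (hχ' : χ⁻¹.IsPrimitive) :
    DirichletCharacter.LFunction χ 1 = -(gaussSum χ ZMod.stdAddChar / N) *
      ∑ a : ZMod N, χ⁻¹ a * Complex.log (1 - ZMod.stdAddChar (-a)) := by
  have : Fact (1 < N) := ⟨hN⟩
  have : Nontrivial (ZMod N) := inferInstance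
  set τ := gaussSum χ ZMod.stdAddChar
  set τ' := gaussSum χ⁻¹ ZMod.stdAddChar with hτ'
  have h1 : 𝓕 ((χ⁻¹ : DirichletCharacter ℂ N) : ZMod N → ℂ) = fun k => (χ (-1) * τ') * χ k := by
    funext k
    rw [hχ'.fourierTransform_eq_inv_mul_gaussSum, inv_inv, ← neg_one_mul k, map_mul]
    ring
  have h2 : τ * τ' = (N : ℂ) * χ (-1) := by
    have e : 𝓕 (χ : ZMod N → ℂ) = fun k => (τ * χ⁻¹ (-1)) * χ⁻¹ k := by
      funext k
      rw [hχ.fourierTransform_eq_inv_mul_gaussSum, ← neg_one_mul k, map_mul]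
      ring
    have h := congrFun (ZMod.dft_dft (χ : ZMod N → ℂ)) 1
    rw [e, ZMod.dft_const_mul, h1] at h
    simp only [map_one, mul_one, smul_eq_mul] at h
    have hu : χ⁻¹ (-1) * χ (-1) = 1 := by
      rw [← MulChar.mul_apply, inv_mul_cancel, MulChar.one_apply isUnit_one.neg]
    linear_combination h - τ * τ' * hu
  have hd := ZMod.LFunction_dft ((χ⁻¹ : DirichletCharacter ℂ N) : ZMod N → ℂ) (s := 1) (Or.inl (MulChar.map_zero _))
  rw [h1] at hd
  have hlin : ZMod.LFunction (fun k => (χ (-1) * τ') * χ k) 1 =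
      χ (-1) * τ' * DirichletCharacter.LFunction χ 1 := by
    simp only [DirichletCharacter.LFunction, ZMod.LFunction, Finset.mul_sum]
    exact Finset.sum_congr rfl fun j _ => by ring
  rw [hlin] at hd
  have hs : ∑ j : ZMod N, χ⁻¹ j * HurwitzZeta.expZeta (ZMod.toAddCircle (-j)) 1 =
      -∑ a : ZMod N, χ⁻¹ a * Complex.log (1 - ZMod.stdAddChar (-a)) := by
    rw [← Finset.sum_neg_distrib]
    refine Finset.sum_congr rfl fun j _ => ?_
    by_cases hj : j = 0
    · rw [hj, MulChar.map_zero]; ring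
    · rw [expZeta_one_val (neg_ne_zero.mpr hj)]; ring
  rw [hs] at hd
  have hsq : χ (-1) * χ (-1) = 1 := by rw [← map_mul, neg_mul_neg, one_mul, map_one]
  have hNC : (N : ℂ) ≠ 0 := by exact_mod_cast NeZero.ne N
  refine mul_left_cancel₀ hNC ?_
  field_simp
  linear_combination τ * hd - χ (-1) * DirichletCharacter.LFunction χ 1 * h2 -
    (N : ℂ) * DirichletCharacter.LFunction χ 1 * hsq

variable (p : ℕ) [Fact p.Prime]

theorem isPrimitive_of_ne_one {χ : DirichletCharacter ℂ p} (h : χ ≠ 1) : χ.IsPrimitive := by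
  rcases (Fact.out : p.Prime).eq_one_or_self_of_dvd _ (DirichletCharacter.conductor_dvd_level χ)
    with e | e
  · exact absurd (DirichletCharacter.eq_one_iff_conductor_eq_one.mpr e) h
  · exact e

/-- `log sin (π a / p)`. -/
def sineLog (a : ZMod p) : ℝ := Real.log (Real.sin (π * ((a.val : ℝ) / p)))

/-- `a / p - 1 / 2`, odd. -/
def sawTooth (a : ZMod p) : ℝ := if a = 0 then 0 else (a.val : ℝ) / p - 1 / 2

variable {p}

theorem val_neg_div {a : ZMod p} (ha : a ≠ 0) :
    ((-a).val : ℝ) / p = 1 - (a.val : ℝ) / p := by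
  have hp : (p : ℝ) ≠ 0 := by exact_mod_cast (Fact.out : p.Prime).ne_zero
  rw [ZMod.neg_val, if_neg ha, Nat.cast_sub (ZMod.val_lt a).le]
  field_simp

theorem sineLog_neg (a : ZMod p) : sineLog p (-a) = sineLog p a := by
  by_cases ha : a = 0
  · rw [ha, neg_zero]
  · rw [sineLog, sineLog, val_neg_div ha, mul_sub, mul_one, Real.sin_pi_sub]

theorem sawTooth_neg (a : ZMod p) : sawTooth p (-a) = -sawTooth p a := by
  by_cases ha : a = 0
  · simp [sawTooth, ha]
  · rw [sawTooth, sawTooth, if_neg ha, if_neg (neg_ne_zero.mpr ha), val_neg_div ha]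
    ring

theorem log_one_sub_stdAddChar {a : ZMod p} (ha : a ≠ 0) :
    Complex.log (1 - ZMod.stdAddChar a) =
      (Real.log 2 : ℂ) + (sineLog p a : ℂ) + ((π : ℂ) * Complex.I) * (sawTooth p a : ℂ) := by
  have h := val_div_mem_Ioo ha
  rw [← circlePoint_val, log_one_sub_circlePoint h,
    Real.log_mul two_ne_zero (sin_pi_mul_pos h).ne', sineLog, sawTooth, if_neg ha]
  push_cast
  ring

theorem sum_odd_eq_zero {f : ZMod p → ℂ} (h : ∀ a, f (-a) = -f a) : ∑ a, f a = 0 :=
  Function.Odd.sum_eq_zero h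

/-- The nonvanishing of `L(1, χ)` in finite terms. -/
theorem sum_log_ne_zero {χ : DirichletCharacter ℂ p} (hχ : χ ≠ 1) :
    ∑ a : ZMod p, χ a * (sineLog p a : ℂ) + ((π : ℂ) * Complex.I) *
      ∑ a : ZMod p, χ a * (sawTooth p a : ℂ) ≠ 0 := by
  intro h0
  have hinv : χ⁻¹ ≠ 1 := inv_ne_one.mpr hχ
  have h := lFunction_one_primitive (Fact.out : p.Prime).one_lt (isPrimitive_of_ne_one p hinv)
    (by rw [inv_inv]; exact isPrimitive_of_ne_one p hχ)
  rw [inv_inv] at h
  refine DirichletCharacter.LFunction_apply_one_ne_zero hinv (h.trans ?_)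
  have hs : ∑ a : ZMod p, χ a * Complex.log (1 - ZMod.stdAddChar (-a)) =
      χ (-1) * ∑ a : ZMod p, χ a * Complex.log (1 - ZMod.stdAddChar a) := by
    rw [Finset.mul_sum]
    refine Fintype.sum_equiv (Equiv.neg _) _ _ fun a => ?_
    rw [Equiv.neg_apply, ← mul_assoc, ← map_mul, neg_mul_neg, one_mul]
  have hterm : ∀ a : ZMod p, χ a * Complex.log (1 - ZMod.stdAddChar a) =
      (Real.log 2 : ℂ) * χ a + χ a * (sineLog p a : ℂ) +
        ((π : ℂ) * Complex.I) * (χ a * (sawTooth p a : ℂ)) := fun a => by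
    by_cases ha : a = 0
    · rw [ha, MulChar.map_zero]; ring
    · rw [log_one_sub_stdAddChar ha]; ring
  rw [hs, Finset.sum_congr rfl fun a _ => hterm a, sum_add_distrib, sum_add_distrib, ← mul_sum,
    ← mul_sum, MulChar.sum_eq_zero_of_ne_one hχ, mul_zero, zero_add, h0]
  ring

theorem sum_sawTooth_ne_zero {χ : DirichletCharacter ℂ p} (hχ : χ.Odd) :
    ∑ a : ZMod p, χ a * (sawTooth p a : ℂ) ≠ 0 := by
  have hne : χ ≠ 1 := fun e => by
    have h : χ (-1) = -1 := hχ
    rw [e, MulChar.one_apply isUnit_one.neg] at h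
    norm_num at h
  intro h0
  refine sum_log_ne_zero hne ?_
  rw [h0, mul_zero, add_zero]
  refine sum_odd_eq_zero fun a => ?_
  rw [sineLog_neg, hχ.eval_neg, neg_mul]

theorem sum_sineLog_ne_zero {χ : DirichletCharacter ℂ p} (hne : χ ≠ 1) (hχ : χ.Even) :
    ∑ a : ZMod p, χ a * (sineLog p a : ℂ) ≠ 0 := by
  intro h0
  refine sum_log_ne_zero hne ?_
  rw [h0, zero_add, sum_odd_eq_zero (f := fun a => χ a * (sawTooth p a : ℂ)) fun a => by
    simp only [sawTooth_neg, hχ.eval_neg]; push_cast; ring, mul_zero]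

/-- An even `c` with sum zero killed by all translates of `log sin` vanishes. -/
theorem sineLog_kernel {c : ZMod p → ℂ} (hev : ∀ a, c (-a) = c a) (h0 : c 0 = 0)
    (hsum : ∑ a, c a = 0) (h : ∀ b : ZMod p, b ≠ 0 → ∑ a, c a * (sineLog p (a * b) : ℂ) = 0) :
    c = 0 := by
  classical
  have hall : ∀ χ : DirichletCharacter ℂ p, ∑ a, c a * χ a = 0 := by
    intro χ
    by_cases hne : χ = 1
    · refine Eq.trans (Finset.sum_congr rfl fun a _ => ?_) hsum
      by_cases ha : a = 0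
      · rw [ha, h0, zero_mul]
      · rw [hne, MulChar.one_apply (Ne.isUnit ha), mul_one]
    rcases DirichletCharacter.even_or_odd χ with he | ho
    swap
    · exact sum_odd_eq_zero fun a => by rw [hev, ho.eval_neg, mul_neg]
    have hinv : χ⁻¹ ≠ 1 := inv_ne_one.mpr hne
    have heinv : (χ⁻¹).Even := by
      show χ⁻¹ (-1) = 1
      rw [MulChar.inv_apply', inv_neg_one]
      exact he
    have key : ∑ b : ZMod p, χ⁻¹ b * ∑ a, c a * (sineLog p (a * b) : ℂ) =
        (∑ a, c a * χ a) * ∑ b : ZMod p, χ⁻¹ b * (sineLog p b : ℂ) := by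
      rw [Finset.sum_mul_sum]
      simp only [Finset.mul_sum]
      rw [Finset.sum_comm]
      refine Finset.sum_congr rfl fun a _ => ?_
      by_cases ha : a = 0
      · simp [ha, h0]
      refine Fintype.sum_equiv (Equiv.mulLeft₀ a ha) _ _ fun b => ?_
      rw [Equiv.mulLeft₀_apply, map_mul]
      have e : χ a * χ⁻¹ a = 1 := by
        rw [← MulChar.mul_apply, mul_inv_cancel, MulChar.one_apply (Ne.isUnit ha)]
      linear_combination (-(χ⁻¹ b * c a * (sineLog p (a * b) : ℂ))) * e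
    have hz : ∑ b : ZMod p, χ⁻¹ b * ∑ a, c a * (sineLog p (a * b) : ℂ) = 0 := by
      refine Finset.sum_eq_zero fun b _ => ?_
      by_cases hb : b = 0
      · rw [hb, MulChar.map_zero, zero_mul]
      · rw [h b hb, mul_zero]
    rw [hz] at key
    exact (mul_eq_zero.mp key.symm).resolve_right (sum_sineLog_ne_zero hinv heinv)
  funext b
  by_cases hb : b = 0
  · rw [hb, h0]; rfl
  have h1 : ∑ χ : DirichletCharacter ℂ p, χ b⁻¹ * ∑ a, c a * χ a = (p.totient : ℂ) * c b := by
    simp only [Finset.mul_sum]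
    rw [Finset.sum_comm]
    simp only [mul_left_comm _ (c _), ← Finset.mul_sum,
      DirichletCharacter.sum_char_inv_mul_char_eq ℂ (Ne.isUnit hb)]
    simp [mul_comm]
  simp only [hall, mul_zero, Finset.sum_const_zero] at h1
  exact (mul_eq_zero.mp h1.symm).resolve_left
    (by exact_mod_cast (Nat.totient_pos.mpr (Fact.out : p.Prime).pos).ne')

theorem stdAddChar_mul_val (b a : ZMod p) :
    (ZMod.stdAddChar b) ^ a.val = ZMod.stdAddChar (a * b) := by
  rw [← AddChar.map_nsmul_eq_pow, nsmul_eq_mul, ZMod.natCast_zmod_val]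

theorem norm_one_sub_stdAddChar {a : ZMod p} (ha : a ≠ 0) :
    ‖1 - ZMod.stdAddChar a‖ = 2 * Real.exp (sineLog p a) := by
  have h := val_div_mem_Ioo ha
  have hs := sin_pi_mul_pos h
  rw [← circlePoint_val, one_sub_circlePoint, norm_mul, Complex.norm_real,
    Complex.norm_exp_ofReal_mul_I, mul_one, Real.norm_of_nonneg (by linarith), sineLog,
    Real.exp_log hs]

theorem pair_one_sub_stdAddChar {a : ZMod p} (ha : a ≠ 0) :
    (1 - ZMod.stdAddChar a) * (1 - ZMod.stdAddChar (-a)) =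
      ((4 * Real.exp (2 * sineLog p a) : ℝ) : ℂ) := by
  have h := val_div_mem_Ioo ha
  have hs := sin_pi_mul_pos h
  rw [← circlePoint_val, ← circlePoint_val (-a), val_neg_div ha, one_sub_circlePoint,
    one_sub_circlePoint, mul_sub π 1, mul_one, Real.sin_pi_sub, two_mul (sineLog p a),
    Real.exp_add, sineLog, Real.exp_log hs, mul_mul_mul_comm, ← Complex.exp_add]
  rw [show ((π * ((a.val : ℝ) / p - 1 / 2) : ℝ) : ℂ) * Complex.I +
      ((π * (1 - (a.val : ℝ) / p - 1 / 2) : ℝ) : ℂ) * Complex.I = 0 by push_cast; ring,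
    Complex.exp_zero, mul_one]
  push_cast
  ring

/-- Galois conjugation of a relation. -/
theorem sineLog_galois {e : ZMod p → ℤ} (hev : ∀ a, e (-a) = e a) (h0 : e 0 = 0)
    (hsum : ∑ a, e a = 0) (hrel : ∑ a, (e a : ℝ) * sineLog p a = 0) {b : ZMod p} (hb : b ≠ 0) :
    ∑ a, (e a : ℝ) * sineLog p (a * b) = 0 := by
  classical
  set S := (univ : Finset (ZMod p)).erase 0 with hS
  set P : ℂ → (ZMod p → ℕ) → ℂ := fun z m => ∏ a ∈ S, (1 - z ^ a.val) ^ m a with hP
  set u : ZMod p → ℕ := fun a => (e a).toNat with hu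
  set v : ZMod p → ℕ := fun a => (-e a).toNat with hv
  have huv : ∀ a, ((u a : ℤ) - v a) = e a := fun a => by simp only [hu, hv]; omega
  have huvR : ∀ a, ((u a : ℝ) - v a) = (e a : ℝ) := fun a => by exact_mod_cast huv a
  have hprim : ∀ {c : ZMod p}, c ≠ 0 → IsPrimitiveRoot (ZMod.stdAddChar c : ℂ) p := by
    intro c hc
    have hpow : (ZMod.stdAddChar c : ℂ) ^ p = 1 := by
      rw [← AddChar.map_nsmul_eq_pow, nsmul_eq_mul, ZMod.natCast_self, zero_mul,
        AddChar.map_zero_eq_one]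
    have hne : (ZMod.stdAddChar c : ℂ) ≠ 1 := fun h =>
      hc (ZMod.injective_stdAddChar (h.trans (AddChar.map_zero_eq_one _).symm))
    have ho := IsPrimitiveRoot.orderOf (ZMod.stdAddChar c : ℂ)
    rwa [orderOf_eq_prime hpow hne] at ho
  have hmem : ∀ {a : ZMod p}, a ∈ S → a ≠ 0 := fun h => (mem_erase.mp h).1
  -- logarithm of the absolute values
  have hnorm : ∀ {c : ZMod p}, c ≠ 0 → ∀ m : ZMod p → ℕ, Real.log ‖P (ZMod.stdAddChar c) m‖ =
      ∑ a ∈ S, (m a : ℝ) * (Real.log 2 + sineLog p (a * c)) := by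
    intro c hc m
    simp only [hP, norm_prod, norm_pow, stdAddChar_mul_val]
    have hne : ∀ a ∈ S, ‖1 - ZMod.stdAddChar (a * c)‖ ≠ 0 := fun a ha => by
      rw [norm_one_sub_stdAddChar (mul_ne_zero (hmem ha) hc)]
      positivity
    rw [Real.log_prod fun a ha => pow_ne_zero _ (hne a ha)]
    refine Finset.sum_congr rfl fun a ha => ?_
    rw [Real.log_pow, norm_one_sub_stdAddChar (mul_ne_zero (hmem ha) hc),
      Real.log_mul two_ne_zero (Real.exp_pos _).ne', Real.log_exp]
  have hneg : ∀ {a : ZMod p}, a ∈ S → -a ∈ S := fun h =>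
    mem_erase.mpr ⟨neg_ne_zero.mpr (hmem h), mem_univ _⟩
  have hsq : ∀ m : ZMod p → ℕ, (∀ a, m (-a) = m a) → P (ZMod.stdAddChar (1 : ZMod p)) m ^ 2 =
      ((Real.exp (∑ a ∈ S, (m a : ℝ) * (Real.log 4 + 2 * sineLog p a)) : ℝ) : ℂ) := by
    intro m hm
    have hflip : P (ZMod.stdAddChar (1 : ZMod p)) m = ∏ a ∈ S, (1 - ZMod.stdAddChar (-a)) ^ m a := by
      simp only [hP, stdAddChar_mul_val, mul_one]
      refine Finset.prod_nbij' (fun a => -a) (fun a => -a) (fun a => hneg) (fun a => hneg)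
        (fun a _ => neg_neg a) (fun a _ => neg_neg a) fun a _ => ?_
      rw [neg_neg, hm]
    rw [pow_two]
    nth_rewrite 2 [hflip]
    simp only [hP, stdAddChar_mul_val, mul_one]
    rw [← prod_mul_distrib, Real.exp_sum, Complex.ofReal_prod]
    refine Finset.prod_congr rfl fun a ha => ?_
    rw [← mul_pow, pair_one_sub_stdAddChar (hmem ha), ← Complex.ofReal_pow, Real.exp_nat_mul,
      Real.exp_add, Real.exp_log (by norm_num : (0 : ℝ) < 4)]
  have hSsum : ∀ f : ZMod p → ℝ, f 0 = 0 → ∑ a ∈ S, f a = ∑ a, f a := fun f hf => by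
    rw [hS, ← Finset.sum_erase_add _ _ (mem_univ (0 : ZMod p)), hf, add_zero]
  have hR0 : ∑ a, (e a : ℝ) = 0 := by exact_mod_cast hsum
  have hsame : P (ZMod.stdAddChar (1 : ZMod p)) u ^ 2 = P (ZMod.stdAddChar (1 : ZMod p)) v ^ 2 := by
    rw [hsq u (fun a => by simp only [hu, hev]), hsq v (fun a => by simp only [hv, hev])]
    congr 2
    rw [← sub_eq_zero, ← sum_sub_distrib,
      Finset.sum_congr rfl fun a _ => show (u a : ℝ) * (Real.log 4 + 2 * sineLog p a) -
          (v a : ℝ) * (Real.log 4 + 2 * sineLog p a) =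
        (e a : ℝ) * Real.log 4 + 2 * ((e a : ℝ) * sineLog p a) by rw [← huvR]; ring,
      sum_add_distrib, ← sum_mul, ← mul_sum, hSsum _ (by simp [h0]),
      hSsum _ (by simp [h0]), hR0, hrel]
    ring
  -- transport to the conjugate root
  have hconj : P (ZMod.stdAddChar b) u ^ 2 = P (ZMod.stdAddChar b) v ^ 2 := by
    let Q : Polynomial ℤ := (∏ a ∈ S, (1 - Polynomial.X ^ a.val) ^ u a) ^ 2 -
      (∏ a ∈ S, (1 - Polynomial.X ^ a.val) ^ v a) ^ 2
    have hQ : ∀ z : ℂ, Polynomial.aeval z Q = P z u ^ 2 - P z v ^ 2 := fun z => by simp [Q, hP]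
    have hpos := (Fact.out : p.Prime).pos
    have hz := hprim (one_ne_zero (α := ZMod p))
    have hdvd : minpoly ℤ (ZMod.stdAddChar (1 : ZMod p) : ℂ) ∣ Q :=
      minpoly.isIntegrallyClosed_dvd (hz.isIntegral hpos) (by rw [hQ, hsame, sub_self])
    rw [← Polynomial.cyclotomic_eq_minpoly hz hpos,
      Polynomial.cyclotomic_eq_minpoly (hprim hb) hpos] at hdvd
    obtain ⟨R, hR⟩ := hdvd
    rw [← sub_eq_zero, ← hQ, hR, map_mul, minpoly.aeval, zero_mul]
  have h2 := congrArg (fun z : ℂ => Real.log ‖z‖) hconj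
  simp only [norm_pow, Real.log_pow, hnorm hb] at h2
  rw [← hSsum _ (by simp [h0])]
  have h3 : ∑ a ∈ S, ((e a : ℝ) * Real.log 2 + (e a : ℝ) * sineLog p (a * b)) = 0 := by
    rw [Finset.sum_congr rfl fun a _ => show (e a : ℝ) * Real.log 2 + (e a : ℝ) * sineLog p (a * b) =
        (u a : ℝ) * (Real.log 2 + sineLog p (a * b)) - (v a : ℝ) * (Real.log 2 + sineLog p (a * b)) by
      rw [← huvR]; ring, sum_sub_distrib]
    push_cast at h2
    linarith
  rw [sum_add_distrib, ← sum_mul, hSsum (fun a => (e a : ℝ)) (by simp [h0]), hR0, zero_mul,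
    zero_add] at h3
  exact h3

end FA.OrderTheta
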