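import Fermat.Agent.ThetaOne.Idoneal

/-!
# Ambiguous reduced forms and coprime factorisations

The reduced forms `(a, 2b, c)` of determinant `n` with `b = 0`, `2|b| = a` or `a = c` correspond to
the factorisations `n = u v`, `u < v`, into coprime numbers and to those with `u + v` even and
`(u + v)/2` prime to `2u`.
-/

set_option autoImplicit false

noncomputable section

namespace FA.OrderTheta

/-- The factorisations into two coprime factors, by the smaller one. -/
def coprimeSplit (n : ℕ) : Finset ℕ :=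
  n.divisors.filter fun u => u < n / u ∧ u.Coprime (n / u)

/-- The factorisations of the ambiguous forms with `b ≠ 0`. -/
def evenSplit (n : ℕ) : Finset ℕ :=
  n.divisors.filter fun u =>
    u < n / u ∧ (u + n / u) % 2 = 0 ∧ ((u + n / u) / 2).Coprime (2 * u)

theorem card_unitary {n : ℕ} (hn : n ≠ 0) :
    (n.divisors.filter fun u => u.Coprime (n / u)).card = 2 ^ n.primeFactors.card := by
  classical
  rw [← Finset.card_powerset]
  have hmem : ∀ {u}, u ∈ n.divisors.filter (fun u => u.Coprime (n / u)) →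
      u ∣ n ∧ u.Coprime (n / u) := fun {u} hu => by
    obtain ⟨hu, hc⟩ := Finset.mem_filter.mp hu
    exact ⟨(Nat.mem_divisors.mp hu).1, hc⟩
  have hsplit : ∀ s ∈ n.primeFactors.powerset,
      (∏ p ∈ s, p ^ n.factorization p) * (∏ p ∈ n.primeFactors \ s, p ^ n.factorization p) = n :=
    fun s hs => by
      rw [mul_comm, Finset.prod_sdiff (Finset.mem_powerset.mp hs)]
      exact Nat.prod_factorization_pow_eq_self hn
  refine Finset.card_nbij' (fun u => u.primeFactors) (fun s => ∏ p ∈ s, p ^ n.factorization p)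
    (fun u hu => ?_) (fun s hs => ?_) (fun u hu => ?_) fun s hs => ?_
  · exact Finset.mem_powerset.mpr (Nat.primeFactors_mono (hmem hu).1 hn)
  · refine Finset.mem_filter.mpr ⟨Nat.mem_divisors.mpr ⟨⟨_, (hsplit s hs).symm⟩, hn⟩, ?_⟩
    have hpos : 0 < ∏ p ∈ s, p ^ n.factorization p := Finset.prod_pos fun p hp =>
      pow_pos (Nat.prime_of_mem_primeFactors (Finset.mem_powerset.mp hs hp)).pos _
    rw [show n / (∏ p ∈ s, p ^ n.factorization p) =
        ∏ p ∈ n.primeFactors \ s, p ^ n.factorization p by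
      conv_lhs => arg 1; rw [← hsplit s hs]
      exact Nat.mul_div_cancel_left _ hpos]
    refine Nat.Coprime.prod_left fun p hp => Nat.Coprime.prod_right fun q hq => ?_
    obtain ⟨hq1, hq2⟩ := Finset.mem_sdiff.mp hq
    exact Nat.Coprime.pow _ _ ((Nat.coprime_primes
      (Nat.prime_of_mem_primeFactors (Finset.mem_powerset.mp hs hp))
      (Nat.prime_of_mem_primeFactors hq1)).mpr fun e => hq2 (e ▸ hp))
  · obtain ⟨⟨v, rfl⟩, hc⟩ := hmem hu
    have hu0 : u ≠ 0 := left_ne_zero_of_mul hn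
    rw [Nat.mul_div_cancel_left _ (Nat.pos_of_ne_zero hu0)] at hc
    conv_rhs => rw [← Nat.prod_factorization_pow_eq_self hu0]
    refine Finset.prod_congr rfl fun p hp => ?_
    obtain ⟨hp', hpu, -⟩ := Nat.mem_primeFactors.mp hp
    rw [Nat.factorization_mul_apply_of_coprime hc,
      Nat.factorization_eq_zero_of_not_dvd fun h => hp'.ne_one (Nat.eq_one_of_dvd_coprimes hc hpu h),
      add_zero]
  · ext q
    rw [Nat.mem_primeFactors]
    constructor
    · rintro ⟨hq, hd, -⟩
      obtain ⟨p, hp, hqp⟩ := hq.prime.exists_mem_finset_dvd hd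
      have hp' := Nat.prime_of_mem_primeFactors (Finset.mem_powerset.mp hs hp)
      rwa [(Nat.prime_dvd_prime_iff_eq hq hp').mp (hq.dvd_of_dvd_pow hqp)]
    · intro hq
      have hq' := Finset.mem_powerset.mp hs hq
      obtain ⟨hqp, hqn, -⟩ := Nat.mem_primeFactors.mp hq'
      refine ⟨hqp, (dvd_pow_self q (hqp.factorization_pos_of_dvd hn hqn).ne').trans
        (Finset.dvd_prod_of_mem _ hq), Finset.prod_ne_zero_iff.mpr fun p hp => ?_⟩
      exact pow_ne_zero _ (Nat.prime_of_mem_primeFactors (Finset.mem_powerset.mp hs hp)).ne_zero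

theorem two_mul_card_coprimeSplit {n : ℕ} (hn : 1 < n) :
    2 * (coprimeSplit n).card = 2 ^ n.primeFactors.card := by
  classical
  rw [← card_unitary (by omega : n ≠ 0), two_mul]
  have hinv : ∀ u ∈ n.divisors.filter (fun u => u.Coprime (n / u)),
      n / u ∈ n.divisors ∧ n / (n / u) = u ∧ u ≠ n / u := fun u hu => by
    obtain ⟨hu, hc⟩ := Finset.mem_filter.mp hu
    obtain ⟨hd, hn0⟩ := Nat.mem_divisors.mp hu
    refine ⟨Nat.mem_divisors.mpr ⟨Nat.div_dvd_of_dvd hd, hn0⟩, Nat.div_div_self hd hn0, fun e => ?_⟩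
    rw [← e, Nat.coprime_self] at hc
    have := Nat.div_mul_cancel hd
    rw [← e, hc] at this
    omega
  rw [← Finset.card_filter_add_card_filter_not (s := n.divisors.filter (fun u => u.Coprime (n / u)))
    (fun u => u < n / u)]
  congr 1
  · refine congrArg Finset.card ?_
    ext u
    simp only [coprimeSplit, Finset.mem_filter]
    tauto
  · refine Finset.card_nbij' (fun u => n / u) (fun u => n / u) (fun u hu => ?_) (fun u hu => ?_)
      (fun u hu => ?_) fun u hu => ?_
    · obtain ⟨h1, h2, h3⟩ := Finset.mem_filter.mp hu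
      obtain ⟨i1, i2, -⟩ := hinv u (Finset.mem_filter.mpr ⟨h1, h3⟩)
      refine Finset.mem_filter.mpr ⟨Finset.mem_filter.mpr ⟨i1, ?_⟩, ?_⟩
      · dsimp only
        rw [i2]; exact h3.symm
      · dsimp only
        rw [i2]; omega
    · obtain ⟨h12, h3⟩ := Finset.mem_filter.mp hu
      obtain ⟨i1, i2, i3⟩ := hinv u h12
      refine Finset.mem_filter.mpr ⟨i1, ?_, ?_⟩
      · dsimp only
        rw [i2]; omega
      · dsimp only
        rw [i2]; exact (Finset.mem_filter.mp h12).2.symm
    · obtain ⟨h1, h2, h3⟩ := Finset.mem_filter.mp hu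
      exact (hinv u (Finset.mem_filter.mpr ⟨h1, h3⟩)).2.1
    · exact (hinv u (Finset.mem_filter.mp hu).1).2.1

theorem evenSplit_eq_empty {n : ℕ} (h : n % 4 = 3 ∨ n % 4 = 2 ∨ n % 8 = 4) :
    evenSplit n = ∅ := by
  rw [evenSplit, Finset.filter_eq_empty_iff]
  rintro u hu ⟨-, h2, hc⟩
  have huv := Nat.mul_div_cancel' (Nat.mem_divisors.mp hu).1
  set v := n / u
  have hodd : ((u + v) / 2) % 2 = 1 := by
    rw [← Nat.odd_iff, ← Nat.coprime_two_right]
    exact hc.coprime_dvd_right (dvd_mul_right 2 u)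
  rcases Nat.even_or_odd' u with ⟨a, rfl | rfl⟩ <;> rcases Nat.even_or_odd' v with ⟨b, hb | hb⟩ <;>
    rw [hb] at huv h2 hodd <;> try omega
  · have e : n = 4 * (a * b) := by rw [← huv]; ring
    rcases h with h | h | h <;> try omega
    have : (a * b) % 2 = 1 := by omega
    rw [Nat.mul_mod] at this
    rcases Nat.mod_two_eq_zero_or_one a with ha | ha <;>
      rcases Nat.mod_two_eq_zero_or_one b with hb' | hb' <;> rw [ha, hb'] at this <;> omega
  · have e : n = 4 * (a * b) + 2 * (a + b) + 1 := by rw [← huv]; ring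
    omega

theorem evenSplit_eq_coprimeSplit {n : ℕ} (h : n % 4 = 1) : evenSplit n = coprimeSplit n := by
  refine Finset.filter_congr fun u hu => and_congr_right fun _ => ?_
  have huv := Nat.mul_div_cancel' (Nat.mem_divisors.mp hu).1
  set v := n / u
  rcases Nat.even_or_odd' u with ⟨a, rfl | rfl⟩
  · rw [mul_assoc] at huv; omega
  rcases Nat.even_or_odd' v with ⟨b, hb | hb⟩
  · rw [hb, mul_left_comm] at huv; omega
  have hsum : (a + b) % 2 = 0 := by
    have e : n = 4 * (a * b) + 2 * (a + b) + 1 := by rw [← huv, hb]; ring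
    omega
  rw [hb, show (2 * a + 1 + (2 * b + 1)) / 2 = a + b + 1 by omega]
  refine ⟨fun ⟨_, hc⟩ => Nat.coprime_of_dvd fun k hk h1 h2 => ?_, fun hc => ⟨by omega, ?_⟩⟩
  · have hk2 : ¬ k ∣ 2 := fun hd => by
      rw [(Nat.prime_dvd_prime_iff_eq hk Nat.prime_two).mp hd] at h1; omega
    have h3 : k ∣ 2 * (a + b + 1) := by
      rw [show 2 * (a + b + 1) = (2 * a + 1) + (2 * b + 1) by ring]; exact dvd_add h1 h2
    exact hk.ne_one (Nat.eq_one_of_dvd_coprimes hc ((hk.dvd_mul.mp h3).resolve_left hk2)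
      (h1.mul_left 2))
  · refine Nat.coprime_of_dvd fun k hk h1 h2 => ?_
    rcases hk.dvd_mul.mp h2 with h3 | h3
    · rw [(Nat.prime_dvd_prime_iff_eq hk Nat.prime_two).mp h3] at h1; omega
    · have h4 : k ∣ 2 * b + 1 := (Nat.dvd_add_right h3).mp (by
        rw [show 2 * a + 1 + (2 * b + 1) = 2 * (a + b + 1) by ring]; exact h1.mul_left 2)
      exact hk.ne_one (Nat.eq_one_of_dvd_coprimes hc h3 h4)

theorem card_evenSplit_eight {n : ℕ} (hn : n ≠ 0) (h : n % 8 = 0) :
    (evenSplit n).card = (coprimeSplit (n / 4)).card := by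
  obtain ⟨m, rfl⟩ : ∃ m, n = 4 * m := ⟨n / 4, by omega⟩
  rw [show 4 * m / 4 = m by omega]
  have hm : m % 2 = 0 := by omega
  have key : ∀ a b : ℕ, a * b = m → (((a + b) % 2 = 1 ∧ (a + b).Coprime a) ↔ a.Coprime b) := by
    intro a b hab
    refine ⟨fun h => (Nat.coprime_self_add_left.mp h.2).symm, fun hc => ⟨?_, ?_⟩⟩
    · rcases Nat.mod_two_eq_zero_or_one a with ha | ha <;>
        rcases Nat.mod_two_eq_zero_or_one b with hb | hb
      · exact absurd (Nat.eq_one_of_dvd_coprimes hc (Nat.dvd_of_mod_eq_zero ha)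
          (Nat.dvd_of_mod_eq_zero hb)) (by norm_num)
      · omega
      · omega
      · rw [← hab, Nat.mul_mod, ha, hb] at hm; omega
    · exact Nat.coprime_self_add_left.mpr hc.symm
  refine Finset.card_nbij' (fun u => u / 2) (fun a => 2 * a) (fun u hu => ?_) (fun a ha => ?_)
    (fun u hu => ?_) fun a _ => show 2 * a / 2 = a by omega
  · obtain ⟨hd, hlt, h2, hc⟩ := Finset.mem_filter.mp hu
    have huv := Nat.mul_div_cancel' (Nat.mem_divisors.mp hd).1
    set v := 4 * m / u
    rcases Nat.even_or_odd' u with ⟨a, rfl | rfl⟩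
    swap
    · rcases Nat.even_or_odd' v with ⟨b, hb | hb⟩ <;> rw [hb] at h2 huv
      · omega
      · rw [show (2 * a + 1) * (2 * b + 1) = 2 * (2 * a * b + a + b) + 1 by ring] at huv; omega
    obtain ⟨b, hb⟩ : ∃ b, v = 2 * b := ⟨v / 2, by omega⟩
    have hab : a * b = m := by
      rw [hb, show 2 * a * (2 * b) = 4 * (a * b) by ring] at huv
      omega
    rw [hb, show (2 * a + 2 * b) / 2 = a + b by omega] at hc
    have ha0 : 0 < a := by
      rcases Nat.eq_zero_or_pos a with e | e
      · simp [e] at hab; omega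
      · exact e
    show 2 * a / 2 ∈ coprimeSplit m
    rw [coprimeSplit, Finset.mem_filter, show 2 * a / 2 = a by omega, Nat.mem_divisors,
      show m / a = b by rw [← hab, Nat.mul_div_cancel_left _ ha0]]
    refine ⟨⟨⟨b, hab.symm⟩, by omega⟩, by omega, (key a b hab).mp ⟨?_, ?_⟩⟩
    · exact Nat.odd_iff.mp (Nat.coprime_two_right.mp (hc.coprime_dvd_right (dvd_mul_right 2 _)))
    · exact hc.coprime_dvd_right ((dvd_mul_left a 2).mul_left 2)
  · obtain ⟨hd, hlt, hc⟩ := Finset.mem_filter.mp ha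
    have hab := Nat.mul_div_cancel' (Nat.mem_divisors.mp hd).1
    set b := m / a
    obtain ⟨hodd, hcp⟩ := (key a b hab).mpr hc
    have hv : 4 * m / (2 * a) = 2 * b := by
      rw [← hab, show 4 * (a * b) = (2 * a) * (2 * b) by ring, Nat.mul_div_cancel_left]
      have := Nat.pos_of_mem_divisors hd; omega
    show 2 * a ∈ evenSplit (4 * m)
    rw [evenSplit, Finset.mem_filter, Nat.mem_divisors, hv,
      show (2 * a + 2 * b) / 2 = a + b by omega]
    exact ⟨⟨⟨2 * b, by rw [← hab]; ring⟩, by omega⟩, by omega, by omega,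
      (Nat.coprime_two_right.mpr (Nat.odd_iff.mpr hodd)).mul_right
        ((Nat.coprime_two_right.mpr (Nat.odd_iff.mpr hodd)).mul_right hcp)⟩
  · obtain ⟨hd, hlt, h2, -⟩ := Finset.mem_filter.mp hu
    have huv := Nat.mul_div_cancel' (Nat.mem_divisors.mp hd).1
    show 2 * (u / 2) = u
    rcases Nat.even_or_odd' u with ⟨a, rfl | rfl⟩
    · omega
    · rcases Nat.even_or_odd' (4 * m / (2 * a + 1)) with ⟨b, hb | hb⟩ <;> rw [hb] at h2 huv
      · omega
      · rw [show (2 * a + 1) * (2 * b + 1) = 2 * (2 * a * b + a + b) + 1 by ring] at huv; omega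

/-! ### The forms -/

/-- The ambiguous reduced forms. -/
def ambSet (n M : ℕ) : Finset (ℕ × ℤ) :=
  (redSet n M).filter fun t => t.2 = 0 ∨ 2 * |t.2| = t.1 ∨ (t.1 : ℤ) * t.1 = t.2 ^ 2 + n

theorem amb_zero_iff {n M : ℕ} (hn : 1 < n) (hM : 4 * n < 3 * (M + 1) ^ 2) :
    ((ambSet n M).filter fun t => t.2 = 0).card = (coprimeSplit n).card := by
  have : NeZero n := ⟨by omega⟩
  refine Finset.card_nbij' (fun t => t.1) (fun u => (u, (0 : ℤ))) (fun t ht => ?_) (fun u hu => ?_)
    (fun t ht => Prod.ext rfl (Finset.mem_filter.mp ht).2.symm) fun u _ => rfl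
  · obtain ⟨ht, hb⟩ := Finset.mem_filter.mp ht
    obtain ⟨hr, -⟩ := Finset.mem_filter.mp ht
    obtain ⟨ha, hd, hg, -, hac, -⟩ := (Finset.mem_filter.mp hr).2
    rw [hb] at hd hg hac
    simp only [zero_pow two_ne_zero, zero_add, mul_zero, Int.gcd_zero_right, Int.natAbs_natCast]
      at hd hg hac
    have hd' : t.1 ∣ n := Int.natCast_dvd_natCast.mp hd
    have hdiv : ((n : ℤ) / (t.1 : ℤ)) = ((n / t.1 : ℕ) : ℤ) := (Int.natCast_div n t.1).symm
    rw [hdiv] at hg
    have hcop : t.1.Coprime (n / t.1) := hg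
    have hle : t.1 ≤ n / t.1 :=
      (Nat.le_div_iff_mul_le ha).mpr (by exact_mod_cast hac)
    refine Finset.mem_filter.mpr ⟨Nat.mem_divisors.mpr ⟨hd', by omega⟩, ?_, hcop⟩
    rcases eq_or_lt_of_le hle with e | e
    · exfalso
      rw [← e, Nat.coprime_self] at hcop
      have := Nat.div_mul_cancel hd'
      rw [← e, hcop] at this
      omega
    · exact e
  · obtain ⟨hd, hlt, hc⟩ := Finset.mem_filter.mp hu
    obtain ⟨hd', -⟩ := Nat.mem_divisors.mp hd
    have hu0 : 0 < u := Nat.pos_of_mem_divisors hd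
    have huv := Nat.mul_div_cancel' hd'
    have hr : IsRed n u 0 := by
      refine ⟨hu0, ?_, ?_, by simp, ?_, fun _ => le_rfl⟩
      · simpa using Int.natCast_dvd_natCast.mpr hd'
      · simp only [zero_pow two_ne_zero, zero_add, mul_zero, Int.gcd_zero_right, Int.natAbs_natCast]
        rw [← Int.natCast_div]
        exact hc
      · simp only [zero_pow two_ne_zero, zero_add]
        exact_mod_cast le_of_le_of_eq (Nat.mul_le_mul_left u hlt.le) huv
    exact Finset.mem_filter.mpr
      ⟨Finset.mem_filter.mpr ⟨mem_redSet hM hr, Or.inl rfl⟩, rfl⟩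

theorem amb_nonzero_iff {n M : ℕ} (hn : 1 < n) (hM : 4 * n < 3 * (M + 1) ^ 2) :
    ((ambSet n M).filter fun t => ¬ t.2 = 0).card = (evenSplit n).card := by
  have : NeZero n := ⟨by omega⟩
  have shape : ∀ t ∈ (ambSet n M).filter (fun t => ¬ t.2 = 0), ∃ a b : ℕ,
      t = (a, (b : ℤ)) ∧ 0 < b ∧ 2 * b ≤ a ∧
        ((a = 2 * b ∧ ∃ c, 2 * b * c = b * b + n ∧ 2 * b ≤ c ∧ c.Coprime (2 * b)) ∨
          (2 * b < a ∧ a * a = b * b + n ∧ a.Coprime (2 * b))) := by
    rintro ⟨a, b⟩ ht
    obtain ⟨ht, hb0⟩ := Finset.mem_filter.mp ht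
    obtain ⟨hr, hamb⟩ := Finset.mem_filter.mp ht
    obtain ⟨ha, hd, hg, hb, hac, htie⟩ := (Finset.mem_filter.mp hr).2
    simp only at hb0 hamb ha hd hg hb hac htie
    have hnn : 0 ≤ b := htie (hamb.resolve_left hb0)
    obtain ⟨b, rfl⟩ := Int.eq_ofNat_of_zero_le hnn
    rw [Nat.abs_cast] at hamb hb
    refine ⟨a, b, rfl, by omega, by omega, ?_⟩
    rcases eq_or_ne a (2 * b) with e | e
    · refine Or.inl ⟨e, ?_⟩
      subst e
      obtain ⟨c, hc⟩ := hd
      rw [hc, Int.mul_ediv_cancel_left _ (by omega)] at hg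
      rw [hc] at hac
      have hc0 : ((2 * b : ℕ) : ℤ) ≤ c := le_of_mul_le_mul_left hac (by omega)
      obtain ⟨c, rfl⟩ := Int.eq_ofNat_of_zero_le (le_trans (Int.natCast_nonneg _) hc0)
      refine ⟨c, by exact_mod_cast (by push_cast at hc ⊢; linarith :
        ((2 * b * c : ℕ) : ℤ) = ((b * b + n : ℕ) : ℤ)), by exact_mod_cast hc0, ?_⟩
      rw [show (2 * (b : ℤ)) = ((2 * b : ℕ) : ℤ) by push_cast; rfl, Int.gcd_natCast_natCast,
        Int.gcd_natCast_natCast, Nat.gcd_self] at hg
      exact Nat.Coprime.symm hg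
    · have haa : (a : ℤ) * a = (b : ℤ) ^ 2 + n := by
        rcases hamb with h | h | h
        · exact absurd h hb0
        · exact absurd (by exact_mod_cast h.symm) e
        · exact h
      refine Or.inr ⟨by omega, by exact_mod_cast (by push_cast; linarith :
        ((a * a : ℕ) : ℤ) = ((b * b + n : ℕ) : ℤ)), ?_⟩
      rw [← haa, Int.mul_ediv_cancel_left _ (by omega : (a : ℤ) ≠ 0),
        show (2 * (b : ℤ)) = ((2 * b : ℕ) : ℤ) by push_cast; rfl, Int.gcd_natCast_natCast,
        Int.gcd_natCast_natCast, Nat.gcd_eq_left (Nat.gcd_dvd_left a (2 * b))] at hg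
      exact hg
  refine Finset.card_nbij' (fun t => if 2 * t.2 = t.1 then t.2.toNat else t.1 - t.2.toNat)
    (fun u => if 3 * u ≤ n / u then (2 * u, (u : ℤ))
      else ((u + n / u) / 2, (((n / u - u) / 2 : ℕ) : ℤ)))
    (fun t ht => ?_) (fun u hu => ?_) (fun t ht => ?_) fun u hu => ?_
  · obtain ⟨a, b, rfl, hb0, hb, h⟩ := shape t ht
    rcases h with ⟨rfl, c, hc, hbc, hcop⟩ | ⟨hlt, haa, hcop⟩
    · have hq : 2 * c - b = n / b := by
        refine (Nat.div_eq_of_eq_mul_right hb0 ?_).symm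
        rw [Nat.mul_sub]
        have : b * (2 * c) = b * b + n := by rw [← hc]; ring
        omega
      show (if 2 * (b : ℤ) = ((2 * b : ℕ) : ℤ) then (b : ℤ).toNat else _) ∈ evenSplit n
      rw [if_pos (by push_cast; rfl), Int.toNat_natCast, evenSplit, Finset.mem_filter, ← hq,
        Nat.mem_divisors, show (b + (2 * c - b)) / 2 = c by omega]
      refine ⟨⟨⟨2 * c - b, ?_⟩, by omega⟩, by omega, by omega, hcop⟩
      rw [Nat.mul_sub]
      have : b * (2 * c) = b * b + n := by rw [← hc]; ring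
      omega
    · have hq : a + b = n / (a - b) := by
        refine (Nat.div_eq_of_eq_mul_right (by omega) ?_).symm
        rw [mul_comm, ← Nat.mul_self_sub_mul_self_eq]
        omega
      show (if 2 * (b : ℤ) = (a : ℤ) then _ else a - (b : ℤ).toNat) ∈ evenSplit n
      rw [if_neg (by omega), Int.toNat_natCast, evenSplit, Finset.mem_filter, ← hq, Nat.mem_divisors,
        show (a - b + (a + b)) / 2 = a by omega]
      refine ⟨⟨⟨a + b, ?_⟩, by omega⟩, by omega, by omega, Nat.Coprime.mul_right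
        (hcop.coprime_dvd_right (dvd_mul_right 2 b))
        ((Nat.coprime_self_sub_right (by omega : b ≤ a)).mpr
          (hcop.coprime_dvd_right (dvd_mul_left b 2)))⟩
      rw [mul_comm, ← Nat.mul_self_sub_mul_self_eq]
      omega
  · obtain ⟨hd, hlt, h2, hcop⟩ := Finset.mem_filter.mp hu
    obtain ⟨hd', -⟩ := Nat.mem_divisors.mp hd
    have hu0 : 0 < u := Nat.pos_of_mem_divisors hd
    have huv := Nat.mul_div_cancel' hd'
    set v := n / u
    obtain ⟨c, hc⟩ : ∃ c, u + v = 2 * c := ⟨(u + v) / 2, by omega⟩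
    rw [show (u + v) / 2 = c by omega] at hcop
    dsimp only
    split_ifs with h3
    · have hval : ((u : ℤ) ^ 2 + (n : ℤ)) = ((2 * u : ℕ) : ℤ) * (c : ℤ) := by
        have e : ((u + v : ℕ) : ℤ) = ((2 * c : ℕ) : ℤ) := congrArg Nat.cast hc
        have e' : ((u * v : ℕ) : ℤ) = (n : ℤ) := congrArg Nat.cast huv
        push_cast at e e' ⊢
        linear_combination (u : ℤ) * e - e'
      have hr : IsRed n (2 * u) (u : ℤ) := by
        refine ⟨by omega, ⟨c, hval⟩, ?_, by rw [Nat.abs_cast]; push_cast; rfl, ?_,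
          fun _ => Int.natCast_nonneg u⟩
        · rw [hval, Int.mul_ediv_cancel_left _ (by omega),
            show (2 * (u : ℤ)) = ((2 * u : ℕ) : ℤ) by push_cast; rfl, Int.gcd_natCast_natCast,
            Int.gcd_natCast_natCast, Nat.gcd_self]
          exact hcop.symm
        · rw [hval]
          exact mul_le_mul_of_nonneg_left (by exact_mod_cast (by omega : 2 * u ≤ c))
            (Int.natCast_nonneg _)
      exact Finset.mem_filter.mpr ⟨Finset.mem_filter.mpr
        ⟨mem_redSet hM hr, Or.inr (Or.inl (by rw [Nat.abs_cast]; push_cast; rfl))⟩, by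
          show ¬ (u : ℤ) = 0
          omega⟩
    · obtain ⟨b, hb⟩ : ∃ b, v = u + 2 * b := ⟨(v - u) / 2, by omega⟩
      rw [show (u + v) / 2 = c by omega, show (v - u) / 2 = b by omega]
      have hcc : c = u + b := by omega
      have hval : ((b : ℤ) ^ 2 + (n : ℤ)) = (c : ℤ) * (c : ℤ) := by
        have e' : ((u * v : ℕ) : ℤ) = (n : ℤ) := congrArg Nat.cast huv
        rw [hb] at e'
        rw [hcc]
        push_cast at e' ⊢
        linear_combination -e'
      have hcop' : c.Coprime (2 * b) := by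
        refine Nat.Coprime.mul_right (hcop.coprime_dvd_right (dvd_mul_right 2 u)) ?_
        have h' : c.Coprime u := hcop.coprime_dvd_right (dvd_mul_left u 2)
        rw [hcc] at h' ⊢
        exact Nat.coprime_add_self_left.mpr (Nat.coprime_self_add_left.mp h').symm
      have hr : IsRed n c (b : ℤ) := by
        refine ⟨by omega, ⟨c, hval⟩, ?_, by rw [Nat.abs_cast]; omega, hval.ge,
          fun _ => Int.natCast_nonneg b⟩
        rw [hval, Int.mul_ediv_cancel_left _ (by omega),
          show (2 * (b : ℤ)) = ((2 * b : ℕ) : ℤ) by push_cast; rfl, Int.gcd_natCast_natCast,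
          Int.gcd_natCast_natCast, Nat.gcd_eq_left (Nat.gcd_dvd_left c (2 * b))]
        exact hcop'
      exact Finset.mem_filter.mpr ⟨Finset.mem_filter.mpr
        ⟨mem_redSet hM hr, Or.inr (Or.inr hval.symm)⟩, by show ¬ (b : ℤ) = 0; omega⟩
  · obtain ⟨a, b, rfl, hb0, hb, h⟩ := shape t ht
    rcases h with ⟨rfl, c, hc, hbc, -⟩ | ⟨hlt, haa, -⟩
    · have hq : n / b = 2 * c - b := by
        refine Nat.div_eq_of_eq_mul_right hb0 ?_
        rw [Nat.mul_sub]
        have : b * (2 * c) = b * b + n := by rw [← hc]; ring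
        omega
      have hcond : 2 * (b : ℤ) = ((2 * b : ℕ) : ℤ) := by push_cast; rfl
      have hle : 3 * b ≤ 2 * c - b := by omega
      simp only [if_pos hcond, Int.toNat_natCast, hq, if_pos hle]
    · have hq : n / (a - b) = a + b := by
        refine Nat.div_eq_of_eq_mul_right (by omega) ?_
        rw [mul_comm, ← Nat.mul_self_sub_mul_self_eq]
        omega
      have hcond : ¬ 2 * (b : ℤ) = (a : ℤ) := by omega
      have hle : ¬ 3 * (a - b) ≤ a + b := by omega
      simp only [if_neg hcond, Int.toNat_natCast, hq, if_neg hle,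
        show (a - b + (a + b)) / 2 = a by omega, show (a + b - (a - b)) / 2 = b by omega]
  · obtain ⟨hd, hlt, h2, -⟩ := Finset.mem_filter.mp hu
    dsimp only
    by_cases h3 : 3 * u ≤ n / u
    · simp [h3]
    · simp only [if_neg h3]
      rw [if_neg (by omega), Int.toNat_natCast]
      omega

theorem card_ambSet {n M : ℕ} (hn : 1 < n) (hM : 4 * n < 3 * (M + 1) ^ 2) :
    (ambSet n M).card = (coprimeSplit n).card + (evenSplit n).card := by
  rw [← Finset.card_filter_add_card_filter_not (s := ambSet n M) (fun t => t.2 = 0),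
    amb_zero_iff hn hM, amb_nonzero_iff hn hM]

theorem card_sq_eq_one {n : ℕ} [NeZero n] (hn : 1 < n) :
    Nat.card {c : Cl n // c * c = 1} = (coprimeSplit n).card + (evenSplit n).card := by
  classical
  have hM : 4 * n < 3 * (2 * n + 1) ^ 2 := by nlinarith
  rw [← card_ambSet hn hM, ← Nat.card_eq_finsetCard]
  refine Nat.card_congr ((Equiv.ofBijective _ (redSet_bijective (n := n) hM)).subtypeEquiv
    (p := fun t : redSet n (2 * n) => t.1.2 = 0 ∨ 2 * |t.1.2| = t.1.1 ∨
      (t.1.1 : ℤ) * t.1.1 = t.1.2 ^ 2 + n)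
    (fun t => (cls_mul_self_iff (Finset.mem_filter.mp t.2).2).symm) |>.symm.trans ?_)
  exact
    { toFun := fun t => ⟨t.1.1, Finset.mem_filter.mpr ⟨t.1.2, t.2⟩⟩
      invFun := fun t => ⟨⟨t.1, (Finset.mem_filter.mp t.2).1⟩, (Finset.mem_filter.mp t.2).2⟩
      left_inv := fun _ => rfl
      right_inv := fun _ => rfl }

end FA.OrderTheta
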