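import Fermat.Agent.ExtVanish.InertiaLift
import Fermat.Agent.Root.SummaryChebotarev

/-!
# Galois number fields and sets of primes described by Frobenius elements

If the primes of a set are those whose Frobenius element lies in a set stable under conjugation,
Chebotarev gives their density; if it is the trivial element, they are the primes splitting
completely and the primes modulo which a generating polynomial has a root.
-/

set_option autoImplicit false
set_option linter.style.haveILetI false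

noncomputable section

open Module NumberField IsDedekindDomain Polynomial FA.Density
open scoped Pointwise

namespace FA.OrderTheta

local notation "Qb" => AlgebraicClosure ℚ
local notation "GQ" => AlgebraicClosure ℚ ≃ₐ[ℚ] AlgebraicClosure ℚ

/-- A Frobenius element and its prime in a field unramified at `q`. -/
theorem exists_frobPair (L : IntermediateField ℚ Qb) [NumberField L] [IsGalois ℚ L]
    {q : ℕ} (hq : q.Prime)
    (hun : ∀ A : ValuationSubring Qb, A.LiesOverPrime q →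
      ∀ σ ∈ A.inertiaSubgroupIn ℚ, AlgEquiv.restrictNormalHom L σ = 1) :
    ∃ (A : ValuationSubring Qb) (σ : GQ) (P : Ideal (𝓞 L)), A.LiesOverPrime q ∧
      A.IsFrobeniusAt σ q ∧ IsFrobPair q P (AlgEquiv.restrictNormalHom L σ) := by
  obtain ⟨A, hA⟩ := FA.Deform.exists_liesOverPrime hq
  obtain ⟨σ, hσ⟩ := FA.Deform.exists_isFrobeniusAt hq hA
  obtain ⟨P, hP⟩ := FA.Chebotarev.exists_isFrobPair_restrict (F := L) hq (fun P hP hqP τ hτ => by
    obtain ⟨A', hA', σ', hσ', he⟩ := FA.Ext.exists_inertia_lift L P hq hqP τ hτ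
    rw [← hun A' hA' σ' hσ']
    refine AlgEquiv.ext fun y => Subtype.ext ?_
    rw [← he y]
    exact (AlgEquiv.restrictNormal_commutes σ' L y).symm) hA hσ
  exact ⟨A, σ, P, hA, hσ, hP⟩

/-- A prime with a Frobenius element splits completely iff the element is trivial. -/
theorem ncard_primesOver_iff {L : Type*} [Field L] [NumberField L] [IsGalois ℚ L] {q : ℕ}
    {P : Ideal (𝓞 L)} {g : L ≃ₐ[ℚ] L} (hP : IsFrobPair q P g) :
    ((Ideal.span {(q : ℤ)}).primesOver (𝓞 L)).ncard = finrank ℚ L ↔ g = 1 := by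
  refine ⟨fun hn => ?_, fun e => FA.FrobeniusDensity.ncard_primesOver_of_isFrobPair_one (e ▸ hP)⟩
  rw [FA.FrobeniusDensity.primesOver_eq_orbit hP, ← MulAction.index_stabilizer,
    ← IsGalois.card_aut_eq_finrank, ← Subgroup.card_mul_index (MulAction.stabilizer _ P)] at hn
  have hst : MulAction.stabilizer (L ≃ₐ[ℚ] L) P = ⊥ := by
    refine Subgroup.eq_bot_of_card_le _ ?_
    have hne : (MulAction.stabilizer (L ≃ₐ[ℚ] L) P).index ≠ 0 := Subgroup.index_ne_zero_of_finite
    exact ((mul_eq_right₀ hne).mp hn.symm).le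
  have hmem : g ∈ MulAction.stabilizer (L ≃ₐ[ℚ] L) P := by
    refine MulAction.mem_stabilizer_iff.mpr (hP.isMaximal.eq_of_le ?_ ?_).symm
    · exact (hP.conj _).isMaximal.ne_top
    · intro y hy
      rw [Ideal.mem_pointwise_smul_iff_inv_smul_mem]
      have hz := hP.frob (g⁻¹ • y)
      rw [smul_inv_smul] at hz
      have hpow := sub_mem hy hz
      rw [sub_sub_cancel] at hpow
      exact hP.isMaximal.isPrime.mem_of_pow_mem _ hpow
  rwa [hst, Subgroup.mem_bot] at hmem

/-- The density of a set of primes described by Frobenius elements. -/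
theorem hasDirichletDensity_of_frob (L : Type*) [Field L] [NumberField L] [IsGalois ℚ L]
    (C : Set (L ≃ₐ[ℚ] L)) (hC : ∀ g ∈ C, ∀ x : L ≃ₐ[ℚ] L, x * g * x⁻¹ ∈ C) (p : ℕ → Prop)
    (T : Finset ℕ)
    (h : ∀ q : ℕ, q.Prime → q ∉ T →
      ∃ (g : L ≃ₐ[ℚ] L) (P : Ideal (𝓞 L)), IsFrobPair q P g ∧ (g ∈ C ↔ p q)) :
    {v : HeightOneSpectrum (𝓞 ℚ) | p (Ideal.absNorm v.asIdeal)}.HasDirichletDensity
      ((Nat.card C : ℝ) / Nat.card (L ≃ₐ[ℚ] L)) := by
  have hd := FA.Summary.chebotarev_density L C hC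
  have hfin : {v : HeightOneSpectrum (𝓞 ℚ) | Ideal.absNorm v.asIdeal ∈ T}.Finite := by
    refine ((Set.Finite.biUnion (t := fun d => {I : Ideal (𝓞 ℚ) | Ideal.absNorm I = d})
      T.finite_toSet fun d _ =>
        Ideal.finite_setOfPred_absNorm_eq (S := 𝓞 ℚ) d).preimage
      fun v _ w _ h => HeightOneSpectrum.ext h).subset fun v hv => ?_
    exact Set.mem_iUnion₂.mpr ⟨_, Finset.mem_coe.mpr hv, rfl⟩
  have key : ∀ v : HeightOneSpectrum (𝓞 ℚ), Ideal.absNorm v.asIdeal ∉ T →
      (p (Ideal.absNorm v.asIdeal) ↔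
      ∃ Q : Ideal (𝓞 L), Q.IsMaximal ∧ (Ideal.absNorm v.asIdeal : 𝓞 L) ∈ Q ∧
        ∃ τ ∈ C, IsArithFrobAt ℤ τ Q) := by
    intro v hv
    obtain ⟨g, P, hP, hg⟩ := h _ (FA.Chebotarev.absNorm_prime v) hv
    rw [← hg]
    refine ⟨fun hm => ⟨P, hP.isMaximal, hP.mem, _, hm,
      FA.FrobeniusDensity.IsFrobPair.isArithFrobAt hP⟩, ?_⟩
    rintro ⟨Q, hQ, hqQ, τ, hτ, hτQ⟩
    obtain ⟨x, hx⟩ := isConj_iff.mp (FA.Chebotarev.isConj_of_isFrobPair hP hQ hqQ hτQ).symm
    exact hx ▸ hC τ hτ x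
  refine FA.Chebotarev.hasDirichletDensity_congr (hfin.subset ?_) (hfin.subset ?_) hd
  · rintro v ⟨h1, h2⟩; by_contra hv; exact h2 ((key v hv).mp h1)
  · rintro v ⟨h1, h2⟩; by_contra hv; exact h2 ((key v hv).mpr h1)

/-- A generating polynomial has a root modulo almost exactly the primes with trivial Frobenius. -/
theorem exists_polynomial_of_frob (L : Type*) [Field L] [NumberField L] [IsGalois ℚ L]
    (p : ℕ → Prop) (T₀ : Finset ℕ)
    (h : ∀ q : ℕ, q.Prime → q ∉ T₀ →
      ∃ (g : L ≃ₐ[ℚ] L) (P : Ideal (𝓞 L)), IsFrobPair q P g ∧ (g = 1 ↔ p q)) :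
    ∃ f : ℤ[X], f.Monic ∧ Irreducible f ∧ f.natDegree = finrank ℚ L ∧
      ∃ T : Finset ℕ, ∀ q : ℕ, q.Prime → q ∉ T →
        (p q ↔ ∃ z : ZMod q, (f.map (Int.castRingHom (ZMod q))).eval z = 0) := by
  classical
  obtain ⟨α, hα⟩ := Field.exists_primitive_element ℚ L
  obtain ⟨m, hint⟩ := IsIntegral.exists_multiple_integral_of_isLocalization
    (nonZeroDivisors ℤ) α (IsIntegral.of_finite ℚ α)
  set β : L := ((m : ℤ) : L) * α with hβ
  have hβint : IsIntegral ℤ β := by
    rw [hβ]; simpa [Submonoid.smul_def, zsmul_eq_mul] using hint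
  have hm : ((m : ℤ) : L) ≠ 0 := Int.cast_ne_zero.mpr (nonZeroDivisors.ne_zero m.2)
  have hfix : ∀ τ : L ≃ₐ[ℚ] L, τ β = β → τ = 1 := by
    intro τ hτ
    rw [hβ, map_mul, map_intCast] at hτ
    have hτα : τ α = α := mul_left_cancel₀ hm hτ
    have htop : ⊤ ≤ IntermediateField.fixedField (Subgroup.zpowers τ) := by
      rw [← hα, IntermediateField.adjoin_simple_le_iff, IntermediateField.mem_fixedField_iff]
      intro g hg
      have hle : Subgroup.zpowers τ ≤ MulAction.stabilizer (L ≃ₐ[ℚ] L) α :=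
        Subgroup.zpowers_le.mpr hτα
      exact hle hg
    refine AlgEquiv.ext fun y => ?_
    exact (IntermediateField.mem_fixedField_iff _ _).mp (htop IntermediateField.mem_top) τ
      (Subgroup.mem_zpowers τ)
  set f := minpoly ℤ β
  have hmon : f.Monic := minpoly.monic hβint
  have hirr : Irreducible f := minpoly.irreducible hβint
  have hgen : IntermediateField.adjoin ℚ ({β} : Set L) = ⊤ := by
    refine eq_top_iff.mpr (hα ▸ IntermediateField.adjoin_simple_le_iff.mpr ?_)
    have h1 : β ∈ IntermediateField.adjoin ℚ ({β} : Set L) :=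
      IntermediateField.subset_adjoin ℚ _ rfl
    have e : α = ((m : ℤ) : L)⁻¹ * β := by rw [hβ, ← mul_assoc, inv_mul_cancel₀ hm, one_mul]
    rw [e]
    exact mul_mem (inv_mem (intCast_mem _ _)) h1
  have hdeg : f.natDegree = finrank ℚ L := by
    rw [← IntermediateField.finrank_top' (F := ℚ) (E := L), ← hgen,
      IntermediateField.adjoin.finrank (IsIntegral.of_finite ℚ β),
      minpoly.isIntegrallyClosed_eq_field_fractions' ℚ hβint, hmon.natDegree_map]
  refine ⟨f, hmon, hirr, hdeg, ?_⟩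
  let y : 𝓞 L := ⟨β, hβint⟩
  let δ : 𝓞 L := ∏ τ : L ≃ₐ[ℚ] L, ∏ ρ : L ≃ₐ[ℚ] L,
    if τ * ρ = ρ then 1 else τ • ρ • y - ρ • y
  have hδ : δ ≠ 0 := Finset.prod_ne_zero_iff.mpr fun τ _ =>
    Finset.prod_ne_zero_iff.mpr fun ρ _ => by
      split_ifs with h
      · exact one_ne_zero
      · intro e
        have e' := sub_eq_zero.mp e
        rw [← inv_smul_eq_iff, ← mul_smul, ← mul_smul] at e'
        have e1 := hfix (ρ⁻¹ * (τ * ρ)) (congrArg (fun z : 𝓞 L => (z : L)) e')
        exact h (by rw [inv_mul_eq_one] at e1; exact e1.symm)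
  refine ⟨T₀ ∪ (Ideal.absNorm (Ideal.span {δ})).divisors, fun q hq hqT => ?_⟩
  rw [Finset.mem_union, not_or] at hqT
  have hqδ : ¬ q ∣ Ideal.absNorm (Ideal.span {δ}) := fun h => hqT.2 (Nat.mem_divisors.mpr
    ⟨h, fun e => hδ (Ideal.span_singleton_eq_bot.mp (Ideal.absNorm_eq_zero_iff.mp e))⟩)
  obtain ⟨g, P, hP, hrep⟩ := h q hq hqT.1
  rw [← hrep]
  have := hP.isMaximal
  have hroot0 : Polynomial.aeval β f = 0 := minpoly.aeval ℤ β
  constructor
  · -- the residue field is the prime field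
    intro hone
    rw [hone] at hP
    have : Fact q.Prime := ⟨hq⟩
    let _ : Field (𝓞 L ⧸ P) := Ideal.Quotient.field P
    have : CharP (𝓞 L ⧸ P) q := (CharP.charP_iff_prime_eq_zero hq).mpr <| by
      rw [← map_natCast (Ideal.Quotient.mk P), Ideal.Quotient.eq_zero_iff_mem]
      exact hP.mem
    have hy : (Ideal.Quotient.mk P y) ^ q = Ideal.Quotient.mk P y := by
      rw [← map_pow, eq_comm, Ideal.Quotient.eq]
      simpa using hP.frob y
    have hmem := (Subfield.mem_bot_iff_pow_eq_self (𝓞 L ⧸ P) q).mpr hy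
    rw [← ZMod.fieldRange_castHom_eq_bot q] at hmem
    obtain ⟨z, hz⟩ := hmem
    refine ⟨z, (ZMod.castHom (dvd_refl q) (𝓞 L ⧸ P)).injective ?_⟩
    rw [map_zero, Polynomial.eval_map, Polynomial.hom_eval₂, hz]
    have hy0 : Polynomial.aeval y f = 0 := by
      apply FaithfulSMul.algebraMap_injective (𝓞 L) L
      rw [map_zero, ← Polynomial.aeval_algebraMap_apply]
      exact hroot0
    have h1 := congrArg (Ideal.Quotient.mk P) hy0
    rw [map_zero, Polynomial.aeval_def, Polynomial.hom_eval₂] at h1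
    refine (congrArg (fun φ : ℤ →+* 𝓞 L ⧸ P =>
      Polynomial.eval₂ φ (Ideal.Quotient.mk P y) f) ?_).trans h1
    exact RingHom.ext fun n => by simp
  · rintro ⟨z, hz⟩
    obtain ⟨b, rfl⟩ := ZMod.intCast_surjective z
    rw [Polynomial.eval_map, Polynomial.eval₂_at_intCast, eq_intCast, Int.cast_id,
      ZMod.intCast_zmod_eq_zero_iff_dvd] at hz
    -- some conjugate of `y` is congruent to `b`
    obtain ⟨ρ, hρ⟩ : ∃ ρ : L ≃ₐ[ℚ] L, (b : 𝓞 L) - ρ • y ∈ P := by
      have hmem : ((f.eval b : ℤ) : 𝓞 L) ∈ P := by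
        obtain ⟨k, hk⟩ := hz
        rw [hk, Int.cast_mul, Int.cast_natCast]
        exact P.mul_mem_right _ hP.mem
      have hF : f.map (algebraMap ℤ L) =
          ∏ ρ : L ≃ₐ[ℚ] L, (Polynomial.X - Polynomial.C (ρ β)) := by
        refine (Polynomial.eq_of_monic_of_dvd_of_natDegree_le
          (Polynomial.monic_prod_of_monic _ _ fun _ _ => Polynomial.monic_X_sub_C _) (hmon.map _)
          (Finset.prod_dvd_of_coprime ?_ fun ρ _ => ?_) ?_)
        · intro ρ _ τ _ hne
          refine Polynomial.pairwise_coprime_X_sub_C (fun u v e => ?_) hne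
          have h1 := hfix (v⁻¹ * u) (by
            rw [AlgEquiv.mul_apply, e, AlgEquiv.aut_inv, AlgEquiv.symm_apply_apply])
          exact (inv_mul_eq_one.mp h1).symm
        · rw [Polynomial.dvd_iff_isRoot, Polynomial.IsRoot, Polynomial.eval_map,
            ← Polynomial.aeval_def]
          show Polynomial.aeval ((ρ : L →ₐ[ℚ] L).restrictScalars ℤ β) f = 0
          rw [Polynomial.aeval_algHom_apply, hroot0, map_zero]
        · rw [hmon.natDegree_map, hdeg, Polynomial.natDegree_prod_of_monic _ _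
            (fun _ _ => Polynomial.monic_X_sub_C _)]
          simp [← IsGalois.card_aut_eq_finrank, Nat.card_eq_fintype_card]
      have hprod : ((f.eval b : ℤ) : 𝓞 L) ∣ ∏ ρ : L ≃ₐ[ℚ] L, ((b : 𝓞 L) - ρ • y) := by
        refine dvd_of_eq (RingOfIntegers.ext ?_)
        simp only [map_prod, map_sub, map_intCast]
        have e := congrArg (Polynomial.eval (b : L)) hF
        rw [Polynomial.eval_map, Polynomial.eval₂_at_intCast, eq_intCast, Int.cast_id,
          Polynomial.eval_prod] at e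
        simp only [Polynomial.eval_sub, Polynomial.eval_X, Polynomial.eval_C] at e
        exact e
      obtain ⟨ρ, -, hρ⟩ := (hP.isMaximal.isPrime.prod_mem_iff).mp
        (Ideal.mem_of_dvd P hprod hmem)
      exact ⟨ρ, hρ⟩
    by_contra hne
    have hd : g • ρ • y - ρ • y ∉ P := fun hd => FA.FrobeniusDensity.notMem_of_not_dvd hq
      hP.isMaximal.ne_top hP.mem hqδ (P.mem_of_dvd ((Finset.dvd_prod_of_mem _
        (Finset.mem_univ ρ)).trans (Finset.dvd_prod_of_mem _ (Finset.mem_univ g)))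
        (by rw [if_neg fun e => hne (mul_eq_right.mp e)]; exact hd))
    refine hd ?_
    have h1 := hP.frob (ρ • y)
    have h2 : g • (b : 𝓞 L) = b := map_intCast (MulSemiringAction.toRingHom _ (𝓞 L) g) b
    have h3 := hP.frob (b : 𝓞 L)
    rw [h2] at h3
    have h4 : (b : 𝓞 L) ^ q - (ρ • y) ^ q ∈ P := P.mem_of_dvd (sub_dvd_pow_sub_pow _ _ q) hρ
    have e : g • ρ • y - ρ • y = (g • ρ • y - (ρ • y) ^ q) -
        ((b : 𝓞 L) ^ q - (ρ • y) ^ q) - ((b : 𝓞 L) - (b : 𝓞 L) ^ q) +
          ((b : 𝓞 L) - ρ • y) := by ring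
    rw [e]
    exact add_mem (sub_mem (sub_mem h1 h4) h3) hρ

end FA.OrderTheta
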