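import Fermat.Agent.ThetaOne.OrderCount
import Mathlib.GroupTheory.OrderOfElement

/-!
# Ideals of forms, and extension of ideals from `ℤ[√-81n]` to `ℤ[√-n]`

A primitive form `(A, 2b, C)` of determinant `N` gives the invertible ideal `(A, b + √-N)`, and it
represents the prime `p` iff the class of an invertible ideal of norm `p` is that of the ideal or
its inverse.  The extension of ideals from `ℤ[√-81n]` is surjective on classes, and the class of
`(1 + 9n, 3 + √-81n)` has order three.
-/

set_option autoImplicit false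

noncomputable section

open Ideal

namespace FA.OrderTheta

variable {N : ℕ} [NeZero N]

/-- The ideal of `x` with `A ∣ re x - b · im x`. -/
def rootCore (A : ℕ) (b C : ℤ) (h : (A : ℤ) * C - b ^ 2 = N) : Ideal (Ord N) where
  carrier := {x | (A : ℤ) ∣ x.re - b * x.im}
  zero_mem' := by simp
  add_mem' {x y} hx hy := by
    simp only [Set.mem_ofPred_eq, Zsqrtd.re_add, Zsqrtd.im_add] at hx hy ⊢
    rw [show x.re + y.re - b * (x.im + y.im) = x.re - b * x.im + (y.re - b * y.im) by ring]
    exact dvd_add hx hy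
  smul_mem' c x hx := by
    simp only [Set.mem_ofPred_eq, smul_eq_mul, Zsqrtd.re_mul, Zsqrtd.im_mul] at hx ⊢
    obtain ⟨k, hk⟩ := hx
    exact ⟨(c.re - b * c.im) * k - c.im * x.im * C, by
      linear_combination (c.re - b * c.im) * hk + c.im * x.im * h⟩

omit [NeZero N] in
theorem rootCore_mul_conj (A : ℕ) (b C : ℤ) (h : (A : ℤ) * C - b ^ 2 = N)
    (hp : ∃ u v w : ℤ, u * A + v * C + w * (2 * b) = 1) :
    rootCore (N := N) A b C h * conjI (rootCore A b C h) = span {(A : Ord N)} := by
  refine le_antisymm (Ideal.mul_le.mpr fun x hx y hy => ?_) ?_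
  · obtain ⟨k, hk⟩ := (hx : (A : ℤ) ∣ x.re - b * x.im)
    obtain ⟨k', hk'⟩ := ((mem_conjI_iff.mp hy : (A : ℤ) ∣ (star y).re - b * (star y).im))
    simp only [Zsqrtd.re_star, Zsqrtd.im_star] at hk'
    rw [mem_span_singleton, ← Int.cast_natCast (R := Ord N) A, Zsqrtd.intCast_dvd]
    simp only [Zsqrtd.re_mul, Zsqrtd.im_mul]
    refine ⟨⟨k * y.re + b * x.im * k' - C * x.im * y.im, ?_⟩, ⟨y.im * k + x.im * k', ?_⟩⟩
    · linear_combination y.re * hk + b * x.im * hk' + x.im * y.im * h
    · linear_combination y.im * hk + x.im * hk'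
  · obtain ⟨u, v, w, e⟩ := hp
    have hA : (A : Ord N) ∈ rootCore A b C h := by
      show (A : ℤ) ∣ _
      simp
    have hs : (⟨b, 1⟩ : Ord N) ∈ rootCore A b C h := by
      show (A : ℤ) ∣ _
      simp
    have hA' : (A : Ord N) ∈ conjI (rootCore (N := N) A b C h) := by
      simpa [star_natCast] using star_mem_conjI hA
    have hs' : (⟨b, -1⟩ : Ord N) ∈ conjI (rootCore (N := N) A b C h) := star_mem_conjI hs
    rw [span_singleton_le_iff_mem]
    have hval : (A : Ord N) = (u : Ord N) * ((A : Ord N) * (A : Ord N)) +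
        (v : Ord N) * ((⟨b, 1⟩ : Ord N) * ⟨b, -1⟩) +
        (w : Ord N) * ((A : Ord N) * (⟨b, -1⟩ : Ord N) + (⟨b, 1⟩ : Ord N) * (A : Ord N)) := by
      ext <;> simp
      linear_combination -(A : ℤ) * e + v * h
    rw [hval]
    exact add_mem (add_mem (Ideal.mul_mem_left _ _ (mul_mem_mul hA hA'))
      (Ideal.mul_mem_left _ _ (mul_mem_mul hs hs')))
      (Ideal.mul_mem_left _ _ (add_mem (mul_mem_mul hA hs') (mul_mem_mul hs hA')))

/-- The invertible ideal `(A, b + √-N)`. -/
def rootII (A : ℕ) (b C : ℤ) (hA : 0 < A) (h : (A : ℤ) * C - b ^ 2 = N)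
    (hp : ∃ u v w : ℤ, u * A + v * C + w * (2 * b) = 1) : II N :=
  ⟨rootCore A b C h, A, hA, rootCore_mul_conj A b C h hp⟩

section root

variable {A : ℕ} {b C : ℤ} (hA : 0 < A) (h : (A : ℤ) * C - b ^ 2 = N)
  (hp : ∃ u v w : ℤ, u * A + v * C + w * (2 * b) = 1)

theorem mem_rootII {x : Ord N} :
    x ∈ (rootII A b C hA h hp : Ideal (Ord N)) ↔ (A : ℤ) ∣ x.re - b * x.im := Iff.rfl

theorem nrm_rootII : nrm (rootII A b C hA h hp) = A :=
  natCast_span_inj (N := N) ((mul_conj _).symm.trans (rootCore_mul_conj A b C h hp))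

include h in
omit [NeZero N] in
theorem norm_root_elem (x y : ℤ) :
    (⟨(A : ℤ) * x + b * y, y⟩ : Ord N).norm = (A : ℤ) * (A * x ^ 2 + 2 * b * x * y + C * y ^ 2) := by
  rw [norm_eq]
  linear_combination -(y ^ 2) * h

/-- A form represents a prime iff an ideal of that norm has the class of the form or its inverse. -/
theorem represents_iff {p : ℕ} (hp' : p.Prime) :
    (∃ x y : ℤ, (A : ℤ) * x ^ 2 + 2 * b * x * y + C * y ^ 2 = (p : ℤ)) ↔
      ∃ P : II N, nrm P = p ∧ (cls P = cls (rootII A b C hA h hp) ∨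
        cls P = (cls (rootII A b C hA h hp))⁻¹) := by
  set I := rootII A b C hA h hp
  constructor
  · rintro ⟨x, y, hxy⟩
    set z : Ord N := ⟨(A : ℤ) * x + b * y, y⟩
    have hz : z.norm = (A : ℤ) * p := by rw [norm_root_elem h, hxy]
    have hz0 : z ≠ 0 := fun e => by
      rw [e, Zsqrtd.norm_zero, eq_comm, mul_eq_zero] at hz
      have := hp'.pos
      omega
    have hzI : z ∈ (I : Ideal (Ord N)) := (mem_rootII hA h hp).mpr ⟨x, by simp [z]⟩
    obtain ⟨J, hJ, hn⟩ := exists_factor_elem hz0 hzI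
    refine ⟨J, ?_, Or.inr ?_⟩
    · rw [hz, nrm_rootII] at hn
      exact_mod_cast (mul_left_cancel₀ (by exact_mod_cast hA.ne' : (A : ℤ) ≠ 0) hn).symm
    · have := congrArg cls hJ
      rw [cls_prin, map_mul] at this
      exact eq_inv_of_mul_eq_one_right this.symm
  · have key : ∀ P : II N, nrm P = p → cls P = (cls I)⁻¹ →
        ∃ x y : ℤ, (A : ℤ) * x ^ 2 + 2 * b * x * y + C * y ^ 2 = (p : ℤ) := by
      intro P hP hc
      obtain ⟨z, hz0, hz⟩ := exists_gen_of_cls (I := I * P) (by rw [map_mul, hc, mul_inv_cancel])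
      have hzI : z ∈ (I : Ideal (Ord N)) := by
        have := congrArg (fun K : II N => (K : Ideal (Ord N))) hz
        simp only [Submonoid.coe_mul, coe_prin] at this
        exact Ideal.mul_le_left (this.symm ▸ mem_span_singleton_self z)
      obtain ⟨x, hx⟩ := (mem_rootII hA h hp).mp hzI
      have he : z = ⟨(A : ℤ) * x + b * z.im, z.im⟩ := Zsqrtd.ext (by simp; linarith) rfl
      refine ⟨x, z.im, mul_left_cancel₀ (by exact_mod_cast hA.ne' : (A : ℤ) ≠ 0) ?_⟩
      rw [← norm_root_elem h, ← he, ← nrm_prin z hz0, ← hz, map_mul, nrm_rootII, hP]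
      push_cast
      rfl
    rintro ⟨P, hP, hc | hc⟩
    · exact key (conj P) (by rw [nrm_conj, hP]) (by rw [cls_conj, hc])
    · exact key P hP hc

end root

/-! ### Extension of ideals -/

variable (n : ℕ) [NeZero n]

instance instNeZeroEightyOne : NeZero (81 * n) := ⟨mul_ne_zero (by norm_num) (NeZero.ne n)⟩

/-- The inclusion `ℤ[√-81n] → ℤ[√-n]`. -/
def incl : Ord (81 * n) →+* Ord n :=
  Zsqrtd.lift ⟨⟨0, 9⟩, by ext <;> simp; ring⟩

omit [NeZero n] in
theorem incl_apply (x : Ord (81 * n)) : incl n x = ⟨x.re, 9 * x.im⟩ := by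
  ext <;> simp [incl, Zsqrtd.lift_apply_apply] <;> ring

omit [NeZero n] in
theorem incl_injective : Function.Injective (incl n) := fun x y h => by
  rw [incl_apply, incl_apply] at h
  have h1 := congrArg Zsqrtd.re h
  have h2 := congrArg Zsqrtd.im h
  simp only at h1 h2
  exact Zsqrtd.ext h1 (by omega)

omit [NeZero n] in
theorem incl_star (x : Ord (81 * n)) : incl n (star x) = star (incl n x) := by
  rw [incl_apply, incl_apply]
  ext <;> simp

omit [NeZero n] in
theorem map_conjI (I : Ideal (Ord (81 * n))) : (conjI I).map (incl n) = conjI (I.map (incl n)) := by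
  rw [conjI, conjI, Ideal.map_map, Ideal.map_map]
  congr 1
  exact RingHom.ext fun x => incl_star n x

/-- Extension of invertible ideals. -/
def ext : II (81 * n) →* II n where
  toFun I := ⟨(I : Ideal (Ord (81 * n))).map (incl n), nrm I, nrm_pos I, by
    rw [← map_conjI, ← Ideal.map_mul, mul_conj, Ideal.map_span, Set.image_singleton, map_natCast]⟩
  map_one' := Subtype.ext (by simp [Ideal.one_eq_top, Ideal.map_top])
  map_mul' I J := Subtype.ext (by simp [Ideal.map_mul])

theorem coe_ext (I : II (81 * n)) :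
    (ext n I : Ideal (Ord n)) = (I : Ideal (Ord (81 * n))).map (incl n) := rfl

theorem nrm_ext (I : II (81 * n)) : nrm (ext n I) = nrm I :=
  natCast_span_inj (N := n) (by
    rw [← mul_conj, coe_ext, ← map_conjI, ← Ideal.map_mul, mul_conj, Ideal.map_span,
      Set.image_singleton, map_natCast])

theorem ext_prin (x : Ord (81 * n)) (hx : x ≠ 0) :
    ext n (prin x hx) = prin (incl n x) ((map_ne_zero_iff _ (incl_injective n)).mpr hx) :=
  Subtype.ext (by rw [coe_ext, coe_prin, coe_prin, Ideal.map_span, Set.image_singleton])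

/-- Extension on classes. -/
def extCls : Cl (81 * n) →* Cl n :=
  ((clCon (81 * n)).lift (cls.comp (ext n)) fun I J hIJ => by
    obtain ⟨α, β, hα, hβ, h⟩ := (hIJ : Rel I J)
    show cls (ext n I) = cls (ext n J)
    have e := congrArg (fun K => cls (ext n K)) h
    simp only [map_mul, ext_prin, cls_prin, one_mul] at e
    exact e).comp (Units.coeHom (ClM (81 * n)))

theorem extCls_cls (I : II (81 * n)) : extCls n (cls I) = cls (ext n I) := rfl

omit [NeZero n] in
theorem mem_comap_of_mem {J : Ideal (Ord n)} {z : Ord n} (hz : z ∈ J) :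
    (⟨9 * z.re, z.im⟩ : Ord (81 * n)) ∈ J.comap (incl n) := by
  rw [Ideal.mem_comap, incl_apply]
  convert Ideal.mul_mem_left J ((9 : ℤ) : Ord n) hz using 1
  ext <;> simp

theorem exists_ext_eq {J : II n} (h3 : (nrm J).Coprime 81) : ∃ I, ext n I = J := by
  set a := nrm J
  set J' : Ideal (Ord (81 * n)) := (J : Ideal (Ord n)).comap (incl n)
  have hinc9 : ∀ z : Ord n, incl n ⟨9 * z.re, z.im⟩ = ((9 : ℤ) : Ord n) * z := fun z => by
    rw [incl_apply]; ext <;> simp
  have haJ : (a : Ord (81 * n)) ∈ J' := by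
    rw [Ideal.mem_comap, map_natCast]; exact nrm_mem J
  obtain ⟨u, v, huv⟩ : ∃ u v : ℤ, u * a + v * 81 = 1 := by
    have := Nat.isCoprime_iff_coprime.mpr h3
    obtain ⟨u, v, e⟩ := this
    exact ⟨u, v, by exact_mod_cast e⟩
  have hprod : ∀ z ∈ (J : Ideal (Ord n)) * conjI J,
      ∃ w ∈ J' * conjI J', incl n w = ((81 : ℤ) : Ord n) * z := by
    intro z hz
    induction hz using Submodule.mul_induction_on' with
    | mem_mul_mem x hx y hy =>
      refine ⟨(⟨9 * x.re, x.im⟩ : Ord (81 * n)) * ⟨9 * y.re, y.im⟩, mul_mem_mul ?_ ?_, ?_⟩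
      · exact mem_comap_of_mem n hx
      · rw [mem_conjI_iff]
        have := mem_comap_of_mem n (mem_conjI_iff.mp hy)
        convert this using 1
        ext <;> simp
      · rw [map_mul, hinc9, hinc9]; push_cast; ring
    | add x _ y _ hx hy =>
      obtain ⟨w, hw, e⟩ := hx
      obtain ⟨w', hw', e'⟩ := hy
      exact ⟨w + w', add_mem hw hw', by rw [map_add, e, e']; ring⟩
  have hinv : J' * conjI J' = span {(a : Ord (81 * n))} := by
    refine le_antisymm (Ideal.mul_le.mpr fun x hx y hy => ?_) ?_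
    · have hm : incl n (x * y) ∈ span {(a : Ord n)} := by
        rw [← mul_conj, map_mul]
        refine mul_mem_mul hx ?_
        rw [mem_conjI_iff, ← incl_star]
        exact mem_conjI_iff.mp hy
      rw [mem_span_singleton, ← Int.cast_natCast (R := Ord n) a, Zsqrtd.intCast_dvd,
        incl_apply] at hm
      rw [mem_span_singleton, ← Int.cast_natCast (R := Ord (81 * n)) a, Zsqrtd.intCast_dvd]
      refine ⟨hm.1, ?_⟩
      obtain ⟨k, hk⟩ := hm.2
      simp only at hk
      exact ⟨u * (x * y).im + 9 * v * k, by linear_combination -(x * y).im * huv + 9 * v * hk⟩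
    · rw [span_singleton_le_iff_mem]
      obtain ⟨w, hw, e⟩ := hprod (a : Ord n) (by rw [mul_conj]; exact mem_span_singleton_self _)
      have hw' : w = ((81 : ℤ) : Ord (81 * n)) * (a : Ord (81 * n)) :=
        incl_injective n (by rw [e, map_mul, map_intCast, map_natCast])
      have haa : (a : Ord (81 * n)) * (a : Ord (81 * n)) ∈ J' * conjI J' :=
        mul_mem_mul haJ (by simpa [star_natCast] using star_mem_conjI haJ)
      have : (a : Ord (81 * n)) = (u : Ord (81 * n)) * ((a : Ord (81 * n)) * a) + (v : Ord (81 * n)) * w := by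
        rw [hw']
        have := congrArg (Int.cast : ℤ → Ord (81 * n)) huv
        push_cast at this ⊢
        linear_combination -(a : Ord (81 * n)) * this
      rw [this]
      exact add_mem (Ideal.mul_mem_left _ _ haa) (Ideal.mul_mem_left _ _ hw)
  refine ⟨⟨J', a, nrm_pos J, hinv⟩, Subtype.ext (?_ : J'.map (incl n) = (J : Ideal (Ord n)))⟩
  refine le_antisymm Ideal.map_comap_le fun z hz => ?_
  have h9 : ((9 : ℤ) : Ord n) * z ∈ J'.map (incl n) :=
    hinc9 z ▸ Ideal.mem_map_of_mem _ (mem_comap_of_mem n hz)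
  have ha : (a : Ord n) ∈ J'.map (incl n) := by
    simpa using Ideal.mem_map_of_mem (incl n) haJ
  have : z = ((u : Ord n) * z) * (a : Ord n) + (((9 * v : ℤ)) : Ord n) * (((9 : ℤ) : Ord n) * z) := by
    have := congrArg (Int.cast : ℤ → Ord n) huv
    push_cast at this ⊢
    linear_combination -z * this
  rw [this]
  exact add_mem (Ideal.mul_mem_left _ _ ha) (Ideal.mul_mem_left _ _ h9)

theorem extCls_surjective : Function.Surjective (extCls n) := fun g => by
  obtain ⟨J, hJ, rfl⟩ := exists_coprime_rep g (n := 81) (by norm_num)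
  obtain ⟨I, rfl⟩ := exists_ext_eq n hJ
  exact ⟨cls I, rfl⟩

/-- The class number of `ℤ[√-81n]` is divisible by three. -/
theorem three_dvd_card : 3 ∣ Nat.card (Cl (81 * n)) := by
  have : Fact (Nat.Prime 3) := ⟨Nat.prime_three⟩
  have hn : 0 < n := NeZero.pos n
  set A : ℕ := 1 + 9 * n with hAdef
  have h : (A : ℤ) * 9 - 3 ^ 2 = ((81 * n : ℕ) : ℤ) := by rw [hAdef]; push_cast; ring
  have hp : ∃ u v w : ℤ, u * (A : ℤ) + v * 9 + w * (2 * 3) = 1 :=
    ⟨1, -n, 0, by rw [hAdef]; push_cast; ring⟩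
  set I : II (81 * n) := rootII A 3 9 (by omega) h hp
  have hI1 : cls I ≠ 1 := by
    intro e
    obtain ⟨x, hx, hI⟩ := exists_gen_of_cls e
    have hn' : x.norm = (A : ℤ) := by rw [← nrm_prin x hx, ← hI, nrm_rootII]
    rw [norm_eq] at hn'
    have him : x.im = 0 := by
      by_contra h0
      have h1 : (1 : ℤ) ≤ x.im ^ 2 := by
        have : 0 < x.im ^ 2 := by positivity
        omega
      have h2 := le_mul_of_one_le_right (Int.natCast_nonneg (81 * n)) h1
      rw [hAdef] at hn'
      push_cast at hn' h2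
      nlinarith [sq_nonneg x.re]
    have hs : (⟨3, 1⟩ : Ord (81 * n)) ∈ (I : Ideal (Ord (81 * n))) :=
      (mem_rootII _ h hp).mpr (by simp)
    rw [hI, coe_prin, mem_span_singleton] at hs
    have hd : x = ((x.re : ℤ) : Ord (81 * n)) := Zsqrtd.ext (by simp) (by simp [him])
    rw [hd, Zsqrtd.intCast_dvd] at hs
    have h1 : x.re ^ 2 = 1 := by
      rcases Int.eq_one_or_neg_one_of_mul_eq_one (u := x.re) (v := hs.2.choose)
        hs.2.choose_spec.symm with e | e <;> rw [e] <;> ring
    rw [him, h1, hAdef] at hn'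
    push_cast at hn'
    omega
  have hI3 : cls I ^ 3 = 1 := by
    set z : Ord (81 * n) := ⟨1 - 27 * n, 1 - 3 * n⟩
    have hz0 : z ≠ 0 := fun e => by
      have := congrArg Zsqrtd.re e
      simp [z] at this
      omega
    have hmem : z ∈ ((I * I * I : II (81 * n)) : Ideal (Ord (81 * n))) := by
      have hs : (⟨3, 1⟩ : Ord (81 * n)) ∈ (I : Ideal (Ord (81 * n))) :=
        (mem_rootII _ h hp).mpr (by simp)
      have hA : (A : Ord (81 * n)) ∈ (I : Ideal (Ord (81 * n))) :=
        (mem_rootII _ h hp).mpr (by simp)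
      obtain ⟨u, v, huv⟩ : ∃ u v : ℤ, u * 27 + v * (A : ℤ) ^ 3 = 1 := by
        have h27 : IsCoprime (27 : ℤ) ((A : ℤ) ^ 3) := by
          refine IsCoprime.pow_right ?_
          have : IsCoprime (3 : ℤ) (A : ℤ) := ⟨-3 * n, 1, by rw [hAdef]; push_cast; ring⟩
          simpa using (this.pow_left (m := 3))
        exact h27
      have : z = (u : Ord (81 * n)) * ((⟨3, 1⟩ : Ord (81 * n)) * ⟨3, 1⟩ * ⟨3, 1⟩) +
          ((v : Ord (81 * n)) * z) * ((A : Ord (81 * n)) * (A : Ord (81 * n)) * (A : Ord (81 * n))) := by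
        have h27 : (⟨3, 1⟩ : Ord (81 * n)) * ⟨3, 1⟩ * ⟨3, 1⟩ = ((27 : ℤ) : Ord (81 * n)) * z := by
          ext <;> simp [z] <;> ring
        rw [h27]
        have := congrArg (Int.cast : ℤ → Ord (81 * n)) huv
        push_cast at this ⊢
        linear_combination -z * this
      rw [this, Submonoid.coe_mul, Submonoid.coe_mul]
      exact add_mem (Ideal.mul_mem_left _ _ (mul_mem_mul (mul_mem_mul hs hs) hs))
        (Ideal.mul_mem_left _ _ (mul_mem_mul (mul_mem_mul hA hA) hA))
    obtain ⟨J, hJ, hn'⟩ := exists_factor_elem hz0 hmem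
    have hz : z.norm = (A : ℤ) ^ 3 := by rw [norm_eq, hAdef]; simp [z]; ring
    rw [hz, map_mul, map_mul, nrm_rootII] at hn'
    push_cast at hn'
    have hA0 : ((A : ℤ) * A * A) ≠ 0 := by
      have : 0 < A := by omega
      positivity
    have hJ1 : nrm J = 1 := by
      exact_mod_cast mul_left_cancel₀ hA0 (b := (nrm J : ℤ)) (c := 1) (by linarith)
    rw [eq_one_of_nrm_eq_one hJ1, mul_one] at hJ
    rw [pow_succ, pow_two, ← map_mul, ← map_mul, ← hJ, cls_prin]
  have := orderOf_eq_prime hI3 hI1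
  exact this ▸ orderOf_dvd_natCard _

end FA.OrderTheta
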