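import Fermat.Agent.ThetaOne.OrderGalois
import Fermat.Agent.ThetaOne.OrderExt
import Fermat.Agent.ThetaOne.GaloisPrimes

/-!
# The ring class field of `ℤ[√-n]`

It is the subfield of the field of the class characters of `ℤ[√-81n]` fixed by the elements whose
class becomes principal in `ℤ[√-n]`.
-/

set_option autoImplicit false
set_option linter.style.haveILetI false

noncomputable section

open Module NumberField IsDedekindDomain Polynomial FA.Density
open scoped Pointwise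

namespace FA.OrderTheta

open FA.ThetaOne (DihedralFamily)

local notation "Qb" => AlgebraicClosure ℚ
local notation "GQ" => AlgebraicClosure ℚ ≃ₐ[ℚ] AlgebraicClosure ℚ

/-- A set of classes closed under inversion has as many elements above it as classes. -/
theorem card_cl_mem {G C : Type*} [Group G] [Finite G] [CommGroup C] [Finite C]
    (W : DihedralFamily G C) {T : Set C} (hT : ∀ c ∈ T, c⁻¹ ∈ T) :
    Nat.card {g : W.H // W.cl g ∈ T} = Nat.card T := by
  classical
  let _ : Fintype W.H := Fintype.ofFinite _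
  let _ : Fintype C := Fintype.ofFinite _
  set N : C → ℕ := fun c => (Finset.univ.filter fun g : W.H => W.cl g = c).card
  set t : Finset C := Finset.univ.filter (· ∈ T)
  have h1 : ∑ c ∈ t, (N c + N c⁻¹) = ∑ c ∈ t, 2 :=
    Finset.sum_congr rfl fun c _ => (W.card_cl_eq c).1
  have h2 : ∑ c ∈ t, N c⁻¹ = ∑ c ∈ t, N c :=
    Finset.sum_nbij' (fun c => c⁻¹) (fun c => c⁻¹) (fun c hc => by simpa [t] using hT c (by simpa [t] using hc))
      (fun c hc => by simpa [t] using hT c (by simpa [t] using hc)) (fun c _ => inv_inv c)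
      (fun c _ => inv_inv c) (fun _ _ => rfl)
  rw [Finset.sum_add_distrib, h2, Finset.sum_const, smul_eq_mul] at h1
  have h3 : ∑ c ∈ t, N c = (Finset.univ.filter fun g : W.H => W.cl g ∈ T).card := by
    rw [Finset.card_eq_sum_card_fiberwise (f := W.cl) (t := t) (fun g hg => by
      simp only [Finset.coe_filter, Finset.mem_univ, true_and, Set.mem_ofPred_eq] at hg
      simpa [t] using hg)]
    refine Finset.sum_congr rfl fun c hc => ?_
    simp only [N, Finset.filter_filter]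
    congr 1
    refine Finset.filter_congr fun g _ => ⟨fun e => ⟨?_, e⟩, fun e => e.2⟩
    rw [e]
    simpa [t] using hc
  rw [Nat.card_eq_fintype_card, Fintype.card_subtype, ← h3, Nat.card_eq_fintype_card,
    Fintype.card_subtype]
  show ∑ c ∈ t, N c = t.card
  omega

/-- The number of elements above a set, under a surjective homomorphism. -/
theorem card_preimage_hom {A B : Type*} [Group A] [Group B] (f : A →* B)
    (hf : Function.Surjective f) (S : Set B) :
    Nat.card (f ⁻¹' S) = Nat.card S * Nat.card f.ker := by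
  rw [← Nat.card_prod]
  refine Nat.card_congr
    { toFun := fun a => (⟨f a.1, a.2⟩, ⟨(Function.surjInv hf (f a.1))⁻¹ * a.1, by
        rw [MonoidHom.mem_ker, map_mul, map_inv, Function.surjInv_eq hf, inv_mul_cancel]⟩)
      invFun := fun p => ⟨Function.surjInv hf p.1.1 * p.2.1, by
        rw [Set.mem_preimage, map_mul, Function.surjInv_eq hf, MonoidHom.mem_ker.mp p.2.2, mul_one]
        exact p.1.2⟩
      left_inv := fun a => Subtype.ext (mul_inv_cancel_left _ _)
      right_inv := fun p => ?_ }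
  have e : f (Function.surjInv hf p.1.1 * p.2.1) = p.1.1 := by
    rw [map_mul, Function.surjInv_eq hf, MonoidHom.mem_ker.mp p.2.2, mul_one]
  refine Prod.ext (Subtype.ext e) (Subtype.ext ?_)
  show (Function.surjInv hf (f (Function.surjInv hf p.1.1 * p.2.1)))⁻¹ *
    (Function.surjInv hf p.1.1 * p.2.1) = p.2.1
  rw [e, inv_mul_cancel_left]

variable {n : ℕ}

theorem not_dvd_four_mul {q : ℕ} (hq : q.Prime) (hqn : ¬ q ∣ 6 * n) :
    ¬ q ∣ 4 * (81 * n) ∧ ¬ q ∣ 2 * n := by
  refine ⟨fun h => ?_, fun h => hqn (h.trans (mul_dvd_mul_right (by norm_num) n))⟩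
  rw [← mul_assoc] at h
  rcases hq.dvd_mul.mp h with h | h
  · rw [show 4 * 81 = 2 ^ 2 * 3 ^ 4 by norm_num] at h
    rcases hq.dvd_mul.mp h with h | h
    · exact hqn ((hq.dvd_of_dvd_pow h).trans (dvd_mul_of_dvd_left (by norm_num) n))
    · exact hqn ((hq.dvd_of_dvd_pow h).trans (dvd_mul_of_dvd_left (by norm_num) n))
  · exact hqn (h.mul_left 6)

theorem isSquare_eightyOne_iff {q : ℕ} (hq : q.Prime) (hqn : ¬ q ∣ 6 * n) :
    IsSquare (-((81 * n : ℕ) : ZMod q)) ↔ IsSquare (-(n : ZMod q)) := by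
  have : Fact q.Prime := ⟨hq⟩
  have h9 : (9 : ZMod q) ≠ 0 := fun e => hqn (by
    have := (ZMod.natCast_eq_zero_iff (3 ^ 2) q).mp (by exact_mod_cast e)
    exact (hq.dvd_of_dvd_pow this).trans (dvd_mul_of_dvd_left (by norm_num) n))
  constructor
  · rintro ⟨r, hr⟩
    refine ⟨r * 9⁻¹, ?_⟩
    push_cast at hr
    field_simp
    linear_combination hr
  · rintro ⟨r, hr⟩
    refine ⟨9 * r, ?_⟩
    push_cast
    linear_combination 81 * hr

namespace ClassData

variable [NeZero n] (R : ClassData (81 * n))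

include R

/-- The automorphisms whose class becomes `c` or `c⁻¹` in `ℤ[√-n]`. -/
def classSet (c : Cl n) : Set (R.L ≃ₐ[ℚ] R.L) :=
  {g | ∃ h : g ∈ R.W.H, extCls n (R.W.cl ⟨g, h⟩) = c ∨ extCls n (R.W.cl ⟨g, h⟩) = c⁻¹}

theorem mem_H_conj {g : R.L ≃ₐ[ℚ] R.L} (hg : g ∈ R.W.H) (x : R.L ≃ₐ[ℚ] R.L) :
    x * g * x⁻¹ ∈ R.W.H :=
  (Subgroup.normal_of_index_eq_two R.W.index_eq_two).conj_mem g hg x

theorem classSet_conj (c : Cl n) {g : R.L ≃ₐ[ℚ] R.L} (hg : g ∈ R.classSet c)
    (x : R.L ≃ₐ[ℚ] R.L) : x * g * x⁻¹ ∈ R.classSet c := by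
  obtain ⟨h, hc⟩ := hg
  refine ⟨R.mem_H_conj h x, ?_⟩
  have hcl : R.W.cl ⟨g, h⟩ = R.W.cl ⟨_, R.mem_H_conj h x⟩ ∨
      R.W.cl ⟨g, h⟩ = (R.W.cl ⟨_, R.mem_H_conj h x⟩)⁻¹ := R.W.cl_unique fun ψ => by
    rw [← R.W.trace_cl ⟨g, h⟩ ψ, map_mul, map_mul, Matrix.trace_mul_cycle, ← map_mul,
      inv_mul_cancel, map_one, one_mul]
  rcases hcl with e | e <;> rw [e] at hc
  · exact hc
  · rw [map_inv, inv_eq_iff_eq_inv, inv_inj] at hc
    exact hc.symm

theorem card_classSet (c : Cl n) :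
    Nat.card (R.classSet c) = Nat.card ({c, c⁻¹} : Set (Cl n)) * Nat.card (extCls n).ker := by
  rw [← card_preimage_hom (extCls n) (extCls_surjective n), ← card_cl_mem R.W (T := extCls n ⁻¹' {c, c⁻¹})]
  · exact Nat.card_congr
      { toFun := fun g => ⟨⟨g.1, g.2.1⟩, g.2.2⟩
        invFun := fun g => ⟨g.1.1, g.1.2, g.2⟩
        left_inv := fun _ => rfl
        right_inv := fun _ => rfl }
  · intro d hd
    simp only [Set.mem_preimage, Set.mem_insert_iff, Set.mem_singleton_iff, map_inv] at hd ⊢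
    rcases hd with e | e <;> simp [e]

theorem card_gal :
    Nat.card (R.L ≃ₐ[ℚ] R.L) = 2 * (Nat.card (Cl n) * Nat.card (extCls n).ker) := by
  rw [R.W.card_group, ← Subgroup.card_mul_index (extCls n).ker, Subgroup.index_ker,
    (extCls n).range_eq_top.mpr (extCls_surjective n), Subgroup.card_top, mul_comm (Nat.card (Cl n))]

/-- The elements fixing the ring class field of `ℤ[√-n]`. -/
def kerSub : Subgroup (R.L ≃ₐ[ℚ] R.L) where
  carrier := R.classSet 1
  one_mem' := ⟨R.W.H.one_mem, Or.inl (by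
    rw [show (⟨1, R.W.H.one_mem⟩ : R.W.H) = 1 from rfl, R.W.cl_one, map_one])⟩
  mul_mem' := by
    rintro a b ⟨ha, ha1⟩ ⟨hb, hb1⟩
    simp only [inv_one, or_self] at ha1 hb1
    refine ⟨mul_mem ha hb, Or.inl ?_⟩
    by_contra hne
    have : NeZero (Monoid.exponent (Cl n) : ℂ) :=
      ⟨Nat.cast_ne_zero.mpr Monoid.exponent_ne_zero_of_finite⟩
    obtain ⟨χ, hχ⟩ := CommGroup.exists_apply_ne_one_of_hasEnoughRootsOfUnity (Cl n) ℂ hne
    obtain ⟨θ, hθ⟩ := R.W.exists_lift (χ.comp (extCls n))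
    have hone : ∀ g : R.W.H, extCls n (R.W.cl g) = 1 → θ g = 1 := fun g hg => by
      rcases hθ g with e | e <;> rw [e] <;> simp [hg]
    have hab : θ ⟨a * b, mul_mem ha hb⟩ = 1 := by
      rw [show (⟨a * b, mul_mem ha hb⟩ : R.W.H) = ⟨a, ha⟩ * ⟨b, hb⟩ from rfl, map_mul,
        hone _ ha1, hone _ hb1, one_mul]
    rcases hθ ⟨a * b, mul_mem ha hb⟩ with e | e <;> rw [hab] at e
    · exact hχ e.symm
    · exact hχ (inv_eq_one.mp e.symm)
  inv_mem' := by
    rintro a ⟨ha, ha1⟩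
    simp only [inv_one, or_self] at ha1
    obtain ⟨y, hy⟩ := SetLike.exists_not_mem_of_ne_top R.W.H R.W.ne_top
    rw [← R.W.conj_eq_inv ha hy]
    exact R.classSet_conj 1 ⟨ha, Or.inl ha1⟩ y

theorem kerSub_normal : R.kerSub.Normal := ⟨fun _ hg x => R.classSet_conj 1 hg x⟩

theorem card_kerSub : Nat.card R.kerSub = Nat.card (extCls n).ker := by
  show Nat.card (R.classSet 1) = _
  rw [R.card_classSet, inv_one, Set.insert_eq_of_mem (Set.mem_singleton _), Nat.card_coe_set_eq,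
    Set.ncard_singleton, one_mul]

/-- A prime is represented by a form iff the class of its Frobenius is that of the form. -/
theorem mem_classSet_iff {q : ℕ} (hq : q.Prime) (hqn : ¬ q ∣ 6 * n) {A : ValuationSubring Qb}
    (hA : A.LiesOverPrime q) {σ : GQ} (hσ : A.IsFrobeniusAt σ q) (c : Cl n) :
    AlgEquiv.restrictNormalHom R.L σ ∈ R.classSet c ↔
      ∃ P : II n, nrm P = q ∧ (cls P = c ∨ cls P = c⁻¹) := by
  obtain ⟨h81, h2n⟩ := not_dvd_four_mul hq hqn
  obtain ⟨hiff, htr⟩ := R.frob q hq h81 A hA σ hσ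
  constructor
  · rintro ⟨h, hc⟩
    obtain ⟨P, hP⟩ := (exists_nrm_iff hq (not_dvd_two_mul h81)).mpr (hiff.mp h)
    refine ⟨ext n P, by rw [nrm_ext, hP], ?_⟩
    rw [← extCls_cls]
    rcases R.W.cl_unique (g := ⟨_, h⟩) (c := cls P) (fun ψ => htr P hP ψ) with e | e <;>
      rcases hc with e' | e' <;> rw [e] <;> simp [e']
  · rintro ⟨P, hP, hc⟩
    have hsq := (isSquare_eightyOne_iff hq hqn).mpr (isSquare_of_nrm hq hP)
    have h := hiff.mpr hsq
    obtain ⟨P', hP'⟩ := (exists_nrm_iff hq (not_dvd_two_mul h81)).mpr hsq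
    refine ⟨h, ?_⟩
    have he : cls P = extCls n (cls P') ∨ cls P = (extCls n (cls P'))⁻¹ := by
      rw [extCls_cls]
      rcases (prime_nrm hq h2n (P := ext n P') (by rw [nrm_ext, hP'])).2.2 P hP with e | e
      · exact Or.inl (by rw [e])
      · exact Or.inr (by rw [e, cls_conj])
    have hc' : c = cls P ∨ c = (cls P)⁻¹ := hc.imp Eq.symm fun e => by rw [e, inv_inv]
    have hcl : R.W.cl ⟨_, h⟩ = cls P' ∨ R.W.cl ⟨_, h⟩ = (cls P')⁻¹ :=
      (R.W.cl_unique (g := ⟨_, h⟩) (c := cls P') (fun ψ => htr P' hP' ψ)).imp Eq.symm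
        fun e => by rw [e, inv_inv]
    rcases hcl with e | e <;> rcases he with e' | e' <;> rcases hc' with e'' | e'' <;> rw [e] <;>
      simp [e'', e']

end ClassData

variable (n) [NeZero n]

/-- The data of the field. -/
theorem exists_classData : Nonempty (ClassData (81 * n)) :=
  nonempty_classData (by have := NeZero.pos n; omega) (three_dvd_card n)

/-- **The ring class field of `ℤ[√-n]`**, with its Frobenius elements. -/
theorem exists_ringClassField :
    ∃ (L : IntermediateField ℚ Qb) (_ : FiniteDimensional ℚ L) (_ : IsGalois ℚ L) (d : L),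
      d ^ 2 = -(n : L) ∧ finrank ℚ L = 2 * Nat.card (Cl n) ∧
      (∀ σ τ : L ≃ₐ[ℚ] L, σ d = d → τ d = d → σ * τ = τ * σ) ∧
      (∀ σ τ : L ≃ₐ[ℚ] L, σ d = d → τ d ≠ d → τ * σ * τ⁻¹ = σ⁻¹) ∧
      ∃ (R : ClassData (81 * n)) (res : (R.L ≃ₐ[ℚ] R.L) →* (L ≃ₐ[ℚ] L)),
        Function.Surjective res ∧ (∀ g, res g = 1 ↔ g ∈ R.kerSub) ∧
        (∀ σ : GQ, res (AlgEquiv.restrictNormalHom R.L σ) = AlgEquiv.restrictNormalHom L σ) := by
  obtain ⟨R⟩ := exists_classData n
  have := R.kerSub_normal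
  have : IsGalois ℚ Qb := FA.EC.isGalois_algebraicClosure
  have hnorm : Normal ℚ R.L := IsGalois.to_normal
  let π : GQ →* (R.L ≃ₐ[ℚ] R.L) := AlgEquiv.restrictNormalHom R.L
  have hπ : Function.Surjective π := AlgEquiv.restrictNormalHom_surjective Qb
  let K : Subgroup GQ := R.kerSub.comap π
  have hKle : π.ker ≤ K := fun σ hσ => by
    rw [Subgroup.mem_comap, MonoidHom.mem_ker.mp hσ]; exact one_mem _
  have hKo : IsOpen (K : Set GQ) := Subgroup.isOpen_mono hKle
    (by rw [show π.ker = R.L.fixingSubgroup from @IntermediateField.restrictNormalHom_ker ℚ Qb _ _ _ R.L hnorm]; exact IntermediateField.fixingSubgroup_isOpen _)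
  have hKn : K.Normal := Subgroup.Normal.comap R.kerSub_normal π
  let L : IntermediateField ℚ Qb := IntermediateField.fixedField K
  have hfix : L.fixingSubgroup = K :=
    InfiniteGalois.fixingSubgroup_fixedField ⟨K, Subgroup.isClosed_of_isOpen K hKo⟩
  have hfin : FiniteDimensional ℚ L :=
    (InfiniteGalois.isOpen_iff_finite L).mp (by rw [hfix]; exact hKo)
  have hgal : IsGalois ℚ L := (InfiniteGalois.normal_iff_isGalois L).mp (by rw [hfix]; exact hKn)
  let π' : GQ →* (L ≃ₐ[ℚ] L) := AlgEquiv.restrictNormalHom L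
  have hπ' : Function.Surjective π' := AlgEquiv.restrictNormalHom_surjective Qb
  have hker' : π'.ker = K := (L.restrictNormalHom_ker).trans hfix
  let e : GQ ⧸ π.ker ≃* (R.L ≃ₐ[ℚ] R.L) := QuotientGroup.quotientKerEquivOfSurjective π hπ
  let res : (R.L ≃ₐ[ℚ] R.L) →* (L ≃ₐ[ℚ] L) :=
    (QuotientGroup.lift π.ker π' (hKle.trans hker'.ge)).comp e.symm.toMonoidHom
  have hres : ∀ σ, res (π σ) = π' σ := fun σ => by
    have he : e.symm (π σ) = QuotientGroup.mk σ := e.symm_apply_eq.mpr rfl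
    show QuotientGroup.lift π.ker π' (hKle.trans hker'.ge) (e.symm (π σ)) = π' σ
    rw [he, QuotientGroup.lift_mk]
  have hres1 : ∀ g, res g = 1 ↔ g ∈ R.kerSub := fun g => by
    obtain ⟨σ, rfl⟩ := hπ g
    rw [hres, ← MonoidHom.mem_ker, hker', Subgroup.mem_comap]
  have hsurj : Function.Surjective res := fun g => by
    obtain ⟨σ, rfl⟩ := hπ' g
    exact ⟨_, hres σ⟩
  set d : Qb := (R.δL : Qb) / 9
  have hδ2 : (R.δL : Qb) ^ 2 = -(81 * (n : Qb)) := by
    have h := congrArg (algebraMap R.L Qb) R.sq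
    rw [map_pow, map_neg, map_natCast, Nat.cast_mul] at h
    exact h
  have hπd : ∀ σ : GQ, σ d = d ↔ π σ ∈ R.W.H := fun σ => by
    rw [R.mem_H, ← Subtype.coe_inj]
    show σ ((R.δL : Qb) / 9) = (R.δL : Qb) / 9 ↔ ((AlgEquiv.restrictNormalHom R.L σ R.δL : R.L) : Qb) = _
    rw [show ((AlgEquiv.restrictNormalHom R.L σ R.δL : R.L) : Qb) = σ R.δL from
      AlgEquiv.restrictNormal_commutes σ R.L R.δL, map_div₀, map_ofNat]
    refine ⟨fun h => ?_, fun h => by rw [h]⟩
    field_simp at h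
    exact h
  have hdL : d ∈ L := fun ⟨σ, hσ⟩ => (hπd σ).mpr hσ.choose
  have hd' : ∀ σ : GQ, π' σ ⟨d, hdL⟩ = ⟨d, hdL⟩ ↔ π σ ∈ R.W.H := fun σ => by
    rw [← hπd, ← Subtype.coe_inj]
    show ((AlgEquiv.restrictNormalHom L σ ⟨d, hdL⟩ : L) : Qb) = d ↔ _
    rw [show ((AlgEquiv.restrictNormalHom L σ ⟨d, hdL⟩ : L) : Qb) = σ d from
      AlgEquiv.restrictNormal_commutes σ L ⟨d, hdL⟩]
  refine ⟨L, hfin, hgal, ⟨d, hdL⟩, Subtype.ext ?_, ?_, ?_, ?_, R, res, hsurj, hres1, hres⟩
  · simp only [SubmonoidClass.coe_pow, NegMemClass.coe_neg]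
    push_cast
    rw [div_pow, hδ2]
    ring
  · have hk : res.ker = R.kerSub := Subgroup.ext hres1
    have hidx := R.kerSub.card_mul_index
    rw [R.card_gal, R.card_kerSub, ← hk, Subgroup.index_ker, res.range_eq_top.mpr hsurj,
      Subgroup.card_top] at hidx
    rw [← IsGalois.card_aut_eq_finrank]
    refine mul_left_cancel₀ (Nat.card_pos (α := (extCls n).ker)).ne' (hidx.trans ?_)
    ring
  · intro σ τ hσ hτ
    obtain ⟨s, rfl⟩ := hπ' σ
    obtain ⟨t, rfl⟩ := hπ' τ
    rw [← hres, ← hres, ← map_mul res, ← map_mul res, R.W.comm ((hd' s).mp hσ) ((hd' t).mp hτ)]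
  · intro σ τ hσ hτ
    obtain ⟨s, rfl⟩ := hπ' σ
    obtain ⟨t, rfl⟩ := hπ' τ
    rw [← hres, ← hres, ← map_inv res, ← map_inv res, ← map_mul res, ← map_mul res,
      R.W.conj_eq_inv ((hd' s).mp hσ) (mt (hd' t).mpr hτ)]

end FA.OrderTheta
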