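import Mathlib.NumberTheory.LSeries.HurwitzZeta
import Mathlib.Analysis.Complex.AbelLimit
import Mathlib.Analysis.SpecialFunctions.Complex.LogBounds
import Mathlib.Analysis.Normed.Group.Tannery
import Mathlib.Analysis.PSeries

/-!
# The exponential zeta function at `1`

For `0 < x < 1` we have `expZeta x 1 = - log (1 - e ^ (2 π i x))`, so `sinZeta x 1 = π (1/2 - x)`:
summation by parts gives continuity at `1` and Abel's limit theorem the value.
-/

set_option autoImplicit false

noncomputable section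

open Filter Topology Finset Complex HurwitzZeta
open scoped Real

namespace FA.OrderTheta

/-- `1 / (i + 1) ^ s`. -/
def powWeight (s : ℝ) (i : ℕ) : ℝ := ((i : ℝ) + 1) ^ (-s)

theorem powWeight_one (i : ℕ) : powWeight 1 i = ((i : ℝ) + 1)⁻¹ := Real.rpow_neg_one _

theorem powWeight_diff_le {s : ℝ} (hs : s ∈ Set.Icc (1 : ℝ) 2) (i : ℕ) :
    |powWeight s i - powWeight s (i + 1)| ≤ 2 / ((i : ℝ) + 1) ^ 2 := by
  obtain ⟨h1, h2⟩ := hs
  set a : ℝ := (i : ℝ) + 1 with ha
  have ha0 : 1 ≤ a := by rw [ha]; linarith [(Nat.cast_nonneg i : (0 : ℝ) ≤ i)]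
  have hw : powWeight s (i + 1) = (a + 1) ^ (-s) := by rw [powWeight, ha]; push_cast; rfl
  have hmul : (a + 1) ^ (-s) = a ^ (-s) * (a / (a + 1)) ^ s := by
    rw [Real.div_rpow (by linarith) (by linarith), Real.rpow_neg (by linarith),
      Real.rpow_neg (by linarith)]
    have : a ^ s ≠ 0 := (Real.rpow_pos_of_pos (by linarith) s).ne'
    field_simp
  have hr0 : 0 < a / (a + 1) := by positivity
  have hr1 : a / (a + 1) ≤ 1 := (div_le_one (by linarith)).mpr (by linarith)
  have hle : (a / (a + 1)) ^ (2 : ℕ) ≤ (a / (a + 1)) ^ s := by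
    rw [← Real.rpow_natCast]
    exact Real.rpow_le_rpow_of_exponent_ge hr0 hr1 (by simpa using h2)
  have hle1 : (a / (a + 1)) ^ s ≤ 1 := Real.rpow_le_one hr0.le hr1 (by linarith)
  have hA : a ^ (-s) ≤ a⁻¹ := by
    rw [← Real.rpow_neg_one]
    exact Real.rpow_le_rpow_of_exponent_le ha0 (by linarith)
  have hB : 1 - (a / (a + 1)) ^ (2 : ℕ) ≤ 2 / a := by
    rw [div_pow, one_sub_div (by positivity), div_le_div_iff₀ (by positivity) (by linarith)]
    nlinarith
  rw [show powWeight s i = a ^ (-s) from rfl, hw, hmul, abs_of_nonneg (by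
    nlinarith [Real.rpow_nonneg (show 0 ≤ a by linarith) (-s)])]
  calc a ^ (-s) - a ^ (-s) * (a / (a + 1)) ^ s = a ^ (-s) * (1 - (a / (a + 1)) ^ s) := by ring
    _ ≤ a⁻¹ * (2 / a) := mul_le_mul hA (by linarith) (by linarith) (by positivity)
    _ = 2 / a ^ 2 := by field_simp

theorem tendsto_powWeight {s : ℝ} (hs : 1 ≤ s) : Tendsto (powWeight s) atTop (𝓝 0) :=
  (tendsto_rpow_neg_atTop (by linarith)).comp
    (tendsto_atTop_add_const_right _ 1 tendsto_natCast_atTop_atTop)

/-- Summation by parts. -/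
theorem sum_mul_weight (z : ℂ) (w : ℕ → ℝ) (N : ℕ) :
    ∑ i ∈ range N, z ^ (i + 1) * (w i : ℂ) = (∑ i ∈ range N, z ^ (i + 1)) * (w N : ℂ) +
      ∑ i ∈ range N, (∑ j ∈ range (i + 1), z ^ (j + 1)) * ((w i - w (i + 1) : ℝ) : ℂ) := by
  induction N with
  | zero => simp
  | succ N ih =>
    rw [sum_range_succ, ih,
      sum_range_succ (fun i => (∑ j ∈ range (i + 1), z ^ (j + 1)) * ((w i - w (i + 1) : ℝ) : ℂ)),
      sum_range_succ (fun i => z ^ (i + 1)) N]
    push_cast
    ring

theorem norm_partial_sum_le {z : ℂ} (hz : z ≠ 1) (hn : ‖z‖ = 1) (N : ℕ) :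
    ‖∑ i ∈ range N, z ^ (i + 1)‖ ≤ 2 / ‖z - 1‖ := by
  simp_rw [pow_succ]
  rw [← sum_mul, geom_sum_eq hz, norm_mul, norm_div, hn, mul_one]
  gcongr
  exact (norm_sub_le _ _).trans (by rw [norm_pow, hn, one_pow, norm_one]; norm_num)

/-- The series `∑ z ^ n / n ^ s`, resummed so that it converges absolutely. -/
def partsTerm (z : ℂ) (s : ℝ) (i : ℕ) : ℂ :=
  (∑ j ∈ range (i + 1), z ^ (j + 1)) * ((powWeight s i - powWeight s (i + 1) : ℝ) : ℂ)

theorem norm_partsTerm_le {z : ℂ} (hz : z ≠ 1) (hn : ‖z‖ = 1) {s : ℝ}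
    (hs : s ∈ Set.Icc (1 : ℝ) 2) (i : ℕ) :
    ‖partsTerm z s i‖ ≤ 2 / ‖z - 1‖ * (2 / ((i : ℝ) + 1) ^ 2) := by
  rw [partsTerm, norm_mul, Complex.norm_real, Real.norm_eq_abs]
  exact mul_le_mul (norm_partial_sum_le hz hn _) (powWeight_diff_le hs i) (abs_nonneg _)
    (by positivity)

theorem summable_bound (C : ℝ) : Summable fun i : ℕ => C * (2 / ((i : ℝ) + 1) ^ 2) := by
  exact ((((summable_nat_add_iff 1).mpr (Real.summable_one_div_nat_pow.mpr
    (one_lt_two : 1 < 2))).mul_left (C * 2))).congr fun i => by push_cast; ring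

theorem tendsto_weighted {z : ℂ} (hz : z ≠ 1) (hn : ‖z‖ = 1) {s : ℝ}
    (hs : s ∈ Set.Icc (1 : ℝ) 2) :
    Tendsto (fun N => ∑ i ∈ range N, z ^ (i + 1) * (powWeight s i : ℂ)) atTop
      (𝓝 (∑' i, partsTerm z s i)) := by
  have h1 : Tendsto (fun N => (∑ i ∈ range N, z ^ (i + 1)) * (powWeight s N : ℂ)) atTop (𝓝 0) := by
    refine squeeze_zero_norm (fun N => ?_)
      (by simpa using ((tendsto_powWeight hs.1).norm.const_mul (2 / ‖z - 1‖)))
    rw [norm_mul, Complex.norm_real]
    exact mul_le_mul_of_nonneg_right (norm_partial_sum_le hz hn N) (norm_nonneg _)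
  have h2 := (Summable.of_norm_bounded (summable_bound _)
    (norm_partsTerm_le hz hn hs)).hasSum.tendsto_sum_nat
  have h3 := h1.add h2
  rw [zero_add] at h3
  exact h3.congr fun N => (sum_mul_weight z (powWeight s) N).symm

/-- `e ^ (2 π i x)`. -/
def circlePoint (x : ℝ) : ℂ := Complex.exp (2 * π * I * x)

theorem norm_circlePoint (x : ℝ) : ‖circlePoint x‖ = 1 := by
  rw [circlePoint, show 2 * π * I * (x : ℂ) = ((2 * π * x : ℝ) : ℂ) * I by push_cast; ring,
    Complex.norm_exp_ofReal_mul_I]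

theorem one_sub_circlePoint (x : ℝ) :
    1 - circlePoint x =
      ((2 * Real.sin (π * x) : ℝ) : ℂ) * Complex.exp (((π * (x - 1 / 2) : ℝ) : ℂ) * I) := by
  have e1 : Complex.exp (((π * (x - 1 / 2) : ℝ) : ℂ) * I) =
      Complex.exp ((π : ℂ) * x * I) * -I := by
    rw [← Complex.exp_neg_pi_div_two_mul_I, ← Complex.exp_add]
    congr 1
    push_cast
    ring
  have e2 : circlePoint x = Complex.exp ((π : ℂ) * x * I) * Complex.exp ((π : ℂ) * x * I) := by
    rw [circlePoint, ← Complex.exp_add]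
    ring_nf
  have e3 : Complex.exp ((π : ℂ) * x * I) * Complex.exp (-((π : ℂ) * x) * I) = 1 := by
    rw [← Complex.exp_add, neg_mul, add_neg_cancel, Complex.exp_zero]
  rw [e1, e2]
  push_cast
  rw [Complex.sin]
  linear_combination -e3 + (Complex.exp (-((π : ℂ) * x) * I) -
    Complex.exp ((π : ℂ) * x * I)) * Complex.exp ((π : ℂ) * x * I) * Complex.I_mul_I

theorem sin_pi_mul_pos {x : ℝ} (hx : x ∈ Set.Ioo (0 : ℝ) 1) : 0 < Real.sin (π * x) :=
  Real.sin_pos_of_pos_of_lt_pi (mul_pos Real.pi_pos hx.1)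
    (by nlinarith [Real.pi_pos, hx.2])

theorem circlePoint_ne_one {x : ℝ} (hx : x ∈ Set.Ioo (0 : ℝ) 1) : circlePoint x ≠ 1 := fun e => by
  have h := one_sub_circlePoint x
  rw [e, sub_self] at h
  rcases mul_eq_zero.mp h.symm with h' | h'
  · have := sin_pi_mul_pos hx
    have h0 : 2 * Real.sin (π * x) = 0 := by exact_mod_cast h'
    linarith
  · exact Complex.exp_ne_zero _ h'

theorem log_one_sub_circlePoint {x : ℝ} (hx : x ∈ Set.Ioo (0 : ℝ) 1) :
    Complex.log (1 - circlePoint x) =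
      Real.log (2 * Real.sin (π * x)) + ((π * (x - 1 / 2) : ℝ) : ℂ) * I := by
  obtain ⟨h0, h1⟩ := hx
  have := Real.pi_pos
  rw [one_sub_circlePoint, Complex.log_ofReal_mul (by have := sin_pi_mul_pos ⟨h0, h1⟩; linarith)
    (Complex.exp_ne_zero _), Complex.log_exp] <;>
    simp <;> nlinarith

/-- **The conditionally convergent value** of the exponential zeta function at `1`. -/
theorem expZeta_one {x : ℝ} (hx : x ∈ Set.Ioo (0 : ℝ) 1) :
    expZeta (x : UnitAddCircle) 1 = -Complex.log (1 - circlePoint x) := by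
  set z := circlePoint x with hzdef
  have hz := circlePoint_ne_one hx
  have hn := norm_circlePoint x
  set L := ∑' i, partsTerm z 1 i with hL
  -- the series at `s > 1`
  have hser : ∀ s : ℝ, 1 < s → s ≤ 2 →
      expZeta (x : UnitAddCircle) (s : ℂ) = ∑' i, partsTerm z s i := by
    intro s hs hs2
    refine tendsto_nhds_unique ?_ (tendsto_weighted hz hn ⟨hs.le, hs2⟩)
    have h := (hasSum_nat_add_iff' 1).mpr
      (hasSum_expZeta_of_one_lt_re x (s := (s : ℂ)) (by simpa using hs))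
    rw [sum_range_one, Nat.cast_zero, Complex.zero_cpow (by simp; linarith), div_zero, sub_zero] at h
    refine h.tendsto_sum_nat.congr fun N => sum_congr rfl fun i _ => ?_
    rw [circlePoint, ← Complex.exp_nat_mul, powWeight,
      Complex.ofReal_cpow (by positivity), div_eq_mul_inv, ← Complex.cpow_neg]
    push_cast
    ring_nf
  -- continuity at `1`
  have hx0 : (x : UnitAddCircle) ≠ 0 := by
    rw [Ne, AddCircle.coe_eq_zero_iff_of_mem_Ico (⟨hx.1.le, by simpa using hx.2⟩)]
    exact hx.1.ne'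
  have hlim : Tendsto (fun s : ℝ => ∑' i, partsTerm z s i) (𝓝[>] 1) (𝓝 L) := by
    refine tendsto_tsum_of_dominated_convergence (summable_bound (2 / ‖z - 1‖)) (fun i => ?_) ?_
    · refine tendsto_nhdsWithin_of_tendsto_nhds (Continuous.tendsto ?_ 1)
      unfold partsTerm powWeight
      refine continuous_const.mul (continuous_ofReal.comp (Continuous.sub ?_ ?_)) <;>
        exact (Real.continuous_const_rpow (by positivity)).comp continuous_neg
    · filter_upwards [Ioo_mem_nhdsGT one_lt_two] with s hs i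
      exact norm_partsTerm_le hz hn ⟨hs.1.le, hs.2.le⟩ i
  have hval : expZeta (x : UnitAddCircle) 1 = L := by
    refine tendsto_nhds_unique ?_ hlim
    have hc := ((differentiable_expZeta_of_ne_zero hx0).continuous.comp continuous_ofReal).tendsto
      (1 : ℝ)
    simp only [Function.comp_apply, ofReal_one] at hc
    refine (tendsto_nhdsWithin_of_tendsto_nhds hc).congr' ?_
    filter_upwards [Ioo_mem_nhdsGT one_lt_two] with s hs
    exact hser s hs.1 hs.2.le
  -- Abel's theorem
  rw [hval]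
  have hsum : Tendsto (fun N => ∑ n ∈ range N, z ^ n / (n : ℂ)) atTop (𝓝 L) := by
    refine (tendsto_add_atTop_iff_nat 1).mp
      ((tendsto_weighted hz hn (Set.left_mem_Icc.mpr one_le_two)).congr fun N => ?_)
    rw [sum_range_succ', Nat.cast_zero, div_zero, add_zero]
    refine sum_congr rfl fun i _ => ?_
    rw [powWeight_one]
    push_cast
    rw [div_eq_mul_inv]
  refine tendsto_nhds_unique (Complex.tendsto_tsum_powerSeries_nhdsWithin_lt hsum) ?_
  rw [tendsto_map'_iff]
  have hmem : 1 - z ∈ Complex.slitPlane := by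
    rw [Complex.mem_slitPlane_iff_arg]
    refine ⟨?_, sub_ne_zero.mpr hz.symm⟩
    rw [← Complex.log_im, log_one_sub_circlePoint hx]
    simp
    nlinarith [Real.pi_pos, hx.1, hx.2]
  have hc : ContinuousAt (fun r : ℝ => -Complex.log (1 - (r : ℂ) * z)) 1 := by
    refine (ContinuousAt.clog (by fun_prop) ?_).neg
    simpa using hmem
  have ht := hc.tendsto
  simp only [ofReal_one, one_mul] at ht
  refine (tendsto_nhdsWithin_of_tendsto_nhds ht).congr' ?_
  filter_upwards [Ioo_mem_nhdsLT (show (0 : ℝ) < 1 by norm_num)] with r hr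
  simp only [Function.comp_apply]
  rw [← (Complex.hasSum_taylorSeries_neg_log (z := (r : ℂ) * z) (by
    rw [norm_mul, hn, mul_one, Complex.norm_real, Real.norm_of_nonneg hr.1.le]; exact hr.2)).tsum_eq]
  exact tsum_congr fun n => by rw [mul_pow]; ring

/-- **The sawtooth**: `∑ sin (2 π n x) / n = π (1/2 - x)` on `(0, 1)`. -/
theorem sinZeta_one {x : ℝ} (hx : x ∈ Set.Ioo (0 : ℝ) 1) :
    sinZeta (x : UnitAddCircle) 1 = ((π * (1 / 2 - x) : ℝ) : ℂ) := by
  have hx' : (1 - x) ∈ Set.Ioo (0 : ℝ) 1 := ⟨by linarith [hx.2], by linarith [hx.1]⟩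
  have hneg : (-(x : UnitAddCircle)) = ((1 - x : ℝ) : UnitAddCircle) := by
    rw [AddCircle.coe_sub, AddCircle.coe_period, zero_sub]
  rw [sinZeta_eq, hneg, expZeta_one hx, expZeta_one hx', log_one_sub_circlePoint hx,
    log_one_sub_circlePoint hx', show π * (1 - x) = π - π * x by ring, Real.sin_pi_sub,
    div_eq_iff (mul_ne_zero two_ne_zero I_ne_zero)]
  push_cast
  ring

end FA.OrderTheta
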