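import Fermat.Agent.ThetaOne.Eigen2
import Mathlib.GroupTheory.FiniteAbelian.Duality
import Mathlib.GroupTheory.Perm.Cycle.Type
import Mathlib.RingTheory.RootsOfUnity.AlgebraicallyClosed

/-!
# A finite group with a dihedral representation for every character of an abelian group

`G` is a finite group with a subgroup `H` and, for every character `ψ` of a finite abelian group
`C` with `ψ² ≠ 1`, a two dimensional representation `r ψ`: on `H` it has determinant one and trace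
`ψ c + ψ c⁻¹` with `c` independent of `ψ`, outside determinant `-1` and trace `0`.  If the family
is faithful and every nontrivial character is nontrivial on some `c`, then `H` is abelian of order
`|C|`, inverted by the other elements, the map to `C` up to inversion is equidistributed, and every
irreducible two dimensional representation of `G` has the traces of some `r ψ`.
-/

set_option autoImplicit false

noncomputable section

open Matrix Finset

namespace FA.ThetaOne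

local notation "M₂" => Matrix (Fin 2) (Fin 2) ℂ

variable {C : Type*} [CommGroup C] [Finite C]

/-- `ℂ` has all the roots of unity a finite group needs. -/
local instance instRootsExponent : HasEnoughRootsOfUnity ℂ (Monoid.exponent C) :=
  haveI : NeZero (Monoid.exponent C : ℂ) :=
    ⟨Nat.cast_ne_zero.mpr Monoid.exponent_ne_zero_of_finite⟩
  inferInstance

/-- Characters whose square is not trivial. -/
abbrev NonQuad (C : Type*) [CommGroup C] := {ψ : C →* ℂˣ // ψ ^ 2 ≠ 1}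

/-- The data. -/
structure DihedralFamily (G : Type*) [Group G] [Finite G] (C : Type*) [CommGroup C] where
  /-- the subgroup of index two -/
  H : Subgroup G
  /-- the representations -/
  r : NonQuad C → G →* Matrix (Fin 2) (Fin 2) ℂ
  three_dvd : 3 ∣ Nat.card C
  ne_top : H ≠ ⊤
  det_in : ∀ g ∈ H, ∀ ψ, (r ψ g).det = 1
  det_out : ∀ g, g ∉ H → ∀ ψ, (r ψ g).det = -1
  trace_out : ∀ g, g ∉ H → ∀ ψ, (r ψ g).trace = 0
  trace_in : ∀ g ∈ H, ∃ c : C, ∀ ψ, (r ψ g).trace = (ψ.1 c : ℂ) + ((ψ.1 c)⁻¹ : ℂˣ)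
  faithful : ∀ g, (∀ ψ, r ψ g = 1) → g = 1
  nontriv : ∀ χ : C →* ℂˣ, χ ≠ 1 → ∃ g ∈ H, ∃ c : C,
    (∀ ψ, (r ψ g).trace = (ψ.1 c : ℂ) + ((ψ.1 c)⁻¹ : ℂˣ)) ∧ χ c ≠ 1

/-- Equal values of `z + z⁻¹`. -/
theorem unit_eq_or_eq_inv {z w : ℂˣ} (h : (z : ℂ) + ((z⁻¹ : ℂˣ) : ℂ) = (w : ℂ) + ((w⁻¹ : ℂˣ) : ℂ)) :
    z = w ∨ z = w⁻¹ := by
  rw [Units.val_inv_eq_inv_val, Units.val_inv_eq_inv_val] at h
  have hz := z.ne_zero
  have hw := w.ne_zero
  field_simp at h
  have : ((z : ℂ) - w) * ((z : ℂ) * w - 1) = 0 := by linear_combination h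
  rcases mul_eq_zero.mp this with h | h
  · exact Or.inl (Units.ext (sub_eq_zero.mp h))
  · exact Or.inr (eq_inv_of_mul_eq_one_left (Units.ext (by simpa using sub_eq_zero.mp h)))

theorem sum_hom_eq_zero {A : Type*} [Group A] [Fintype A] {θ : A →* ℂˣ} (hθ : θ ≠ 1) :
    ∑ a, (θ a : ℂ) = 0 := by
  obtain ⟨b, hb⟩ : ∃ b, θ b ≠ 1 := by
    by_contra h; push Not at h; exact hθ (MonoidHom.ext h)
  have h : ∑ a, (θ a : ℂ) = (θ b : ℂ) * ∑ a, (θ a : ℂ) := by
    rw [Finset.mul_sum]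
    exact (Fintype.sum_equiv (Equiv.mulLeft b) _ _ fun a => by simp).symm
  exact (mul_eq_zero.mp (show (1 - (θ b : ℂ)) * ∑ a, (θ a : ℂ) = 0 by
    linear_combination h)).resolve_left (sub_ne_zero.mpr fun e => hb (Units.ext e.symm))

theorem sum_dual [Fintype (C →* ℂˣ)] [DecidableEq C] (x : C) :
    ∑ ψ : C →* ℂˣ, (ψ x : ℂ) = if x = 1 then (Nat.card C : ℂ) else 0 := by
  split_ifs with hx
  · subst hx
    rw [← CommGroup.card_monoidHom_of_hasEnoughRootsOfUnity C ℂ, Nat.card_eq_fintype_card]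
    simp
  · refine sum_hom_eq_zero (θ := (MonoidHom.eval x : (C →* ℂˣ) →* ℂˣ)) fun h => ?_
    obtain ⟨φ, hφ⟩ := CommGroup.exists_apply_ne_one_of_hasEnoughRootsOfUnity C ℂ hx
    exact hφ (DFunLike.congr_fun h φ)

/-- Two characters at a time. -/
theorem subgroup_union {A : Type*} [Group A] (P Q : Subgroup A) (h : ∀ a, a ∈ P ∨ a ∈ Q) :
    P = ⊤ ∨ Q = ⊤ := by
  by_contra hc
  push Not at hc
  obtain ⟨a, ha⟩ := SetLike.exists_not_mem_of_ne_top P hc.1
  obtain ⟨b, hb⟩ := SetLike.exists_not_mem_of_ne_top Q hc.2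
  have haQ := (h a).resolve_left ha
  have hbP := (h b).resolve_right hb
  rcases h (a * b) with h' | h'
  · exact ha (by simpa using mul_mem h' (inv_mem hbP))
  · exact hb (by simpa using mul_mem (inv_mem haQ) h')

namespace DihedralFamily

variable {G : Type*} [Group G] [Finite G] (W : DihedralFamily G C)

include W

/-- A character of order three. -/
theorem exists_cube : ∃ ω : C →* ℂˣ, ω ^ 3 = 1 ∧ ω ^ 2 ≠ 1 := by
  have : Fact (Nat.Prime 3) := ⟨Nat.prime_three⟩
  have : Finite (C →* ℂˣ) := Nat.finite_of_card_ne_zero (by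
    rw [CommGroup.card_monoidHom_of_hasEnoughRootsOfUnity C ℂ]; exact Nat.card_pos.ne')
  obtain ⟨ω, hω⟩ := exists_prime_orderOf_dvd_card' (G := C →* ℂˣ) 3
    (by rw [CommGroup.card_monoidHom_of_hasEnoughRootsOfUnity C ℂ]; exact W.three_dvd)
  refine ⟨ω, hω ▸ pow_orderOf_eq_one ω, fun h => ?_⟩
  have := orderOf_dvd_of_pow_eq_one h
  rw [hω] at this
  norm_num at this

/-- Every character is a power of one with nontrivial square. -/
theorem exists_root (ψ : C →* ℂˣ) : ∃ (ψ' : NonQuad C) (k : ℕ), ψ'.1 ^ k = ψ := by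
  by_cases h : ψ ^ 2 = 1
  · obtain ⟨ω, h3, h2⟩ := W.exists_cube
    have hsq : ∀ c, ψ c ^ 2 = 1 := fun c => DFunLike.congr_fun h c
    refine ⟨⟨ψ * ω, fun e => h2 ?_⟩, 3, ?_⟩
    · refine MonoidHom.ext fun c => ?_
      have := DFunLike.congr_fun e c
      simp only [MonoidHom.pow_apply, MonoidHom.mul_apply, MonoidHom.one_apply] at this ⊢
      rwa [mul_pow, hsq, one_mul] at this
    · refine MonoidHom.ext fun c => ?_
      have h3' : ω c ^ 3 = 1 := DFunLike.congr_fun h3 c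
      show (ψ c * ω c) ^ 3 = ψ c
      rw [mul_pow, h3', mul_one, pow_succ, hsq, one_mul]
  · exact ⟨⟨ψ, h⟩, 1, pow_one ψ⟩

theorem nonempty_nonQuad : Nonempty (NonQuad C) := ⟨(W.exists_root 1).choose⟩

omit [Finite C] in
theorem finite_order (ψ : NonQuad C) (g : G) : W.r ψ g ^ Nat.card G = 1 := by
  rw [← map_pow, pow_card_eq_one', map_one]

/-- The class of an element of `H`. -/
def cl (g : W.H) : C := (W.trace_in g g.2).choose

omit [Finite C] in
theorem trace_cl (g : W.H) (ψ : NonQuad C) :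
    (W.r ψ g).trace = (ψ.1 (W.cl g) : ℂ) + ((ψ.1 (W.cl g))⁻¹ : ℂˣ) :=
  (W.trace_in g g.2).choose_spec ψ

/-- The class is determined up to inversion. -/
theorem cl_unique {g : W.H} {c : C}
    (h : ∀ ψ, (W.r ψ g).trace = (ψ.1 c : ℂ) + ((ψ.1 c)⁻¹ : ℂˣ)) :
    c = W.cl g ∨ c = (W.cl g)⁻¹ := by
  set d := W.cl g
  have hu : ∀ χ : C →* ℂˣ, χ c = χ d ∨ χ c = (χ d)⁻¹ := by
    intro χ
    obtain ⟨ψ, k, rfl⟩ := W.exists_root χ
    rcases unit_eq_or_eq_inv ((h ψ).symm.trans (W.trace_cl g ψ)) with e | e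
    · exact Or.inl (by simp only [MonoidHom.pow_apply, e]; rfl)
    · exact Or.inr (by simp only [MonoidHom.pow_apply, e, inv_pow]; rfl)
  let P : Subgroup (C →* ℂˣ) :=
    { carrier := {χ | χ c = χ d}
      one_mem' := rfl
      mul_mem' := fun {a b} (ha : a c = a d) (hb : b c = b d) => by
        show a c * b c = a d * b d; rw [ha, hb]
      inv_mem' := fun {a} (ha : a c = a d) => by show (a c)⁻¹ = (a d)⁻¹; rw [ha] }
  let Q : Subgroup (C →* ℂˣ) :=
    { carrier := {χ | χ c = χ d⁻¹}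
      one_mem' := rfl
      mul_mem' := fun {a b} (ha : a c = a d⁻¹) (hb : b c = b d⁻¹) => by
        show a c * b c = a d⁻¹ * b d⁻¹; rw [ha, hb]
      inv_mem' := fun {a} (ha : a c = a d⁻¹) => by show (a c)⁻¹ = (a d⁻¹)⁻¹; rw [ha] }
  have key : ∀ x y : C, (∀ χ : C →* ℂˣ, χ x = χ y) → x = y := by
    intro x y hxy
    by_contra hne
    obtain ⟨χ, hχ⟩ := CommGroup.exists_apply_ne_one_of_hasEnoughRootsOfUnity C ℂ
      (a := x * y⁻¹) (fun e => hne (mul_inv_eq_one.mp e))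
    rw [map_mul, hxy χ, map_inv, mul_inv_cancel] at hχ
    exact hχ rfl
  rcases subgroup_union P Q (fun χ => (hu χ).imp id fun e => by
    show χ c = χ d⁻¹; rw [e, map_inv]) with e | e
  · exact Or.inl (key _ _ fun χ => (e ▸ Subgroup.mem_top χ : χ ∈ P))
  · exact Or.inr (key _ _ fun χ => (e ▸ Subgroup.mem_top χ : χ ∈ Q))

omit [Finite C] in
theorem eq_one_of_det_trace {g : G} (h : g ∈ W.H) (ht : ∀ ψ, (W.r ψ g).trace = 2) : g = 1 :=
  W.faithful g fun ψ =>
    eq_one_of_trace_two Nat.card_pos (W.finite_order ψ g) (ht ψ) (W.det_in g h ψ)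

omit [Finite C] in
theorem eq_one_of_cl {g : W.H} (h : W.cl g = 1) : g = 1 :=
  Subtype.ext (W.eq_one_of_det_trace g.2 fun ψ => by
    rw [W.trace_cl g ψ, h, map_one]; norm_num)

theorem cl_one : W.cl 1 = 1 := by
  rcases W.cl_unique (g := 1) (c := 1) (fun ψ => by
    simp [Matrix.trace_one]; norm_num) with e | e
  · exact e.symm
  · exact inv_eq_one.mp e.symm

omit [Finite C] in
/-- Elements outside `H` are involutions. -/
theorem sq_of_notMem {g : G} (h : g ∉ W.H) : g * g = 1 := by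
  refine W.faithful _ fun ψ => ?_
  rw [map_mul, sq_eq_trace_det, W.trace_out g h ψ, W.det_out g h ψ]
  simp

theorem mul_mem_of_notMem {g g' : G} (h : g ∉ W.H) (h' : g' ∉ W.H) : g * g' ∈ W.H := by
  by_contra hn
  obtain ⟨ψ⟩ := W.nonempty_nonQuad
  have := W.det_out _ hn ψ
  rw [map_mul, det_mul, W.det_out g h ψ, W.det_out g' h' ψ] at this
  norm_num at this

theorem index_eq_two : W.H.index = 2 := by
  obtain ⟨h, hh⟩ := SetLike.exists_not_mem_of_ne_top W.H W.ne_top
  refine Subgroup.index_eq_two_iff.mpr ⟨h, fun g => ?_⟩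
  by_cases hg : g ∈ W.H
  · exact Or.inr ⟨hg, fun hgh => hh (by simpa using mul_mem (inv_mem hg) hgh)⟩
  · exact Or.inl ⟨W.mul_mem_of_notMem hg hh, hg⟩

omit [Finite C] in
/-- An element outside `H` inverts `H`. -/
theorem conj_eq_inv {g h : G} (hg : g ∈ W.H) (hh : h ∉ W.H) : h * g * h⁻¹ = g⁻¹ := by
  have h1 := W.sq_of_notMem (g := h * g) fun e => hh (by simpa using mul_mem e (inv_mem hg))
  rw [eq_comm, inv_eq_iff_mul_eq_one, inv_eq_of_mul_eq_one_right (W.sq_of_notMem hh)]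
  have h2 : g * (h * g * h) = h⁻¹ * (h * g * (h * g)) * h := by group
  rw [h2, h1, mul_one, inv_mul_cancel]

omit [Finite C] in
theorem comm {g g' : G} (hg : g ∈ W.H) (hg' : g' ∈ W.H) : g * g' = g' * g := by
  obtain ⟨h, hh⟩ := SetLike.exists_not_mem_of_ne_top W.H W.ne_top
  have h1 := W.conj_eq_inv (mul_mem hg hg') hh
  rw [show h * (g * g') * h⁻¹ = (h * g * h⁻¹) * (h * g' * h⁻¹) by group,
    W.conj_eq_inv hg hh, W.conj_eq_inv hg' hh, _root_.mul_inv_rev] at h1
  have := congrArg (·⁻¹) h1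
  simp only [_root_.mul_inv_rev, inv_inv] at this
  exact this.symm

/-- For every character an eigenvalue homomorphism on `H`. -/
theorem exists_lift (χ : C →* ℂˣ) :
    ∃ θ : W.H →* ℂˣ, ∀ g : W.H, θ g = χ (W.cl g) ∨ θ g = (χ (W.cl g))⁻¹ := by
  obtain ⟨ψ, k, rfl⟩ := W.exists_root χ
  obtain ⟨θ, hθ⟩ := exists_theta ((W.r ψ).comp W.H.subtype)
    (fun g g' => by simp [← map_mul, W.comm g.2 g'.2]) (fun g => W.det_in g g.2 ψ)
  refine ⟨θ ^ k, fun g => ?_⟩
  rcases unit_eq_or_eq_inv ((hθ g).trans (W.trace_cl g ψ)) with e | e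
  · exact Or.inl (by simp [e])
  · exact Or.inr (by simp [e])

omit [Finite C] in
theorem pm_eq {χ : C →* ℂˣ} {θ : W.H →* ℂˣ}
    (hθ : ∀ g : W.H, θ g = χ (W.cl g) ∨ θ g = (χ (W.cl g))⁻¹) (g : W.H) :
    (θ g : ℂ) + ((θ g)⁻¹ : ℂˣ) = (χ (W.cl g) : ℂ) + ((χ (W.cl g))⁻¹ : ℂˣ) := by
  rcases hθ g with e | e <;> rw [e]
  rw [inv_inv, add_comm]

theorem lift_ne_one {χ : C →* ℂˣ} (hχ : χ ≠ 1) {θ : W.H →* ℂˣ}
    (hθ : ∀ g : W.H, θ g = χ (W.cl g) ∨ θ g = (χ (W.cl g))⁻¹) : θ ≠ 1 := by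
  intro h
  obtain ⟨g, hg, c, hc, hne⟩ := W.nontriv χ hχ
  have h1 : χ (W.cl ⟨g, hg⟩) = 1 := by
    rcases hθ ⟨g, hg⟩ with e | e <;> rw [h, MonoidHom.one_apply, eq_comm] at e
    · exact e
    · exact inv_eq_one.mp e
  rcases W.cl_unique (g := ⟨g, hg⟩) (c := c) hc with e | e
  · exact hne (by rw [e, h1])
  · exact hne (by rw [e, map_inv, h1, inv_one])

/-- **Equidistribution.** -/
theorem card_cl_eq [Fintype W.H] [DecidableEq C] (c : C) :
    (univ.filter fun g : W.H => W.cl g = c).card +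
      (univ.filter fun g : W.H => W.cl g = c⁻¹).card = 2 ∧ Fintype.card W.H = Nat.card C := by
  classical
  have : Finite (C →* ℂˣ) := Nat.finite_of_card_ne_zero (by
    rw [CommGroup.card_monoidHom_of_hasEnoughRootsOfUnity C ℂ]; exact Nat.card_pos.ne')
  let _ : Fintype (C →* ℂˣ) := Fintype.ofFinite _
  have key : ∀ a : C, (Nat.card C : ℂ) * ((univ.filter fun g : W.H => W.cl g = a).card +
      (univ.filter fun g : W.H => W.cl g = a⁻¹).card) = 2 * Fintype.card W.H := by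
    intro a
    have hT : ∀ χ : C →* ℂˣ, ∑ g : W.H, ((χ (W.cl g) : ℂ) + ((χ (W.cl g))⁻¹ : ℂˣ)) =
        if χ = 1 then 2 * (Fintype.card W.H : ℂ) else 0 := by
      intro χ
      split_ifs with hχ
      · subst hχ
        simp
        ring
      · obtain ⟨θ, hθ⟩ := W.exists_lift χ
        simp only [← W.pm_eq hθ, Finset.sum_add_distrib]
        rw [sum_hom_eq_zero (W.lift_ne_one hχ hθ), zero_add]
        exact sum_hom_eq_zero (θ := θ⁻¹) fun e => W.lift_ne_one hχ hθ
          (MonoidHom.ext fun g => inv_eq_one.mp (DFunLike.congr_fun e g))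
    have h := Finset.sum_congr rfl fun χ (_ : χ ∈ (univ : Finset (C →* ℂˣ))) =>
      congrArg (fun z : ℂ => (χ a⁻¹ : ℂ) * z) (hT χ)
    simp only [mul_ite, mul_zero, Finset.sum_ite_eq', mem_univ, if_true, MonoidHom.one_apply,
      Units.val_one, one_mul, Finset.mul_sum] at h
    rw [← h, Finset.sum_comm]
    have e : ∀ g : W.H, ∑ χ : C →* ℂˣ,
        (χ a⁻¹ : ℂ) * ((χ (W.cl g) : ℂ) + ((χ (W.cl g))⁻¹ : ℂˣ)) =
        (if W.cl g = a then (Nat.card C : ℂ) else 0) +
          if W.cl g = a⁻¹ then (Nat.card C : ℂ) else 0 := by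
      intro g
      simp only [mul_add, ← Units.val_mul, ← map_inv, ← map_mul, Finset.sum_add_distrib, sum_dual]
      congr 1
      · exact if_congr (inv_mul_eq_one.trans eq_comm) rfl rfl
      · exact if_congr (mul_inv_eq_one.trans eq_comm) rfl rfl
    simp only [e, Finset.sum_add_distrib, ← Finset.sum_filter, Finset.sum_const, nsmul_eq_mul]
    ring
  have hH : Fintype.card W.H = Nat.card C := by
    have h := key 1
    have e : (univ.filter fun g : W.H => W.cl g = 1) = {1} := by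
      ext g
      simp only [mem_filter, mem_univ, true_and, mem_singleton]
      exact ⟨W.eq_one_of_cl, fun h => h ▸ W.cl_one⟩
    rw [inv_one, e, card_singleton] at h
    push_cast at h
    exact_mod_cast (by linear_combination (-1 / 2 : ℂ) * h :
      (Fintype.card W.H : ℂ) = Nat.card C)
  refine ⟨?_, hH⟩
  have h := key c
  rw [hH, mul_comm (2 : ℂ)] at h
  have hC : (Nat.card C : ℂ) ≠ 0 := by exact_mod_cast Nat.card_pos.ne'
  exact_mod_cast mul_left_cancel₀ hC h

theorem card_eq : Nat.card W.H = Nat.card C := by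
  classical
  let _ : Fintype W.H := Fintype.ofFinite _
  rw [Nat.card_eq_fintype_card]
  exact (W.card_cl_eq 1).2

theorem card_group : Nat.card G = 2 * Nat.card C := by
  rw [← W.H.card_mul_index, W.index_eq_two, W.card_eq, mul_comm]

/-- The number of elements of `H` with class `c` or `c⁻¹`. -/
theorem card_class (c : C) :
    Nat.card {g : W.H // W.cl g = c ∨ W.cl g = c⁻¹} = Nat.card ({c, c⁻¹} : Set C) := by
  classical
  let _ : Fintype W.H := Fintype.ofFinite _
  obtain ⟨h, -⟩ := W.card_cl_eq c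
  rw [Nat.card_eq_fintype_card, Fintype.card_subtype]
  by_cases hc : c = c⁻¹
  · rw [← hc] at h ⊢
    rw [Set.insert_eq_of_mem (Set.mem_singleton _), Nat.card_coe_set_eq, Set.ncard_singleton]
    simp only [or_self]
    omega
  · rw [Nat.card_coe_set_eq, Set.ncard_pair hc, Finset.filter_or,
      Finset.card_union_of_disjoint (Finset.disjoint_filter.mpr fun g _ (h1 : W.cl g = c) h2 => hc (h1.symm.trans h2))]
    exact h

/-- **Classification**: an irreducible two dimensional representation has the traces and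
determinants of one of the family. -/
theorem exists_eq_trace_det (ρ : G →* M₂)
    (hirr : ∀ v : Fin 2 → ℂ, v ≠ 0 → ∃ g, ∀ μ : ℂ, ρ g *ᵥ v ≠ μ • v) :
    ∃ ψ : NonQuad C, ∀ g, (ρ g).trace = (W.r ψ g).trace ∧ (ρ g).det = (W.r ψ g).det := by
  classical
  let _ : Fintype W.H := Fintype.ofFinite _
  have : Finite (C →* ℂˣ) := Nat.finite_of_card_ne_zero (by
    rw [CommGroup.card_monoidHom_of_hasEnoughRootsOfUnity C ℂ]; exact Nat.card_pos.ne')
  let _ : Fintype (C →* ℂˣ) := Fintype.ofFinite _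
  obtain ⟨v, hv0, hv⟩ := exists_common_eigenvector (ρ.comp W.H.subtype)
    (fun g g' => by simp [← map_mul, W.comm g.2 g'.2])
  obtain ⟨φ, hφ⟩ := exists_eigenchar (ρ.comp W.H.subtype) hv0 hv
  simp only [MonoidHom.comp_apply, Subgroup.coe_subtype] at hφ
  -- an element outside carries `v` to an eigenvector of the inverse character
  have hout : ∀ h, h ∉ W.H → ∀ g : W.H, ρ g *ᵥ (ρ h *ᵥ v) = ((φ g)⁻¹ : ℂˣ) • (ρ h *ᵥ v) := by
    intro h hh g
    have e : (g : G) * h = h * (g : G)⁻¹ := by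
      have := W.conj_eq_inv (inv_mem g.2) hh
      rw [inv_inv] at this
      exact (mul_inv_eq_iff_eq_mul.mp this).symm
    rw [mulVec_mulVec, ← map_mul, e, map_mul, ← mulVec_mulVec,
      show ((g : G)⁻¹ : G) = ((g⁻¹ : W.H) : G) from rfl, hφ, mulVec_smul, map_inv]
    rfl
  have hindep : ∀ h, h ∉ W.H → ∀ μ : ℂ, ρ h *ᵥ v ≠ μ • v := by
    intro h hh μ hμ
    obtain ⟨g, hg⟩ := hirr v hv0
    by_cases hgH : g ∈ W.H
    · exact hg _ (hφ ⟨g, hgH⟩)
    · refine hg (φ ⟨g * h, W.mul_mem_of_notMem hgH hh⟩ * μ) ?_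
      have e : ρ g *ᵥ v = ρ (g * h) *ᵥ (ρ h *ᵥ v) := by
        rw [mulVec_mulVec, ← map_mul, mul_assoc, W.sq_of_notMem hh, mul_one]
      rw [e, hμ, mulVec_smul]
      have h' := hφ ⟨g * h, W.mul_mem_of_notMem hgH hh⟩
      simp only at h'
      rw [h', smul_smul, mul_comm]
  obtain ⟨h₀, hh₀⟩ := SetLike.exists_not_mem_of_ne_top W.H W.ne_top
  -- the matrix of the basis
  have hbasis : ∀ h, h ∉ W.H → ∃ P : M₂, IsUnit P ∧
      (∀ g : W.H, ρ g * P = P * !![(φ g : ℂ), 0; 0, ((φ g)⁻¹ : ℂˣ)]) ∧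
      ρ h * P = P * !![0, 1; 1, 0] := by
    intro h hh
    set w := ρ h *ᵥ v with hw
    have hcol : ∀ (A : M₂) (i : Fin 2),
        A i 0 * v 0 + A i 1 * v 1 = (A *ᵥ v) i ∧ A i 0 * w 0 + A i 1 * w 1 = (A *ᵥ w) i :=
      fun A i => ⟨by simp [mulVec, dotProduct, Fin.sum_univ_two],
        by simp [mulVec, dotProduct, Fin.sum_univ_two]⟩
    refine ⟨!![v 0, w 0; v 1, w 1], ?_, fun g => ?_, ?_⟩
    · rw [Matrix.isUnit_iff_isUnit_det, det_fin_two_of, isUnit_iff_ne_zero]
      intro hdet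
      by_cases h0 : v 0 = 0
      · have h1 : v 1 ≠ 0 := fun h1 => hv0 (funext fun i => by fin_cases i <;> simp [h0, h1])
        refine hindep h hh (w 1 / v 1) (funext fun i => ?_)
        rw [← hw, Pi.smul_apply, smul_eq_mul]
        rw [h0, zero_mul, zero_sub, neg_eq_zero, mul_eq_zero] at hdet
        fin_cases i
        · simp only [Fin.zero_eta]
          rw [hdet.resolve_right h1, h0, mul_zero]
        · simp only [Fin.mk_one]
          rw [div_mul_cancel₀ _ h1]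
      · refine hindep h hh (w 0 / v 0) (funext fun i => ?_)
        rw [← hw, Pi.smul_apply, smul_eq_mul]
        fin_cases i
        · simp only [Fin.zero_eta]
          rw [div_mul_cancel₀ _ h0]
        · simp only [Fin.mk_one]
          field_simp
          linear_combination hdet
    · ext i j
      have e1 := congrFun (hφ g) i
      have e2 := congrFun (hout h hh g) i
      rw [← hw, Units.smul_def] at e2
      fin_cases j <;>
        simp [Matrix.mul_apply, Fin.sum_univ_two, Pi.smul_apply, (hcol (ρ g) i).1,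
          (hcol (ρ g) i).2, e1, e2] <;>
        fin_cases i <;> simp <;> ring
    · ext i j
      have e1 : ρ h *ᵥ w = v := by
        rw [hw, mulVec_mulVec, ← map_mul, W.sq_of_notMem hh, map_one, one_mulVec]
      fin_cases j <;>
        simp [Matrix.mul_apply, Fin.sum_univ_two, (hcol (ρ h) i).1, (hcol (ρ h) i).2, e1, ← hw] <;>
        fin_cases i <;> simp
  have hconj : ∀ {A B P : M₂}, IsUnit P → A * P = P * B → A.trace = B.trace ∧ A.det = B.det := by
    intro A B P hP e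
    obtain ⟨u, rfl⟩ := hP
    have : A = (u : M₂) * B * (u⁻¹ : M₂ˣ) := by rw [← e, mul_assoc, Units.mul_inv, mul_one]
    rw [this]
    exact ⟨trace_units_conj u B, det_units_conj u B⟩
  obtain ⟨P, hP, hPg, -⟩ := hbasis h₀ hh₀
  have hin : ∀ g : W.H, (ρ g).trace = (φ g : ℂ) + ((φ g)⁻¹ : ℂˣ) ∧ (ρ g).det = 1 := fun g => by
    obtain ⟨ht, hd⟩ := hconj hP (hPg g)
    rw [ht, hd, trace_fin_two_of, det_fin_two_of]
    simp
  have hout' : ∀ h, h ∉ W.H → (ρ h).trace = 0 ∧ (ρ h).det = -1 := fun h hh => by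
    obtain ⟨P', hP', -, hPh⟩ := hbasis h hh
    obtain ⟨ht, hd⟩ := hconj hP' hPh
    rw [ht, hd, trace_fin_two_of, det_fin_two_of]
    norm_num
  have hφ2 : φ⁻¹ ≠ φ := by
    intro e
    have hsymm : ∀ g : W.H, (φ g)⁻¹ = φ g := fun g => DFunLike.congr_fun e g
    obtain ⟨g, hg⟩ := hirr (v + ρ h₀ *ᵥ v) fun h0 => hindep h₀ hh₀ (-1) (by
      rw [neg_smul, one_smul]; exact eq_neg_of_add_eq_zero_right h0)
    have hfix : ∀ g : W.H, ρ g *ᵥ (v + ρ h₀ *ᵥ v) = (φ g : ℂ) • (v + ρ h₀ *ᵥ v) := fun g => by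
      rw [mulVec_add, hφ, hout h₀ hh₀, hsymm, smul_add]; rfl
    by_cases hgH : g ∈ W.H
    · exact hg _ (hfix ⟨g, hgH⟩)
    · refine hg (φ ⟨g * h₀, W.mul_mem_of_notMem hgH hh₀⟩) ?_
      have hswap : ρ h₀ *ᵥ (v + ρ h₀ *ᵥ v) = v + ρ h₀ *ᵥ v := by
        rw [mulVec_add, mulVec_mulVec, ← map_mul, W.sq_of_notMem hh₀, map_one, one_mulVec,
          add_comm]
      conv_lhs => rw [← hswap, mulVec_mulVec, ← map_mul]
      exact hfix ⟨g * h₀, _⟩
  have hφ1 : φ ≠ 1 := fun e => hφ2 (MonoidHom.ext fun g => by simp [e])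
  -- some lift equals `φ^±`
  obtain ⟨χ, θ, hθ, hθφ⟩ : ∃ (χ : C →* ℂˣ) (θ : W.H →* ℂˣ),
      (∀ g : W.H, θ g = χ (W.cl g) ∨ θ g = (χ (W.cl g))⁻¹) ∧ (θ = φ ∨ θ = φ⁻¹) := by
    by_contra hcon
    push Not at hcon
    have hz : ∀ χ : C →* ℂˣ, ∑ g : W.H, ((φ g : ℂ) + ((φ g)⁻¹ : ℂˣ)) *
        ((χ (W.cl g) : ℂ) + ((χ (W.cl g))⁻¹ : ℂˣ)) = 0 := by
      intro χ
      obtain ⟨θ, hθ⟩ := W.exists_lift χ
      obtain ⟨h1, h2⟩ := hcon χ θ hθ
      simp only [← W.pm_eq hθ, mul_add, add_mul, ← Units.val_mul, Finset.sum_add_distrib]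
      have z1 := sum_hom_eq_zero (θ := φ * θ) fun e => h2 (MonoidHom.ext fun g =>
        eq_inv_of_mul_eq_one_right (DFunLike.congr_fun e g))
      have z2 := sum_hom_eq_zero (θ := φ⁻¹ * θ) fun e => h1 (MonoidHom.ext fun g =>
        (inv_mul_eq_one.mp (DFunLike.congr_fun e g)).symm)
      have z3 := sum_hom_eq_zero (θ := φ * θ⁻¹) fun e => h1 (MonoidHom.ext fun g =>
        (mul_inv_eq_one.mp (DFunLike.congr_fun e g)).symm)
      have z4 := sum_hom_eq_zero (θ := φ⁻¹ * θ⁻¹) fun e => h2 (MonoidHom.ext fun g => by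
        have h' : (φ g)⁻¹ * (θ g)⁻¹ = 1 := DFunLike.congr_fun e g
        rw [← _root_.mul_inv_rev, inv_eq_one] at h'
        exact eq_inv_of_mul_eq_one_left h')
      simp only [MonoidHom.mul_apply, MonoidHom.inv_apply] at z1 z2 z3 z4
      linear_combination z1 + z2 + z3 + z4
    have h := Finset.sum_eq_zero fun χ (_ : χ ∈ (univ : Finset (C →* ℂˣ))) => hz χ
    rw [Finset.sum_comm] at h
    simp only [← Finset.mul_sum, Finset.sum_add_distrib, ← map_inv, sum_dual, inv_eq_one] at h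
    rw [Finset.sum_eq_single (1 : W.H) (fun g _ hg => by
      rw [if_neg fun e => hg (W.eq_one_of_cl e)]; ring) (fun h => absurd (mem_univ _) h),
      if_pos W.cl_one] at h
    simp at h
    exact Nat.card_pos.ne' h
  have hχ : χ ^ 2 ≠ 1 := by
    intro e
    have hθ2 : θ = θ⁻¹ := MonoidHom.ext fun g => by
      have : χ (W.cl g) * χ (W.cl g) = 1 := by
        rw [← pow_two]; exact DFunLike.congr_fun e (W.cl g)
      have h' := (eq_inv_of_mul_eq_one_left this).symm
      rcases hθ g with e' | e' <;> rw [MonoidHom.inv_apply, e'] <;> simp [h']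
    rcases hθφ with rfl | rfl
    · exact hφ2 hθ2.symm
    · exact hφ2 (MonoidHom.ext fun g => by simpa using DFunLike.congr_fun hθ2 g)
  refine ⟨⟨χ, hχ⟩, fun g => ?_⟩
  by_cases hg : g ∈ W.H
  · rw [W.det_in g hg, (hin ⟨g, hg⟩).1, (hin ⟨g, hg⟩).2, W.trace_cl ⟨g, hg⟩]
    refine ⟨?_, rfl⟩
    rw [← W.pm_eq hθ]
    rcases hθφ with rfl | rfl
    · rfl
    · rw [MonoidHom.inv_apply, inv_inv, add_comm]
  · rw [W.det_out g hg, W.trace_out g hg]
    exact hout' g hg

end DihedralFamily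

end FA.ThetaOne
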