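import Fermat.Agent.Theta.Lattice
import Fermat.Agent.Theta.Eigen
import Fermat.Agent.Twists.KroneckerChar
import Fermat.Agent.CM.PrimeSymbols
import Mathlib.NumberTheory.MulChar.Duality

/-!
# Splitting of primes and representatives of ray classes prime to a given number

In `K = ℚ(√-D)` an odd prime `l ∤ D` is the norm of a prime ideal iff `(l / D) = 1`.  Every ray
class modulo `2` contains an ideal prime to any given number, so the primes of degree one generate
the ray class group.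
-/

set_option autoImplicit false

noncomputable section

open Module NumberField Ideal

namespace FA.ThetaOne

open FA.Theta

variable {K : Type*} [Field K] [NumberField K] {D : ℕ} (S : IQ K D)

include S

/-- The character `(· / D)` modulo `4 D`. -/
def signChar : DirichletCharacter ℂ (4 * D) :=
  haveI : NeZero D := ⟨S.pos.ne'⟩
  (FA.Twists.symbolChar D).changeLevel (dvd_mul_left D 4)

theorem signChar_natCast {n : ℕ} (h : n.Coprime (4 * D)) :
    signChar S (n : ZMod (4 * D)) = (jacobiSym n D : ℂ) := by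
  have : NeZero D := ⟨S.pos.ne'⟩
  have : NeZero (4 * D) := ⟨by have := S.pos; omega⟩
  rw [← ZMod.coe_unitOfCoprime n h, signChar,
    DirichletCharacter.changeLevel_eq_cast_of_dvd, ZMod.coe_unitOfCoprime,
    ZMod.cast_natCast (dvd_mul_left D 4), FA.Twists.symbolChar_natCast]

/-- `(-D)` is a square modulo the norm of a prime of degree one. -/
theorem isSquare_of_norm_eq {l : ℕ} (hl : l.Prime) {P : Ideal (𝓞 K)} (hP : absNorm P = l) :
    IsSquare (-(D : ZMod l)) := by
  have : Fact l.Prime := ⟨hl⟩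
  have hcard : Nat.card (𝓞 K ⧸ P) = l := by
    rw [← hP, absNorm_apply, Submodule.cardQuot_apply]
  have : Finite (𝓞 K ⧸ P) := Nat.finite_of_card_ne_zero (hcard ▸ hl.ne_zero)
  have : Fintype (𝓞 K ⧸ P) := Fintype.ofFinite _
  let e : ZMod l ≃+* 𝓞 K ⧸ P := ZMod.ringEquivOfPrime _ hl
    (by rw [Fintype.card_eq_nat_card, hcard])
  refine ⟨e.symm (Ideal.Quotient.mk P S.δ), e.injective ?_⟩
  have h := congrArg (Ideal.Quotient.mk P) S.sq
  simp only [map_pow, map_neg, map_natCast] at h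
  simp [← pow_two, h]

theorem exists_norm_eq_iff {l : ℕ} (hl : l.Prime) (hl2 : l ≠ 2) (hlD : ¬ l ∣ D) :
    (∃ P : Ideal (𝓞 K), absNorm P = l) ↔ jacobiSym l D = 1 := by
  have : Fact l.Prime := ⟨hl⟩
  rw [← FA.CM.PrimeSymbols.jacobiSym_neg_prime (by have := S.mod8; omega) (hl.odd_of_ne_two hl2),
    ← jacobiSym.legendreSym.to_jacobiSym, legendreSym.eq_one_iff]
  swap
  · simpa [ZMod.natCast_eq_zero_iff] using hlD
  constructor
  · rintro ⟨P, hP⟩
    simpa using isSquare_of_norm_eq S hl hP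
  · rintro ⟨r, hr⟩
    by_contra hno
    push Not at hno
    obtain ⟨a, rfl⟩ := ZMod.intCast_surjective r
    obtain ⟨P, hP, hlP⟩ : ∃ P : Ideal (𝓞 K), P.IsMaximal ∧ (l : 𝓞 K) ∈ P := by
      have : Ideal.span {(l : 𝓞 K)} ≠ ⊤ := by
        intro e
        have h := S.absNorm_span_nat l
        rw [e, absNorm_top] at h
        have : 1 < l ^ 2 := Nat.one_lt_pow two_ne_zero hl.one_lt
        omega
      obtain ⟨P, hP, hle⟩ := exists_le_maximal _ this
      exact ⟨P, hP, hle (mem_span_singleton_self _)⟩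
    have hPl := S.eq_span_of_inert hl hno hP hlP
    have hz : ((-(D : ℤ) - a * a : ℤ) : ZMod l) = 0 := by
      push_cast at hr ⊢
      rw [hr, sub_self]
    obtain ⟨k, hk⟩ := (ZMod.intCast_zmod_eq_zero_iff_dvd _ _).mp hz
    have hmem : (S.δ - (a : 𝓞 K)) * (S.δ + (a : 𝓞 K)) ∈ P := by
      have e : (S.δ - (a : 𝓞 K)) * (S.δ + (a : 𝓞 K)) = (l : 𝓞 K) * (k : 𝓞 K) := by
        have h := congrArg (Int.cast : ℤ → 𝓞 K) hk
        push_cast at h
        linear_combination S.sq + h
      exact e ▸ Ideal.mul_mem_right _ _ hlP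
    have hel : ∀ s : ℤ, S.δ + (s : 𝓞 K) = S.el (-1 + s) 2 := fun s => by
      simp only [IQ.el]; push_cast; linear_combination -S.two_omega
    have hdvd : ∃ s : ℤ, (l : 𝓞 K) ∣ S.el (-1 + s) 2 := by
      rw [hPl] at hmem hP
      rcases hP.isPrime.mem_or_mem hmem with h | h
      · exact ⟨-a, hel (-a) ▸ mem_span_singleton.mp (by simpa [← sub_eq_add_neg] using h)⟩
      · exact ⟨a, hel a ▸ mem_span_singleton.mp h⟩
    obtain ⟨s, hs⟩ := hdvd
    rw [S.natCast_dvd_iff, S.re_el, S.im_el] at hs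
    have : l ∣ 2 := Int.natCast_dvd_natCast.mp hs.2
    exact hl2 ((Nat.prime_dvd_prime_iff_eq hl Nat.prime_two).mp this)

/-- The character takes the value `1` at the norms of primes of degree one and `-1` at the other
primes. -/
theorem signChar_prime {l : ℕ} (hl : l.Prime) (hlN : ¬ l ∣ 4 * D) :
    ((∃ P : Ideal (𝓞 K), absNorm P = l) ∧ signChar S (l : ZMod (4 * D)) = 1) ∨
      ((∀ P : Ideal (𝓞 K), absNorm P ≠ l) ∧ signChar S (l : ZMod (4 * D)) = -1) := by
  have hl2 : l ≠ 2 := fun e => hlN (e ▸ dvd_mul_of_dvd_left (by norm_num) D)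
  have hlD : ¬ l ∣ D := fun e => hlN (e.mul_left 4)
  rw [signChar_natCast S ((Nat.Prime.coprime_iff_not_dvd hl).mpr hlN)]
  by_cases hex : ∃ P : Ideal (𝓞 K), absNorm P = l
  · exact Or.inl ⟨hex, by rw [(exists_norm_eq_iff S hl hl2 hlD).mp hex, Int.cast_one]⟩
  · refine Or.inr ⟨fun P hP => hex ⟨P, hP⟩, ?_⟩
    have h1 : jacobiSym l D ≠ 1 := fun e => hex ((exists_norm_eq_iff S hl hl2 hlD).mpr e)
    have h0 : jacobiSym l D ≠ 0 :=
      fun e => by
        have : NeZero D := ⟨S.pos.ne'⟩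
        exact jacobiSym.eq_zero_iff_not_coprime.mp e
          (by rw [Int.gcd_natCast_natCast]; exact (Nat.Prime.coprime_iff_not_dvd hl).mpr hlD)
    rcases jacobiSym.trichotomy (l : ℤ) D with h | h | h
    · exact absurd h h0
    · exact absurd h h1
    · rw [h]; push_cast; rfl

omit S in
/-- A prime contains its norm's prime number. -/
lemma exists_norm_pow {P : Ideal (𝓞 K)} (hP : Prime P) :
    ∃ l : ℕ, l.Prime ∧ (l : 𝓞 K) ∈ P ∧ l ∣ absNorm P := by
  have hPm : P.IsMaximal := (isPrime_of_prime hP).isMaximal hP.ne_zero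
  have hN : absNorm P ≠ 1 := fun e => hPm.ne_top (absNorm_eq_one_iff.mp e)
  obtain ⟨l, hl, hdvd⟩ := Nat.exists_prime_and_dvd hN
  obtain ⟨P', hP', hlP', hd⟩ := exists_prime_dvd_of_dvd_absNorm hl hdvd
  obtain rfl : P = P' := hPm.eq_of_le hP'.ne_top (dvd_iff_le.mp hd)
  exact ⟨l, hl, hlP', hdvd⟩

/-- Every ray class contains an ideal prime to a given number. -/
theorem exists_coprime_rep (g : Ray K) {n : ℕ} (hn : n ≠ 0) :
    ∃ b : oddIdeals K, (absNorm (b : Ideal (𝓞 K))).Coprime n ∧ S.cls b = g := by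
  classical
  let H : Subgroup (Ray K) := Subgroup.closure
    {x | ∃ b : oddIdeals K, (absNorm (b : Ideal (𝓞 K))).Coprime n ∧ S.cls b = x}
  have hprime : ∀ P : oddIdeals K, Prime (P : Ideal (𝓞 K)) → S.cls P ∈ H := by
    intro P hP
    have hPm : (P : Ideal (𝓞 K)).IsMaximal := (isPrime_of_prime hP).isMaximal hP.ne_zero
    have hI : span {((2 * n : ℕ) : 𝓞 K)} ≠ ⊥ := by simp [hn]
    let s : Finset (Ideal (𝓞 K)) := insert (P : Ideal (𝓞 K))
      (UniqueFactorizationMonoid.normalizedFactors (span {((2 * n : ℕ) : 𝓞 K)})).toFinset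
    have hs : ∀ R ∈ s, Prime R := by
      intro R hR
      rcases Finset.mem_insert.mp hR with rfl | hR
      · exact hP
      · exact UniqueFactorizationMonoid.prime_of_normalized_factor R (Multiset.mem_toFinset.mp hR)
    obtain ⟨π, hπ, hπ2⟩ : ∃ π, π ∈ (P : Ideal (𝓞 K)) ∧ π ∉ (P : Ideal (𝓞 K)) ^ 2 := by
      obtain ⟨π, h1, h2⟩ :=
        exists_mem_pow_notMem_pow_succ (P : Ideal (𝓞 K)) hP.ne_zero hPm.ne_top 1
      exact ⟨π, by simpa using h1, h2⟩
    obtain ⟨α, hα⟩ := IsDedekindDomain.exists_forall_sub_mem_ideal (s := s) id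
      (fun R => if R = (P : Ideal (𝓞 K)) then 2 else 1) hs (fun i _ j _ h => h)
      (fun R => if (R : Ideal (𝓞 K)) = (P : Ideal (𝓞 K)) then π else 1)
    have hαP := hα (P : Ideal (𝓞 K)) (Finset.mem_insert_self _ _)
    simp only [id_eq, if_true] at hαP
    have hαP1 : α ∈ (P : Ideal (𝓞 K)) := by
      have := add_mem (Ideal.pow_le_self two_ne_zero hαP) hπ
      simpa using this
    have hαR : ∀ R ∈ s, R ≠ (P : Ideal (𝓞 K)) → α - 1 ∈ R := by
      intro R hR hne
      have := hα R hR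
      simpa [hne] using this
    have hmem : ∀ R : Ideal (𝓞 K), R.IsMaximal → ((2 * n : ℕ) : 𝓞 K) ∈ R → R ∈ s := by
      intro R hR hmem
      refine Finset.mem_insert_of_mem (Multiset.mem_toFinset.mpr ?_)
      exact (Ideal.mem_normalizedFactors_iff hI).mpr
        ⟨hR.isPrime, (span_singleton_le_iff_mem R).mpr hmem⟩
    have hmax : (span {(2 : 𝓞 K)}).IsMaximal :=
      ((span_singleton_prime two_ne_zero).mpr S.prime_two).isMaximal (by simp)
    have h2P : (2 : 𝓞 K) ∉ (P : Ideal (𝓞 K)) := fun h => by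
      have e : span {(2 : 𝓞 K)} = (P : Ideal (𝓞 K)) :=
        hmax.eq_of_le hPm.ne_top ((span_singleton_le_iff_mem _).mpr h)
      exact (S.odd_span_iff 2).mp (e ▸ P.2) dvd_rfl
    have hone : OneMod2 α := by
      refine mem_span_singleton.mp (hαR _ (hmem _ hmax ?_) fun e => h2P ?_)
      · rw [Nat.cast_mul]; exact Ideal.mul_mem_right _ _ (mem_span_singleton_self _)
      · rw [← e]; exact mem_span_singleton_self _
    obtain ⟨R, hR⟩ := dvd_span_singleton.mpr hαP1
    have hRodd : R ∈ oddIdeals K := by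
      have : Odd (absNorm (span {α})) := (S.odd_span_iff α).mpr (S.not_dvd_of_oneMod2 hone)
      rw [hR, map_mul, Nat.odd_mul] at this
      exact this.2
    have hRcop : (absNorm R).Coprime n := by
      refine Nat.coprime_of_dvd fun p hp hpR hpn => ?_
      obtain ⟨R', hR', hpR', hdvd⟩ := exists_prime_dvd_of_dvd_absNorm hp hpR
      have hn' : ((2 * n : ℕ) : 𝓞 K) ∈ R' := by
        obtain ⟨k, rfl⟩ := hpn
        rw [show 2 * (p * k) = p * (2 * k) by ring, Nat.cast_mul]
        exact Ideal.mul_mem_right _ _ hpR'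
      by_cases hne : R' = (P : Ideal (𝓞 K))
      · refine hπ2 ?_
        have hα2 : α ∈ (P : Ideal (𝓞 K)) ^ 2 := by
          rw [← dvd_span_singleton, hR, pow_two]
          exact mul_dvd_mul_left _ (hne ▸ hdvd)
        simpa using sub_mem hα2 hαP
      · have h1 : α ∈ R' := by
          rw [← dvd_span_singleton, hR]; exact hdvd.trans (dvd_mul_left _ _)
        have := sub_mem h1 (hαR R' (hmem R' hR' hn') hne)
        exact hR'.ne_top ((eq_top_iff_one _).mpr (by simpa using this))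
    have h1 : S.cls (P * ⟨R, hRodd⟩) = 1 :=
      S.cls_eq_one_of_oneMod2 (x := α) (by simp [hR]) hone
    rw [map_mul] at h1
    rw [eq_inv_of_mul_eq_one_left h1]
    exact inv_mem (Subgroup.subset_closure ⟨⟨R, hRodd⟩, hRcop, rfl⟩)
  have hall : ∀ (I : Ideal (𝓞 K)) (hI : I ∈ oddIdeals K), S.cls ⟨I, hI⟩ ∈ H := by
    intro I
    induction I using UniqueFactorizationMonoid.induction_on_prime with
    | h₁ => intro hI; exact absurd rfl (ne_bot_of_odd hI)
    | h₂ I hI' =>
      intro hI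
      obtain rfl : I = ⊤ := Ideal.isUnit_iff.mp hI'
      rw [show (⟨⊤, hI⟩ : oddIdeals K) = 1 from Subtype.ext one_eq_top.symm, map_one]
      exact one_mem _
    | h₃ I P hI' hP ih =>
      intro hI
      have hh : Odd (absNorm P) ∧ Odd (absNorm I) := by
        rw [← Nat.odd_mul, ← map_mul]; exact hI
      rw [show (⟨P * I, hI⟩ : oddIdeals K) = ⟨P, hh.1⟩ * ⟨I, hh.2⟩ from rfl, map_mul]
      exact mul_mem (hprime ⟨P, hh.1⟩ hP) (ih hh.2)
  have : Finite (Ray K) := S.finite_ray
  have hg : g ∈ H := by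
    obtain ⟨a, rfl⟩ := S.cls_surjective g
    exact hall a a.2
  have hmon : g ∈ Submonoid.closure
      {x | ∃ b : oddIdeals K, (absNorm (b : Ideal (𝓞 K))).Coprime n ∧ S.cls b = x} := by
    rwa [← Subgroup.closure_toSubmonoid_of_isOfFinOrder fun x _ => isOfFinOrder_of_finite x,
      Subgroup.mem_toSubmonoid]
  refine Submonoid.closure_induction (fun x hx => hx) ⟨1, by simp, map_one _⟩ ?_ hmon
  rintro x y - - ⟨b, hb, rfl⟩ ⟨b', hb', rfl⟩
  exact ⟨b * b', by rw [Submonoid.coe_mul, map_mul]; exact Nat.Coprime.mul_left hb hb',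
    map_mul _ _ _⟩

variable {A : Type*} [Monoid A]

/-- A nontrivial character is nontrivial at a prime of degree one outside a finite set. -/
theorem exists_split_ne_one {ψ : Ray K →* A} (hψ : ψ ≠ 1) {n : ℕ} (hn : n ≠ 0) :
    ∃ (l : ℕ) (P : oddIdeals K), l.Prime ∧ ¬ l ∣ n ∧ absNorm (P : Ideal (𝓞 K)) = l ∧
      ψ (S.cls P) ≠ 1 := by
  by_contra hcon
  push Not at hcon
  refine hψ (MonoidHom.ext fun g => ?_)
  obtain ⟨b, hb, rfl⟩ := exists_coprime_rep S g hn
  suffices ∀ (I : Ideal (𝓞 K)) (hI : I ∈ oddIdeals K), (absNorm I).Coprime n →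
      ψ (S.cls ⟨I, hI⟩) = 1 from this b b.2 hb
  intro I
  induction I using UniqueFactorizationMonoid.induction_on_prime with
  | h₁ => intro hI; exact absurd rfl (ne_bot_of_odd hI)
  | h₂ I hI' =>
    intro hI _
    obtain rfl : I = ⊤ := Ideal.isUnit_iff.mp hI'
    rw [show (⟨⊤, hI⟩ : oddIdeals K) = 1 from Subtype.ext one_eq_top.symm, map_one, map_one]
  | h₃ I P hI' hP ih =>
    intro hI hcop
    have hh : Odd (absNorm P) ∧ Odd (absNorm I) := by
      rw [← Nat.odd_mul, ← map_mul]; exact hI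
    rw [map_mul, Nat.coprime_mul_iff_left] at hcop
    rw [show (⟨P * I, hI⟩ : oddIdeals K) = ⟨P, hh.1⟩ * ⟨I, hh.2⟩ from rfl, map_mul, map_mul,
      ih hh.2 hcop.2, mul_one]
    obtain ⟨l, hl, hlP, hdvd⟩ := exists_norm_pow hP
    have hln : ¬ l ∣ n := (Nat.Prime.coprime_iff_not_dvd hl).mp (hcop.1.coprime_dvd_left hdvd)
    have hPm : P.IsMaximal := (isPrime_of_prime hP).isMaximal hP.ne_zero
    by_cases hPl : absNorm P = l
    · exact hcon l ⟨P, hh.1⟩ hl hln hPl
    · have hspan : P = span {(l : 𝓞 K)} := by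
        by_cases hno : ∀ R : Ideal (𝓞 K), absNorm R ≠ l
        · exact S.eq_span_of_inert hl hno hPm hlP
        · obtain ⟨R, hR⟩ : P ∣ span {(l : 𝓞 K)} := dvd_span_singleton.mpr hlP
          have h := congrArg absNorm hR
          rw [map_mul, S.absNorm_span_nat] at h
          obtain ⟨i, hi, he⟩ := (Nat.dvd_prime_pow hl).mp ⟨_, h⟩
          interval_cases i
          · exact absurd (absNorm_eq_one_iff.mp (by simpa using he)) hPm.ne_top
          · exact absurd (by simpa using he) hPl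
          · rw [he] at h
            have : absNorm R = 1 :=
              mul_left_cancel₀ (pow_ne_zero 2 hl.ne_zero) (by rw [← h, mul_one])
            rw [hR, absNorm_eq_one_iff.mp this, mul_top]
      rw [S.cls_eq_one_of_oneMod2 (x := (l : 𝓞 K)) hspan ?_, map_one]
      obtain ⟨k, hk⟩ : Odd l := hh.1.of_dvd_nat hdvd
      exact ⟨k, by rw [hk]; push_cast; ring⟩

end FA.ThetaOne
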