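import Fermat.Agent.ThetaOne.Modular
import Fermat.Agent.ThetaOne.Classes

/-!
# The weight one cusp form of a ring class character

For a character `ψ` of the ray classes modulo `2` with `ψ² ≠ 1` the combination
`½ ∑ ψ(g)⁻¹ θ_g` is a cusp form of weight one on `Γ₁(4D)`; its coefficient at odd `n` is the sum of
`ψ(b)` over the ideals `b` of norm `n`, and it satisfies the Hecke relations at the primes `l ∤ 4D`
with character `(· / D)`.
-/

set_option autoImplicit false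

noncomputable section

open Module NumberField Ideal Finset
open CongruenceSubgroup (Gamma1)
open scoped MatrixGroups

namespace FA.ThetaOne

open FA.Theta

variable {K : Type*} [Field K] [NumberField K] {D : ℕ} (S : IQ K D) [Fintype (Ray K)]

include S

/-- The coefficients of the theta series of `ψ`. -/
def coef (ψ : Ray K →* ℂˣ) (n : ℕ) : ℂ :=
  1 / 2 * ∑ g : Ray K, ((ψ g)⁻¹ : ℂˣ) * (S.cnt (S.rep g) n : ℂ)

variable (ψ : Ray K →* ℂˣ)

theorem coef_one : coef S ψ 1 = 1 := by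
  classical
  have h1 : S.cnt (S.rep 1) 1 = 2 := by
    rw [← S.cnt_one_one]
    exact S.cnt_congr (S.cls_eq_iff.mp (by rw [IQ.cls_rep, map_one])) 1
  rw [coef, Finset.sum_eq_single 1]
  · simp [h1]
  · intro g _ hg
    rw [S.cnt_one_eq_zero (S.rep g) (by rwa [IQ.cls_rep]), Nat.cast_zero, mul_zero]
  · exact fun h => absurd (Finset.mem_univ _) h

/-- The two primes above a split prime. -/
theorem coef_split {l : ℕ} (hl : l.Prime) (hlN : ¬ l ∣ 4 * D) (P : oddIdeals K)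
    (hP : absNorm (P : Ideal (𝓞 K)) = l) (n : ℕ) :
    coef S ψ (n * l) + (if l ∣ n then coef S ψ (n / l) else 0) =
      ((ψ (S.cls P) : ℂ) + ((ψ (S.cls P))⁻¹ : ℂˣ)) * coef S ψ n := by
  have hl2 : l ≠ 2 := fun e => hlN (e ▸ dvd_mul_of_dvd_left (by norm_num) D)
  have hlD : ¬ l ∣ D := fun e => hlN (e.mul_left 4)
  obtain ⟨Q₀, hPQ, hQ₀, hne⟩ := S.exists_conj hl hl2 hlD hP
  have hlodd := hl.odd_of_ne_two hl2
  let Q : oddIdeals K := ⟨Q₀, by rw [mem_oddIdeals, hQ₀]; exact hlodd⟩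
  have hQc : S.cls Q = (S.cls P)⁻¹ := by
    have h1 : S.cls (P * Q) = 1 := by
      refine S.cls_eq_one_of_oneMod2 (x := (l : 𝓞 K)) hPQ ?_
      obtain ⟨k, hk⟩ := hlodd
      exact ⟨k, by rw [hk]; push_cast; ring⟩
    rw [map_mul] at h1
    exact eq_inv_of_mul_eq_one_right h1
  have hrel : ∀ g, (S.cnt (S.rep g) (n * l) : ℂ) +
      (if l ∣ n then (S.cnt (S.rep g) (n / l) : ℂ) else 0) =
      (S.cnt (S.rep (g * S.cls P)) n : ℂ) + S.cnt (S.rep (g * S.cls Q)) n := fun g => by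
    have h := S.cnt_split hl (S.rep g) P Q hPQ hP hQ₀
      (fun e => hne (congrArg Subtype.val e)) n
    rw [S.cnt_rep_mul, S.cnt_rep_mul] at h
    rw [← Nat.cast_add, ← h]
    push_cast
    split_ifs <;> simp
  have hshift : ∀ k : Ray K, ∑ g, (((ψ g)⁻¹ : ℂˣ) : ℂ) * (S.cnt (S.rep (g * k)) n : ℂ) =
      (ψ k : ℂ) * ∑ g, (((ψ g)⁻¹ : ℂˣ) : ℂ) * (S.cnt (S.rep g) n : ℂ) := fun k => by
    rw [Finset.mul_sum]
    refine Fintype.sum_equiv (Equiv.mulRight k) _ _ fun g => ?_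
    simp only [Equiv.coe_mulRight, map_mul, mul_inv, Units.val_mul]
    rw [← mul_assoc, mul_comm (ψ k : ℂ), mul_assoc (((ψ g)⁻¹ : ℂˣ) : ℂ), Units.inv_mul, mul_one]
  simp only [coef]
  rw [show (if l ∣ n then 1 / 2 * ∑ g : Ray K, (((ψ g)⁻¹ : ℂˣ) : ℂ) * (S.cnt (S.rep g) (n / l) : ℂ)
      else 0) = 1 / 2 * ∑ g : Ray K, (((ψ g)⁻¹ : ℂˣ) : ℂ) *
        (if l ∣ n then (S.cnt (S.rep g) (n / l) : ℂ) else 0) by split_ifs <;> simp,
    ← mul_add, ← Finset.sum_add_distrib]
  simp only [← mul_add, hrel]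
  simp only [mul_add, Finset.sum_add_distrib, hshift]
  rw [hQc, map_inv]
  ring

theorem coef_inert {l : ℕ} (hl : l.Prime) (hlN : ¬ l ∣ 4 * D)
    (hno : ∀ P : Ideal (𝓞 K), absNorm P ≠ l) (n : ℕ) :
    coef S ψ (n * l) = if l ∣ n then coef S ψ (n / l) else 0 := by
  have hl2 : l ≠ 2 := fun e => hlN (e ▸ dvd_mul_of_dvd_left (by norm_num) D)
  simp only [coef, S.cnt_inert hl hl2 hno]
  split_ifs <;> simp

theorem coef_prime_split {l : ℕ} (hl : l.Prime) (hlN : ¬ l ∣ 4 * D) (P : oddIdeals K)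
    (hP : absNorm (P : Ideal (𝓞 K)) = l) :
    coef S ψ l = (ψ (S.cls P) : ℂ) + ((ψ (S.cls P))⁻¹ : ℂˣ) := by
  have h := coef_split S ψ hl hlN P hP 1
  rw [one_mul, if_neg (fun e => hl.ne_one (Nat.dvd_one.mp e)), coef_one] at h
  simpa using h

theorem coef_prime_inert {l : ℕ} (hl : l.Prime) (hlN : ¬ l ∣ 4 * D)
    (hno : ∀ P : Ideal (𝓞 K), absNorm P ≠ l) : coef S ψ l = 0 := by
  have h := coef_inert S ψ hl hlN hno 1
  rwa [one_mul, if_neg (fun e => hl.ne_one (Nat.dvd_one.mp e))] at h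

/-- The Hecke relations. -/
theorem coef_hecke {l : ℕ} (hl : l.Prime) (hlN : ¬ l ∣ 4 * D) (n : ℕ) :
    coef S ψ (l * n) + signChar S (l : ZMod (4 * D)) * (if l ∣ n then coef S ψ (n / l) else 0) =
      coef S ψ l * coef S ψ n := by
  rw [mul_comm l n]
  rcases signChar_prime S hl hlN with ⟨⟨P, hP⟩, hε⟩ | ⟨hno, hε⟩
  · have hlodd := hl.odd_of_ne_two fun e => hlN (e ▸ dvd_mul_of_dvd_left (by norm_num) D)
    let P' : oddIdeals K := ⟨P, by rw [mem_oddIdeals, hP]; exact hlodd⟩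
    rw [hε, one_mul, coef_split S ψ hl hlN P' hP n, coef_prime_split S ψ hl hlN P' hP]
  · rw [hε, coef_inert S ψ hl hlN hno, coef_prime_inert S ψ hl hlN hno]
    ring

/-- The weighted Gauss sums cancel for `ψ² ≠ 1`. -/
theorem sum_gauss_eq_zero (hψ : ψ ^ 2 ≠ 1) (n : ℕ) [NeZero n] (u : ZMod n) :
    ∑ g : Ray K, (((ψ g)⁻¹ : ℂˣ) : ℂ) * (S.form (S.rep g)).gauss n u 0 = 0 := by
  obtain ⟨g₀, hg₀⟩ : ∃ g, (ψ g) ^ 2 ≠ 1 := by
    by_contra h; push Not at h; exact hψ (MonoidHom.ext h)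
  obtain ⟨b, hb, rfl⟩ := exists_coprime_rep S g₀ (NeZero.ne n)
  set k := S.cls b * S.cls b
  set F : ℂ := ∑ g : Ray K, (((ψ g)⁻¹ : ℂˣ) : ℂ) * (S.form (S.rep g)).gauss n u 0
  have h : F = (((ψ k)⁻¹ : ℂˣ) : ℂ) * F := by
    rw [Finset.mul_sum]
    refine (Fintype.sum_equiv (Equiv.mulRight k) _ _ fun g => ?_).symm
    rw [Equiv.coe_mulRight, S.gauss_rep_sq g b n hb u]
    simp only [k, map_mul, mul_inv, Units.val_mul]
    ring
  have hk : (((ψ k)⁻¹ : ℂˣ) : ℂ) ≠ 1 := by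
    rw [Units.val_eq_one.ne, Ne, inv_eq_one, map_mul, ← pow_two]
    exact hg₀
  exact (mul_eq_zero.mp (show (1 - (((ψ k)⁻¹ : ℂˣ) : ℂ)) * F = 0 by
    linear_combination h)).resolve_left (sub_ne_zero.mpr (Ne.symm hk))

/-- **The weight one cusp form of `ψ`.** -/
theorem exists_weightOne (hψ : ψ ^ 2 ≠ 1) :
    ∃ f : CuspForm (Gamma1 (4 * D)) 1,
      (∀ n, ModularFormClass.qCoeff f n = coef S ψ n) ∧
      ModularFormClass.qCoeff f 1 = 1 ∧
      ∀ p : ℕ, p.Prime → ¬ p ∣ 4 * D → ∀ n : ℕ,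
        ModularFormClass.qCoeff f (p * n) +
            signChar S (p : ZMod (4 * D)) *
              (if p ∣ n then ModularFormClass.qCoeff f (n / p) else 0) =
          ModularFormClass.qCoeff f p * ModularFormClass.qCoeff f n := by
  obtain ⟨F, hF⟩ := exists_cuspForm_one Finset.univ (fun g => S.form (S.rep g))
    (fun g => 1 / 2 * (((ψ g)⁻¹ : ℂˣ) : ℂ)) S.pos fun n _ a => by
      simp only [mul_assoc, ← Finset.mul_sum, sum_gauss_eq_zero S ψ hψ n a, mul_zero]
  have hq : ∀ n, ModularFormClass.qCoeff F n = coef S ψ n := fun n => by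
    rw [ModularFormClass.qCoeff, FA.Eis.HasQ.qExpansion_eq one_pos hF]
    simp only [map_sum, PowerSeries.coeff_smul, BQF.series, PowerSeries.coeff_mk, smul_eq_mul,
      S.rep_form, coef, Finset.mul_sum, mul_assoc]
  refine ⟨F, hq, by rw [hq, coef_one], fun p hp hpN n => ?_⟩
  rw [hq, hq, hq, hq]
  exact coef_hecke S ψ hp hpN n

omit [Fintype (Ray K)] in
/-- At odd `n` every class represents through the ideals of norm `n` of the inverse class. -/
theorem cnt_eq_two_mul {n : ℕ} (hn : Odd n) (g : Ray K) :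
    S.cnt (S.rep g) n =
      2 * {b : oddIdeals K | absNorm (b : Ideal (𝓞 K)) = n ∧ S.cls b = g⁻¹}.ncard := by
  classical
  set a := S.rep g
  have ha0 : (a : Ideal (𝓞 K)) ≠ ⊥ := ne_bot_of_odd a.2
  set B := {b : oddIdeals K | absNorm (b : Ideal (𝓞 K)) = n ∧ S.cls b = g⁻¹}
  have hneg : ∀ x ∈ S.cntSet a n, -x ∈ S.cntSet a n := by
    rintro x ⟨⟨hx, hi⟩, hN⟩
    refine ⟨⟨neg_mem hx, ?_⟩, ?_⟩
    · simpa [IQ.im] using hi
    · rw [show -x = (-1 : 𝓞 K) * x by ring, map_mul, hN,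
        show (-1 : 𝓞 K) = S.el (-1) 0 by simp [IQ.el], S.norm_el]
      ring
  have hodd : ∀ x ∈ S.cntSet a n, ¬ (2 : 𝓞 K) ∣ x := fun x hx hd => by
    have h2 := (S.two_dvd_norm_iff x).mpr hd
    rw [hx.2] at h2
    have : Odd ((n : ℤ) * (absNorm (a : Ideal (𝓞 K)) : ℤ)) := by
      exact_mod_cast hn.mul a.2
    exact Int.not_even_iff_odd.mpr this (even_iff_two_dvd.mpr h2)
  have hfac : ∀ x ∈ S.cntSet a n, ∃ b ∈ B, span {x} = (a : Ideal (𝓞 K)) * b := by
    intro x hx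
    obtain ⟨J, hJ⟩ := dvd_span_singleton.mpr hx.1.1
    have hN : absNorm J = n := by
      have e := congrArg (fun I => (absNorm I : ℤ)) hJ
      simp only [map_mul, Nat.cast_mul, S.absNorm_span, hx.2] at e
      exact_mod_cast mul_left_cancel₀ (a := (absNorm (a : Ideal (𝓞 K)) : ℤ))
        (by exact_mod_cast (IQ.absNorm_pos a).ne') (e.symm.trans (mul_comm _ _))
    refine ⟨⟨J, by rw [mem_oddIdeals, hN]; exact hn⟩, ⟨hN, ?_⟩, hJ⟩
    have hone : OneMod2 x := by
      have h := hodd x hx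
      have h1 : x - 1 = S.el (S.re x - 1) (S.im x) := by
        conv_lhs => rw [← S.el_re_im x]
        simp [IQ.el]; ring
      rw [OneMod2, S.two_dvd_iff, h1, S.re_el, S.im_el]
      rw [S.two_dvd_iff] at h
      exact ⟨by have := hx.1.2; omega, hx.1.2⟩
    have h1 : S.cls (a * ⟨J, by rw [mem_oddIdeals, hN]; exact hn⟩) = 1 :=
      S.cls_eq_one_of_oneMod2 (x := x) hJ.symm hone
    rw [map_mul, IQ.cls_rep] at h1
    exact eq_inv_of_mul_eq_one_right h1
  have hsurj : ∀ b ∈ B, ∃ x ∈ S.cntSet a n, span {x} = (a : Ideal (𝓞 K)) * b := by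
    rintro b ⟨hN, hb⟩
    have h1 : S.cls (a * b) = S.cls 1 := by rw [map_mul, IQ.cls_rep, hb, mul_inv_cancel, map_one]
    obtain ⟨α, β, hα, hβ, h⟩ := S.cls_eq_iff.mp h1
    rw [Submonoid.coe_one, mul_one, Submonoid.coe_mul] at h
    have hα0 : α ≠ 0 := fun e => S.not_dvd_of_oneMod2 hα (e ▸ dvd_zero _)
    obtain ⟨x, hx, hxy⟩ := mem_span_singleton_mul.mp
      (show β ∈ span {α} * ((a : Ideal (𝓞 K)) * b) from h ▸ mem_span_singleton_self β)
    have hspan : span {x} = (a : Ideal (𝓞 K)) * b := by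
      refine mul_left_cancel₀ (a := span {α}) (by simpa using hα0) ?_
      rw [span_singleton_mul_span_singleton, hxy, h]
    have hxone : OneMod2 x := by
      have := dvd_sub hβ (hα.mul_right x)
      rw [← hxy] at this
      rwa [show α * x - 1 - (α - 1) * x = x - 1 by ring] at this
    refine ⟨x, ⟨⟨Ideal.mul_le_left hx, ?_⟩, ?_⟩, hspan⟩
    · have h1 : x - 1 = S.el (S.re x - 1) (S.im x) := by
        conv_lhs => rw [← S.el_re_im x]
        simp [IQ.el]; ring
      rw [OneMod2, S.two_dvd_iff, h1, S.im_el] at hxone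
      exact hxone.2
    · rw [← S.absNorm_span, hspan, map_mul, hN]
      push_cast
      ring
  have hBfin : B.Finite := by
    refine Set.Finite.of_finite_image ((Ideal.finite_setOfPred_absNorm_eq (S := 𝓞 K) n).subset ?_)
      Subtype.val_injective.injOn
    rintro _ ⟨b, hb, rfl⟩
    exact hb.1
  set s := (S.finite_cntSet a n).toFinset
  have himg : s.image (fun x => span {x}) =
      hBfin.toFinset.image (fun b : oddIdeals K => (a : Ideal (𝓞 K)) * b) := by
    ext I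
    simp only [Finset.mem_image, s, Set.Finite.mem_toFinset]
    exact ⟨fun ⟨x, hx, e⟩ => let ⟨b, hb, hxb⟩ := hfac x hx; ⟨b, hb, by rw [← e, hxb]⟩,
      fun ⟨b, hb, e⟩ => let ⟨x, hx, hxb⟩ := hsurj b hb; ⟨x, hx, by rw [← e, hxb]⟩⟩
  have hfib : ∀ I ∈ s.image (fun x => span {x}), (s.filter fun x => span {x} = I).card = 2 := by
    intro I hI
    obtain ⟨x, hx, rfl⟩ := Finset.mem_image.mp hI
    have hx' : x ∈ S.cntSet a n := by simpa [s] using hx
    have hx0 : x ≠ 0 := fun e => hodd x hx' (e ▸ dvd_zero _)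
    have hset : (s.filter fun y => span {y} = span {x}) = {x, -x} := by
      ext y
      simp only [Finset.mem_filter, Finset.mem_insert, Finset.mem_singleton, s,
        Set.Finite.mem_toFinset, span_singleton_eq_span_singleton]
      constructor
      · rintro ⟨-, u, hu⟩
        rcases S.units u u.isUnit with e | e <;> rw [e] at hu
        · exact Or.inl (by simpa using hu)
        · exact Or.inr (by linear_combination -hu)
      · rintro (rfl | rfl)
        · exact ⟨hx', Associated.refl _⟩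
        · exact ⟨hneg x hx', (Associated.refl x).neg_left⟩
    rw [hset, Finset.card_pair (fun e => hx0 (by
      have : (2 : 𝓞 K) * x = 0 := by linear_combination e
      simpa using this))]
  rw [IQ.cnt, Set.ncard_eq_toFinset_card _ (S.finite_cntSet a n),
    Finset.card_eq_sum_card_image (fun x => span {x}) s, Finset.sum_const_nat hfib, himg,
    Finset.card_image_of_injective _ (fun b b' e => Subtype.ext (mul_left_cancel₀ ha0 e)),
    Set.ncard_eq_toFinset_card B hBfin, mul_comm]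

/-- At odd `n` the coefficient is the sum of `ψ` over the ideals of norm `n`. -/
theorem coef_eq_sum_ideals {n : ℕ} (hn : Odd n) (s : Finset (oddIdeals K))
    (hs : ∀ b, b ∈ s ↔ absNorm (b : Ideal (𝓞 K)) = n) :
    coef S ψ n = ∑ b ∈ s, (ψ (S.cls b) : ℂ) := by
  classical
  rw [coef, ← Finset.sum_fiberwise s S.cls, Finset.mul_sum]
  refine Fintype.sum_equiv (Equiv.inv (Ray K)) _ _ fun g => ?_
  have e : ((s.filter fun b => S.cls b = g⁻¹ : Finset (oddIdeals K)) : Set (oddIdeals K)) =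
      {b : oddIdeals K | absNorm (b : Ideal (𝓞 K)) = n ∧ S.cls b = g⁻¹} := by
    ext b; simp [hs]
  rw [Equiv.inv_apply, cnt_eq_two_mul S hn g, ← e, Set.ncard_coe_finset,
    Finset.sum_congr rfl (g := fun _ => (((ψ g)⁻¹ : ℂˣ) : ℂ))
      (fun b hb => by rw [(Finset.mem_filter.mp hb).2, map_inv]), Finset.sum_const, nsmul_eq_mul]
  push_cast
  ring

end FA.ThetaOne
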