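import Fermat.Agent.S48
import Fermat.Agent.ThetaOne.Form
import Fermat.Agent.ThetaOne.Dihedral
import Fermat.Agent.Faltings.Lemma
import Fermat.Agent.Weight1.FiniteImage

/-!
# The Galois representations of the weight one theta forms and the field cut out by all of them

By Deligne and Serre every character `ψ` of the ray classes with `ψ² ≠ 1` gives a representation
with the traces `ψ(P) + ψ(P)⁻¹` and determinant `(l / D)` at the Frobenius of `l ∤ 4D`.  The common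
kernel, intersected with the stabiliser of `√-D`, defines a finite Galois extension of `ℚ` whose
Galois group carries a dihedral family.
-/

set_option autoImplicit false

noncomputable section

open Module NumberField
open scoped MatrixGroups Pointwise

namespace FA.ThetaOne

open FA.Theta

local notation "Qb" => AlgebraicClosure ℚ
local notation "GQ" => AlgebraicClosure ℚ ≃ₐ[ℚ] AlgebraicClosure ℚ
local notation "M₂" => Matrix (Fin 2) (Fin 2) ℂ

theorem apply_sqrt {D : ℕ} {d : Qb} (hd : d ^ 2 = -(D : Qb)) (σ : GQ) : σ d = d ∨ σ d = -d := by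
  refine sq_eq_sq_iff_eq_or_eq_neg.mp ?_
  rw [← map_pow, hd, map_neg, map_natCast]

variable {K : Type*} [Field K] [NumberField K] {D : ℕ} (S : IQ K D)

include S

theorem sqrt_ne_zero {d : Qb} (hd : d ^ 2 = -(D : Qb)) : d ≠ 0 := by
  intro h
  rw [h, zero_pow two_ne_zero, eq_comm, neg_eq_zero, Nat.cast_eq_zero] at hd
  exact S.pos.ne' hd

theorem sqrt_ne_neg {d : Qb} (hd : d ^ 2 = -(D : Qb)) : d ≠ -d := fun h =>
  sqrt_ne_zero S hd (by
    have : (2 : Qb) * d = 0 := by linear_combination h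
    simpa using this)

theorem exists_apply_sqrt_ne {d : Qb} (hd : d ^ 2 = -(D : Qb)) : ∃ σ : GQ, σ d ≠ d := by
  by_contra h
  push Not at h
  have : IsGalois ℚ Qb := FA.EC.isGalois_algebraicClosure
  obtain ⟨r, hr⟩ := (InfiniteGalois.mem_range_algebraMap_iff_fixed (k := ℚ) d).mpr h
  have h2 : algebraMap ℚ Qb (r ^ 2) = algebraMap ℚ Qb (-(D : ℚ)) := by
    rw [map_pow, hr, hd, map_neg, map_natCast]
  have h3 := (algebraMap ℚ Qb).injective h2
  have : (0 : ℚ) < D := by exact_mod_cast S.pos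
  nlinarith [sq_nonneg r]

omit S in
/-- A rational integer killing `√-D` modulo a place over `l ∤ 4D` is divisible by `l`. -/
theorem dvd_of_mul_sqrt_mem {d : Qb} (hd : d ^ 2 = -(D : Qb)) {l : ℕ} (hl : l.Prime)
    (hlN : ¬ l ∣ 4 * D) {A : ValuationSubring Qb} (hA : A.LiesOverPrime l) {n : ℤ}
    (h : (n : Qb) * d ∈ A.nonunits) : (l : ℤ) ∣ n := by
  have hint : IsIntegral ℤ d := IsIntegral.of_pow two_pos (by rw [hd]; exact (isIntegral_natCast D).neg)
  let z : FA.Deform.ZBar := ⟨d, hint⟩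
  have hz2 : z ^ 2 = -(D : FA.Deform.ZBar) := Subtype.ext (by simpa [z] using hd)
  have hmem : (n : FA.Deform.ZBar) * z ∈ FA.Deform.primeAt A := by
    rw [FA.Deform.mem_primeAt]; simpa [z] using h
  rcases (inferInstance : (FA.Deform.primeAt A).IsPrime).mem_or_mem hmem with h | h
  · exact (FA.Deform.intCast_mem_primeAt_iff hl hA n).mp h
  · exfalso
    have h2 : ((-(D : ℤ) : ℤ) : FA.Deform.ZBar) ∈ FA.Deform.primeAt A := by
      rw [Int.cast_neg, Int.cast_natCast, ← hz2, pow_two]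
      exact Ideal.mul_mem_left _ _ h
    rw [FA.Deform.intCast_mem_primeAt_iff hl hA, Int.dvd_neg, Int.natCast_dvd_natCast] at h2
    exact hlN (dvd_mul_of_dvd_right h2 4)

omit S in
theorem inertia_sqrt {d : Qb} (hd : d ^ 2 = -(D : Qb)) {l : ℕ} (hl : l.Prime)
    (hlN : ¬ l ∣ 4 * D) {A : ValuationSubring Qb} (hA : A.LiesOverPrime l) {σ : GQ}
    (hσ : σ ∈ A.inertiaSubgroupIn ℚ) : σ d = d := by
  refine (apply_sqrt hd σ).resolve_right fun e => ?_
  have hint : IsIntegral ℤ d := IsIntegral.of_pow two_pos (by rw [hd]; exact (isIntegral_natCast D).neg)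
  have h : σ d - d ∈ A.nonunits := by
    rw [A.mem_nonunits_iff]
    refine (FA.Local.inert_of_mem_inertiaSubgroupIn A hσ).sub_lt _ ?_
    exact (A.valuation_le_one_iff _).mpr (FA.Deform.zbar_mem_valuationSubring A ⟨d, hint⟩)
  rw [e, show -d - d = ((-2 : ℤ) : Qb) * d by push_cast; ring] at h
  have h2 := dvd_of_mul_sqrt_mem hd hl hlN hA h
  rw [Int.dvd_neg] at h2
  have : l ∣ 2 := Int.natCast_dvd_natCast.mp h2
  exact hlN (dvd_mul_of_dvd_left (this.trans (by norm_num)) D)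

/-- The Frobenius of `l` multiplies `√-D` by `(l / D)`. -/
theorem frob_sqrt {d : Qb} (hd : d ^ 2 = -(D : Qb)) {l : ℕ} (hl : l.Prime)
    (hlN : ¬ l ∣ 4 * D) {A : ValuationSubring Qb} (hA : A.LiesOverPrime l) {σ : GQ}
    (hσ : A.IsFrobeniusAt σ l) : σ d = (jacobiSym l D : Qb) * d := by
  have : Fact l.Prime := ⟨hl⟩
  have hl2 : l ≠ 2 := fun e => hlN (e ▸ dvd_mul_of_dvd_left (by norm_num) D)
  have hint : IsIntegral ℤ d := IsIntegral.of_pow two_pos (by rw [hd]; exact (isIntegral_natCast D).neg)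
  set J := jacobiSym l D with hJ
  have hJ' : J = legendreSym l (-(D : ℤ)) := by
    rw [hJ, ← FA.CM.PrimeSymbols.jacobiSym_neg_prime (by have := S.mod8; omega)
      (hl.odd_of_ne_two hl2), ← jacobiSym.legendreSym.to_jacobiSym]
  obtain ⟨k, hk⟩ : (l : ℤ) ∣ (-(D : ℤ)) ^ (l / 2) - J := by
    rw [← ZMod.intCast_zmod_eq_zero_iff_dvd, Int.cast_sub, Int.cast_pow, hJ', legendreSym.eq_pow,
      sub_self]
  obtain ⟨j, hj⟩ := hl.odd_of_ne_two hl2
  have hpow : d ^ l - (J : Qb) * d = (l : Qb) * ((k : Qb) * d) := by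
    have e : d ^ l = d * (-(D : Qb)) ^ (l / 2) := by
      rw [← hd, ← pow_mul, ← pow_succ']
      congr 1
      omega
    have h := congrArg (Int.cast : ℤ → Qb) hk
    push_cast at h
    rw [e]
    linear_combination d * h
  have hmem : σ d - (J : Qb) * d ∈ A.nonunits := by
    have h1 := FA.Density.sub_pow_mem_nonunits hσ
      (FA.Deform.zbar_mem_valuationSubring A ⟨d, hint⟩)
    have h2 : d ^ l - (J : Qb) * d ∈ A.nonunits := by
      rw [hpow]
      have hz : ((l : FA.Deform.ZBar) * ((k : FA.Deform.ZBar) * ⟨d, hint⟩)) ∈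
          FA.Deform.primeAt A := by
        refine Ideal.mul_mem_right _ _ ?_
        have := (FA.Deform.intCast_mem_primeAt_iff hl hA (l : ℤ)).mpr dvd_rfl
        simpa using this
      rw [FA.Deform.mem_primeAt] at hz
      simpa using hz
    rw [A.mem_nonunits_iff] at h1 h2 ⊢
    rw [show σ d - (J : Qb) * d = (σ d - d ^ l) + (d ^ l - (J : Qb) * d) by ring]
    exact lt_of_le_of_lt (A.valuation.map_add _ _) (max_lt h1 h2)
  have hJ1 : J = 1 ∨ J = -1 := by
    rcases jacobiSym.trichotomy (l : ℤ) D with h | h | h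
    · have : NeZero D := ⟨S.pos.ne'⟩
      exact absurd (by rw [Int.gcd_natCast_natCast]; exact
        (Nat.Prime.coprime_iff_not_dvd hl).mpr fun e => hlN (e.mul_left 4))
        (jacobiSym.eq_zero_iff_not_coprime.mp h)
    · exact Or.inl h
    · exact Or.inr h
  have h2n : ¬ (l : ℤ) ∣ 2 := fun h => hlN
    (dvd_mul_of_dvd_left ((Int.natCast_dvd_natCast.mp h).trans (by norm_num)) D)
  rcases apply_sqrt hd σ with e | e <;> rcases hJ1 with h | h <;> rw [e] at hmem ⊢ <;>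
    rw [h] at hmem ⊢
  · simp
  · rw [show d - ((-1 : ℤ) : Qb) * d = ((2 : ℤ) : Qb) * d by push_cast; ring] at hmem
    exact absurd (dvd_of_mul_sqrt_mem hd hl hlN hA hmem) h2n
  · rw [show -d - ((1 : ℤ) : Qb) * d = ((-2 : ℤ) : Qb) * d by push_cast; ring] at hmem
    exact absurd (Int.dvd_neg.mp (dvd_of_mul_sqrt_mem hd hl hlN hA hmem)) h2n
  · simp

theorem frob_sqrt_iff {d : Qb} (hd : d ^ 2 = -(D : Qb)) {l : ℕ} (hl : l.Prime)
    (hlN : ¬ l ∣ 4 * D) {A : ValuationSubring Qb} (hA : A.LiesOverPrime l) {σ : GQ}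
    (hσ : A.IsFrobeniusAt σ l) :
    (σ d = d ↔ ∃ P : Ideal (𝓞 K), Ideal.absNorm P = l) := by
  have hl2 : l ≠ 2 := fun e => hlN (e ▸ dvd_mul_of_dvd_left (by norm_num) D)
  have hlD : ¬ l ∣ D := fun e => hlN (e.mul_left 4)
  rw [exists_norm_eq_iff S hl hl2 hlD, frob_sqrt S hd hl hlN hA hσ]
  refine ⟨fun h => ?_, fun h => by rw [h, Int.cast_one, one_mul]⟩
  have := mul_right_cancel₀ (sqrt_ne_zero S hd) (h.trans (one_mul d).symm)
  exact_mod_cast this

/-- The Galois representation of a weight one theta form. -/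
theorem exists_rep [Fintype (Ray K)] (ψ : Ray K →* ℂˣ) (hψ : ψ ^ 2 ≠ 1) :
    ∃ ρ : GQ →* M₂, IsOpen (ρ.ker : Set GQ) ∧ ∀ p : ℕ, p.Prime → ¬ p ∣ 4 * D →
      ∀ A : ValuationSubring Qb, A.LiesOverPrime p →
        (∀ σ ∈ A.inertiaSubgroupIn ℚ, ρ σ = 1) ∧ ∀ σ : GQ, A.IsFrobeniusAt σ p →
          (ρ σ).trace = coef S ψ p ∧ (ρ σ).det = signChar S (p : ZMod (4 * D)) := by
  obtain ⟨f, hq, h1, hT⟩ := exists_weightOne S ψ hψ
  have : NeZero (4 * D) := ⟨by have := S.pos; omega⟩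
  obtain ⟨ρ, hfin, -, hρ⟩ := Fermat.Agent.S48.result (4 * D) (signChar S) f h1 hT
  refine ⟨(Units.coeHom M₂).comp ρ, ?_, fun p hp hpN A hA => ?_⟩
  · rw [show ((Units.coeHom M₂).comp ρ).ker = ρ.ker by
      ext σ; simp [MonoidHom.mem_ker]]
    exact FA.Weight1.isOpen_ker_of_finite_level hfin
  · obtain ⟨hI, hF⟩ := hρ p hp hpN A hA
    refine ⟨fun σ hσ => by simp [hI σ hσ], fun σ hσ => ?_⟩
    obtain ⟨ht, hd⟩ := hF σ hσ
    rw [hq] at ht
    exact ⟨ht, hd⟩

/-- The field cut out by all the representations, with its family. -/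
structure RingClassData where
  /-- the field -/
  L : IntermediateField ℚ Qb
  [fin : FiniteDimensional ℚ L]
  [gal : IsGalois ℚ L]
  /-- the square root of `-D` -/
  δL : L
  sq : δL ^ 2 = -(D : L)
  /-- the dihedral family -/
  W : DihedralFamily (L ≃ₐ[ℚ] L) (Ray K)
  mem_H : ∀ g, g ∈ W.H ↔ g δL = δL
  unram : ∀ l : ℕ, l.Prime → ¬ l ∣ 4 * D → ∀ A : ValuationSubring Qb, A.LiesOverPrime l →
    ∀ σ ∈ A.inertiaSubgroupIn ℚ, AlgEquiv.restrictNormalHom L σ = 1
  frob : ∀ l : ℕ, l.Prime → ¬ l ∣ 4 * D → ∀ A : ValuationSubring Qb, A.LiesOverPrime l →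
    ∀ σ : GQ, A.IsFrobeniusAt σ l →
      (AlgEquiv.restrictNormalHom L σ ∈ W.H ↔ ∃ P : Ideal (𝓞 K), Ideal.absNorm P = l) ∧
      (∀ (P : oddIdeals K), Ideal.absNorm (P : Ideal (𝓞 K)) = l → ∀ ψ,
        (W.r ψ (AlgEquiv.restrictNormalHom L σ)).trace =
          (ψ.1 (S.cls P) : ℂ) + ((ψ.1 (S.cls P))⁻¹ : ℂˣ))
  coefRel : ∀ [Fintype (Ray K)] (l : ℕ), l.Prime → ¬ l ∣ 4 * D → ∀ A : ValuationSubring Qb,
    A.LiesOverPrime l → ∀ σ : GQ, A.IsFrobeniusAt σ l → ∀ ψ,
      (W.r ψ (AlgEquiv.restrictNormalHom L σ)).trace = coef S ψ.1 l ∧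
      (W.r ψ (AlgEquiv.restrictNormalHom L σ)).det = signChar S (l : ZMod (4 * D))

attribute [instance] RingClassData.fin RingClassData.gal

theorem nonempty_ringClassData : Nonempty (RingClassData S) := by
  classical
  have : Finite (Ray K) := S.finite_ray
  let _ : Fintype (Ray K) := Fintype.ofFinite _
  have : IsGalois ℚ Qb := FA.EC.isGalois_algebraicClosure
  obtain ⟨d, hd⟩ := IsAlgClosed.exists_pow_nat_eq (-(D : Qb)) two_pos
  choose ρ hρo hρ using fun ψ : NonQuad (Ray K) => exists_rep S ψ.1 ψ.2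
  have : Finite (Ray K →* ℂˣ) := Nat.finite_of_card_ne_zero (by
    have : NeZero (Monoid.exponent (Ray K) : ℂ) :=
      ⟨Nat.cast_ne_zero.mpr Monoid.exponent_ne_zero_of_finite⟩
    rw [CommGroup.card_monoidHom_of_hasEnoughRootsOfUnity (Ray K) ℂ]
    exact Nat.card_pos.ne')
  let N : Subgroup GQ := MulAction.stabilizer GQ d ⊓ ⨅ ψ, (ρ ψ).ker
  have hNo : IsOpen (N : Set GQ) := by
    rw [Subgroup.coe_inf, Subgroup.coe_iInf]
    refine IsOpen.inter ?_ (isOpen_iInter_of_finite hρo)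
    have : FiniteDimensional ℚ (IntermediateField.adjoin ℚ ({d} : Set Qb)) :=
      IntermediateField.adjoin.finiteDimensional
        ((IsIntegral.of_pow two_pos (by rw [hd]; exact (isIntegral_natCast D).neg) :
          IsIntegral ℤ d).tower_top)
    exact Subgroup.isOpen_mono (H₁ := (IntermediateField.adjoin ℚ ({d} : Set Qb)).fixingSubgroup)
      (fun σ hσ => (IntermediateField.mem_fixingSubgroup_iff _ σ).mp hσ d
        (IntermediateField.subset_adjoin ℚ _ rfl)) (IntermediateField.fixingSubgroup_isOpen _)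
  have hNn : N.Normal := by
    have hst : (MulAction.stabilizer GQ d).Normal := ⟨fun σ hσ τ => by
      rw [MulAction.mem_stabilizer_iff, AlgEquiv.smul_def] at hσ ⊢
      show τ (σ (τ⁻¹ d)) = d
      rcases apply_sqrt hd τ⁻¹ with e | e <;> rw [e]
      · rw [hσ]; conv_lhs => rw [← e]
        exact AlgEquiv.apply_symm_apply τ d
      · rw [map_neg, hσ, ← e]
        exact AlgEquiv.apply_symm_apply τ d⟩
    have : (⨅ ψ, (ρ ψ).ker).Normal :=
      Subgroup.normal_iInf_normal fun ψ => MonoidHom.normal_ker (ρ ψ)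
    exact Subgroup.normal_inf_normal _ _
  let L : IntermediateField ℚ Qb := IntermediateField.fixedField N
  have hfix : L.fixingSubgroup = N :=
    InfiniteGalois.fixingSubgroup_fixedField ⟨N, Subgroup.isClosed_of_isOpen N hNo⟩
  have hfin : FiniteDimensional ℚ L :=
    (InfiniteGalois.isOpen_iff_finite L).mp (by rw [hfix]; exact hNo)
  have hgal : IsGalois ℚ L := (InfiniteGalois.normal_iff_isGalois L).mp (by rw [hfix]; exact hNn)
  have hdL : d ∈ L := fun ⟨σ, hσ⟩ => MulAction.mem_stabilizer_iff.mp hσ.1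
  let π : GQ →* (L ≃ₐ[ℚ] L) := AlgEquiv.restrictNormalHom L
  have hπ : Function.Surjective π := AlgEquiv.restrictNormalHom_surjective Qb
  have hker : π.ker = N := (L.restrictNormalHom_ker).trans hfix
  have hle : ∀ ψ, π.ker ≤ (ρ ψ).ker := fun ψ σ hσ => by
    rw [hker] at hσ
    exact Subgroup.mem_iInf.mp hσ.2 ψ
  let e : GQ ⧸ π.ker ≃* (L ≃ₐ[ℚ] L) := QuotientGroup.quotientKerEquivOfSurjective π hπ
  let r : NonQuad (Ray K) → (L ≃ₐ[ℚ] L) →* M₂ := fun ψ =>
    (QuotientGroup.lift π.ker (ρ ψ) (hle ψ)).comp e.symm.toMonoidHom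
  have hr : ∀ ψ σ, r ψ (π σ) = ρ ψ σ := fun ψ σ => by
    have he : e.symm (π σ) = QuotientGroup.mk σ := e.symm_apply_eq.mpr rfl
    show QuotientGroup.lift π.ker (ρ ψ) (hle ψ) (e.symm (π σ)) = ρ ψ σ
    rw [he, QuotientGroup.lift_mk]
  let H : Subgroup (L ≃ₐ[ℚ] L) := MulAction.stabilizer _ (⟨d, hdL⟩ : L)
  have hmemH : ∀ σ : GQ, π σ ∈ H ↔ σ d = d := fun σ => by
    rw [MulAction.mem_stabilizer_iff, AlgEquiv.smul_def, ← Subtype.coe_inj]
    show ((AlgEquiv.restrictNormalHom L σ ⟨d, hdL⟩ : L) : Qb) = d ↔ _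
    rw [show ((AlgEquiv.restrictNormalHom L σ ⟨d, hdL⟩ : L) : Qb) = σ d from
      AlgEquiv.restrictNormal_commutes σ L ⟨d, hdL⟩]
  -- every element is the image of a Frobenius element
  have hcheb : ∀ g, ∃ (l : ℕ) (A : ValuationSubring Qb) (σ : GQ), l.Prime ∧ ¬ l ∣ 4 * D ∧
      A.LiesOverPrime l ∧ A.IsFrobeniusAt σ l ∧ π σ = g := by
    intro g
    obtain ⟨σ₀, rfl⟩ := hπ g
    obtain ⟨q, hq, hqS, A, hA, σ, hσ, hσg⟩ :=
      FA.Faltings.exists_frobenius_coset N hNo (4 * D).divisors (σ₀ : GQ ⧸ N)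
    refine ⟨q, A, σ, hq, fun h => hqS (Nat.mem_divisors.mpr ⟨h, ?_⟩), hA, hσ, ?_⟩
    · have := S.pos; omega
    · have h1 : σ₀⁻¹ * σ ∈ π.ker := hker ▸ QuotientGroup.eq.mp hσg.symm
      rw [MonoidHom.mem_ker, map_mul, map_inv, inv_mul_eq_one] at h1
      exact h1.symm
  have hsplit : ∀ l : ℕ, l.Prime → ¬ l ∣ 4 * D → ∀ A : ValuationSubring Qb, A.LiesOverPrime l →
      ∀ σ : GQ, A.IsFrobeniusAt σ l →
      ((π σ ∈ H ∧ (∃ P : oddIdeals K, Ideal.absNorm (P : Ideal (𝓞 K)) = l) ∧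
          signChar S (l : ZMod (4 * D)) = 1) ∨
        (π σ ∉ H ∧ (∀ P : Ideal (𝓞 K), Ideal.absNorm P ≠ l) ∧
          signChar S (l : ZMod (4 * D)) = -1)) := by
    intro l hl hlN A hA σ hσ
    have hiff := (hmemH σ).trans (frob_sqrt_iff S hd hl hlN hA hσ)
    rcases signChar_prime S hl hlN with ⟨⟨P, hP⟩, hε⟩ | ⟨hno, hε⟩
    · refine Or.inl ⟨hiff.mpr ⟨P, hP⟩, ⟨⟨P, ?_⟩, hP⟩, hε⟩
      rw [mem_oddIdeals, hP]
      exact hl.odd_of_ne_two fun e => hlN (e ▸ dvd_mul_of_dvd_left (by norm_num) D)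
    · exact Or.inr ⟨fun h => let ⟨P, hP⟩ := hiff.mp h; hno P hP, hno, hε⟩
  have hcoef : ∀ l : ℕ, l.Prime → ¬ l ∣ 4 * D → ∀ A : ValuationSubring Qb, A.LiesOverPrime l →
      ∀ σ : GQ, A.IsFrobeniusAt σ l → ∀ ψ,
        (r ψ (π σ)).trace = coef S ψ.1 l ∧
          (r ψ (π σ)).det = signChar S (l : ZMod (4 * D)) := by
    intro l hl hlN A hA σ hσ ψ
    rw [hr]
    exact ((hρ ψ l hl hlN A hA).2 σ hσ)
  let W : DihedralFamily (L ≃ₐ[ℚ] L) (Ray K) :=
    { H := H
      r := r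
      three_dvd := ⟨_, S.card_ray⟩
      ne_top := by
        obtain ⟨σ, hσ⟩ := exists_apply_sqrt_ne S hd
        intro e
        exact hσ ((hmemH σ).mp (e ▸ Subgroup.mem_top _))
      det_in := fun g hg ψ => by
        obtain ⟨l, A, σ, hl, hlN, hA, hσ, rfl⟩ := hcheb g
        rw [(hcoef l hl hlN A hA σ hσ ψ).2]
        rcases hsplit l hl hlN A hA σ hσ with ⟨-, -, h⟩ | ⟨h, -, -⟩
        · exact h
        · exact absurd hg h
      det_out := fun g hg ψ => by
        obtain ⟨l, A, σ, hl, hlN, hA, hσ, rfl⟩ := hcheb g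
        rw [(hcoef l hl hlN A hA σ hσ ψ).2]
        rcases hsplit l hl hlN A hA σ hσ with ⟨h, -, -⟩ | ⟨-, -, h⟩
        · exact absurd h hg
        · exact h
      trace_out := fun g hg ψ => by
        obtain ⟨l, A, σ, hl, hlN, hA, hσ, rfl⟩ := hcheb g
        rw [(hcoef l hl hlN A hA σ hσ ψ).1]
        rcases hsplit l hl hlN A hA σ hσ with ⟨h, -, -⟩ | ⟨-, h, -⟩
        · exact absurd h hg
        · exact coef_prime_inert S ψ.1 hl hlN h
      trace_in := fun g hg => by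
        obtain ⟨l, A, σ, hl, hlN, hA, hσ, rfl⟩ := hcheb g
        rcases hsplit l hl hlN A hA σ hσ with ⟨-, ⟨P, hP⟩, -⟩ | ⟨h, -, -⟩
        · exact ⟨S.cls P, fun ψ => by
            rw [(hcoef l hl hlN A hA σ hσ ψ).1, coef_prime_split S ψ.1 hl hlN P hP]⟩
        · exact absurd hg h
      faithful := fun g hg => by
        obtain ⟨σ, rfl⟩ := hπ g
        have hd1 : ∀ ψ, (r ψ (π σ)).det = 1 := fun ψ => by rw [hg ψ, Matrix.det_one]
        rw [← MonoidHom.mem_ker, hker]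
        refine ⟨?_, Subgroup.mem_iInf.mpr fun ψ => ?_⟩
        · obtain ⟨ω, hω⟩ : ∃ ω : Ray K →* ℂˣ, ω ^ 2 ≠ 1 := by
            have : NeZero (Monoid.exponent (Ray K) : ℂ) :=
              ⟨Nat.cast_ne_zero.mpr Monoid.exponent_ne_zero_of_finite⟩
            have h2 : S.omegaCls ^ 2 ≠ 1 := fun h => S.omegaCls_ne_one (by
              have h3 := S.omegaCls_cube
              rwa [pow_succ, h, one_mul] at h3)
            obtain ⟨φ, hφ⟩ := CommGroup.exists_apply_ne_one_of_hasEnoughRootsOfUnity (Ray K) ℂ h2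
            exact ⟨φ, fun e => hφ (by rw [map_pow]; exact DFunLike.congr_fun e S.omegaCls)⟩
          refine MulAction.mem_stabilizer_iff.mpr ((hmemH σ).mp ?_)
          by_contra hn
          obtain ⟨l, A, τ, hl, hlN, hA, hτ, hτσ⟩ := hcheb (π σ)
          rw [← hτσ] at hn
          have h1 := hd1 ⟨ω, hω⟩
          rw [← hτσ, (hcoef l hl hlN A hA τ hτ ⟨ω, hω⟩).2] at h1
          rcases hsplit l hl hlN A hA τ hτ with ⟨h, -, -⟩ | ⟨-, -, h⟩
          · exact hn h
          · rw [h] at h1; norm_num at h1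
        · rw [MonoidHom.mem_ker, ← hr, hg ψ]
      nontriv := fun χ hχ => by
        obtain ⟨l, P, hl, hlN, hP, hne⟩ :=
          exists_split_ne_one S hχ (n := 4 * D) (by have := S.pos; omega)
        obtain ⟨A, hA⟩ := FA.Deform.exists_liesOverPrime hl
        obtain ⟨σ, hσ⟩ := FA.Deform.exists_isFrobeniusAt hl hA
        refine ⟨π σ, ?_, S.cls P, fun ψ => by
          rw [(hcoef l hl hlN A hA σ hσ ψ).1, coef_prime_split S ψ.1 hl hlN P hP], hne⟩
        rcases hsplit l hl hlN A hA σ hσ with ⟨h, -, -⟩ | ⟨-, h, -⟩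
        · exact h
        · exact absurd hP (h P) }
  refine ⟨{ L := L, δL := ⟨d, hdL⟩, sq := ?_, W := W, mem_H := fun g => Iff.rfl,
            unram := fun l hl hlN A hA σ hσ => ?_, frob := fun l hl hlN A hA σ hσ => ?_,
            coefRel := ?_ }⟩
  · exact Subtype.ext (by simpa using hd)
  · show π σ = 1
    rw [← MonoidHom.mem_ker, hker]
    exact ⟨inertia_sqrt hd hl hlN hA hσ,
      Subgroup.mem_iInf.mpr fun ψ => (hρ ψ l hl hlN A hA).1 σ hσ⟩
  · refine ⟨(hmemH σ).trans (frob_sqrt_iff S hd hl hlN hA hσ), fun P hP ψ => ?_⟩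
    exact (hcoef l hl hlN A hA σ hσ ψ).1.trans (coef_prime_split S ψ.1 hl hlN P hP)
  · intro inst l hl hlN A hA σ hσ ψ
    have := hcoef l hl hlN A hA σ hσ ψ
    convert this using 3

end FA.ThetaOne
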