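import Fermat.Agent.Theta.Modular

/-!
# Binary theta series as modular forms of weight one

A single theta series of determinant `D` is invariant in weight one under `Γ₁(4D)`: the multiplier
depends only on the lower right entry `d`, and for `d ≡ 1 (mod 4D)` it is that of
`(1 0; d-1 1) (1 1; 0 1)`, both of lower right entry `1`.
-/

set_option autoImplicit false

noncomputable section

open UpperHalfPlane hiding I
open Complex Filter Topology CongruenceSubgroup
open scoped Real MatrixGroups ModularForm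

namespace FA.ThetaOne

open FA.Theta

/-- The multiplier of theta series of determinant `D`. -/
def mult (D : ℕ) (d : ℤ) : ℂ :=
  if h : d = 0 then 0 else
    haveI : NeZero d.natAbs := ⟨Int.natAbs_ne_zero.mpr h⟩
    (d.sign : ℂ) * (BQF.gaussOne D d.natAbs / d.natAbs)

variable {D : ℕ}

theorem theta_slash_one (Q : BQF D) {γ : SL(2, ℤ)} (hγ : γ ∈ Gamma0 (4 * D)) :
    Q.theta ∣[(1 : ℤ)] γ = mult D (γ 1 1) • Q.theta := by
  funext τ
  obtain ⟨c', hc⟩ := (ZMod.intCast_zmod_eq_zero_iff_dvd (γ 1 0) _).mp (Gamma0_mem.mp hγ)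
  have hdet : γ 0 0 * γ 1 1 - γ 0 1 * γ 1 0 = 1 := by
    have := γ.2; rwa [Matrix.det_fin_two] at this
  have hd0 : γ 1 1 ≠ 0 := by
    intro h
    rw [h, hc, mul_zero, zero_sub] at hdet
    have : (4 : ℤ) ∣ 1 := ⟨-(γ 0 1 * D * c'), by push_cast at hdet ⊢; linear_combination -hdet⟩
    norm_num at this
  have : NeZero (γ 1 1).natAbs := ⟨Int.natAbs_ne_zero.mpr hd0⟩
  set e : ℤ := (γ 1 1).sign with he
  have hd : e * γ 1 1 = ((γ 1 1).natAbs : ℤ) := Int.sign_mul_self_eq_natAbs _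
  have he2 : e * e = 1 := by
    rcases lt_or_gt_of_ne hd0 with h | h
    · rw [he, Int.sign_eq_neg_one_of_neg h]; rfl
    · rw [he, Int.sign_eq_one_of_pos h]; rfl
  have hdet' : e * γ 0 0 * ((γ 1 1).natAbs : ℤ) - e * γ 0 1 * (4 * D * (e * c')) = 1 := by
    rw [← hd]
    rw [hc] at hdet
    push_cast at hdet
    linear_combination hdet + (γ 0 0 * γ 1 1 - γ 0 1 * (4 * D * c')) * he2
  have hne : (γ 1 0 : ℂ) * τ + γ 1 1 ≠ 0 := by
    simpa [UpperHalfPlane.denom] using UpperHalfPlane.denom_ne_zero γ τ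
  have heC : (e : ℂ) ≠ 0 := by
    intro h0
    have : e = 0 := by exact_mod_cast h0
    simp [this] at he2
  have hw : (((4 * D * (e * c') : ℤ)) : ℂ) * τ + (γ 1 1).natAbs =
      e * ((γ 1 0 : ℂ) * τ + γ 1 1) := by
    rw [← Int.cast_natCast ((γ 1 1).natAbs), ← hd, hc]; push_cast; ring
  have hσ : ((γ • τ : ℍ) : ℂ) = (((e * γ 0 0 : ℤ) : ℂ) * τ + (e * γ 0 1 : ℤ)) /
      ((((4 * D * (e * c') : ℤ)) : ℂ) * τ + (γ 1 1).natAbs) := by
    rw [hw, UpperHalfPlane.coe_specialLinearGroup_apply]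
    simp only [algebraMap_int_eq, eq_intCast]
    push_cast
    field_simp
  have hden : UpperHalfPlane.denom γ τ = (γ 1 0 : ℂ) * τ + γ 1 1 := by
    simp [UpperHalfPlane.denom]
  rw [ModularForm.SL_slash_apply, hden, Q.theta_smul_of_pos hdet' τ _ hσ, hw, Pi.smul_apply,
    smul_eq_mul, mult, dif_neg hd0, ← he, zpow_neg, zpow_one]
  field_simp

theorem mult_one : mult D 1 = 1 := by
  have h : ∀ (n : ℕ) [NeZero n], n = 1 → BQF.gaussOne D n = 1 := by
    intro n _ hn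
    subst hn
    have e : ∀ v : ZMod 1, ZMod.stdAddChar v = (1 : ℂ) := fun v => by
      rw [Subsingleton.elim v 0, AddChar.map_zero_eq_one]
    simp [BQF.gaussOne, e]
  simp [mult, h]

lemma theta_ne_zero (Q : BQF D) : Q.theta ≠ 0 := by
  intro h
  have h1 := (h ▸ Q.hasQ_theta).eq_zero_of_fun one_pos
  have h2 := congrArg (PowerSeries.coeff 0) h1
  rw [BQF.series, PowerSeries.coeff_mk, map_zero, Nat.cast_eq_zero, BQF.rep,
    Finset.card_eq_zero, Finset.eq_empty_iff_forall_notMem] at h2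
  exact h2 (0, 0) (by simp [BQF.val])

/-- The multiplier is trivial at `d ≡ 1 (mod 4D)`. -/
theorem mult_eq_one (hD : 0 < D) {d : ℤ} (hd : ((4 * D : ℕ) : ℤ) ∣ d - 1) : mult D d = 1 := by
  let P := BQF.princ D hD
  let L : SL(2, ℤ) := ⟨!![1, 0; d - 1, 1], by simp [Matrix.det_fin_two]⟩
  let T : SL(2, ℤ) := ⟨!![1, 1; 0, 1], by simp [Matrix.det_fin_two]⟩
  have hL : L ∈ Gamma0 (4 * D) := Gamma0_mem.mpr <| by
    show ((d - 1 : ℤ) : ZMod (4 * D)) = 0
    exact (ZMod.intCast_zmod_eq_zero_iff_dvd _ _).mpr hd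
  have hT : T ∈ Gamma0 (4 * D) := Gamma0_mem.mpr <| by
    show ((0 : ℤ) : ZMod (4 * D)) = 0
    simp
  have hLT : L * T ∈ Gamma0 (4 * D) := mul_mem hL hT
  have h11 : (L * T) 1 1 = d := by
    rw [Matrix.SpecialLinearGroup.coe_mul, Matrix.mul_apply, Fin.sum_univ_two]
    show (d - 1) * 1 + 1 * 1 = d
    ring
  have h := theta_slash_one P hLT
  rw [h11, SlashAction.slash_mul, theta_slash_one P hL, show L 1 1 = 1 from rfl, mult_one,
    one_smul, theta_slash_one P hT, show T 1 1 = 1 from rfl, mult_one, one_smul] at h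
  obtain ⟨τ, hτ⟩ := Function.ne_iff.mp (theta_ne_zero P)
  have := congrFun h τ
  rw [Pi.smul_apply, smul_eq_mul] at this
  exact mul_right_cancel₀ hτ (by rw [one_mul]; exact this.symm)

theorem theta_slash_gamma1 (Q : BQF D) {γ : SL(2, ℤ)} (hγ : γ ∈ Gamma1 (4 * D)) :
    Q.theta ∣[(1 : ℤ)] γ = Q.theta := by
  have h0 : γ ∈ Gamma0 (4 * D) := Gamma0_mem.mpr ((Gamma1_mem _ _).mp hγ).2.2
  rw [theta_slash_one Q h0, mult_eq_one Q.D_pos, one_smul]
  rw [← ZMod.intCast_zmod_eq_zero_iff_dvd, Int.cast_sub, ((Gamma1_mem _ _).mp hγ).2.1,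
    Int.cast_one, sub_self]

/-- The cusp form of weight one attached to a family of forms whose weighted Gauss sums vanish. -/
theorem exists_cuspForm_one {ι : Type*} (s : Finset ι) (Q : ι → BQF D) (u : ι → ℂ) (hD : 0 < D)
    (hG : ∀ (n : ℕ) [NeZero n] (a : ZMod n), ∑ i ∈ s, u i * (Q i).gauss n a 0 = 0) :
    ∃ F : CuspForm (Gamma1 (4 * D)) 1, FA.Eis.HasQ 1 ⇑F (∑ i ∈ s, u i • (Q i).series) := by
  let f : ℍ → ℂ := ∑ i ∈ s, u i • (Q i).theta
  have hq : FA.Eis.HasQ 1 f (∑ i ∈ s, u i • (Q i).series) :=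
    FA.Eis.HasQ.sum s fun i _ => (Q i).hasQ_theta.smul (u i)
  have hinv : ∀ γ ∈ Gamma1 (4 * D), f ∣[(1 : ℤ)] γ = f := fun γ hγ => by
    simp only [f]
    rw [SlashAction.sum_slash]
    refine Finset.sum_congr rfl fun i _ => ?_
    rw [ModularForm.SL_smul_slash, theta_slash_gamma1 (Q i) hγ]
  have hz : ∀ γ : SL(2, ℤ), IsZeroAtImInfty (f ∣[(1 : ℤ)] γ) := fun γ => by
    obtain ⟨n, hn, a, K, hK⟩ := BQF.tendsto_cusp (D := D) γ
    have := tendsto_finsetSum s fun i _ => (hK (Q i)).const_mul (u i)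
    rw [show ∑ i ∈ s, u i * (K * (Q i).gauss n a 0) = K * ∑ i ∈ s, u i * (Q i).gauss n a 0 by
      rw [Finset.mul_sum]; exact Finset.sum_congr rfl fun i _ => by ring, hG n a, mul_zero] at this
    refine this.congr fun τ => ?_
    rw [ModularForm.SL_slash_apply]
    have hden : UpperHalfPlane.denom γ τ = (γ 1 0 : ℂ) * τ + γ 1 1 := by
      simp [UpperHalfPlane.denom]
    rw [hden]
    simp only [f, Finset.sum_apply, Pi.smul_apply, smul_eq_mul, Finset.sum_mul]
    refine Finset.sum_congr rfl fun i _ => ?_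
    rw [zpow_neg, zpow_one]
    ring
  refine ⟨{ toFun := f, slash_action_eq' := ?_, holo' := hq.mdiff one_pos, zero_at_cusps' := ?_ },
    hq⟩
  · rintro γ ⟨M, hM, rfl⟩
    exact hinv M hM
  · intro c hc
    have : NeZero (4 * D) := ⟨by positivity⟩
    rw [Subgroup.IsArithmetic.isCusp_iff_isCusp_SL2Z] at hc
    exact (OnePoint.isZeroAt_iff_forall_SL2Z hc).mpr fun M _ => hz M

end FA.ThetaOne
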