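import Fermat.Agent.ThetaOne.OrderCount
import Fermat.Agent.ThetaOne.Modular
import Fermat.Agent.Twists.Count

/-!
# The weight one cusp form of a class character of `ℤ[√-N]`

For a character `ψ` of the classes with `ψ² ≠ 1` the combination `½ ∑ ψ(g)⁻¹ θ_g` is a cusp form
of weight one on `Γ₁(4N)` satisfying the Hecke relations at the primes `l ∤ 4N` with character
`(-N / ·)`.
-/

set_option autoImplicit false

noncomputable section

open Ideal Finset
open CongruenceSubgroup (Gamma1)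
open scoped MatrixGroups

namespace FA.OrderTheta

open FA.Theta

variable (N : ℕ) [NeZero N]

omit [NeZero N] in
theorem four_natAbs_dvd : 4 * (-(N : ℤ)).natAbs ∣ 4 * N := by simp

/-- The character `(-N / ·)` modulo `4 N`. -/
def signChar : DirichletCharacter ℂ (4 * N) :=
  haveI : NeZero (4 * N) := ⟨by have := NeZero.pos N; omega⟩
  FA.Twists.twistChar (D := -(N : ℤ)) (four_natAbs_dvd N)

variable {N}

omit [NeZero N] in
theorem not_dvd_two_mul {l : ℕ} (hlN : ¬ l ∣ 4 * N) : ¬ l ∣ 2 * N := fun h =>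
  hlN (h.trans (mul_dvd_mul_right (by norm_num) N))

theorem signChar_prime {l : ℕ} (hl : l.Prime) (hlN : ¬ l ∣ 4 * N) :
    (IsSquare (-(N : ZMod l)) ∧ signChar N (l : ZMod (4 * N)) = 1) ∨
      (¬ IsSquare (-(N : ZMod l)) ∧ signChar N (l : ZMod (4 * N)) = -1) := by
  have : Fact l.Prime := ⟨hl⟩
  have : NeZero (4 * N) := ⟨by have := NeZero.pos N; omega⟩
  have h0 : ((-(N : ℤ) : ℤ) : ZMod l) ≠ 0 := by
    push_cast
    rw [neg_ne_zero, Ne, ZMod.natCast_eq_zero_iff]
    exact fun h => hlN (h.mul_left 4)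
  rw [signChar, FA.Twists.twistChar_prime _ hlN]
  by_cases hs : IsSquare (-(N : ZMod l))
  · refine Or.inl ⟨hs, ?_⟩
    rw [(legendreSym.eq_one_iff l h0).mpr (by simpa using hs), Int.cast_one]
  · refine Or.inr ⟨hs, ?_⟩
    rw [(legendreSym.eq_neg_one_iff l).mpr (by simpa using hs)]
    norm_num

/-- A representative of a class. -/
def rep (g : Cl N) : II N := Function.surjInv cls_surjective g

theorem cls_rep (g : Cl N) : cls (rep g) = g := Function.surjInv_eq cls_surjective g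

theorem cnt_rep_mul (g : Cl N) (P : II N) (n : ℕ) :
    cnt (rep g * P) n = cnt (rep (g * cls P)) n :=
  cnt_congr (by rw [map_mul, cls_rep, cls_rep]) n

variable [Fintype (Cl N)]

/-- The coefficients of the theta series of `ψ`. -/
def coef (ψ : Cl N →* ℂˣ) (n : ℕ) : ℂ :=
  1 / 2 * ∑ g : Cl N, (((ψ g)⁻¹ : ℂˣ) : ℂ) * (cnt (rep g) n : ℂ)

variable (hN : 1 < N) (ψ : Cl N →* ℂˣ)

include hN in
theorem coef_one : coef ψ 1 = 1 := by
  classical
  have h1 : cnt (rep (1 : Cl N)) 1 = 2 := by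
    rw [← cnt_one_one hN]
    exact cnt_congr (by rw [cls_rep, map_one]) 1
  rw [coef, Finset.sum_eq_single 1]
  · simp [h1]
  · intro g _ hg
    rw [cnt_one_eq_zero (rep g) (by rwa [cls_rep]), Nat.cast_zero, mul_zero]
  · exact fun h => absurd (Finset.mem_univ _) h

/-- The relation at a split prime. -/
theorem coef_split {l : ℕ} (hl : l.Prime) (hlN : ¬ l ∣ 4 * N) {P : II N} (hP : nrm P = l) (n : ℕ) :
    coef ψ (n * l) + (if l ∣ n then coef ψ (n / l) else 0) =
      ((ψ (cls P) : ℂ) + ((ψ (cls P))⁻¹ : ℂˣ)) * coef ψ n := by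
  have hrel : ∀ g, (cnt (rep g) (n * l) : ℂ) +
      (if l ∣ n then (cnt (rep g) (n / l) : ℂ) else 0) =
      (cnt (rep (g * cls P)) n : ℂ) + cnt (rep (g * (cls P)⁻¹)) n := fun g => by
    have h := cnt_split hl (not_dvd_two_mul hlN) (rep g) hP n
    rw [cnt_rep_mul, cnt_rep_mul, cls_conj] at h
    rw [← Nat.cast_add, ← h]
    push_cast
    split_ifs <;> simp
  have hshift : ∀ k : Cl N, ∑ g, (((ψ g)⁻¹ : ℂˣ) : ℂ) * (cnt (rep (g * k)) n : ℂ) =
      (ψ k : ℂ) * ∑ g, (((ψ g)⁻¹ : ℂˣ) : ℂ) * (cnt (rep g) n : ℂ) := fun k => by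
    rw [Finset.mul_sum]
    refine Fintype.sum_equiv (Equiv.mulRight k) _ _ fun g => ?_
    simp only [Equiv.coe_mulRight, map_mul, mul_inv, Units.val_mul]
    rw [← mul_assoc, mul_comm (ψ k : ℂ), mul_assoc (((ψ g)⁻¹ : ℂˣ) : ℂ), Units.inv_mul, mul_one]
  simp only [coef]
  rw [show (if l ∣ n then 1 / 2 * ∑ g : Cl N, (((ψ g)⁻¹ : ℂˣ) : ℂ) * (cnt (rep g) (n / l) : ℂ)
      else 0) = 1 / 2 * ∑ g : Cl N, (((ψ g)⁻¹ : ℂˣ) : ℂ) *
        (if l ∣ n then (cnt (rep g) (n / l) : ℂ) else 0) by split_ifs <;> simp,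
    ← mul_add, ← Finset.sum_add_distrib]
  simp only [← mul_add, hrel]
  simp only [mul_add, Finset.sum_add_distrib, hshift]
  rw [map_inv]
  ring

theorem coef_inert {l : ℕ} (hl : l.Prime) (hno : ¬ IsSquare (-(N : ZMod l))) (n : ℕ) :
    coef ψ (n * l) = if l ∣ n then coef ψ (n / l) else 0 := by
  simp only [coef, cnt_inert hl hno]
  split_ifs <;> simp

include hN in
theorem coef_prime_split {l : ℕ} (hl : l.Prime) (hlN : ¬ l ∣ 4 * N) {P : II N} (hP : nrm P = l) :
    coef ψ l = (ψ (cls P) : ℂ) + ((ψ (cls P))⁻¹ : ℂˣ) := by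
  have h := coef_split ψ hl hlN hP 1
  rw [one_mul, if_neg (fun e => hl.ne_one (Nat.dvd_one.mp e)), coef_one hN] at h
  simpa using h

theorem coef_prime_inert {l : ℕ} (hl : l.Prime) (hno : ¬ IsSquare (-(N : ZMod l))) :
    coef ψ l = 0 := by
  have h := coef_inert ψ hl hno 1
  rwa [one_mul, if_neg (fun e => hl.ne_one (Nat.dvd_one.mp e))] at h

include hN in
/-- The Hecke relations. -/
theorem coef_hecke {l : ℕ} (hl : l.Prime) (hlN : ¬ l ∣ 4 * N) (n : ℕ) :
    coef ψ (l * n) + signChar N (l : ZMod (4 * N)) * (if l ∣ n then coef ψ (n / l) else 0) =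
      coef ψ l * coef ψ n := by
  rw [mul_comm l n]
  rcases signChar_prime hl hlN with ⟨hsq, hε⟩ | ⟨hno, hε⟩
  · obtain ⟨P, hP⟩ := (exists_nrm_iff hl (not_dvd_two_mul hlN)).mpr hsq
    rw [hε, one_mul, coef_split ψ hl hlN hP n, coef_prime_split hN ψ hl hlN hP]
  · rw [hε, coef_inert ψ hl hno, coef_prime_inert ψ hl hno]
    ring

/-- The weighted Gauss sums cancel for `ψ² ≠ 1`. -/
theorem sum_gauss_eq_zero (hψ : ψ ^ 2 ≠ 1) (n : ℕ) [NeZero n] (u : ZMod n) :
    ∑ g : Cl N, (((ψ g)⁻¹ : ℂˣ) : ℂ) * (form (rep g)).gauss n u 0 = 0 := by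
  obtain ⟨g₀, hg₀⟩ : ∃ g, (ψ g) ^ 2 ≠ 1 := by
    by_contra h; push Not at h; exact hψ (MonoidHom.ext h)
  obtain ⟨b, hb, rfl⟩ := exists_coprime_rep g₀ (NeZero.ne n)
  set k := cls b * cls b
  set F : ℂ := ∑ g : Cl N, (((ψ g)⁻¹ : ℂˣ) : ℂ) * (form (rep g)).gauss n u 0
  have h : F = (((ψ k)⁻¹ : ℂˣ) : ℂ) * F := by
    rw [Finset.mul_sum]
    refine (Fintype.sum_equiv (Equiv.mulRight k) _ _ fun g => ?_).symm
    rw [Equiv.coe_mulRight, gauss_congr (I := rep (g * k)) (J := rep g * (b * b))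
      (by rw [cls_rep, map_mul, map_mul, cls_rep]) n u, gauss_mul_sq (rep g) b n hb u]
    simp only [k, map_mul, mul_inv, Units.val_mul]
    ring
  have hk : (((ψ k)⁻¹ : ℂˣ) : ℂ) ≠ 1 := by
    rw [Units.val_eq_one.ne, Ne, inv_eq_one, map_mul, ← pow_two]
    exact hg₀
  exact (mul_eq_zero.mp (show (1 - (((ψ k)⁻¹ : ℂˣ) : ℂ)) * F = 0 by
    linear_combination h)).resolve_left (sub_ne_zero.mpr (Ne.symm hk))

include hN in
/-- **The weight one cusp form of `ψ`.** -/
theorem exists_weightOne (hψ : ψ ^ 2 ≠ 1) :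
    ∃ f : CuspForm (Gamma1 (4 * N)) 1,
      (∀ n, ModularFormClass.qCoeff f n = coef ψ n) ∧
      ModularFormClass.qCoeff f 1 = 1 ∧
      ∀ p : ℕ, p.Prime → ¬ p ∣ 4 * N → ∀ n : ℕ,
        ModularFormClass.qCoeff f (p * n) +
            signChar N (p : ZMod (4 * N)) *
              (if p ∣ n then ModularFormClass.qCoeff f (n / p) else 0) =
          ModularFormClass.qCoeff f p * ModularFormClass.qCoeff f n := by
  obtain ⟨F, hF⟩ := FA.ThetaOne.exists_cuspForm_one Finset.univ (fun g : Cl N => form (rep g))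
    (fun g => 1 / 2 * (((ψ g)⁻¹ : ℂˣ) : ℂ)) (NeZero.pos N) fun n _ a => by
      simp only [mul_assoc, ← Finset.mul_sum, sum_gauss_eq_zero ψ hψ n a, mul_zero]
  have hq : ∀ n, ModularFormClass.qCoeff F n = coef ψ n := fun n => by
    rw [ModularFormClass.qCoeff, FA.Eis.HasQ.qExpansion_eq one_pos hF]
    simp only [map_sum, PowerSeries.coeff_smul, BQF.series, PowerSeries.coeff_mk, smul_eq_mul,
      rep_form, coef, Finset.mul_sum, mul_assoc]
  refine ⟨F, hq, by rw [hq, coef_one hN], fun p hp hpN n => ?_⟩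
  rw [hq, hq, hq, hq]
  exact coef_hecke hN ψ hp hpN n

omit [Fintype (Cl N)] in
/-- A nontrivial character is nontrivial at an ideal of prime norm outside a finite set. -/
theorem exists_split_ne_one {A : Type*} [Monoid A] {φ : Cl N →* A} (hφ : φ ≠ 1) {n : ℕ}
    (hn : n ≠ 0) :
    ∃ (l : ℕ) (P : II N), l.Prime ∧ ¬ l ∣ n ∧ ¬ l ∣ 4 * N ∧ nrm P = l ∧ φ (cls P) ≠ 1 := by
  by_contra hcon
  push Not at hcon
  refine hφ (MonoidHom.ext fun g => ?_)
  obtain ⟨J, hJ, rfl⟩ := exists_coprime_rep g (n := 4 * N * n)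
    (mul_ne_zero (mul_ne_zero four_ne_zero (NeZero.ne N)) hn)
  suffices ∀ m, ∀ J : II N, nrm J = m → m.Coprime (4 * N * n) → φ (cls J) = 1 by
    simpa using this _ J rfl hJ
  intro m
  induction m using Nat.strong_induction_on with
  | _ m ih =>
    intro J hJm hcop
    by_cases hm : m = 1
    · rw [eq_one_of_nrm_eq_one (hJm.trans hm), map_one, map_one]
    obtain ⟨l, hl, hlm⟩ := Nat.exists_prime_and_dvd hm
    have hcl : l.Coprime (4 * N * n) := hcop.coprime_dvd_left hlm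
    have hlN : ¬ l ∣ 4 * N := fun h =>
      (hl.coprime_iff_not_dvd.mp hcl) (h.mul_right n)
    have hln : ¬ l ∣ n := fun h => (hl.coprime_iff_not_dvd.mp hcl) (h.mul_left _)
    have hstep : ∀ P : II N, φ (cls P) = 1 → 1 < nrm P → (J : Ideal (Ord N)) ≤ P →
        φ (cls J) = 1 := by
      intro P hP hP1 hle
      obtain ⟨J', rfl⟩ := exists_factor hle
      rw [map_mul] at hJm
      have hpos := nrm_pos J'
      rw [map_mul, map_mul, hP, one_mul]
      exact ih (nrm J') (hJm ▸ lt_mul_of_one_lt_left hpos hP1) J' rfl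
        (hcop.coprime_dvd_left ⟨nrm P, by rw [← hJm, mul_comm]⟩)
    by_cases hsq : IsSquare (-(N : ZMod l))
    · obtain ⟨P, hP⟩ := (exists_nrm_iff hl (not_dvd_two_mul hlN)).mpr hsq
      have hcP : φ (cls P) = 1 := hcon l P hl hln hlN hP
      have hcQ : φ (cls (conj P)) = 1 := hcon l _ hl hln hlN (by rw [nrm_conj, hP])
      have hle : (J : Ideal (Ord N)) * conjI J ≤ (P : Ideal (Ord N)) := by
        obtain ⟨k, rfl⟩ := hlm
        rw [mul_conj, hJm, span_singleton_le_iff_mem, Nat.cast_mul]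
        exact Ideal.mul_mem_right _ _ (hP ▸ nrm_mem P)
      rcases (prime_nrm hl (not_dvd_two_mul hlN) hP).1.isPrime.mul_le.mp hle with h | h
      · exact hstep P hcP (hP ▸ hl.one_lt) h
      · refine hstep (conj P) hcQ (by rw [nrm_conj, hP]; exact hl.one_lt) ?_
        rw [coe_conj]
        simpa [conjI_conjI] using conjI_mono h
    · have hl0 : (l : Ord N) ≠ 0 := natCast_ne_zero_of_pos hl.pos
      refine hstep (prin (l : Ord N) hl0) (by rw [cls_prin, map_one]) ?_ ?_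
      · have : (1 : ℤ) < (nrm (prin (l : Ord N) hl0) : ℤ) := by
          rw [nrm_prin, Zsqrtd.norm_natCast]
          have := hl.one_lt
          nlinarith
        exact_mod_cast this
      · rw [coe_prin]
        exact le_span_of_not_isSquare hl hsq (hJm ▸ hlm)

end FA.OrderTheta
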