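import Fermat.Agent.ThetaOne.OrderBasic
import Fermat.Agent.Theta.Lattice
import Mathlib.RingTheory.Ideal.Quotient.Basic

/-!
# Forms of invertible ideals, finiteness, and representatives prime to a given number

With a basis `e₁, e₂` of `I` of norm `a` the form `N(v₁ e₁ + v₂ e₂) / a` has integer coefficients,
even middle coefficient and determinant `N`, and `gcd(A, 2B, C) = 1`.
-/

set_option autoImplicit false

noncomputable section

open Ideal

namespace FA.OrderTheta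

open FA.Theta

variable {N : ℕ} [NeZero N]

variable (N) in
/-- The coordinates. -/
def coords : Ord N ≃ₗ[ℤ] (Fin 2 → ℤ) where
  toFun x := ![x.re, x.im]
  invFun v := ⟨v 0, v 1⟩
  map_add' x y := by ext i; fin_cases i <;> simp
  map_smul' c x := by ext i; fin_cases i <;> simp [zsmul_eq_mul]
  left_inv x := by ext <;> simp
  right_inv v := by ext i; fin_cases i <;> simp

/-- The facts about a basis of an invertible ideal. -/
theorem exists_basis (I : II N) : ∃ (e₁ e₂ : Ord N) (A B C : ℤ), 0 < A ∧ A * C - B ^ 2 = N ∧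
    (∀ x, x ∈ (I : Ideal (Ord N)) ↔ ∃ u v : ℤ, x = (u : Ord N) * e₁ + (v : Ord N) * e₂) ∧
    (∀ u v u' v' : ℤ, (u : Ord N) * e₁ + (v : Ord N) * e₂ = (u' : Ord N) * e₁ + (v' : Ord N) * e₂ →
      u = u' ∧ v = v') ∧
    (∀ u v : ℤ, ((u : Ord N) * e₁ + (v : Ord N) * e₂).norm =
      (A * u ^ 2 + 2 * B * u * v + C * v ^ 2) * nrm I) ∧
    ∃ u v w : ℤ, u * A + v * C + w * (2 * B) = 1 := by
  let b : Module.Basis (Fin 2) ℤ (Ord N) :=
    (Pi.basisFun ℤ (Fin 2)).map (coords N).symm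
  let bI := Ideal.selfBasis b (I : Ideal (Ord N)) (coe_ne_bot I)
  set e₁ : Ord N := (bI 0 : Ord N) with he₁
  set e₂ : Ord N := (bI 1 : Ord N) with he₂
  set a : ℕ := nrm I
  have ha : (a : ℤ) ≠ 0 := by exact_mod_cast (nrm_pos I).ne'
  have he₁0 : e₁ ≠ 0 := fun h => bI.ne_zero 0 (Subtype.ext h)
  have hsmul : ∀ (c : ℤ) (y : (I : Ideal (Ord N))),
      ((c • y : (I : Ideal (Ord N))) : Ord N) = (c : Ord N) * (y : Ord N) := fun c y => by
    rw [← zsmul_eq_mul]; rfl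
  have hmem : ∀ x, x ∈ (I : Ideal (Ord N)) ↔
      ∃ u v : ℤ, x = (u : Ord N) * e₁ + (v : Ord N) * e₂ := by
    intro x
    constructor
    · intro hx
      refine ⟨bI.repr ⟨x, hx⟩ 0, bI.repr ⟨x, hx⟩ 1, ?_⟩
      have h := congrArg (fun z : (I : Ideal (Ord N)) => (z : Ord N)) (bI.sum_repr ⟨x, hx⟩)
      simp only [Fin.sum_univ_two, Submodule.coe_add, hsmul] at h
      exact h.symm
    · rintro ⟨u, v, rfl⟩
      exact add_mem (Ideal.mul_mem_left _ _ (bI 0).2) (Ideal.mul_mem_left _ _ (bI 1).2)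
  have hmm : ∀ {x y : Ord N}, x ∈ (I : Ideal (Ord N)) → y ∈ (I : Ideal (Ord N)) →
      (a : ℤ) ∣ (x * star y).re ∧ (a : ℤ) ∣ (x * star y).im := by
    intro x y hx hy
    have h : x * star y ∈ span {(a : Ord N)} := by
      rw [← mul_conj]; exact mul_mem_mul hx (star_mem_conjI hy)
    have h' : ((a : ℤ) : Ord N) ∣ x * star y := by
      rw [Int.cast_natCast]; exact mem_span_singleton.mp h
    exact (Zsqrtd.intCast_dvd _ _).mp h'
  obtain ⟨A, hA⟩ := nrm_dvd_norm (I := I) (bI 0).2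
  obtain ⟨C, hC⟩ := nrm_dvd_norm (I := I) (bI 1).2
  obtain ⟨B, hB⟩ := (hmm (bI 0).2 (bI 1).2).1
  obtain ⟨δ, hδ⟩ := (hmm (bI 0).2 (bI 1).2).2
  simp only [← he₁, ← he₂] at hA hC hB hδ
  rw [norm_eq] at hA hC
  simp only [Zsqrtd.re_mul, Zsqrtd.im_mul, Zsqrtd.re_star, Zsqrtd.im_star] at hB hδ
  -- everything in `I * conj I` has this shape
  have hspan : ∀ z ∈ (I : Ideal (Ord N)) * conjI I, ∃ u v w₁ w₂ : ℤ,
      z.re = u * (a * A) + v * (a * C) + (w₁ + w₂) * (a * B) ∧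
      z.im = (w₁ - w₂) * (a * δ) := by
    intro z hz
    induction hz using Submodule.mul_induction_on' with
    | mem_mul_mem x hx y hy =>
      obtain ⟨s, t, rfl⟩ := (hmem x).mp hx
      obtain ⟨s', t', hy'⟩ := (hmem _).mp (mem_conjI_iff.mp hy)
      have hy2 : y = star ((s' : Ord N) * e₁ + (t' : Ord N) * e₂) := by rw [← hy', star_star]
      subst hy2
      refine ⟨s * s', t * t', s * t', t * s', ?_, ?_⟩
      · simp only [Zsqrtd.re_mul, Zsqrtd.re_add, Zsqrtd.im_add, Zsqrtd.im_mul, Zsqrtd.re_star,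
          Zsqrtd.im_star, Zsqrtd.re_intCast, Zsqrtd.im_intCast]
        linear_combination s * s' * hA + t * t' * hC + (s * t' + t * s') * hB
      · simp only [Zsqrtd.re_mul, Zsqrtd.re_add, Zsqrtd.im_add, Zsqrtd.im_mul, Zsqrtd.re_star,
          Zsqrtd.im_star, Zsqrtd.re_intCast, Zsqrtd.im_intCast]
        linear_combination (s * t' - t * s') * hδ
    | add x _ y _ hx hy =>
      obtain ⟨u, v, w₁, w₂, h1, h2⟩ := hx
      obtain ⟨u', v', w₁', w₂', h1', h2'⟩ := hy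
      refine ⟨u + u', v + v', w₁ + w₁', w₂ + w₂', ?_, ?_⟩
      · rw [Zsqrtd.re_add, h1, h1']; ring
      · rw [Zsqrtd.im_add, h2, h2']; ring
  have hin : ∀ z : Ord N, (a : Ord N) * z ∈ (I : Ideal (Ord N)) * conjI I := fun z => by
    rw [mul_conj]; exact Ideal.mul_mem_right _ _ (mem_span_singleton_self _)
  obtain ⟨u, v, w₁, w₂, h1, h2⟩ := hspan _ (hin 1)
  obtain ⟨-, -, w₁', w₂', -, h2'⟩ := hspan _ (hin Zsqrtd.sqrtd)
  simp only [mul_one, Zsqrtd.re_natCast, Zsqrtd.im_natCast] at h1 h2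
  simp only [Zsqrtd.im_mul, Zsqrtd.re_natCast, Zsqrtd.im_natCast, Zsqrtd.re_sqrtd,
    Zsqrtd.im_sqrtd, mul_one, zero_mul, add_zero] at h2'
  have hδu : δ * (w₁' - w₂') = 1 := mul_left_cancel₀ ha (by linear_combination -h2')
  have hw : w₁ = w₂ := by
    have h3 : (a : ℤ) * (δ * (w₁ - w₂)) = (a : ℤ) * 0 := by linear_combination -h2
    rcases mul_eq_zero.mp (mul_left_cancel₀ ha h3) with h | h
    · simp [h] at hδu
    · exact sub_eq_zero.mp h
  have hδ2 : δ ^ 2 = 1 := by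
    rcases Int.eq_one_or_neg_one_of_mul_eq_one hδu with h | h <;> simp [h]
  have hdet : A * C - B ^ 2 = N := by
    refine mul_left_cancel₀ (pow_ne_zero 2 ha) ?_
    have e : ((e₁.re * e₂.re + -(N : ℤ) * e₁.im * -e₂.im)) ^ 2 +
        (N : ℤ) * (e₁.re * -e₂.im + e₁.im * e₂.re) ^ 2 =
        (e₁.re ^ 2 + (N : ℤ) * e₁.im ^ 2) * (e₂.re ^ 2 + (N : ℤ) * e₂.im ^ 2) := by ring
    rw [hA, hC, hB, hδ] at e
    linear_combination -e + (N : ℤ) * (a : ℤ) ^ 2 * hδ2
  have hApos : 0 < A := by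
    have h : 0 < e₁.norm := lt_of_le_of_ne (norm_nonneg' _) fun e => he₁0 (norm_eq_zero' e.symm)
    rw [norm_eq, hA] at h
    exact (pos_iff_pos_of_mul_pos h).mp (by exact_mod_cast nrm_pos I)
  refine ⟨e₁, e₂, A, B, C, hApos, hdet, hmem, ?_, ?_, u, v, w₁, ?_⟩
  · intro u v u' v' h
    have e : bI.repr (u • bI 0 + v • bI 1) = bI.repr (u' • bI 0 + v' • bI 1) := by
      congr 1
      refine Subtype.ext ?_
      simp only [Submodule.coe_add, hsmul]
      exact h
    exact ⟨by simpa [Finsupp.single_apply] using congrArg (fun g => g 0) e,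
      by simpa [Finsupp.single_apply] using congrArg (fun g => g 1) e⟩
  · intro u v
    rw [norm_eq]
    simp only [Zsqrtd.re_add, Zsqrtd.im_add, Zsqrtd.re_mul, Zsqrtd.im_mul, Zsqrtd.re_intCast,
      Zsqrtd.im_intCast]
    linear_combination u ^ 2 * hA + 2 * u * v * hB + v ^ 2 * hC
  · refine mul_left_cancel₀ ha ?_
    rw [hw] at h1
    rw [hw]
    linear_combination -h1

theorem exists_form (I : II N) : ∃ (Q : BQF N) (e : ℤ × ℤ →+ Ord N), Function.Injective e ∧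
    (∀ x, x ∈ (I : Ideal (Ord N)) ↔ ∃ v, e v = x) ∧
    (∀ v, (e v).norm = Q.val v * (nrm I : ℤ)) ∧ ∃ u v w : ℤ, u * Q.a + v * Q.c + w * (2 * Q.b) = 1 := by
  obtain ⟨e₁, e₂, A, B, C, hA, hdet, hmem, hinj, hnorm, hprim⟩ := exists_basis I
  refine ⟨⟨A, B, C, hA, hdet, NeZero.pos N⟩,
    { toFun := fun v => (v.1 : Ord N) * e₁ + (v.2 : Ord N) * e₂
      map_zero' := by simp
      map_add' := fun v w => by push_cast [Prod.fst_add, Prod.snd_add]; ring },
    fun v w h => Prod.ext (hinj _ _ _ _ h).1 (hinj _ _ _ _ h).2, fun x => ?_, fun v => ?_, hprim⟩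
  · rw [hmem]
    exact ⟨fun ⟨u, v, h⟩ => ⟨(u, v), h.symm⟩, fun ⟨v, h⟩ => ⟨v.1, v.2, h.symm⟩⟩
  · show ((v.1 : Ord N) * e₁ + (v.2 : Ord N) * e₂).norm = _
    rw [hnorm, BQF.val]
    simp only [Int.cast_id]

/-- The form of an ideal. -/
def form (I : II N) : BQF N := (exists_form I).choose

/-- Its parametrisation. -/
def param (I : II N) : ℤ × ℤ →+ Ord N := (exists_form I).choose_spec.choose

theorem param_injective (I : II N) : Function.Injective (param I) :=
  (exists_form I).choose_spec.choose_spec.1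

theorem mem_iff_param (I : II N) (x : Ord N) : x ∈ (I : Ideal (Ord N)) ↔ ∃ v, param I v = x :=
  (exists_form I).choose_spec.choose_spec.2.1 x

theorem norm_param (I : II N) (v : ℤ × ℤ) : (param I v).norm = (form I).val v * (nrm I : ℤ) :=
  (exists_form I).choose_spec.choose_spec.2.2.1 v

theorem form_primitive (I : II N) :
    ∃ u v w : ℤ, u * (form I).a + v * (form I).c + w * (2 * (form I).b) = 1 :=
  (exists_form I).choose_spec.choose_spec.2.2.2

omit [NeZero N] in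
/-- A primitive form takes a value prime to any given number. -/
theorem exists_value_coprime (Q : BQF N) (hQ : ∃ u v w : ℤ, u * Q.a + v * Q.c + w * (2 * Q.b) = 1)
    {n : ℕ} (hn : n ≠ 0) : ∃ v : ℤ × ℤ, v ≠ 0 ∧ IsCoprime (Q.val v) n := by
  classical
  set x : ℕ := ∏ p ∈ n.primeFactors.filter (fun p : ℕ => ((p : ℤ) ∣ Q.a) ∧ ¬ ((p : ℤ) ∣ Q.c)), p
  set y : ℕ := ∏ p ∈ n.primeFactors.filter (fun p : ℕ => ¬ ((p : ℤ) ∣ Q.a)), p
  have hx : ∀ {p : ℕ}, p.Prime → p ∣ n → (p ∣ x ↔ ((p : ℤ) ∣ Q.a) ∧ ¬ ((p : ℤ) ∣ Q.c)) := by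
    intro p hp hpn
    refine ⟨fun h => ?_, fun h => Finset.dvd_prod_of_mem _ (Finset.mem_filter.mpr
      ⟨Nat.mem_primeFactors.mpr ⟨hp, hpn, hn⟩, h⟩)⟩
    obtain ⟨q, hq, hpq⟩ := (Prime.dvd_finsetProd_iff hp.prime _).mp h
    obtain ⟨hq1, hq2⟩ := Finset.mem_filter.mp hq
    rwa [(Nat.prime_dvd_prime_iff_eq hp (Nat.prime_of_mem_primeFactors hq1)).mp hpq]
  have hy : ∀ {p : ℕ}, p.Prime → p ∣ n → (p ∣ y ↔ ¬ ((p : ℤ) ∣ Q.a)) := by
    intro p hp hpn
    refine ⟨fun h => ?_, fun h => Finset.dvd_prod_of_mem _ (Finset.mem_filter.mpr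
      ⟨Nat.mem_primeFactors.mpr ⟨hp, hpn, hn⟩, h⟩)⟩
    obtain ⟨q, hq, hpq⟩ := (Prime.dvd_finsetProd_iff hp.prime _).mp h
    obtain ⟨hq1, hq2⟩ := Finset.mem_filter.mp hq
    rwa [(Nat.prime_dvd_prime_iff_eq hp (Nat.prime_of_mem_primeFactors hq1)).mp hpq]
  refine ⟨((x : ℤ), (y : ℤ)), fun h => ?_, ?_⟩
  · have : x = 0 := by simpa using congrArg Prod.fst h
    rw [Finset.prod_eq_zero_iff] at this
    obtain ⟨p, hp, rfl⟩ := this
    exact Nat.not_prime_zero (Nat.prime_of_mem_primeFactors (Finset.mem_filter.mp hp).1)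
  · rw [Int.isCoprime_iff_nat_coprime, Int.natAbs_natCast]
    refine Nat.coprime_of_dvd fun p hp h1 h2 => ?_
    have hval : (p : ℤ) ∣ Q.a * (x : ℤ) ^ 2 + 2 * Q.b * x * y + Q.c * (y : ℤ) ^ 2 := by
      have := Int.natCast_dvd.mpr h1
      simpa [BQF.val] using this
    have hpp : Prime (p : ℤ) := Nat.prime_iff_prime_int.mp hp
    have ex : (p : ℤ) ∣ (x : ℤ) ↔ ((p : ℤ) ∣ Q.a) ∧ ¬ ((p : ℤ) ∣ Q.c) :=
      Int.natCast_dvd_natCast.trans (hx hp h2)
    have ey : (p : ℤ) ∣ (y : ℤ) ↔ ¬ ((p : ℤ) ∣ Q.a) := Int.natCast_dvd_natCast.trans (hy hp h2)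
    by_cases ha : (p : ℤ) ∣ Q.a
    · by_cases hc : (p : ℤ) ∣ Q.c
      · have h3 : (p : ℤ) ∣ 2 * Q.b * x * y := by
          have h4 := dvd_sub hval (dvd_add (ha.mul_right ((x : ℤ) ^ 2)) (hc.mul_right ((y : ℤ) ^ 2)))
          rwa [show Q.a * (x : ℤ) ^ 2 + 2 * Q.b * x * y + Q.c * (y : ℤ) ^ 2 -
            (Q.a * (x : ℤ) ^ 2 + Q.c * (y : ℤ) ^ 2) = 2 * Q.b * x * y by ring] at h4
        have h5 : (p : ℤ) ∣ 2 * Q.b := by
          rcases hpp.dvd_or_dvd h3 with h | h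
          · rcases hpp.dvd_or_dvd h with h | h
            · exact h
            · exact absurd hc (ex.mp h).2
          · exact absurd ha (ey.mp h)
        obtain ⟨u, v, w, e⟩ := hQ
        exact hpp.not_dvd_one (e ▸ dvd_add (dvd_add (ha.mul_left u) (hc.mul_left v)) (h5.mul_left w))
      · have hpx := ex.mpr ⟨ha, hc⟩
        have h3 : (p : ℤ) ∣ Q.c * (y : ℤ) ^ 2 := by
          have h4 := dvd_sub hval (dvd_add (hpx.mul_left (Q.a * x)) (hpx.mul_left (2 * Q.b * y)))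
          rwa [show Q.a * (x : ℤ) ^ 2 + 2 * Q.b * x * y + Q.c * (y : ℤ) ^ 2 -
            (Q.a * x * x + 2 * Q.b * y * x) = Q.c * (y : ℤ) ^ 2 by ring] at h4
        rcases hpp.dvd_or_dvd h3 with h | h
        · exact hc h
        · exact (ey.mp (hpp.dvd_of_dvd_pow h)) ha
    · have hpy := ey.mpr ha
      have h3 : (p : ℤ) ∣ Q.a * (x : ℤ) ^ 2 := by
        have h4 := dvd_sub hval (dvd_add (hpy.mul_left (2 * Q.b * x)) (hpy.mul_left (Q.c * y)))
        rwa [show Q.a * (x : ℤ) ^ 2 + 2 * Q.b * x * y + Q.c * (y : ℤ) ^ 2 -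
          (2 * Q.b * x * y + Q.c * y * y) = Q.a * (x : ℤ) ^ 2 by ring] at h4
      rcases hpp.dvd_or_dvd h3 with h | h
      · exact ha h
      · exact ha (ex.mp (hpp.dvd_of_dvd_pow h)).1

theorem param_ne_zero (I : II N) {v : ℤ × ℤ} (hv : v ≠ 0) : param I v ≠ 0 := fun h =>
  hv (param_injective I (h.trans (map_zero _).symm))

/-- The ideal left by a value of the form. -/
theorem exists_of_value (I : II N) {v : ℤ × ℤ} (hv : v ≠ 0) :
    ∃ J : II N, cls J = (cls I)⁻¹ ∧ (nrm J : ℤ) = (form I).val v := by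
  obtain ⟨J, hJ, hn⟩ := exists_factor_elem (param_ne_zero I hv) ((mem_iff_param I _).mpr ⟨v, rfl⟩)
  refine ⟨J, ?_, ?_⟩
  · have := congrArg cls hJ
    rw [cls_prin, map_mul] at this
    exact eq_inv_of_mul_eq_one_right this.symm
  · rw [norm_param, mul_comm] at hn
    exact (mul_left_cancel₀ (by exact_mod_cast (nrm_pos I).ne') hn).symm

/-- Every class contains an ideal of norm prime to a given number. -/
theorem exists_coprime_rep (g : Cl N) {n : ℕ} (hn : n ≠ 0) :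
    ∃ J : II N, (nrm J).Coprime n ∧ cls J = g := by
  obtain ⟨I, hI⟩ := cls_surjective g⁻¹
  obtain ⟨v, hv, hcop⟩ := exists_value_coprime (form I) (form_primitive I) hn
  obtain ⟨J, hJ, hJn⟩ := exists_of_value I hv
  refine ⟨J, ?_, by rw [hJ, hI, inv_inv]⟩
  rw [← hJn, Int.isCoprime_iff_nat_coprime] at hcop
  simpa using hcop

omit [NeZero N] in
/-- A form has a small value. -/
theorem exists_small_value (Q : BQF N) :
    ∃ v : ℤ × ℤ, v ≠ 0 ∧ Q.val v ≤ 1 + N := by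
  classical
  obtain ⟨A, hA⟩ := Int.eq_ofNat_of_zero_le Q.pos.le
  have hA0 : 0 < A := by have := Q.pos; omega
  set r := A.sqrt
  have : NeZero A := ⟨hA0.ne'⟩
  obtain ⟨p, hp, q, hq, hne, heq⟩ := Finset.exists_ne_map_eq_of_card_lt_of_maps_to
    (s := Finset.range (r + 1) ×ˢ Finset.range (r + 1)) (t := (Finset.univ : Finset (ZMod A)))
    (f := fun p => ((p.1 : ℤ) - Q.b * p.2 : ℤ))
    (by rw [Finset.card_product, Finset.card_range, Finset.card_univ, ZMod.card]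
        exact Nat.lt_succ_sqrt A)
    (fun _ _ => Finset.mem_coe.mpr (Finset.mem_univ _))
  rw [Finset.mem_product, Finset.mem_range, Finset.mem_range] at hp hq
  obtain ⟨x, hx⟩ := (ZMod.intCast_eq_intCast_iff_dvd_sub _ _ A).mp heq
  set i : ℤ := (q.1 : ℤ) - p.1
  set j : ℤ := (q.2 : ℤ) - p.2
  refine ⟨(x, j), fun h => hne ?_, ?_⟩
  · have hx0 : x = 0 := congrArg Prod.fst h
    have hj : j = 0 := congrArg Prod.snd h
    rw [hx0, mul_zero] at hx
    have hi : i = 0 := by linear_combination hx + Q.b * hj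
    exact Prod.ext (by simp only [i] at hi; omega) (by simp only [j] at hj; omega)
  · have hi : i = (A : ℤ) * x + Q.b * j := by linear_combination hx
    have e : (A : ℤ) * Q.val (x, j) = i ^ 2 + (N : ℤ) * j ^ 2 := by
      have hdet := Q.det
      rw [hA] at hdet
      simp only [BQF.val, Int.cast_id]
      rw [hA, hi]
      linear_combination j ^ 2 * hdet
    have hb : ∀ a b : ℕ, a ≤ r → b ≤ r → ((b : ℤ) - a) ^ 2 ≤ (A : ℤ) := fun a b ha hb => by
      have h1 : ((b : ℤ) - a) ^ 2 ≤ (r : ℤ) ^ 2 := by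
        rw [sq_le_sq, Nat.abs_cast, abs_le]; constructor <;> omega
      exact h1.trans (by exact_mod_cast Nat.sqrt_le' A)
    have h1 := hb p.1 q.1 (by omega) (by omega)
    have h2 := hb p.2 q.2 (by omega) (by omega)
    refine le_of_mul_le_mul_left ?_ (Int.natCast_pos.mpr hA0)
    rw [e, mul_add, mul_one, mul_comm (A : ℤ) (N : ℤ)]
    exact add_le_add h1 (mul_le_mul_of_nonneg_left h2 (Int.natCast_nonneg N))

/-- Finitely many invertible ideals of bounded norm. -/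
theorem finite_nrm_eq (m : ℕ) : {J : II N | nrm J = m}.Finite := by
  classical
  rcases Nat.eq_zero_or_pos m with rfl | hm
  · exact Set.Finite.subset Set.finite_empty fun J (hJ : nrm J = 0) => absurd hJ (nrm_pos J).ne'
  have : NeZero m := ⟨hm.ne'⟩
  refine Set.Finite.of_finite_image (f := fun J : II N =>
    (fun x : Ord N => ((x.re : ZMod m), (x.im : ZMod m))) '' (J : Ideal (Ord N))) (Set.toFinite _) ?_
  intro J hJ J' hJ' h
  have key : ∀ {J J' : II N}, nrm J' = m →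
      (fun x : Ord N => ((x.re : ZMod m), (x.im : ZMod m))) '' (J : Ideal (Ord N)) =
      (fun x : Ord N => ((x.re : ZMod m), (x.im : ZMod m))) '' (J' : Ideal (Ord N)) →
      (J : Ideal (Ord N)) ≤ J' := by
    intro J J' hJ' h x hx
    obtain ⟨y, hy, e⟩ := h ▸ Set.mem_image_of_mem _ hx
    simp only [Prod.mk.injEq, ZMod.intCast_eq_intCast_iff_dvd_sub] at e
    have hd : ((m : ℤ) : Ord N) ∣ x - y := (Zsqrtd.intCast_dvd _ _).mpr
      ⟨by simpa using e.1, by simpa using e.2⟩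
    obtain ⟨z, hz⟩ := hd
    have : x = y + (m : Ord N) * z := by rw [Int.cast_natCast] at hz; linear_combination hz
    rw [this, ← hJ']
    exact add_mem hy (Ideal.mul_mem_right _ _ (nrm_mem J'))
  exact Subtype.ext (le_antisymm (key hJ' h) (key hJ h.symm))

/-- The class group is finite. -/
theorem finite_cl : Finite (Cl N) := by
  have : (⋃ m ∈ Finset.range (N + 2), {J : II N | nrm J = m}).Finite :=
    Set.Finite.biUnion (Finset.finite_toSet _) fun m _ => finite_nrm_eq m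
  refine Set.finite_univ_iff.mp ((this.image cls).subset fun g _ => ?_)
  obtain ⟨I, hI⟩ := cls_surjective g⁻¹
  obtain ⟨v, hv, hle⟩ := exists_small_value (form I)
  obtain ⟨J, hJ, hJn⟩ := exists_of_value I hv
  exact ⟨J, Set.mem_iUnion₂.mpr ⟨nrm J, by rw [Finset.mem_range]; omega, rfl⟩,
    by rw [hJ, hI, inv_inv]⟩

end FA.OrderTheta
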