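import Fermat.Agent.CM.Quartic.Periodic
import Fermat.Agent.ThetaOne.OrderReduced

/-!
# The biquadratic character of two, and class number one

Gauss: for a prime `p ≡ 1 (mod 4)`, `2` is a fourth power modulo `p` iff `p = x² + 64 y²`. Landau:
for `n ∉ {1, 2, 3, 4, 7}` there is a reduced form of determinant `n` other than `x² + n y²`.
-/

set_option autoImplicit false

noncomputable section

namespace FA.OrderTheta

open FA.CM.Quartic

local notation "ℤ[i]" => GaussianInt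

theorem weightTwo_emod (a b : ℤ) : weightTwo ⟨a, b⟩ = weightTwo ⟨a % 8, b % 8⟩ := by
  have h1 : (((a + b : ℤ)) : ZMod 8) = (((a % 8 + b % 8 : ℤ)) : ZMod 8) := by
    rw [ZMod.intCast_eq_intCast_iff']
    omega
  have h2 : quarterNorm ⟨a, b⟩ = quarterNorm ⟨a % 8, b % 8⟩ := by
    unfold quarterNorm
    rw [Zsqrtd.norm_def, Zsqrtd.norm_def]
    have ha : a % 8 + 8 * (a / 8) = a := by omega
    have hb : b % 8 + 8 * (b / 8) = b := by omega
    have e : a * a - -1 * b * b = a % 8 * (a % 8) - -1 * (b % 8) * (b % 8) +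
        16 * (a / 8 * (a % 8) + 4 * (a / 8 * (a / 8)) + b / 8 * (b % 8) + 4 * (b / 8 * (b / 8))) := by
      conv_lhs => rw [← ha, ← hb]
      ring
    simp only
    rw [e]
    congr 1
    omega
  unfold weightTwo
  simp only
  rw [h1, h2]

theorem weightTwo_eq_one_iff {a b : ℤ} (hb : b % 2 = 0) (hab : (a + b) % 4 = 1) :
    weightTwo ⟨a, b⟩ = 1 ↔ (8 : ℤ) ∣ b := by
  rw [weightTwo_emod, Int.dvd_iff_emod_eq_zero]
  have key : ∀ r ∈ Finset.range 8, ∀ s ∈ Finset.range 8, s % 2 = 0 → (r + s) % 4 = 1 →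
      (weightTwo ⟨(r : ℤ), (s : ℤ)⟩ = 1 ↔ s = 0) := by decide +kernel
  obtain ⟨r, hr⟩ := Int.eq_ofNat_of_zero_le (Int.emod_nonneg a (show (8 : ℤ) ≠ 0 by norm_num))
  obtain ⟨s, hs⟩ := Int.eq_ofNat_of_zero_le (Int.emod_nonneg b (show (8 : ℤ) ≠ 0 by norm_num))
  rw [hr, hs]
  have := key r (Finset.mem_range.mpr (by omega)) s (Finset.mem_range.mpr (by omega)) (by omega)
    (by omega)
  rw [this]
  omega

theorem exists_pow_four_iff {p : ℕ} [hp : Fact p.Prime] (h4 : p % 4 = 1) {a : ZMod p} (ha : a ≠ 0) :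
    (∃ x : ZMod p, x ^ 4 = a) ↔ a ^ ((p - 1) / 4) = 1 := by
  set m := (p - 1) / 4
  have hm : p - 1 = 4 * m := by omega
  constructor
  · rintro ⟨x, rfl⟩
    rw [← pow_mul, ← hm]
    exact ZMod.pow_card_sub_one_eq_one fun e => ha (by rw [e]; ring)
  · intro h
    obtain ⟨g, hg⟩ := IsCyclic.exists_generator (α := (ZMod p)ˣ)
    obtain ⟨k, hk⟩ := Submonoid.mem_powers_iff _ _ |>.mp
      (mem_powers_iff_mem_zpowers.mpr (hg (Units.mk0 a ha)))
    have hord : orderOf g = 4 * m := by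
      rw [orderOf_eq_card_of_forall_mem_zpowers hg, Nat.card_eq_fintype_card, ZMod.card_units, hm]
    have h1 : g ^ (k * m) = 1 := by
      rw [pow_mul, hk]
      exact Units.ext (by simpa using h)
    have hd := orderOf_dvd_of_pow_eq_one h1
    rw [hord] at hd
    have := hp.out.two_le
    obtain ⟨l, rfl⟩ := Nat.dvd_of_mul_dvd_mul_right (show 0 < m by omega) hd
    refine ⟨(g : ZMod p) ^ l, ?_⟩
    have := congrArg Units.val hk
    rw [Units.val_pow_eq_pow_val, Units.val_mk0] at this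
    rw [← pow_mul, mul_comm l 4, this]

/-- The even part of a representation of a prime as a sum of two squares is unique. -/
theorem sq_eq_of_two_squares {p : ℕ} (hp : p.Prime) (hp2 : p ≠ 2) {a b x y : ℤ}
    (h : (p : ℤ) = a ^ 2 + b ^ 2) (hb : b % 2 = 0) (h' : (p : ℤ) = x ^ 2 + y ^ 2)
    (hy : y % 2 = 0) : b ^ 2 = y ^ 2 := by
  have hodd : (p : ℤ) % 2 = 1 := by
    have := hp.eq_two_or_odd.resolve_left hp2
    omega
  have hpz := Nat.prime_iff_prime_int.mp hp
  obtain ⟨b', rfl⟩ : ∃ k, b = 2 * k := ⟨b / 2, by omega⟩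
  obtain ⟨y', rfl⟩ : ∃ k, y = 2 * k := ⟨y / 2, by omega⟩
  have hax : a % 2 = 1 ∧ x % 2 = 1 := by
    constructor
    · by_contra hc
      obtain ⟨k, rfl⟩ : ∃ k, a = 2 * k := ⟨a / 2, by omega⟩
      rw [show (2 * k) ^ 2 + (2 * b') ^ 2 = 2 * (2 * (k ^ 2 + b' ^ 2)) by ring] at h
      omega
    · by_contra hc
      obtain ⟨k, rfl⟩ : ∃ k, x = 2 * k := ⟨x / 2, by omega⟩
      rw [show (2 * k) ^ 2 + (2 * y') ^ 2 = 2 * (2 * (k ^ 2 + y' ^ 2)) by ring] at h'
      omega
  have hd : (p : ℤ) ∣ (a * (2 * y') - 2 * b' * x) * (a * (2 * y') + 2 * b' * x) :=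
    ⟨(2 * y') ^ 2 - (2 * b') ^ 2, by linear_combination (2 * b') ^ 2 * h' - (2 * y') ^ 2 * h⟩
  have key : ∀ u v : ℤ, (p : ℤ) ∣ u → u ^ 2 + v ^ 2 = (p : ℤ) ^ 2 → v % 2 = 1 → u = 0 := by
    intro u v ⟨k, hk⟩ he hv
    subst hk
    by_contra hne
    have hk1 : 1 ≤ k ^ 2 := by
      have : k ≠ 0 := fun e => hne (by rw [e, mul_zero])
      have : 0 < k ^ 2 := by positivity
      omega
    have hv0 : 0 < v ^ 2 := by
      have : v ≠ 0 := by omega
      positivity
    have hp0 : 0 ≤ (p : ℤ) ^ 2 := sq_nonneg _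
    nlinarith [mul_le_mul_of_nonneg_left hk1 hp0]
  have fin : a ^ 2 * (2 * y') ^ 2 = (2 * b') ^ 2 * x ^ 2 := by
    rcases hpz.dvd_or_dvd hd with hu | hu
    · have := key _ (a * x + 2 * b' * (2 * y')) hu (by
          linear_combination -((p : ℤ)) * h - (a ^ 2 + (2 * b') ^ 2) * h') (by
          rw [show a * x + 2 * b' * (2 * y') = a * x + 2 * (2 * b' * y') by ring,
            Int.add_mul_emod_self_left, Int.mul_emod, hax.1, hax.2]; norm_num)
      rw [sub_eq_zero] at this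
      rw [← mul_pow, this, mul_pow]
    · have := key _ (a * x - 2 * b' * (2 * y')) hu (by
          linear_combination -((p : ℤ)) * h - (a ^ 2 + (2 * b') ^ 2) * h') (by
          rw [show a * x - 2 * b' * (2 * y') = a * x + 2 * (-(2 * b' * y')) by ring,
            Int.add_mul_emod_self_left, Int.mul_emod, hax.1, hax.2]; norm_num)
      rw [← mul_pow, eq_neg_of_add_eq_zero_left this, neg_sq, mul_pow]
  refine mul_left_cancel₀ (show (p : ℤ) ≠ 0 by exact_mod_cast hp.ne_zero) ?_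
  linear_combination -fin + (2 * b') ^ 2 * h' - (2 * y') ^ 2 * h

/-- **Gauss**: for a prime `p ≡ 1 (mod 4)`, `2` is a fourth power modulo `p` iff `p = x² + 64 y²`. -/
theorem two_fourth_power_iff_form {p : ℕ} (hp : p.Prime) (h4 : p % 4 = 1) :
    (∃ x : ZMod p, x ^ 4 = 2) ↔ ∃ x y : ℤ, (p : ℤ) = x ^ 2 + 64 * y ^ 2 := by
  have : Fact p.Prime := ⟨hp⟩
  have hp2 : p ≠ 2 := by omega
  obtain ⟨j, hj⟩ := (ZMod.exists_sq_eq_neg_one_iff (p := p)).mpr (by omega)
  have hj' : j * j = -1 := hj.symm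
  have h2 := two_ne_zero' (p := p) hp2
  rw [exists_pow_four_iff h4 h2]
  set π := primaryPrime hj' hp2 with hπ
  have hkey : (2 : ZMod p) ^ ((p - 1) / 4) = 1 ↔ weightTwo π = 1 := by
    rw [quarticChar_two, ← evalI_quarticChar hj' hp2 2]
    refine ⟨fun h => ?_, fun h => by rw [h, map_one]⟩
    rw [← unitLift_evalI hj' h2 (isQU_quarticChar hj' hp2 2), h]
    simp [unitLift]
  obtain ⟨hb, hab⟩ := primaryPrime_primary hj' hp2
  have hn : (p : ℤ) = π.re ^ 2 + π.im ^ 2 := by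
    rw [← norm_primaryPrime hj' hp2, Zsqrtd.norm_def, ← hπ]; ring
  rw [hkey, show weightTwo π = weightTwo ⟨π.re, π.im⟩ from rfl, weightTwo_eq_one_iff hb hab]
  constructor
  · rintro ⟨k, hk⟩
    exact ⟨π.re, k, by rw [hn, hk]; ring⟩
  · rintro ⟨x, y, hxy⟩
    have := sq_eq_of_two_squares hp hp2 hn hb (x := x) (y := 8 * y) (by rw [hxy]; ring) (by omega)
    rcases sq_eq_sq_iff_eq_or_eq_neg.mp this with e | e
    · exact ⟨y, e⟩
    · exact ⟨-y, by rw [e]; ring⟩

/-! ### Landau's theorem -/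

theorem prime_pow_or_coprime_factor {m : ℕ} (hm : 1 < m) :
    (∃ p k : ℕ, p.Prime ∧ m = p ^ k) ∨ ∃ a c : ℕ, 1 < a ∧ a < c ∧ a.Coprime c ∧ m = a * c := by
  have hp := Nat.minFac_prime (show m ≠ 1 by omega)
  set p := m.minFac
  have hmul := Nat.ordProj_mul_ordCompl_eq_self m p
  have hcop : (p ^ m.factorization p).Coprime (m / p ^ m.factorization p) :=
    Nat.Coprime.pow_left _ (Nat.coprime_ordCompl hp (by omega))
  have ha : 1 < p ^ m.factorization p :=
    Nat.one_lt_pow (hp.factorization_pos_of_dvd (by omega) (Nat.minFac_dvd m)).ne' hp.one_lt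
  set a := p ^ m.factorization p with hadef
  set c := m / a
  rcases le_or_gt c 1 with hc | hc
  · refine Or.inl ⟨p, m.factorization p, hp, ?_⟩
    rcases Nat.le_one_iff_eq_zero_or_eq_one.mp hc with e | e <;> rw [e] at hmul
    · omega
    · rw [← hadef]; omega
  · refine Or.inr ?_
    rcases lt_trichotomy a c with h | h | h
    · exact ⟨a, c, ha, h, hcop, hmul.symm⟩
    · rw [← h, Nat.coprime_self] at hcop
      omega
    · exact ⟨c, a, hc, h, hcop.symm, by rw [mul_comm]; exact hmul.symm⟩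

theorem isRed_of_factor {n a c : ℕ} {b : ℤ} (ha : 1 < a) (hac : a < c) (hcop : a.Coprime c)
    (hb : b = 0 ∨ b = 1) (h : (a : ℤ) * c = b ^ 2 + n) : IsRed n a b := by
  have ha' : (1 : ℤ) < a := by exact_mod_cast ha
  have hac' : (a : ℤ) < c := by exact_mod_cast hac
  refine ⟨by omega, ⟨c, h.symm⟩, ?_, ?_, ?_, fun _ => by rcases hb with e | e <;> omega⟩
  · rw [← h, Int.mul_ediv_cancel_left _ (by omega)]
    refine Nat.eq_one_of_dvd_one (hcop ▸ Nat.dvd_gcd ?_ ?_)
    · exact_mod_cast ((Int.gcd_dvd_left _ _).trans (Int.gcd_dvd_left _ _) :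
        ((Int.gcd (Int.gcd (a : ℤ) (2 * b)) (c : ℤ) : ℕ) : ℤ) ∣ (a : ℤ))
    · exact_mod_cast (Int.gcd_dvd_right _ _ :
        ((Int.gcd (Int.gcd (a : ℤ) (2 * b)) (c : ℤ) : ℕ) : ℤ) ∣ (c : ℤ))
  · rcases hb with e | e <;> rw [e] <;> simp <;> omega
  · rw [← h]
    exact mul_le_mul_of_nonneg_left hac'.le (by omega)

/-- **Landau**: another reduced form when `n ∉ {1, 2, 3, 4, 7}`. -/
theorem exists_second_reduced {n : ℕ} (hn0 : 0 < n) (hn : n ∉ [1, 2, 3, 4, 7]) :
    ∃ (a : ℕ) (b : ℤ), 1 < a ∧ IsRed n a b := by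
  simp only [List.mem_cons, List.not_mem_nil, or_false, not_or] at hn
  rcases prime_pow_or_coprime_factor (show 1 < n by omega) with ⟨p, k, hp, rfl⟩ |
    ⟨a, c, ha, hac, hcop, rfl⟩
  swap
  · exact ⟨a, 0, ha, isRed_of_factor ha hac hcop (Or.inl rfl) (by push_cast; ring)⟩
  rcases hp.eq_two_or_odd with rfl | hodd
  · have hk : 3 ≤ k := by
      by_contra h
      interval_cases k <;> simp at hn
    rcases eq_or_lt_of_le hk with rfl | hk4
    · exact ⟨3, 1, by norm_num, by decide +kernel⟩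
    · obtain ⟨j, rfl⟩ : ∃ j, k = j + 4 := ⟨k - 4, by omega⟩
      have hj : (0 : ℤ) < 2 ^ j := by positivity
      have hc : ((2 : ℤ) ^ 2 + ((2 ^ (j + 4) : ℕ) : ℤ)) / ((4 : ℕ) : ℤ) = 4 * 2 ^ j + 1 := by
        rw [show (2 : ℤ) ^ 2 + ((2 ^ (j + 4) : ℕ) : ℤ) = ((4 : ℕ) : ℤ) * (4 * 2 ^ j + 1) by
          push_cast; ring, Int.mul_ediv_cancel_left _ (by norm_num)]
      refine ⟨4, 2, by norm_num, by norm_num, ⟨4 * 2 ^ j + 1, by push_cast; ring⟩, ?_, by norm_num,
        by push_cast; nlinarith [pow_add (2 : ℤ) j 4], fun _ => by norm_num⟩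
      rw [hc]
      exact gcd_of_bezout ⟨-2 ^ j, 1, 0, by push_cast; ring⟩
  · have hoddn : p ^ k % 2 = 1 := by simp [Nat.pow_mod, hodd]
    rcases prime_pow_or_coprime_factor (show 1 < p ^ k + 1 by omega) with ⟨q, s, hq, hs⟩ |
      ⟨a, c, ha, hac, hcop, hs⟩
    swap
    · refine ⟨a, 1, ha, isRed_of_factor ha hac hcop (Or.inr rfl) ?_⟩
      rw [one_pow, add_comm]
      exact_mod_cast hs.symm
    obtain rfl : 2 = q :=
      (Nat.prime_dvd_prime_iff_eq Nat.prime_two hq).mp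
        (Nat.prime_two.dvd_of_dvd_pow (show 2 ∣ q ^ s by omega))
    rcases le_or_gt s 5 with hs5 | hs6
    · interval_cases s <;> norm_num at hs <;> try omega
      · exfalso
        have h3 := (Nat.prime_dvd_prime_iff_eq Nat.prime_three hp).mp
          (Nat.prime_three.dvd_of_dvd_pow (show 3 ∣ p ^ k by omega))
        have h5 := (Nat.prime_dvd_prime_iff_eq (by norm_num : (5 : ℕ).Prime) hp).mp
          ((by norm_num : (5 : ℕ).Prime).dvd_of_dvd_pow (show 5 ∣ p ^ k by omega))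
        omega
      · rw [show p ^ k = 31 by omega]
        exact ⟨5, 2, by norm_num, by decide +kernel⟩
    · obtain ⟨j, rfl⟩ : ∃ j, s = j + 6 := ⟨s - 6, by omega⟩
      have hsz : ((p ^ k : ℕ) : ℤ) = 64 * 2 ^ j - 1 := by
        have : ((p ^ k : ℕ) : ℤ) + 1 = ((2 ^ (j + 6) : ℕ) : ℤ) := by exact_mod_cast hs
        push_cast [pow_add] at this ⊢
        linarith
      have hj : (0 : ℤ) < 2 ^ j := by positivity
      refine ⟨8, 3, by norm_num, by norm_num, ⟨1 + 8 * 2 ^ j, by rw [hsz]; push_cast; ring⟩, ?_,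
        by norm_num, by rw [hsz]; push_cast; linarith, fun _ => by norm_num⟩
      rw [hsz, show (3 : ℤ) ^ 2 + (64 * 2 ^ j - 1) = ((8 : ℕ) : ℤ) * (1 + 8 * 2 ^ j) by
        push_cast; ring, Int.mul_ediv_cancel_left _ (by norm_num)]
      exact gcd_of_bezout ⟨-2 ^ j, 1, 0, by push_cast; ring⟩

variable {n : ℕ} [NeZero n]

/-- **Landau**: the class number is one exactly for five values. -/
theorem card_cl_eq_one_iff : Nat.card (Cl n) = 1 ↔ n ∈ [1, 2, 3, 4, 7] := by
  constructor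
  · intro h
    by_contra hn
    obtain ⟨a, b, ha, hr⟩ := exists_second_reduced (NeZero.pos n) hn
    have hr1 : IsRed n 1 0 := by
      refine ⟨one_pos, one_dvd _, ?_, by norm_num, ?_, fun _ => le_rfl⟩
      · simp
      · have := NeZero.pos n
        push_cast
        omega
    obtain ⟨hsub, -⟩ := Nat.card_eq_one_iff_unique.mp h
    have := (red_unique hr hr1 (Subsingleton.elim _ _)).1
    omega
  · intro hn
    simp only [List.mem_cons, List.not_mem_nil, or_false] at hn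
    rcases hn with rfl | rfl | rfl | rfl | rfl <;>
      (rw [card_cl_eq_redSet 3 (by norm_num)]; decide +kernel)

end FA.OrderTheta
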