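import Fermat.Agent.CM.Cubic.Sum

/-!
# Two as a cubic residue

For a prime `p ≡ 1 (mod 3)` the cubic character of `2` is congruent to the Jacobi sum modulo two,
so `2` is a cube modulo `p` iff `p = x² + 27 y²`.
-/

set_option autoImplicit false

noncomputable section

open scoped QuadraticAlgebra

namespace FA.OrderTheta

open FA.CM.Cubic

variable {p : ℕ} [hp : Fact p.Prime] {j : ZMod p} (hj : j ^ 2 + j + 1 = 0) (hp3 : p ≠ 3)

include hj hp3 in
theorem exists_jacobiSum_two :
    ∃ T : EInt, jacobiSum (cubicChar hj hp3) (cubicChar hj hp3) =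
      cubicChar hj hp3 2 + 2 * T := by
  classical
  have h1 := mod_three_eq_one hj hp3
  have h2 : (2 : ZMod p) ≠ 0 := by
    rw [show (2 : ZMod p) = ((2 : ℕ) : ZMod p) by norm_num, Ne, ZMod.natCast_eq_zero_iff,
      Nat.prime_dvd_prime_iff_eq hp.out Nat.prime_two]
    intro e
    omega
  set χ := cubicChar hj hp3
  set f : ZMod p → EInt := fun x => χ x * χ (1 - x)
  set h : ZMod p := 2⁻¹
  have hh : h = 1 - h := by
    have : (2 : ZMod p) * h = 1 := mul_inv_cancel₀ h2
    linear_combination this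
  have hfix : ∀ x : ZMod p, x = 1 - x → x = h := fun x hx =>
    mul_left_cancel₀ h2 (by rw [mul_inv_cancel₀ h2]; linear_combination hx)
  have hfh : f h = χ 2 := by
    simp only [f]
    rw [← hh]
    have hinv : χ h * χ 2 = 1 := by rw [← map_mul, inv_mul_cancel₀ h2, map_one]
    linear_combination (χ h * χ 2 + 1) * χ 2 * hinv -
      χ h * χ h * cubicChar_pow_three hj hp3 h2
  set L := Finset.univ.filter fun x : ZMod p => x.val < (1 - x).val
  refine ⟨∑ x ∈ L, f x, ?_⟩
  set U := Finset.univ.filter fun x : ZMod p => (1 - x).val < x.val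
  have hu : (Finset.univ : Finset (ZMod p)) = {h} ∪ (L ∪ U) := by
    ext x
    simp only [Finset.mem_univ, Finset.mem_union, Finset.mem_singleton, Finset.mem_filter,
      true_and, L, U, true_iff]
    rcases lt_trichotomy x.val (1 - x).val with e | e | e
    · exact Or.inr (Or.inl e)
    · exact Or.inl (hfix x (ZMod.val_injective p e))
    · exact Or.inr (Or.inr e)
  have hd1 : Disjoint ({h} : Finset (ZMod p)) (L ∪ U) := by
    rw [Finset.disjoint_singleton_left]
    simp only [Finset.mem_union, Finset.mem_filter, L, U, ← hh, lt_irrefl, and_false, or_self,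
      not_false_eq_true]
  have hd2 : Disjoint L U := Finset.disjoint_filter.mpr fun x _ a b => lt_asymm a b
  have hsym : ∑ x ∈ U, f x = ∑ x ∈ L, f x :=
    Finset.sum_nbij' (fun x => 1 - x) (fun x => 1 - x)
      (fun x hx => by simpa [L, U] using hx) (fun x hx => by simpa [L, U] using hx)
      (fun x _ => sub_sub_cancel 1 x) (fun x _ => sub_sub_cancel 1 x)
      (fun x _ => by simp only [f, sub_sub_cancel, mul_comm])
  rw [jacobiSum]
  show ∑ x, f x = _
  rw [hu, Finset.sum_union hd1, Finset.sum_union hd2, Finset.sum_singleton, hfh, hsym, two_mul]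

include hj hp3 in
/-- `2` is a cube iff the primary prime has even imaginary part. -/
theorem two_cube_iff_even :
    (∃ x : ZMod p, x ^ 3 = 2) ↔ Even (primaryPrime hj hp3).im := by
  classical
  have h1 := mod_three_eq_one hj hp3
  have h2 : (2 : ZMod p) ≠ 0 := by
    rw [show (2 : ZMod p) = ((2 : ℕ) : ZMod p) by norm_num, Ne, ZMod.natCast_eq_zero_iff,
      Nat.prime_dvd_prime_iff_eq hp.out Nat.prime_two]
    intro e
    omega
  set χ := cubicChar hj hp3 with hχ
  obtain ⟨T, hT⟩ := exists_jacobiSum_two hj hp3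
  rw [← hχ] at hT
  have him : (primaryPrime hj hp3).im = -(χ 2).im - 2 * T.im := by
    rw [primaryPrime, ← hχ, hT]
    rw [show (2 : EInt) * T = T + T by ring]
    simp only [QuadraticAlgebra.im_neg, QuadraticAlgebra.im_add]
    ring
  rw [him]
  have hchar : (∃ x : ZMod p, x ^ 3 = 2) ↔ χ 2 = 1 := by
    constructor
    · rintro ⟨x, hx⟩
      rw [← hx, map_pow]
      exact cubicChar_pow_three hj hp3 fun e => h2 (by rw [← hx, e]; ring)
    · intro h
      have hc := card_cubeRoots hj hp3 (2 : ZMod p)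
      rw [← hχ, h, star_one] at hc
      by_contra hne
      push Not at hne
      rw [Finset.filter_eq_empty_iff.mpr fun x _ => hne x, Finset.card_empty, Nat.cast_zero] at hc
      have := congrArg QuadraticAlgebra.re hc
      simp at this
  rw [hchar]
  rcases isCU_cubicChar hj hp3 (2 : ZMod p) with h | h | h | h <;> rw [← hχ] at h
  · exfalso
    have := cubicChar_pow_three hj hp3 h2
    rw [← hχ, h] at this
    simp at this
  · rw [h]
    simp
  all_goals
    rw [h]
    simp [QuadraticAlgebra.ext_iff, Int.even_iff, Int.sub_emod, Int.mul_emod_right]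

/-- `4p = L² + 27 M²` determines `M` up to sign. -/
theorem sq_eq_of_four_mul {L M L' M' : ℤ} (h : 4 * (p : ℤ) = L ^ 2 + 27 * M ^ 2)
    (h' : 4 * (p : ℤ) = L' ^ 2 + 27 * M' ^ 2) : M ^ 2 = M' ^ 2 := by
  have hp0 : (0 : ℤ) < p := by exact_mod_cast hp.out.pos
  have key : ∀ X : ℤ, (p : ℤ) ∣ X → 27 * X ^ 2 ≤ 16 * (p : ℤ) ^ 2 → X = 0 := by
    intro X ⟨k, hk⟩ hle
    subst hk
    by_contra hne
    have hk : k ≠ 0 := right_ne_zero_of_mul hne
    have : 1 ≤ k ^ 2 := by
      have : 0 < k ^ 2 := by positivity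
      omega
    nlinarith [mul_le_mul_of_nonneg_left this (sq_nonneg (p : ℤ))]
  have hfin : L * M' - L' * M = 0 ∨ L * M' + L' * M = 0 := by
    have hd : (p : ℤ) ∣ (L * M' - L' * M) * (L * M' + L' * M) :=
      ⟨4 * (M' ^ 2 - M ^ 2), by linear_combination -M' ^ 2 * h + M ^ 2 * h'⟩
    rcases (Nat.prime_iff_prime_int.mp hp.out).dvd_or_dvd hd with e | e
    · refine Or.inl (key _ e ?_)
      have : (L * L' + 27 * M * M') ^ 2 + 27 * (L * M' - L' * M) ^ 2 = 16 * (p : ℤ) ^ 2 := by
        linear_combination -(L' ^ 2 + 27 * M' ^ 2) * h - 4 * (p : ℤ) * h'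
      nlinarith [sq_nonneg (L * L' + 27 * M * M')]
    · refine Or.inr (key _ e ?_)
      have : (L * L' - 27 * M * M') ^ 2 + 27 * (L * M' + L' * M) ^ 2 = 16 * (p : ℤ) ^ 2 := by
        linear_combination -(L' ^ 2 + 27 * M' ^ 2) * h - 4 * (p : ℤ) * h'
      nlinarith [sq_nonneg (L * L' - 27 * M * M')]
  have hsq : L ^ 2 * M' ^ 2 = L' ^ 2 * M ^ 2 := by
    rcases hfin with e | e
    · linear_combination (L * M' + L' * M) * e
    · linear_combination (L * M' - L' * M) * e
  refine mul_left_cancel₀ (show (4 * (p : ℤ)) ≠ 0 by positivity) ?_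
  linear_combination M ^ 2 * h' - M' ^ 2 * h - hsq

end FA.OrderTheta

namespace FA.OrderTheta

open FA.CM.Cubic

/-- **Gauss**: for a prime `p ≡ 1 (mod 3)`, `2` is a cube modulo `p` iff `p = x² + 27 y²`. -/
theorem two_cube_iff_form {p : ℕ} (hp : p.Prime) (h1 : p % 3 = 1) :
    (∃ x : ZMod p, x ^ 3 = 2) ↔ ∃ x y : ℤ, (p : ℤ) = x ^ 2 + 27 * y ^ 2 := by
  have : Fact p.Prime := ⟨hp⟩
  have hp3 : p ≠ 3 := by omega
  obtain ⟨u, hu⟩ := exists_prime_orderOf_dvd_card' (G := (ZMod p)ˣ) 3
    (hp := ⟨Nat.prime_three⟩) (by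
      rw [Nat.card_eq_fintype_card, ZMod.card_units]
      have := hp.two_le
      omega)
  set j : ZMod p := (u : ZMod p)
  have hj : j ^ 2 + j + 1 = 0 := by
    have h3 : j ^ 3 = 1 := by
      rw [← Units.val_pow_eq_pow_val, ← hu, pow_orderOf_eq_one, Units.val_one]
    have hne : j - 1 ≠ 0 := fun e => by
      have : u = 1 := Units.ext (sub_eq_zero.mp e)
      rw [this, orderOf_one] at hu
      norm_num at hu
    exact (mul_eq_zero.mp (show (j - 1) * (j ^ 2 + j + 1) = 0 by linear_combination h3)).resolve_left hne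
  rw [two_cube_iff_even hj hp3]
  set π := primaryPrime hj hp3
  have hn : π.re ^ 2 - π.re * π.im + π.im ^ 2 = (p : ℤ) := by
    rw [← FA.CM.Cubic.norm_eq]; exact norm_primaryPrime hj hp3
  obtain ⟨M, hM⟩ : (3 : ℤ) ∣ π.im := Int.dvd_of_emod_eq_zero (isPrimary_primaryPrime hj hp3).2
  constructor
  · rintro ⟨k, hk⟩
    obtain ⟨y, hy⟩ : (3 : ℤ) ∣ k := by omega
    refine ⟨π.re - 3 * y, y, ?_⟩
    rw [← hn, hk, hy]
    ring
  · rintro ⟨x, y, hxy⟩
    have h := sq_eq_of_four_mul (p := p) (L := 2 * π.re - π.im) (M := M) (L' := 2 * x) (M' := 2 * y)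
      (by rw [← hn, hM]; ring) (by rw [hxy]; ring)
    have hMe : Even M := by
      have : Even (M ^ 2) := ⟨2 * y ^ 2, by rw [h]; ring⟩
      exact (Int.even_pow' two_ne_zero).mp this
    rw [hM]
    exact hMe.mul_left 3

end FA.OrderTheta
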