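import Fermat.Agent.Deform.MatrixRep
import Mathlib.LinearAlgebra.Matrix.Charpoly.Coeff
import Mathlib.LinearAlgebra.Matrix.ToLinearEquiv
import Mathlib.Analysis.Complex.Polynomial.Basic

/-!
# Common eigenvectors of commuting matrices of size two
-/

set_option autoImplicit false

noncomputable section

open Matrix

namespace FA.ThetaOne

local notation "M₂" => Matrix (Fin 2) (Fin 2) ℂ

/-- Cayley-Hamilton in size two. -/
theorem sq_eq_trace_det (M : M₂) : M * M = M.trace • M - M.det • (1 : M₂) := by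
  ext i j
  fin_cases i <;> fin_cases j <;>
    simp [Matrix.mul_apply, Fin.sum_univ_two, Matrix.trace_fin_two, Matrix.det_fin_two] <;> ring

/-- An element of finite order with determinant one and trace two is the identity. -/
theorem eq_one_of_trace_two {M : M₂} {n : ℕ} (hn : 0 < n) (hM : M ^ n = 1) (ht : M.trace = 2)
    (hd : M.det = 1) : M = 1 := by
  set N := M - 1 with hN
  have h2 : N * N = 0 := by
    rw [hN]
    have := sq_eq_trace_det M
    rw [ht, hd, one_smul] at this
    rw [mul_sub, sub_mul, sub_mul, this, two_smul]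
    simp only [one_mul, mul_one]
    abel
  have hk : ∀ k : ℕ, M ^ k = 1 + (k : ℂ) • N := by
    intro k
    induction k with
    | zero => simp
    | succ k ih =>
      rw [pow_succ, ih, show M = 1 + N by rw [hN]; simp, add_mul, one_mul, smul_mul_assoc, mul_add,
        mul_one, h2, add_zero]
      push_cast
      rw [add_smul, one_smul]
      abel
  have h := hk n
  rw [hM, left_eq_add, smul_eq_zero] at h
  have : N = 0 := h.resolve_left (by exact_mod_cast hn.ne')
  exact sub_eq_zero.mp (hN ▸ this)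

/-- Commuting matrices of size two have a common eigenvector. -/
theorem exists_common_eigenvector {G : Type*} [Monoid G] (r : G →* M₂)
    (hc : ∀ g g', r g * r g' = r g' * r g) :
    ∃ v : Fin 2 → ℂ, v ≠ 0 ∧ ∀ g, ∃ μ : ℂ, r g *ᵥ v = μ • v := by
  by_cases hs : ∀ g, ∃ μ : ℂ, r g = μ • (1 : M₂)
  · refine ⟨![1, 0], fun h => one_ne_zero (congrFun h 0 : (1 : ℂ) = 0), fun g => ?_⟩
    obtain ⟨μ, hμ⟩ := hs g
    exact ⟨μ, by rw [hμ, smul_mulVec, one_mulVec]⟩
  push Not at hs
  obtain ⟨g₀, hg₀⟩ := hs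
  obtain ⟨z, hz⟩ := IsAlgClosed.exists_root (r g₀).charpoly (by
    rw [Matrix.charpoly_degree_eq_dim]; simp)
  obtain ⟨v, hv0, hv⟩ : ∃ v : Fin 2 → ℂ, v ≠ 0 ∧ (r g₀ - z • (1 : M₂)) *ᵥ v = 0 := by
    refine Matrix.exists_mulVec_eq_zero_iff.mpr ?_
    rw [Polynomial.IsRoot, Matrix.eval_charpoly] at hz
    rw [show r g₀ - z • (1 : M₂) = -(Matrix.scalar (Fin 2) z - r g₀) by
      rw [neg_sub, Matrix.scalar_apply, ← Matrix.smul_one_eq_diagonal], Matrix.det_neg, hz,
      mul_zero]
  refine ⟨v, hv0, fun g => ?_⟩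
  set w := r g *ᵥ v
  have hw : (r g₀ - z • (1 : M₂)) *ᵥ w = 0 := by
    rw [mulVec_mulVec, sub_mul, hc g₀ g, smul_mul_assoc, one_mul,
      show r g * r g₀ - z • r g = r g * (r g₀ - z • (1 : M₂)) by
        rw [mul_sub, mul_smul_comm, mul_one], ← mulVec_mulVec, hv, mulVec_zero]
  have hdet : v 0 * w 1 - w 0 * v 1 = 0 := by
    by_contra hne
    refine hg₀ z (sub_eq_zero.mp ?_)
    have e0 := congrFun hv
    have e1 := congrFun hw
    ext i j
    have a := e0 i
    have b := e1 i
    simp only [mulVec, dotProduct, Fin.sum_univ_two, Pi.zero_apply] at a b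
    fin_cases j <;> simp only [Fin.mk_one, Fin.zero_eta, Matrix.zero_apply]
    · refine (mul_eq_zero.mp (?_ : _ * (v 0 * w 1 - w 0 * v 1) = 0)).resolve_right hne
      linear_combination w 1 * a - v 1 * b
    · refine (mul_eq_zero.mp (?_ : _ * (v 0 * w 1 - w 0 * v 1) = 0)).resolve_right hne
      linear_combination v 0 * b - w 0 * a
  by_cases h0 : v 0 = 0
  · have h1 : v 1 ≠ 0 := fun h => hv0 (funext fun i => by fin_cases i <;> simp [h0, h])
    refine ⟨w 1 / v 1, funext fun i => ?_⟩
    fin_cases i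
    · simp [h0, h1] at hdet ⊢; exact hdet
    · simp [h1]
  · refine ⟨w 0 / v 0, funext fun i => ?_⟩
    fin_cases i
    · simp [h0]
    · simp only [Fin.mk_one, Pi.smul_apply, smul_eq_mul]
      field_simp
      linear_combination hdet

/-- The character of a group through which it acts on a common eigenvector. -/
theorem exists_eigenchar {G : Type*} [Group G] (r : G →* M₂) {v : Fin 2 → ℂ} (hv0 : v ≠ 0)
    (hv : ∀ g, ∃ μ : ℂ, r g *ᵥ v = μ • v) : ∃ θ : G →* ℂˣ, ∀ g, r g *ᵥ v = (θ g : ℂ) • v := by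
  choose μ hμ using hv
  have hinj : ∀ a b : ℂ, a • v = b • v → a = b := fun a b h => smul_left_injective ℂ hv0 h
  let φ : G →* ℂ :=
    { toFun := μ
      map_one' := hinj _ _ (by rw [← hμ, map_one, one_mulVec, one_smul])
      map_mul' := fun a b => hinj _ _ (by
        rw [← hμ, map_mul, ← mulVec_mulVec, hμ b, mulVec_smul, hμ a, smul_smul, mul_comm]) }
  exact ⟨φ.toHomUnits, fun g => hμ g⟩

/-- Commuting matrices of determinant one: the eigenvalue on a common eigenvector. -/
theorem exists_theta {G : Type*} [Group G] (r : G →* M₂)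
    (hc : ∀ g g', r g * r g' = r g' * r g) (hd : ∀ g, (r g).det = 1) :
    ∃ θ : G →* ℂˣ, ∀ g, (θ g : ℂ) + ((θ g)⁻¹ : ℂˣ) = (r g).trace := by
  obtain ⟨v, hv0, hv⟩ := exists_common_eigenvector r hc
  obtain ⟨θ, hθ⟩ := exists_eigenchar r hv0 hv
  refine ⟨θ, fun g => ?_⟩
  have h : ((θ g : ℂ) * θ g) • v = ((r g).trace * θ g - 1) • v := by
    have h1 := congrArg (· *ᵥ v) (sq_eq_trace_det (r g))
    simp only [hd, one_smul] at h1
    rw [← mulVec_mulVec, hθ, mulVec_smul, hθ, sub_mulVec, smul_mulVec, hθ, one_mulVec,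
      smul_smul, smul_smul] at h1
    rw [h1, sub_smul, one_smul]
  have h2 := smul_left_injective ℂ hv0 h
  have hne := (θ g).ne_zero
  rw [Units.val_inv_eq_inv_val]
  field_simp
  linear_combination h2

end FA.ThetaOne
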