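import Fermat.Agent.ThetaOne.Form

/-!
# Forms of determinant `D` and ray classes

A form `A x² + 2 B x y + C y²` with `A C - B² = D` and `A` odd is the norm on the lattice of an odd
ideal of norm `A`, so it represents a prime `l ∤ 4D` exactly when a prime of norm `l` lies in the
class of this ideal or in its inverse.
-/

set_option autoImplicit false

noncomputable section

open Module NumberField Ideal

namespace FA.ThetaOne

open FA.Theta

variable {K : Type*} [Field K] [NumberField K] {D : ℕ} (S : IQ K D)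

include S

/-- The kernel of `𝓞 K → ℤ/a` sending `δ` to `-B`. -/
theorem exists_ideal_of_form {a : ℕ} (ha : Odd a) {B C : ℤ} (hdet : (a : ℤ) * C - B ^ 2 = D) :
    ∃ I : Ideal (𝓞 K), absNorm I = a ∧
      ∀ x y : ℤ, S.el x (2 * y) ∈ I ↔ (a : ℤ) ∣ x + y - B * y := by
  have : NeZero a := ⟨ha.pos.ne'⟩
  obtain ⟨j, hj⟩ := ha
  -- the half
  set h : ZMod a := (j : ZMod a) + 1
  have h2 : 2 * h = 1 := by
    have : ((2 * j + 1 : ℕ) : ZMod a) = 0 := by rw [← hj]; exact ZMod.natCast_self a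
    push_cast at this
    linear_combination this
  set w : ZMod a := h * (1 - B)
  have hw : w * w = w - S.e := by
    have h4 := congrArg (Int.cast : ℤ → ZMod a) S.four_e
    push_cast at h4
    have hd : (D : ZMod a) = -(B : ZMod a) ^ 2 := by
      have e := congrArg (Int.cast : ℤ → ZMod a) hdet
      push_cast at e
      rw [ZMod.natCast_self, zero_mul, zero_sub] at e
      exact e.symm
    rw [hd] at h4
    linear_combination h ^ 2 * h4 -
      (S.e * (2 * h + 1) - (1 - B) * h) * h2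
  let φ : 𝓞 K →+* ZMod a :=
    { toFun := fun x => (S.re x : ZMod a) + (S.im x : ZMod a) * w
      map_one' := by
        rw [show (1 : 𝓞 K) = S.el 1 0 by simp [IQ.el], S.re_el, S.im_el]; simp
      map_mul' := fun x y => by
        conv_lhs => rw [← S.el_re_im x, ← S.el_re_im y, S.el_mul, S.re_el, S.im_el]
        push_cast
        linear_combination -(S.im x : ZMod a) * (S.im y : ZMod a) * hw
      map_zero' := by
        rw [show (0 : 𝓞 K) = S.el 0 0 by simp [IQ.el], S.re_el, S.im_el]; simp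
      map_add' := fun x y => by
        rw [S.re_add, S.im_add]; push_cast; ring }
  have hsurj : Function.Surjective φ := fun z => by
    obtain ⟨n, rfl⟩ := ZMod.intCast_surjective z
    refine ⟨S.el n 0, ?_⟩
    show ((S.re (S.el n 0) : ℤ) : ZMod a) + ((S.im (S.el n 0) : ℤ) : ZMod a) * w = n
    rw [S.re_el, S.im_el]; simp
  refine ⟨RingHom.ker φ, ?_, fun x y => ?_⟩
  · rw [absNorm_apply, Submodule.cardQuot_apply,
      Nat.card_congr (RingHom.quotientKerEquivOfSurjective hsurj).toEquiv, Nat.card_zmod]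
  · rw [RingHom.mem_ker, ← ZMod.intCast_zmod_eq_zero_iff_dvd]
    show ((S.re (S.el x (2 * y)) : ℤ) : ZMod a) + ((S.im (S.el x (2 * y)) : ℤ) : ZMod a) * w = 0 ↔ _
    rw [S.re_el, S.im_el]
    have : ((x + y - B * y : ℤ) : ZMod a) = (x : ZMod a) + ((2 * y : ℤ) : ZMod a) * w := by
      push_cast
      linear_combination -(y : ZMod a) * (1 - B) * h2
    rw [this]

/-- **Primes represented by a form.** -/
theorem exists_class_of_form {a : ℕ} (ha : Odd a) {B C : ℤ} (hdet : (a : ℤ) * C - B ^ 2 = D) :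
    ∃ g : Ray K, (a = 1 → g = 1) ∧ ∀ l : ℕ, l.Prime → ¬ l ∣ 4 * D →
      ((∃ P : oddIdeals K, absNorm (P : Ideal (𝓞 K)) = l ∧ (S.cls P = g ∨ S.cls P = g⁻¹)) ↔
        ∃ x y : ℤ, (l : ℤ) = (a : ℤ) * x ^ 2 + 2 * B * x * y + C * y ^ 2) := by
  obtain ⟨I, hI, hmem⟩ := exists_ideal_of_form S ha hdet
  let J : oddIdeals K := ⟨I, by rw [mem_oddIdeals, hI]; exact ha⟩
  refine ⟨S.cls J, fun h => ?_, fun l hl hlN => ?_⟩
  · have : J = 1 := Subtype.ext (by
      show I = ((1 : oddIdeals K) : Ideal (𝓞 K))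
      rw [Submonoid.coe_one, Ideal.one_eq_top, ← absNorm_eq_one_iff, hI, h])
    rw [this, map_one]
  have hl2 : l ≠ 2 := fun e => hlN (e ▸ dvd_mul_of_dvd_left (by norm_num) D)
  have hlD : ¬ l ∣ D := fun e => hlN (e.mul_left 4)
  have hlodd := hl.odd_of_ne_two hl2
  have ha0 : (a : ℤ) ≠ 0 := by exact_mod_cast ha.pos.ne'
  -- representations are lattice elements
  have hrep : S.cnt J l ≠ 0 ↔
      ∃ x y : ℤ, (l : ℤ) = (a : ℤ) * x ^ 2 + 2 * B * x * y + C * y ^ 2 := by
    rw [IQ.cnt, Ne, Set.ncard_eq_zero (S.finite_cntSet J l), ← Ne, ← Set.nonempty_iff_ne_empty]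
    have hnorm : ∀ r y : ℤ, Algebra.norm ℤ (S.el r (2 * y)) = (r + y) ^ 2 + D * y ^ 2 := fun r y => by
      rw [S.norm_el]; linear_combination y ^ 2 * S.four_e
    constructor
    · rintro ⟨z, ⟨hz, k, hk⟩, hN⟩
      rw [← S.el_re_im z, hk] at hz hN
      obtain ⟨m, hm⟩ := (hmem _ _).mp hz
      refine ⟨m, k, mul_left_cancel₀ ha0 ?_⟩
      rw [hnorm] at hN
      rw [show (absNorm (J : Ideal (𝓞 K)) : ℤ) = a by exact_mod_cast hI] at hN
      linear_combination -hN + (S.re z + k + (a * m + B * k)) * hm - k ^ 2 * hdet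
    · rintro ⟨x, y, hxy⟩
      refine ⟨S.el ((a : ℤ) * x + B * y - y) (2 * y), ⟨(hmem _ _).mpr ⟨x, by ring⟩, ?_⟩, ?_⟩
      · rw [S.im_el]; exact dvd_mul_right 2 y
      · rw [hnorm, show (absNorm (J : Ideal (𝓞 K)) : ℤ) = a by exact_mod_cast hI]
        linear_combination -(a : ℤ) * hxy - y ^ 2 * hdet
  -- lattice elements are ideals of the inverse class
  have hcls : S.cnt J l ≠ 0 ↔
      ∃ P : oddIdeals K, absNorm (P : Ideal (𝓞 K)) = l ∧ S.cls P = (S.cls J)⁻¹ := by
    rw [S.cnt_congr (S.cls_eq_iff.mp (S.cls_rep (S.cls J)).symm) l,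
      cnt_eq_two_mul S hlodd, mul_ne_zero_iff]
    have hfin : {b : oddIdeals K |
        absNorm (b : Ideal (𝓞 K)) = l ∧ S.cls b = (S.cls J)⁻¹}.Finite := by
      refine Set.Finite.of_finite_image
        ((Ideal.finite_setOfPred_absNorm_eq (S := 𝓞 K) l).subset ?_) Subtype.val_injective.injOn
      rintro _ ⟨b, hb, rfl⟩
      exact hb.1
    rw [Ne, Ne, Set.ncard_eq_zero hfin, ← Ne, ← Ne, ← Set.nonempty_iff_ne_empty]
    exact ⟨fun h => h.2, fun h => ⟨two_ne_zero, h⟩⟩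
  rw [← hrep, hcls]
  refine ⟨?_, fun ⟨P, hP, hc⟩ => ⟨P, hP, Or.inr hc⟩⟩
  rintro ⟨P, hP, hc | hc⟩
  · obtain ⟨Q, hPQ, hQ, -⟩ := S.exists_conj hl hl2 hlD hP
    refine ⟨⟨Q, by rw [mem_oddIdeals, hQ]; exact hlodd⟩, hQ, ?_⟩
    have h1 : S.cls (P * ⟨Q, by rw [mem_oddIdeals, hQ]; exact hlodd⟩) = 1 := by
      refine S.cls_eq_one_of_oneMod2 (x := (l : 𝓞 K)) hPQ ?_
      obtain ⟨k, hk⟩ := hlodd
      exact ⟨k, by rw [hk]; push_cast; ring⟩
    rw [map_mul, hc] at h1
    exact eq_inv_of_mul_eq_one_right h1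
  · exact ⟨P, hP, hc⟩

end FA.ThetaOne
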