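import Fermat.Agent.ThetaOne.Galois
import Fermat.Agent.ThetaOne.Forms
import Fermat.Agent.ThetaOne.GaloisPrimes

/-!
# Primes in the ring class field

In the field of the weight one theta forms the Frobenius of a prime `l ∤ 4D` lies in `H` iff `l`
splits in `ℚ(√-D)`, and then its class is that of the primes above `l`, up to inversion.  So the
primes splitting completely are those of the form `x² + D y²`, and Chebotarev gives the densities of
the primes represented by each form.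
-/

set_option autoImplicit false
set_option linter.style.haveILetI false

noncomputable section

open Module NumberField IsDedekindDomain Polynomial FA.Density
open scoped Pointwise

namespace FA.ThetaOne

open FA.Theta

local notation "Qb" => AlgebraicClosure ℚ
local notation "GQ" => AlgebraicClosure ℚ ≃ₐ[ℚ] AlgebraicClosure ℚ

variable {K : Type*} [Field K] [NumberField K] {D : ℕ} {S : IQ K D}

namespace RingClassData

variable (R : RingClassData S)

instance instNormal : Normal ℚ R.L := IsGalois.to_normal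

include R

omit R in
theorem four_D_ne_zero (T : IQ K D) : 4 * D ≠ 0 := by have := T.pos; omega

/-- The Frobenius of `q` with its place. -/
theorem exists_frob {q : ℕ} (hq : q.Prime) (hqN : ¬ q ∣ 4 * D) :
    ∃ (A : ValuationSubring Qb) (σ : GQ) (P : Ideal (𝓞 R.L)), A.LiesOverPrime q ∧
      A.IsFrobeniusAt σ q ∧ IsFrobPair q P (AlgEquiv.restrictNormalHom R.L σ) :=
  haveI : NumberField R.L := { }
  FA.OrderTheta.exists_frobPair R.L hq fun A hA σ hσ => R.unram q hq hqN A hA σ hσ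

/-- The class of a Frobenius. -/
theorem cl_frob [Finite (Ray K)] {q : ℕ} (hq : q.Prime) (hqN : ¬ q ∣ 4 * D)
    {A : ValuationSubring Qb} (hA : A.LiesOverPrime q) {σ : GQ} (hσ : A.IsFrobeniusAt σ q)
    (P : oddIdeals K) (hP : Ideal.absNorm (P : Ideal (𝓞 K)) = q) :
    ∃ h : AlgEquiv.restrictNormalHom R.L σ ∈ R.W.H,
      S.cls P = R.W.cl ⟨_, h⟩ ∨ S.cls P = (R.W.cl ⟨_, h⟩)⁻¹ := by
  obtain ⟨hiff, htr⟩ := R.frob q hq hqN A hA σ hσ
  exact ⟨hiff.mpr ⟨P, hP⟩, R.W.cl_unique (fun ψ => htr P hP ψ)⟩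

theorem cl_conj [Finite (Ray K)] (g : R.W.H) (x : R.L ≃ₐ[ℚ] R.L)
    (h : x * g * x⁻¹ ∈ R.W.H) :
    R.W.cl g = R.W.cl ⟨_, h⟩ ∨ R.W.cl g = (R.W.cl ⟨_, h⟩)⁻¹ := by
  refine R.W.cl_unique fun ψ => ?_
  rw [← R.W.trace_cl g ψ, map_mul, map_mul, Matrix.trace_mul_cycle, ← map_mul, inv_mul_cancel,
    map_one, one_mul]

theorem mem_H_conj [Finite (Ray K)] {g : R.L ≃ₐ[ℚ] R.L} (hg : g ∈ R.W.H)
    (x : R.L ≃ₐ[ℚ] R.L) : x * g * x⁻¹ ∈ R.W.H :=
  (Subgroup.normal_of_index_eq_two R.W.index_eq_two).conj_mem g hg x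

/-- The automorphisms whose class is `c` or `c⁻¹`. -/
def classSet (c : Ray K) : Set (R.L ≃ₐ[ℚ] R.L) :=
  {g | ∃ h : g ∈ R.W.H, R.W.cl ⟨g, h⟩ = c ∨ R.W.cl ⟨g, h⟩ = c⁻¹}

theorem classSet_conj [Finite (Ray K)] (c : Ray K) {g : R.L ≃ₐ[ℚ] R.L} (hg : g ∈ R.classSet c)
    (x : R.L ≃ₐ[ℚ] R.L) : x * g * x⁻¹ ∈ R.classSet c := by
  obtain ⟨h, hc⟩ := hg
  refine ⟨R.mem_H_conj h x, ?_⟩
  rcases R.cl_conj ⟨g, h⟩ x (R.mem_H_conj h x) with e | e <;> rw [e] at hc
  · exact hc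
  · rw [inv_eq_iff_eq_inv, inv_eq_iff_eq_inv, inv_inv] at hc
    exact hc.symm

theorem card_classSet [Finite (Ray K)] (c : Ray K) :
    Nat.card (R.classSet c) = Nat.card ({c, c⁻¹} : Set (Ray K)) := by
  rw [← R.W.card_class c]
  exact Nat.card_congr
    { toFun := fun g => ⟨⟨g.1, g.2.1⟩, g.2.2⟩
      invFun := fun g => ⟨g.1.1, g.1.2, g.2⟩
      left_inv := fun _ => rfl
      right_inv := fun _ => rfl }

theorem card_gal [Finite (Ray K)] :
    Nat.card (R.L ≃ₐ[ℚ] R.L) = 2 * (3 * classNumber K) := by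
  rw [R.W.card_group, S.card_ray, classNumber, Nat.card_eq_fintype_card (α := ClassGroup (𝓞 K))]

theorem finrank_eq [Finite (Ray K)] : finrank ℚ R.L = 2 * (3 * classNumber K) := by
  rw [← R.card_gal, IsGalois.card_aut_eq_finrank]

/-- A prime has a representation by the form iff its Frobenius has the class of the form. -/
theorem represented_iff [Finite (Ray K)] {a : ℕ} {B C : ℤ} {c : Ray K}
    (hc : ∀ l : ℕ, l.Prime → ¬ l ∣ 4 * D →
      ((∃ P : oddIdeals K, Ideal.absNorm (P : Ideal (𝓞 K)) = l ∧ (S.cls P = c ∨ S.cls P = c⁻¹)) ↔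
        ∃ x y : ℤ, (l : ℤ) = (a : ℤ) * x ^ 2 + 2 * B * x * y + C * y ^ 2))
    {q : ℕ} (hq : q.Prime) (hqN : ¬ q ∣ 4 * D) {A : ValuationSubring Qb}
    (hA : A.LiesOverPrime q) {σ : GQ} (hσ : A.IsFrobeniusAt σ q) :
    AlgEquiv.restrictNormalHom R.L σ ∈ R.classSet c ↔
      ∃ x y : ℤ, (q : ℤ) = (a : ℤ) * x ^ 2 + 2 * B * x * y + C * y ^ 2 := by
  rw [← hc q hq hqN]
  constructor
  · rintro ⟨h, hcl⟩
    obtain ⟨P₀, hP₀⟩ := ((R.frob q hq hqN A hA σ hσ).1).mp h
    have hodd : P₀ ∈ oddIdeals K := by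
      rw [mem_oddIdeals, hP₀]
      exact hq.odd_of_ne_two fun e => hqN (e ▸ dvd_mul_of_dvd_left (by norm_num) D)
    obtain ⟨h', e⟩ := R.cl_frob hq hqN hA hσ ⟨P₀, hodd⟩ hP₀
    refine ⟨⟨P₀, hodd⟩, hP₀, ?_⟩
    rcases e with e | e <;> rcases hcl with e' | e' <;> rw [e'] at e <;> simp [e]
  · rintro ⟨P, hP, hPc⟩
    obtain ⟨h, e⟩ := R.cl_frob hq hqN hA hσ P hP
    refine ⟨h, ?_⟩
    rcases e with e | e <;> rcases hPc with e' | e' <;> rw [e'] at e <;>
      simp_all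

/-- The trivial class is the trivial automorphism. -/
theorem classSet_one [Finite (Ray K)] : R.classSet 1 = {1} := by
  refine Set.eq_singleton_iff_unique_mem.mpr ⟨⟨R.W.H.one_mem, Or.inl R.W.cl_one⟩, ?_⟩
  rintro g ⟨h, hg⟩
  rw [inv_one, or_self] at hg
  exact congrArg Subtype.val (R.W.eq_one_of_cl hg)

/-- A prime splits completely iff it is `x² + D y²`. -/
theorem splits_iff [Finite (Ray K)] {q : ℕ} (hq : q.Prime) (hqN : ¬ q ∣ 4 * D) :
    ((Ideal.span {(q : ℤ)}).primesOver (𝓞 R.L)).ncard = finrank ℚ R.L ↔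
      ∃ x y : ℤ, (q : ℤ) = x ^ 2 + D * y ^ 2 := by
  obtain ⟨c, hc1, hc⟩ := exists_class_of_form S (a := 1) odd_one (B := 0) (C := D)
    (by push_cast; ring)
  obtain rfl := hc1 rfl
  obtain ⟨A, σ, P, hA, hσ, hP⟩ := R.exists_frob hq hqN
  have h := R.represented_iff hc hq hqN hA hσ
  rw [R.classSet_one, Set.mem_singleton_iff] at h
  simp only [Nat.cast_one, one_mul, mul_zero, zero_mul, add_zero] at h
  have : NumberField R.L := { }
  rw [← h, FA.OrderTheta.ncard_primesOver_iff hP]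

/-- **The density of the primes represented by a form.** -/
theorem hasDirichletDensity_form [Finite (Ray K)] {a : ℕ} {B C : ℤ} {c : Ray K}
    (hc : ∀ l : ℕ, l.Prime → ¬ l ∣ 4 * D →
      ((∃ P : oddIdeals K, Ideal.absNorm (P : Ideal (𝓞 K)) = l ∧ (S.cls P = c ∨ S.cls P = c⁻¹)) ↔
        ∃ x y : ℤ, (l : ℤ) = (a : ℤ) * x ^ 2 + 2 * B * x * y + C * y ^ 2)) :
    {v : HeightOneSpectrum (𝓞 ℚ) | ∃ x y : ℤ, (Ideal.absNorm v.asIdeal : ℤ) =
        (a : ℤ) * x ^ 2 + 2 * B * x * y + C * y ^ 2}.HasDirichletDensity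
      ((Nat.card ({c, c⁻¹} : Set (Ray K)) : ℝ) / (2 * (3 * classNumber K) : ℕ)) := by
  have : NumberField R.L := { }
  have hd := FA.OrderTheta.hasDirichletDensity_of_frob R.L (R.classSet c)
    (fun g hg x => R.classSet_conj c hg x)
    (fun q => ∃ x y : ℤ, (q : ℤ) = (a : ℤ) * x ^ 2 + 2 * B * x * y + C * y ^ 2)
    (4 * D).divisors fun q hq hqT => by
      have hqN : ¬ q ∣ 4 * D := fun h => hqT (Nat.mem_divisors.mpr ⟨h, four_D_ne_zero S⟩)
      obtain ⟨A, σ, P, hA, hσ, hP⟩ := R.exists_frob hq hqN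
      exact ⟨_, P, hP, R.represented_iff hc hq hqN hA hσ⟩
  rwa [R.card_classSet, R.card_gal] at hd

/-- **A polynomial**: for almost all primes `q`, `q = x² + D y²` iff it has a root modulo `q`. -/
theorem exists_polynomial [Finite (Ray K)] : ∃ f : ℤ[X], f.Monic ∧ Irreducible f ∧
    f.natDegree = 2 * (3 * classNumber K) ∧ ∃ T : Finset ℕ, ∀ q : ℕ, q.Prime → q ∉ T →
      ((∃ x y : ℤ, (q : ℤ) = x ^ 2 + D * y ^ 2) ↔
        ∃ z : ZMod q, (f.map (Int.castRingHom (ZMod q))).eval z = 0) := by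
  have : NumberField R.L := { }
  rw [← R.finrank_eq]
  refine FA.OrderTheta.exists_polynomial_of_frob R.L _ (4 * D).divisors fun q hq hqT => ?_
  have hqN : ¬ q ∣ 4 * D := fun h => hqT (Nat.mem_divisors.mpr ⟨h, four_D_ne_zero S⟩)
  obtain ⟨c, hc1, hc⟩ := exists_class_of_form S (a := 1) odd_one (B := 0) (C := D)
    (by push_cast; ring)
  obtain rfl := hc1 rfl
  obtain ⟨A, σ, P, hA, hσ, hP⟩ := R.exists_frob hq hqN
  have h := R.represented_iff hc hq hqN hA hσ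
  rw [R.classSet_one, Set.mem_singleton_iff] at h
  simp only [Nat.cast_one, one_mul, mul_zero, zero_mul, add_zero] at h
  exact ⟨_, P, hP, h⟩

/-- **Modularity of the dihedral representations**: an irreducible two dimensional representation
of the Galois group has the traces and determinants of a weight one theta form. -/
theorem exists_modular [Fintype (Ray K)] (ρ : (R.L ≃ₐ[ℚ] R.L) →* Matrix (Fin 2) (Fin 2) ℂ)
    (hirr : ∀ v : Fin 2 → ℂ, v ≠ 0 → ∃ g, ∀ μ : ℂ, Matrix.mulVec (ρ g) v ≠ μ • v) :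
    ∃ f : CuspForm (CongruenceSubgroup.Gamma1 (4 * D)) 1, ModularFormClass.qCoeff f 1 = 1 ∧
      ∀ q : ℕ, q.Prime → ¬ q ∣ 4 * D → ∀ A : ValuationSubring Qb, A.LiesOverPrime q →
        ∀ σ : GQ, A.IsFrobeniusAt σ q →
          (ρ (AlgEquiv.restrictNormalHom R.L σ)).trace = ModularFormClass.qCoeff f q ∧
          (ρ (AlgEquiv.restrictNormalHom R.L σ)).det = signChar S (q : ZMod (4 * D)) := by
  obtain ⟨ψ, hψ⟩ := R.W.exists_eq_trace_det ρ hirr
  obtain ⟨f, hf, hf1, -⟩ := exists_weightOne S ψ.1 ψ.2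
  refine ⟨f, hf1, fun q hq hqN A hA σ hσ => ?_⟩
  rw [(hψ _).1, (hψ _).2, hf]
  exact R.coefRel q hq hqN A hA σ hσ ψ

end RingClassData

end FA.ThetaOne
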