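import Fermat.Agent.ThetaOne.OrderField
import Fermat.Agent.ThetaOne.OrderReduced

/-!
# Idoneal numbers: classes of exponent two

The Galois group of the ring class field of `ℤ[√-n]` is commutative iff every class is its own
inverse, iff every reduced form is ambiguous.
-/

set_option autoImplicit false

noncomputable section

namespace FA.OrderTheta

variable {n : ℕ} [NeZero n]

/-- The class of a reduced form is its own inverse iff the form is ambiguous. -/
theorem cls_mul_self_iff {a : ℕ} {b : ℤ} (hr : IsRed n a b) :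
    cls (redII hr) * cls (redII hr) = 1 ↔
      b = 0 ∨ 2 * |b| = a ∨ (a : ℤ) * a = b ^ 2 + n := by
  obtain ⟨ha, hd, hg, hb, hac, -⟩ := id hr
  have h := red_det hr
  have hp := bezout_of_gcd hg
  set c := (b ^ 2 + (n : ℤ)) / a with hcdef
  rw [mul_eq_one_iff_eq_inv, ← cls_conj, show redII hr = rootII a b c ha h hp from rfl, conj_rootII]
  constructor
  · intro e
    by_contra hne
    push Not at hne
    obtain ⟨h0, h2, haa⟩ := hne
    have hr' : IsRed n a (-b) := by
      refine ⟨ha, by rwa [neg_sq], ?_, by rwa [abs_neg], by rwa [neg_sq], ?_⟩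
      · rw [neg_sq, ← hcdef]
        obtain ⟨u, v, w, e'⟩ := hp
        exact gcd_of_bezout ⟨u, v, -w, by linear_combination e'⟩
      · rw [abs_neg, neg_sq]
        rintro (k | k)
        · exact absurd k h2
        · exact absurd k haa
    have hc' : ((-b) ^ 2 + (n : ℤ)) / a = c := by rw [neg_sq]
    have key : cls (redII hr) = cls (redII hr') := e.trans (by simp only [redII, hc'])
    have := (red_unique hr hr' key).2
    omega
  · intro hamb
    rcases hamb with hb0 | hb0 | hb0
    · exact congrArg cls (rootII_congr ha h hp _ _ (by subst hb0; simp))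
    · refine congrArg cls (rootII_congr ha h hp _ _ ?_)
      rw [← hb0, sub_neg_eq_add, ← two_mul, ← dvd_abs, abs_mul, abs_two]
    · have hca : ((a : ℕ) : ℤ) = c :=
        mul_left_cancel₀ (by exact_mod_cast ha.ne') (hb0.trans (Int.mul_ediv_cancel' hd).symm)
      have h' : (a : ℤ) * (a : ℤ) - b ^ 2 = n := by rw [hb0]; ring
      have hp' : ∃ u v w : ℤ, u * (a : ℤ) + v * (a : ℤ) + w * (2 * b) = 1 := by
        rw [← hca] at hp; exact hp
      rw [← conj_rootII (n := n) ha h hp, cls_conj]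
      exact (congrArg cls (rootII_congr ha h hp h' hp' (by simp))).trans
        (cls_rootII_swap ha h hp ha hca h' hp')

variable (n) in
theorem exponent_two_iff_reduced :
    (∀ c : Cl n, c * c = 1) ↔
      ∀ (a : ℕ) (b : ℤ), IsRed n a b → b = 0 ∨ 2 * |b| = a ∨ (a : ℤ) * a = b ^ 2 + n := by
  refine ⟨fun h a b hr => (cls_mul_self_iff hr).mp (h _), fun h c => ?_⟩
  obtain ⟨a, b, hr, rfl⟩ := exists_red c
  exact (cls_mul_self_iff hr).mpr (h a b hr)

theorem exponent_two_iff_redSet {M : ℕ} (hM : 4 * n < 3 * (M + 1) ^ 2) :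
    (∀ c : Cl n, c * c = 1) ↔
      ∀ t ∈ redSet n M, t.2 = 0 ∨ 2 * |t.2| = t.1 ∨ (t.1 : ℤ) * t.1 = t.2 ^ 2 + n := by
  rw [exponent_two_iff_reduced]
  exact ⟨fun h t ht => h _ _ (Finset.mem_filter.mp ht).2,
    fun h a b hr => h (a, b) (mem_redSet hM hr)⟩

namespace ClassData

variable (R : ClassData (81 * n))

/-- The class of a square. -/
theorem mul_self_mem_kerSub_iff {g : R.L ≃ₐ[ℚ] R.L} (hg : g ∈ R.W.H) :
    g * g ∈ R.kerSub ↔ extCls n (R.W.cl ⟨g, hg⟩) * extCls n (R.W.cl ⟨g, hg⟩) = 1 := by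
  set e := extCls n (R.W.cl ⟨g, hg⟩) with he
  set e₂ := extCls n (R.W.cl ⟨g * g, mul_mem hg hg⟩) with he₂
  have hmem : g * g ∈ R.kerSub ↔ e₂ = 1 := by
    show (∃ h, _ ∨ _) ↔ _
    simp only [inv_one, or_self]
    exact ⟨fun ⟨_, h⟩ => h, fun h => ⟨mul_mem hg hg, h⟩⟩
  have hχ : ∀ χ : Cl n →* ℂˣ, χ e₂ = 1 ↔ χ (e * e) = 1 := by
    intro χ
    obtain ⟨θ, hθ⟩ := R.W.exists_lift (χ.comp (extCls n))
    have hm : θ ⟨g * g, mul_mem hg hg⟩ = θ ⟨g, hg⟩ * θ ⟨g, hg⟩ := map_mul θ ⟨g, hg⟩ ⟨g, hg⟩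
    rcases hθ ⟨g, hg⟩ with h1 | h1 <;> rcases hθ ⟨g * g, mul_mem hg hg⟩ with h2 | h2 <;>
      rw [h1, h2] at hm <;> simp only [MonoidHom.comp_apply, ← he, ← he₂] at hm <;>
      rw [map_mul]
    · rw [hm]
    · rw [← hm, inv_eq_one]
    · rw [hm, ← mul_inv, inv_eq_one]
    · rw [← mul_inv, inv_inj] at hm
      rw [hm]
  rw [hmem]
  have : NeZero (Monoid.exponent (Cl n) : ℂ) :=
    ⟨Nat.cast_ne_zero.mpr Monoid.exponent_ne_zero_of_finite⟩
  constructor
  · intro h
    by_contra hne
    obtain ⟨χ, hχ'⟩ := CommGroup.exists_apply_ne_one_of_hasEnoughRootsOfUnity (Cl n) ℂ hne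
    exact hχ' ((hχ χ).mp (by rw [h, map_one]))
  · intro h
    by_contra hne
    obtain ⟨χ, hχ'⟩ := CommGroup.exists_apply_ne_one_of_hasEnoughRootsOfUnity (Cl n) ℂ hne
    exact hχ' ((hχ χ).mpr (by rw [h, map_one]))

/-- An image of the Galois group with kernel `kerSub` is commutative iff the classes have
exponent two. -/
theorem commutative_iff {G : Type*} [Group G] (res : (R.L ≃ₐ[ℚ] R.L) →* G)
    (hsurj : Function.Surjective res) (hres : ∀ g, res g = 1 ↔ g ∈ R.kerSub) :
    IsMulCommutative G ↔ ∀ c : Cl n, c * c = 1 := by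
  constructor
  · intro hG c
    have hpos : 0 < Nat.card (R.classSet c) := by
      rw [R.card_classSet]
      have : Nonempty ({c, c⁻¹} : Set (Cl n)) := ⟨⟨c, Or.inl rfl⟩⟩
      exact Nat.mul_pos Nat.card_pos Nat.card_pos
    obtain ⟨⟨g, hg, hc⟩⟩ := (Nat.card_pos_iff.mp hpos).1
    obtain ⟨y, hy⟩ := SetLike.exists_not_mem_of_ne_top R.W.H R.W.ne_top
    have hgg : g * g ∈ R.kerSub := by
      rw [← hres, map_mul]
      have h := congrArg res (R.W.conj_eq_inv hg hy)
      rw [map_mul, map_mul, map_inv, map_inv, IsMulCommutative.is_comm.comm (res y) (res g),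
        mul_inv_cancel_right] at h
      conv_lhs => arg 2; rw [h]
      exact mul_inv_cancel _
    have h := (R.mul_self_mem_kerSub_iff hg).mp hgg
    rcases hc with e | e <;> rw [e] at h
    · exact h
    · exact inv_injective (by rw [mul_inv_rev, h, inv_one])
  · intro hC
    have hH : ∀ g ∈ R.W.H, ∀ y, res y * res g = res g * res y := by
      intro g hg y
      by_cases hy : y ∈ R.W.H
      · rw [← map_mul, ← map_mul, R.W.comm hy hg]
      · have h1 : res g * res g = 1 := by
          rw [← map_mul, hres]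
          exact (R.mul_self_mem_kerSub_iff hg).mpr (hC _)
        have h := congrArg res (R.W.conj_eq_inv hg hy)
        rw [map_mul, map_mul, map_inv, map_inv, inv_eq_of_mul_eq_one_right h1,
          mul_inv_eq_iff_eq_mul] at h
        exact h
    refine ⟨⟨fun u v => ?_⟩⟩
    obtain ⟨g, rfl⟩ := hsurj u
    obtain ⟨y, rfl⟩ := hsurj v
    by_cases hg : g ∈ R.W.H
    · exact (hH g hg y).symm
    by_cases hy : y ∈ R.W.H
    · exact hH y hy g
    have hk : g⁻¹ * y ∈ R.W.H := by
      rw [Subgroup.mul_mem_iff_of_index_two R.W.index_eq_two, Subgroup.inv_mem_iff]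
      exact ⟨fun h => absurd h hg, fun h => absurd h hy⟩
    rw [show y = g * (g⁻¹ * y) by group, map_mul, mul_assoc, hH _ hk g]

end ClassData

end FA.OrderTheta
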