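import Mathlib.NumberTheory.Zsqrtd.Basic
import Mathlib.RingTheory.Ideal.Operations
import Mathlib.GroupTheory.Congruence.Basic
import Mathlib.LinearAlgebra.FreeModule.PID
import Mathlib.Data.ZMod.Basic
import Mathlib.Tactic.LinearCombination

/-!
# The classes of invertible ideals of `ℤ[√-N]`

An ideal is called invertible when its product with its conjugate is generated by a positive
integer, its norm.  A submodule of these ideals closed under the factorisation `I ⊆ P`, `I = P J`
is all that is needed for classes, their finiteness and the primes of degree one.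
-/

set_option autoImplicit false

noncomputable section

open Ideal

namespace FA.OrderTheta

/-- `ℤ[√-N]`. -/
abbrev Ord (N : ℕ) := ℤ√(-(N : ℤ))

variable {N : ℕ} [NeZero N]

omit [NeZero N] in
theorem norm_eq (x : Ord N) : x.norm = x.re ^ 2 + (N : ℤ) * x.im ^ 2 := by
  rw [Zsqrtd.norm_def]; ring

omit [NeZero N] in
theorem norm_nonneg' (x : Ord N) : 0 ≤ x.norm :=
  Zsqrtd.norm_nonneg (neg_nonpos.mpr (Int.natCast_nonneg N)) x

theorem norm_eq_zero' {x : Ord N} (h : x.norm = 0) : x = 0 :=
  (Zsqrtd.norm_eq_zero_iff (neg_lt_zero.mpr (Int.natCast_pos.mpr (NeZero.pos N))) x).mp h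

instance instNoZeroDivisorsOrd : NoZeroDivisors (Ord N) where
  eq_zero_or_eq_zero_of_mul_eq_zero {x y} h := by
    have h' := congrArg Zsqrtd.norm h
    rw [Zsqrtd.norm_mul, Zsqrtd.norm_zero] at h'
    exact (mul_eq_zero.mp h').imp norm_eq_zero' norm_eq_zero'

instance instIsDomainOrd : IsDomain (Ord N) := NoZeroDivisors.to_isDomain _

omit [NeZero N] in
theorem norm_star_mul (x : Ord N) : x * star x = (x.norm : Ord N) := (Zsqrtd.norm_eq_mul_conj x).symm

/-- The conjugate ideal. -/
def conjI (I : Ideal (Ord N)) : Ideal (Ord N) := I.map (starRingEnd (Ord N))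

omit [NeZero N] in
theorem star_mem_conjI {I : Ideal (Ord N)} {x : Ord N} (h : x ∈ I) : star x ∈ conjI I :=
  Ideal.mem_map_of_mem _ h

omit [NeZero N] in
theorem conjI_conjI (I : Ideal (Ord N)) : conjI (conjI I) = I := by
  rw [conjI, conjI, Ideal.map_map,
    show (starRingEnd (Ord N)).comp (starRingEnd (Ord N)) = RingHom.id _ from
      RingHom.ext fun x => star_star x, Ideal.map_id]

omit [NeZero N] in
theorem mem_conjI_iff {I : Ideal (Ord N)} {x : Ord N} : x ∈ conjI I ↔ star x ∈ I :=
  ⟨fun h => by simpa [conjI_conjI] using star_mem_conjI h,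
    fun h => by simpa using star_mem_conjI h⟩

omit [NeZero N] in
theorem conjI_span (x : Ord N) : conjI (span {x}) = span {star x} := by
  rw [conjI, Ideal.map_span, Set.image_singleton]; rfl

omit [NeZero N] in
theorem conjI_mul (I J : Ideal (Ord N)) : conjI (I * J) = conjI I * conjI J := Ideal.map_mul _ _ _

omit [NeZero N] in
theorem conjI_mono {I J : Ideal (Ord N)} (h : I ≤ J) : conjI I ≤ conjI J := Ideal.map_mono h

variable (N) in
/-- The invertible ideals. -/
def invIdeals : Submonoid (Ideal (Ord N)) where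
  carrier := {I | ∃ a : ℕ, 0 < a ∧ I * conjI I = span {(a : Ord N)}}
  one_mem' := ⟨1, one_pos, by simp [conjI, Ideal.one_eq_top, Ideal.map_top]⟩
  mul_mem' {I J} := fun ⟨a, ha, hI⟩ ⟨b, hb, hJ⟩ => ⟨a * b, Nat.mul_pos ha hb, by
    rw [conjI_mul, mul_mul_mul_comm, hI, hJ, Ideal.span_singleton_mul_span_singleton, Nat.cast_mul]⟩

/-- Invertible ideals. -/
abbrev II (N : ℕ) [NeZero N] := invIdeals N

omit [NeZero N] in
theorem natCast_span_inj {a b : ℕ} (h : span {(a : Ord N)} = span {(b : Ord N)}) : a = b := by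
  have h1 : (a : Ord N) ∣ b := mem_span_singleton.mp (h ▸ mem_span_singleton_self _)
  have h2 : (b : Ord N) ∣ a := mem_span_singleton.mp (h ▸ mem_span_singleton_self _)
  have e : ∀ {u v : ℕ}, (u : Ord N) ∣ v → u ∣ v := fun {u v} h => by
    have h' : ((u : ℤ) : Ord N) ∣ ((v : ℤ) : Ord N) := by simpa using h
    exact Int.natCast_dvd_natCast.mp ((Zsqrtd.intCast_dvd_intCast _ _).mp h')
  exact Nat.dvd_antisymm (e h1) (e h2)

/-- The norm of an invertible ideal. -/
def nrm : II N →* ℕ where
  toFun I := I.2.choose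
  map_one' := natCast_span_inj (N := N) (by
    rw [← (1 : II N).2.choose_spec.2]; simp [conjI, Ideal.one_eq_top, Ideal.map_top])
  map_mul' I J := natCast_span_inj (N := N) (by
    rw [← (I * J).2.choose_spec.2, Nat.cast_mul, ← Ideal.span_singleton_mul_span_singleton,
      ← I.2.choose_spec.2, ← J.2.choose_spec.2, Submonoid.coe_mul, conjI_mul, mul_mul_mul_comm])

theorem mul_conj (I : II N) : (I : Ideal (Ord N)) * conjI I = span {(nrm I : Ord N)} :=
  I.2.choose_spec.2

theorem nrm_pos (I : II N) : 0 < nrm I := I.2.choose_spec.1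

omit [NeZero N] in
theorem natCast_ne_zero_of_pos {a : ℕ} (ha : 0 < a) : ((a : ℕ) : Ord N) ≠ 0 := Nat.cast_ne_zero.mpr ha.ne'

theorem span_nrm_ne_bot (I : II N) : span {(nrm I : Ord N)} ≠ ⊥ := by
  rw [Ne, span_singleton_eq_bot]; exact natCast_ne_zero_of_pos (nrm_pos I)

theorem coe_ne_bot (I : II N) : (I : Ideal (Ord N)) ≠ ⊥ := fun h => span_nrm_ne_bot I (by
  rw [← mul_conj, h, Ideal.bot_mul])

/-- The conjugate as an invertible ideal. -/
def conj (I : II N) : II N :=
  ⟨conjI I, nrm I, nrm_pos I, by rw [conjI_conjI, mul_comm, mul_conj]⟩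

theorem coe_conj (I : II N) : ((conj I : II N) : Ideal (Ord N)) = conjI I := rfl

theorem nrm_conj (I : II N) : nrm (conj I) = nrm I :=
  natCast_span_inj (N := N) (by
    rw [← mul_conj, coe_conj, conjI_conjI, mul_comm, mul_conj])

omit [NeZero N] in
theorem natAbs_norm_cast (x : Ord N) :
    ((x.norm.natAbs : ℕ) : Ord N) = (x.norm : Ord N) :=
  (Int.cast_natCast _).symm.trans
    (congrArg (Int.cast : ℤ → Ord N) (Int.natAbs_of_nonneg (norm_nonneg' x)))

/-- The invertible principal ideal of a nonzero element. -/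
def prin (x : Ord N) (hx : x ≠ 0) : II N :=
  ⟨span {x}, x.norm.natAbs, Int.natAbs_pos.mpr fun h => hx (norm_eq_zero' h), by
    rw [conjI_span, Ideal.span_singleton_mul_span_singleton, norm_star_mul, natAbs_norm_cast]⟩

theorem coe_prin (x : Ord N) (hx : x ≠ 0) : ((prin x hx : II N) : Ideal (Ord N)) = span {x} := rfl

theorem nrm_prin (x : Ord N) (hx : x ≠ 0) : (nrm (prin x hx) : ℤ) = x.norm := by
  rw [← Int.natAbs_of_nonneg (norm_nonneg' x)]
  congr 1
  refine natCast_span_inj (N := N) ?_
  rw [← mul_conj, coe_prin, conjI_span, Ideal.span_singleton_mul_span_singleton, norm_star_mul,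
    natAbs_norm_cast]

theorem prin_mul (x y : Ord N) (hx : x ≠ 0) (hy : y ≠ 0) :
    prin (x * y) (mul_ne_zero hx hy) = prin x hx * prin y hy :=
  Subtype.ext (Ideal.span_singleton_mul_span_singleton x y).symm

theorem prin_natCast {a : ℕ} (ha : (a : Ord N) ≠ 0) (I : II N) (h : nrm I = a) :
    prin (a : Ord N) ha = I * conj I := Subtype.ext (by
  rw [Submonoid.coe_mul, coe_prin, coe_conj, mul_conj, h])

theorem mul_left_cancel_II {P : II N} {J J' : Ideal (Ord N)}
    (h : (P : Ideal (Ord N)) * J = P * J') : J = J' := by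
  have h' := congrArg (fun K => conjI (P : Ideal (Ord N)) * K) h
  simp only [← mul_assoc] at h'
  rw [mul_comm (conjI (P : Ideal (Ord N))), mul_conj] at h'
  exact (span_singleton_mul_right_inj (natCast_ne_zero_of_pos (nrm_pos P))).mp h'

/-- An element of an invertible ideal has norm a multiple of the norm of the ideal, and so on: the
containment `I ⊆ P` gives a factor. -/
theorem exists_factor {I P : II N} (h : (I : Ideal (Ord N)) ≤ P) : ∃ J : II N, I = P * J := by
  set a : Ord N := (nrm P : Ord N)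
  have ha : a ≠ 0 := natCast_ne_zero_of_pos (nrm_pos P)
  have hle : (I : Ideal (Ord N)) * conjI P ≤ span {a} := by
    rw [← mul_conj]; exact mul_le_mul' h le_rfl
  let J : Ideal (Ord N) := Submodule.comap (LinearMap.mulLeft (Ord N) a) ((I : Ideal (Ord N)) * conjI P)
  have hJ : span {a} * J = (I : Ideal (Ord N)) * conjI P := by
    refine le_antisymm ?_ fun z hz => ?_
    · intro z hz
      obtain ⟨y, hy, rfl⟩ := mem_span_singleton_mul.mp hz
      exact hy
    · obtain ⟨y, rfl⟩ := mem_span_singleton.mp (hle hz)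
      exact mem_span_singleton_mul.mpr ⟨y, hz, rfl⟩
  have h2 : span {a} * (J * conjI J) = span {(nrm I : Ord N)} := by
    refine (span_singleton_mul_right_inj ha).mp ?_
    have := congrArg (fun K => K * conjI K) hJ
    simp only [conjI_mul, conjI_span, conjI_conjI, a, star_natCast] at this
    rw [mul_mul_mul_comm, mul_assoc] at this
    rw [this, mul_mul_mul_comm, mul_conj, mul_comm (conjI (P : Ideal (Ord N))), mul_conj, mul_comm]
  obtain ⟨y, hy, hyn⟩ : ∃ y ∈ J * conjI J, a * y = (nrm I : Ord N) :=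
    mem_span_singleton_mul.mp (h2 ▸ mem_span_singleton_self _)
  obtain ⟨b, hb⟩ : nrm P ∣ nrm I := by
    have : ((nrm P : ℤ) : Ord N) ∣ ((nrm I : ℤ) : Ord N) := ⟨y, by
      rw [Int.cast_natCast, Int.cast_natCast]; exact hyn.symm⟩
    exact Int.natCast_dvd_natCast.mp ((Zsqrtd.intCast_dvd_intCast _ _).mp this)
  have hb0 : 0 < b := Nat.pos_of_mul_pos_left (hb ▸ nrm_pos I)
  have hJJ : J * conjI J = span {(b : Ord N)} := by
    refine (span_singleton_mul_right_inj ha).mp ?_
    rw [h2, Ideal.span_singleton_mul_span_singleton, ← Nat.cast_mul, hb]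
  refine ⟨⟨J, b, hb0, hJJ⟩, Subtype.ext (?_ : (I : Ideal (Ord N)) = P * J)⟩
  refine (span_singleton_mul_right_inj ha).mp ?_
  rw [mul_left_comm, hJ, mul_left_comm, mul_conj, mul_comm]

/-- An element of an invertible ideal factors through it. -/
theorem exists_factor_elem {I : II N} {x : Ord N} (hx : x ≠ 0) (h : x ∈ (I : Ideal (Ord N))) :
    ∃ J : II N, prin x hx = I * J ∧ x.norm = (nrm I : ℤ) * nrm J := by
  obtain ⟨J, hJ⟩ := exists_factor (I := prin x hx) (P := I) ((span_singleton_le_iff_mem _).mpr h)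
  exact ⟨J, hJ, by rw [← nrm_prin x hx, hJ, map_mul]; push_cast; rfl⟩

theorem nrm_dvd_norm {I : II N} {x : Ord N} (h : x ∈ (I : Ideal (Ord N))) :
    (nrm I : ℤ) ∣ x.norm := by
  by_cases hx : x = 0
  · subst hx; simp
  · obtain ⟨J, -, hJ⟩ := exists_factor_elem hx h; exact ⟨_, hJ⟩

theorem nrm_mem (I : II N) : (nrm I : Ord N) ∈ (I : Ideal (Ord N)) :=
  Ideal.mul_le_left (mul_conj I ▸ mem_span_singleton_self _)

theorem eq_one_of_nrm_eq_one {I : II N} (h : nrm I = 1) : I = 1 := by
  refine Subtype.ext ?_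
  rw [Submonoid.coe_one, Ideal.one_eq_top, eq_top_iff_one]
  simpa [h] using nrm_mem I

/-! ### Classes -/

/-- Equivalence up to principal ideals. -/
def Rel (I J : II N) : Prop :=
  ∃ (α β : Ord N) (hα : α ≠ 0) (hβ : β ≠ 0), prin α hα * I = prin β hβ * J

variable (N) in
/-- The congruence. -/
def clCon : Con (II N) where
  r := Rel
  iseqv :=
    { refl := fun _ => ⟨1, 1, one_ne_zero, one_ne_zero, rfl⟩
      symm := fun ⟨α, β, hα, hβ, h⟩ => ⟨β, α, hβ, hα, h.symm⟩
      trans := fun {x y z} ⟨α, β, hα, hβ, h⟩ ⟨α', β', hα', hβ', h'⟩ =>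
        ⟨α * α', β * β', mul_ne_zero hα hα', mul_ne_zero hβ hβ', by
          rw [prin_mul _ _ hα hα', prin_mul _ _ hβ hβ', mul_right_comm, h, mul_right_comm,
            mul_assoc, h', ← mul_assoc]⟩ }
  mul' := fun {a b c d} ⟨α, β, hα, hβ, h⟩ ⟨α', β', hα', hβ', h'⟩ =>
    ⟨α * α', β * β', mul_ne_zero hα hα', mul_ne_zero hβ hβ', by
      rw [prin_mul _ _ hα hα', prin_mul _ _ hβ hβ', mul_mul_mul_comm, h, h', mul_mul_mul_comm]⟩

variable (N) in
/-- The monoid of classes. -/
abbrev ClM := (clCon N).Quotient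

variable (N) in
/-- The group of classes. -/
abbrev Cl := (ClM N)ˣ

theorem mk_mul_mk_conj (I : II N) : ((clCon N).mk' I) * (clCon N).mk' (conj I) = 1 := by
  rw [← map_mul, ← (clCon N).mk'.map_one]
  refine (Con.eq _).mpr ⟨1, (nrm I : Ord N), one_ne_zero, natCast_ne_zero_of_pos (nrm_pos I), ?_⟩
  rw [mul_one, prin_natCast _ I rfl]
  exact Subtype.ext (by
    rw [Submonoid.coe_mul, coe_prin, Ideal.span_singleton_one, ← Ideal.one_eq_top, one_mul])

/-- The class of an invertible ideal. -/
def cls : II N →* Cl N where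
  toFun I := ⟨(clCon N).mk' I, (clCon N).mk' (conj I), mk_mul_mk_conj I, by
    rw [mul_comm, mk_mul_mk_conj]⟩
  map_one' := Units.ext (map_one _)
  map_mul' I J := Units.ext (map_mul _ I J)

theorem cls_surjective : Function.Surjective (cls (N := N)) := fun u => by
  obtain ⟨a, ha⟩ := Con.mk'_surjective (c := clCon N) u.val
  exact ⟨a, Units.ext ha⟩

theorem cls_eq_iff {I J : II N} : cls I = cls J ↔ Rel I J := by
  rw [Units.ext_iff]; exact (clCon N).eq

theorem cls_conj (I : II N) : cls (conj I) = (cls I)⁻¹ := Units.ext rfl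

theorem cls_prin (x : Ord N) (hx : x ≠ 0) : cls (prin x hx) = 1 := by
  rw [← map_one (cls (N := N)), cls_eq_iff]
  exact ⟨1, x, one_ne_zero, hx, Subtype.ext (by
    simp [coe_prin])⟩

/-- A trivial class is principal. -/
theorem exists_gen_of_cls {I : II N} (h : cls I = 1) : ∃ x, ∃ hx : x ≠ 0, I = prin x hx := by
  rw [← map_one (cls (N := N)), cls_eq_iff] at h
  obtain ⟨α, β, hα, hβ, h⟩ := h
  rw [mul_one] at h
  have hm : β ∈ span {α} * (I : Ideal (Ord N)) := by
    have := congrArg (fun J : II N => (J : Ideal (Ord N))) h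
    simp only [Submonoid.coe_mul, coe_prin] at this
    exact this ▸ mem_span_singleton_self β
  obtain ⟨x, -, hx⟩ := mem_span_singleton_mul.mp hm
  have hx0 : x ≠ 0 := fun e => hβ (by rw [← hx, e, mul_zero])
  refine ⟨x, hx0, Subtype.ext (mul_left_cancel_II (P := prin α hα) ?_)⟩
  have := congrArg (fun J : II N => (J : Ideal (Ord N))) h
  simp only [Submonoid.coe_mul] at this
  rw [this]
  rw [coe_prin, coe_prin, coe_prin]
  rw [Ideal.span_singleton_mul_span_singleton, hx]

end FA.OrderTheta
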