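import Fermat.Agent.ThetaOne.OrderLattice

/-!
# Counting elements of invertible ideals by relative norm

The number of elements of norm `n · N(I)` in `I` depends only on the class of `I`; at a prime
`l ∤ 2N` it satisfies the relations of a Hecke eigenform.
-/

set_option autoImplicit false

noncomputable section

open Ideal

namespace FA.OrderTheta

open FA.Theta

variable {N : ℕ} [NeZero N]

/-- The elements of relative norm `n`. -/
def cntSet (I : II N) (n : ℕ) : Set (Ord N) :=
  {x | x ∈ (I : Ideal (Ord N)) ∧ x.norm = (n : ℤ) * nrm I}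

/-- Their number. -/
def cnt (I : II N) (n : ℕ) : ℕ := (cntSet I n).ncard

theorem nrm_ne_zero (I : II N) : (nrm I : ℤ) ≠ 0 := by exact_mod_cast (nrm_pos I).ne'

theorem cntSet_eq (I : II N) (n : ℕ) :
    cntSet I n = param I '' {v | (form I).val v = (n : ℤ)} := by
  ext x
  simp only [cntSet, Set.mem_ofPred_eq, Set.mem_image, mem_iff_param]
  constructor
  · rintro ⟨⟨v, rfl⟩, h⟩
    rw [norm_param] at h
    exact ⟨v, mul_right_cancel₀ (nrm_ne_zero I) h, rfl⟩
  · rintro ⟨v, hv, rfl⟩
    exact ⟨⟨v, rfl⟩, by rw [norm_param, hv]⟩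

theorem finite_cntSet (I : II N) (n : ℕ) : (cntSet I n).Finite := by
  rw [cntSet_eq]
  exact ((form I).finite_val_eq n).image _

theorem rep_form (I : II N) (n : ℕ) : (form I).rep n = cnt I n := by
  rw [cnt, cntSet_eq, Set.ncard_image_of_injective _ (param_injective I), BQF.rep,
    Set.ncard_eq_toFinset_card _ ((form I).finite_val_eq n)]

/-- Transport between equivalent ideals. -/
theorem exists_transport {I J : II N} (h : cls I = cls J) :
    ∃ φ : ℤ × ℤ →+ ℤ × ℤ, Function.Injective φ ∧ ∀ v, (form J).val (φ v) = (form I).val v := by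
  obtain ⟨α, β, hα, hβ, heq⟩ := cls_eq_iff.mp h
  have heq' : span {α} * (I : Ideal (Ord N)) = span {β} * J := by
    simpa [coe_prin] using congrArg (fun K : II N => (K : Ideal (Ord N))) heq
  have hex : ∀ v, ∃ w, α * param I v = β * param J w := by
    intro v
    have : α * param I v ∈ span {β} * (J : Ideal (Ord N)) :=
      heq' ▸ mul_mem_mul (mem_span_singleton_self α) ((mem_iff_param I _).mpr ⟨v, rfl⟩)
    obtain ⟨y, hy, hxy⟩ := mem_span_singleton_mul.mp this
    obtain ⟨w, rfl⟩ := (mem_iff_param J y).mp hy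
    exact ⟨w, hxy.symm⟩
  choose φ hφ using hex
  have huniq : ∀ v w, α * param I v = β * param J w → φ v = w := fun v w h =>
    param_injective J (mul_left_cancel₀ hβ ((hφ v).symm.trans h))
  let φ' : ℤ × ℤ →+ ℤ × ℤ :=
    { toFun := φ
      map_zero' := huniq _ _ (by simp)
      map_add' := fun v w => huniq _ _ (by rw [map_add, map_add, mul_add, mul_add, hφ, hφ]) }
  refine ⟨φ', fun v w e => param_injective I (mul_left_cancel₀ hα ?_), fun v => ?_⟩
  · rw [hφ v, hφ w]; exact congrArg (fun z => β * param J z) e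
  · have e := congrArg Zsqrtd.norm (hφ v)
    have e2 := congrArg (fun K : II N => ((nrm K : ℕ) : ℤ)) heq
    simp only [map_mul, Nat.cast_mul, nrm_prin] at e2
    rw [Zsqrtd.norm_mul, Zsqrtd.norm_mul, norm_param, norm_param] at e
    refine mul_left_cancel₀ (mul_ne_zero (fun e => hβ (norm_eq_zero' e)) (nrm_ne_zero J)) ?_
    show _ * (form J).val (φ v) = _
    linear_combination -e + (form I).val v * e2

theorem cnt_congr {I J : II N} (h : cls I = cls J) (n : ℕ) : cnt I n = cnt J n := by
  have key : ∀ {I J : II N}, cls I = cls J → cnt I n ≤ cnt J n := by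
    intro I J h
    obtain ⟨φ, hφ, hval⟩ := exists_transport h
    rw [← rep_form, ← rep_form, BQF.rep, BQF.rep]
    refine Finset.card_le_card_of_injOn φ (fun v hv => ?_) hφ.injOn
    simpa [hval] using hv
  exact le_antisymm (key h) (key h.symm)

theorem gauss_congr {I J : II N} (h : cls I = cls J) (n : ℕ) [NeZero n] (u : ZMod n) :
    (form I).gauss n u 0 = (form J).gauss n u 0 := by
  obtain ⟨φ, -, hφ⟩ := exists_transport h
  exact BQF.gauss_eq_of_map _ _ φ (m := 1) (by simpa using hφ) (by simp) u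

/-- The Gauss sum modulo `n` is unchanged under multiplication by the square of an ideal of norm
prime to `n`. -/
theorem gauss_mul_sq (I b : II N) (n : ℕ) [NeZero n] (hb : (nrm b).Coprime n) (u : ZMod n) :
    (form (I * (b * b))).gauss n u 0 = (form I).gauss n u 0 := by
  have hex : ∀ v, ∃ w, param (I * (b * b)) v = param I w := fun v => by
    obtain ⟨w, hw⟩ := (mem_iff_param I _).mp (Ideal.mul_le_left
      (show param (I * (b * b)) v ∈ (I : Ideal (Ord N)) * ((b * b : II N) : Ideal (Ord N)) from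
        (mem_iff_param (I * (b * b)) _).mpr ⟨v, rfl⟩))
    exact ⟨w, hw.symm⟩
  choose φ hφ using hex
  have huniq : ∀ v w, param (I * (b * b)) v = param I w → φ v = w := fun v w h =>
    param_injective I ((hφ v).symm.trans h)
  let φ' : ℤ × ℤ →+ ℤ × ℤ :=
    { toFun := φ
      map_zero' := huniq _ _ (by simp)
      map_add' := fun v w => huniq _ _ (by rw [map_add, map_add, hφ, hφ]) }
  refine BQF.gauss_eq_of_map _ _ φ' (m := (nrm b : ℤ)) (fun v => ?_) ?_ u
  · have e := congrArg Zsqrtd.norm (hφ v)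
    rw [norm_param, norm_param, map_mul, map_mul] at e
    push_cast at e
    refine mul_right_cancel₀ (nrm_ne_zero I) ?_
    show (form I).val (φ v) * _ = _
    linear_combination -e
  · rw [Int.cast_natCast, ZMod.isUnit_iff_coprime]
    exact hb

theorem cnt_one_eq_zero (I : II N) (h : cls I ≠ 1) : cnt I 1 = 0 := by
  rw [cnt, Set.ncard_eq_zero (finite_cntSet I 1), Set.eq_empty_iff_forall_notMem]
  rintro x ⟨hx, hn⟩
  rw [Nat.cast_one, one_mul] at hn
  have hx0 : x ≠ 0 := by
    rintro rfl
    exact nrm_ne_zero I (by simpa using hn.symm)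
  obtain ⟨J, hJ, hJn⟩ := exists_factor_elem hx0 hx
  have hJ1 : J = 1 := eq_one_of_nrm_eq_one (by
    rw [hn] at hJn
    exact_mod_cast mul_left_cancel₀ (nrm_ne_zero I) (b := (nrm J : ℤ)) (c := 1) (by linarith))
  rw [hJ1, mul_one] at hJ
  exact h (by rw [← hJ, cls_prin])

theorem cnt_one_one (hN : 1 < N) : cnt (1 : II N) 1 = 2 := by
  have hset : cntSet (1 : II N) 1 = {1, -1} := by
    ext x
    simp only [cntSet, Submonoid.coe_one, one_eq_top, Submodule.mem_top, true_and, map_one,
      Nat.cast_one, mul_one, Set.mem_ofPred_eq, Set.mem_insert_iff, Set.mem_singleton_iff, norm_eq]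
    constructor
    · intro h
      have him : x.im = 0 := by
        by_contra h0
        have h1 : (1 : ℤ) ≤ x.im ^ 2 := by
          have : 0 < x.im ^ 2 := by positivity
          omega
        have h2 : (N : ℤ) ≤ (N : ℤ) * x.im ^ 2 := le_mul_of_one_le_right (Int.natCast_nonneg N) h1
        have : (1 : ℤ) < N := by exact_mod_cast hN
        nlinarith [sq_nonneg x.re]
      rcases sq_eq_one_iff.mp (show x.re ^ 2 = 1 by rw [him] at h; linarith) with e | e
      · exact Or.inl (Zsqrtd.ext (by simpa using e) (by simpa using him))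
      · exact Or.inr (Zsqrtd.ext (by simpa using e) (by simpa using him))
    · rintro (rfl | rfl) <;> simp
  rw [cnt, hset, Set.ncard_pair]
  intro e
  have := congrArg Zsqrtd.re e
  simp at this

/-! ### Primes of degree one -/

variable {l : ℕ}

omit [NeZero N] in
theorem dvd_of_not_isSquare (hl : l.Prime) (hno : ¬ IsSquare (-(N : ZMod l))) {x : Ord N}
    (h : (l : ℤ) ∣ x.norm) : (l : Ord N) ∣ x := by
  have : Fact l.Prime := ⟨hl⟩
  rw [norm_eq, ← ZMod.intCast_zmod_eq_zero_iff_dvd] at h
  push_cast at h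
  have him : (x.im : ZMod l) = 0 := by
    by_contra h0
    refine hno ⟨(x.re : ZMod l) * (x.im : ZMod l)⁻¹, ?_⟩
    field_simp
    linear_combination -h
  have hre : (x.re : ZMod l) = 0 := by
    rw [him] at h
    simpa using h
  rw [← Int.cast_natCast (R := Ord N) l, Zsqrtd.intCast_dvd]
  exact ⟨(ZMod.intCast_zmod_eq_zero_iff_dvd _ _).mp hre,
    (ZMod.intCast_zmod_eq_zero_iff_dvd _ _).mp him⟩

theorem le_span_of_not_isSquare (hl : l.Prime) (hno : ¬ IsSquare (-(N : ZMod l))) {J : II N}
    (h : l ∣ nrm J) : (J : Ideal (Ord N)) ≤ span {(l : Ord N)} := fun _ hx =>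
  mem_span_singleton.mpr (dvd_of_not_isSquare hl hno
    ((Int.natCast_dvd_natCast.mpr h).trans (nrm_dvd_norm hx)))

theorem isSquare_of_nrm (hl : l.Prime) {P : II N} (hP : nrm P = l) :
    IsSquare (-(N : ZMod l)) := by
  by_contra hno
  have h := le_span_of_not_isSquare hl hno (J := P) hP.symm.dvd
  have h' := le_span_of_not_isSquare hl hno (J := conj P) (by rw [nrm_conj, hP])
  have := mul_le_mul' h h'
  rw [coe_conj, mul_conj, hP, span_singleton_mul_span_singleton, span_singleton_le_span_singleton,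
    ← Nat.cast_mul, ← Int.cast_natCast (R := Ord N) (l * l), ← Int.cast_natCast (R := Ord N) l,
    Zsqrtd.intCast_dvd_intCast, Int.natCast_dvd_natCast] at this
  have := Nat.le_of_dvd hl.pos this
  nlinarith [hl.two_le]

theorem exists_root_ideal (hl : l.Prime) (hlN : ¬ l ∣ 2 * N) (hsq : IsSquare (-(N : ZMod l))) :
    ∃ P : II N, nrm P = l ∧ (P : Ideal (Ord N)).IsMaximal ∧
      conjI (P : Ideal (Ord N)) ≠ P ∧ (conjI (P : Ideal (Ord N))).IsMaximal := by
  have : Fact l.Prime := ⟨hl⟩
  obtain ⟨r, hr⟩ := hsq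
  have hl2 : (2 : ZMod l) ≠ 0 := fun e => hlN (by
    have := (ZMod.natCast_eq_zero_iff 2 l).mp (by exact_mod_cast e)
    exact this.mul_right N)
  have hr0 : r ≠ 0 := fun e => hlN (by
    rw [e, mul_zero, neg_eq_zero] at hr
    exact ((ZMod.natCast_eq_zero_iff N l).mp hr).mul_left 2)
  let φ : Ord N →+* ZMod l := Zsqrtd.lift ⟨r, by rw [← hr]; push_cast; ring⟩
  let φ' : Ord N →+* ZMod l := φ.comp (starRingEnd (Ord N))
  have hφ : ∀ x : Ord N, φ x = (x.re : ZMod l) + (x.im : ZMod l) * r := fun x => by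
    simp [φ, Zsqrtd.lift_apply_apply]
  have hφ' : ∀ x : Ord N, φ' x = (x.re : ZMod l) - (x.im : ZMod l) * r := fun x => by
    simp [φ', starRingEnd_apply, hφ]; ring
  have hsurj : ∀ ψ : Ord N →+* ZMod l, Function.Surjective ψ := fun ψ z => by
    obtain ⟨a, rfl⟩ := ZMod.intCast_surjective z
    exact ⟨(a : Ord N), map_intCast ψ a⟩
  set P₀ := RingHom.ker φ
  have hmax : P₀.IsMaximal := RingHom.ker_isMaximal_of_surjective _ (hsurj φ)
  have hconj : conjI P₀ = RingHom.ker φ' := by
    ext x
    rw [mem_conjI_iff, RingHom.mem_ker, RingHom.mem_ker]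
    rfl
  have hmax' : (conjI P₀).IsMaximal := hconj ▸ RingHom.ker_isMaximal_of_surjective _ (hsurj φ')
  have hne : conjI P₀ ≠ P₀ := fun e => by
    obtain ⟨a, ha⟩ := ZMod.intCast_surjective r
    have h1 : (⟨-a, 1⟩ : Ord N) ∈ P₀ := by
      rw [RingHom.mem_ker, hφ]; simp [ha]
    rw [← e, hconj, RingHom.mem_ker, hφ'] at h1
    simp only [Int.cast_neg, ha, Int.cast_one, one_mul] at h1
    exact (mul_ne_zero hl2 hr0) (by linear_combination -h1)
  have hprod : P₀ * conjI P₀ = span {(l : Ord N)} := by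
    rw [Ideal.mul_eq_inf_of_coprime (hmax.coprime_of_ne hmax' hne.symm)]
    refine le_antisymm (fun x hx => ?_) ?_
    · rw [hconj] at hx
      obtain ⟨h1, h2⟩ := Submodule.mem_inf.mp hx
      rw [RingHom.mem_ker, hφ] at h1
      rw [RingHom.mem_ker, hφ'] at h2
      have hre : (x.re : ZMod l) = 0 := by
        refine mul_left_cancel₀ hl2 ?_
        linear_combination h1 + h2
      have him : (x.im : ZMod l) = 0 := by
        refine mul_left_cancel₀ (mul_ne_zero hl2 hr0) ?_
        linear_combination h1 - h2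
      rw [mem_span_singleton, ← Int.cast_natCast (R := Ord N) l, Zsqrtd.intCast_dvd]
      exact ⟨(ZMod.intCast_zmod_eq_zero_iff_dvd _ _).mp hre,
        (ZMod.intCast_zmod_eq_zero_iff_dvd _ _).mp him⟩
    · rw [span_singleton_le_iff_mem, hconj]
      simp [P₀, RingHom.mem_ker]
  let P : II N := ⟨P₀, l, hl.pos, hprod⟩
  exact ⟨P, natCast_span_inj (N := N) ((mul_conj P).symm.trans hprod), hmax, hne, hmax'⟩

theorem exists_nrm_iff (hl : l.Prime) (hlN : ¬ l ∣ 2 * N) :
    (∃ P : II N, nrm P = l) ↔ IsSquare (-(N : ZMod l)) :=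
  ⟨fun ⟨_, hP⟩ => isSquare_of_nrm hl hP,
    fun h => ⟨_, (exists_root_ideal hl hlN h).choose_spec.1⟩⟩

/-- An invertible ideal of norm a prime `l ∤ 2N` is maximal and differs from its conjugate; it and
the conjugate are the only ones. -/
theorem prime_nrm (hl : l.Prime) (hlN : ¬ l ∣ 2 * N) {P : II N} (hP : nrm P = l) :
    (P : Ideal (Ord N)).IsMaximal ∧ P ≠ conj P ∧ ∀ R : II N, nrm R = l → R = P ∨ R = conj P := by
  obtain ⟨Q, hQ, hmax, hne, hmax'⟩ := exists_root_ideal hl hlN (isSquare_of_nrm hl hP)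
  have key : ∀ R : II N, nrm R = l → R = Q ∨ R = conj Q := by
    intro R hR
    have hle : (R : Ideal (Ord N)) * conjI R ≤ (Q : Ideal (Ord N)) := by
      rw [mul_conj, hR, span_singleton_le_iff_mem, ← hQ]
      exact nrm_mem Q
    have key2 : ∀ R : II N, nrm R = l → (R : Ideal (Ord N)) ≤ Q → R = Q := by
      intro R hR h
      obtain ⟨J, hJ⟩ := exists_factor h
      have hn := congrArg nrm hJ
      rw [map_mul, hR, hQ] at hn
      rw [hJ, eq_one_of_nrm_eq_one (mul_left_cancel₀ hl.ne_zero (by linarith) : nrm J = 1), mul_one]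
    rcases hmax.isPrime.mul_le.mp hle with h | h
    · exact Or.inl (key2 R hR h)
    · refine Or.inr (Subtype.ext ?_)
      have h2 := key2 (conj R) (by rw [nrm_conj, hR]) h
      rw [coe_conj, ← h2, coe_conj, conjI_conjI]
  have hcc : conj (conj Q) = Q := Subtype.ext (conjI_conjI _)
  rcases key P hP with rfl | rfl
  · exact ⟨hmax, fun e => hne (congrArg Subtype.val e).symm, key⟩
  · refine ⟨hmax', fun e => hne ?_, fun R hR => ?_⟩
    · rw [hcc] at e
      exact congrArg Subtype.val e
    · rw [hcc]; exact (key R hR).symm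

omit [NeZero N] in
theorem norm_natCast_mul (y : Ord N) : ((l : Ord N) * y).norm = (l : ℤ) ^ 2 * y.norm := by
  rw [Zsqrtd.norm_mul, Zsqrtd.norm_natCast]; ring

/-- The number of `y ∈ I` with `l · norm y = n · N(I)`. -/
theorem ncard_lower (hl : l.Prime) (I : II N) (n : ℕ) :
    {y | y ∈ (I : Ideal (Ord N)) ∧ y.norm * l = (n : ℤ) * nrm I}.ncard =
      if l ∣ n then cnt I (n / l) else 0 := by
  split_ifs with hd
  · obtain ⟨k, rfl⟩ := hd
    rw [Nat.mul_div_cancel_left _ hl.pos, cnt]
    congr 1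
    ext y
    simp only [cntSet, Set.mem_ofPred_eq, and_congr_right_iff]
    intro _
    push_cast
    constructor <;> intro h
    · refine mul_right_cancel₀ (b := (l : ℤ)) (by exact_mod_cast hl.ne_zero) ?_
      linear_combination h
    · linear_combination (l : ℤ) * h
  · convert Set.ncard_empty (α := Ord N) using 2
    ext y
    simp only [Set.mem_ofPred_eq, Set.mem_empty_iff_false, iff_false, not_and]
    intro hy hn
    obtain ⟨v, rfl⟩ := (mem_iff_param I y).mp hy
    rw [norm_param] at hn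
    apply hd
    have : (n : ℤ) = (form I).val v * l := mul_right_cancel₀ (nrm_ne_zero I)
      (by linear_combination -hn)
    exact Int.natCast_dvd_natCast.mp ⟨_, this.trans (mul_comm _ _)⟩

theorem span_mul_mem (I : II N) (n : ℕ) {x : Ord N} (hl : l.Prime)
    (hx : x ∈ span {(l : Ord N)} * (I : Ideal (Ord N))) (hn : x.norm = ((n * l : ℕ) : ℤ) * nrm I) :
    ∃ y, (y ∈ (I : Ideal (Ord N)) ∧ y.norm * l = (n : ℤ) * nrm I) ∧ (l : Ord N) * y = x := by
  obtain ⟨y, hy, rfl⟩ := mem_span_singleton_mul.mp hx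
  refine ⟨y, ⟨hy, ?_⟩, rfl⟩
  rw [norm_natCast_mul] at hn
  push_cast at hn
  refine mul_left_cancel₀ (a := (l : ℤ)) (by exact_mod_cast hl.ne_zero) ?_
  linear_combination hn

/-- The relation at a split prime. -/
theorem cnt_split (hl : l.Prime) (hlN : ¬ l ∣ 2 * N) (I : II N) {P : II N} (hP : nrm P = l)
    (n : ℕ) :
    cnt I (n * l) + (if l ∣ n then cnt I (n / l) else 0) =
      cnt (I * P) n + cnt (I * conj P) n := by
  obtain ⟨hPm, hne, -⟩ := prime_nrm hl hlN hP
  have hQm := (prime_nrm hl hlN (P := conj P) (by rw [nrm_conj, hP])).1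
  have hQ : nrm (conj P) = l := by rw [nrm_conj, hP]
  have hlP : (l : Ord N) ∈ (P : Ideal (Ord N)) := hP ▸ nrm_mem P
  have hlne : (l : Ord N) ≠ 0 := natCast_ne_zero_of_pos hl.pos
  have hPQ : (P : Ideal (Ord N)) * conjI P = span {(l : Ord N)} := by rw [mul_conj, hP]
  have hnorm : ∀ R : II N, nrm R = l → ((nrm (I * R) : ℕ) : ℤ) = nrm I * l := fun R hR => by
    rw [map_mul, hR]; push_cast; rfl
  have hunion : cntSet (I * P) n ∪ cntSet (I * conj P) n = cntSet I (n * l) := by
    ext x
    simp only [cntSet, Set.mem_union, Set.mem_ofPred_eq, hnorm P hP, hnorm _ hQ,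
      Submonoid.coe_mul]
    constructor
    · rintro (⟨h1, h3⟩ | ⟨h1, h3⟩) <;>
        exact ⟨Ideal.mul_le_left h1, by rw [h3]; push_cast; ring⟩
    · rintro ⟨h1, h3⟩
      have h3' : x.norm = (n : ℤ) * ((nrm I : ℤ) * l) := by rw [h3]; push_cast; ring
      by_cases hx0 : x = 0
      · subst hx0
        exact Or.inl ⟨zero_mem _, h3'⟩
      obtain ⟨J, hJ, hJn⟩ := exists_factor_elem hx0 h1
      have hxJ : x ∈ (I : Ideal (Ord N)) * J := by
        have := congrArg (fun K : II N => (K : Ideal (Ord N))) hJ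
        simp only [Submonoid.coe_mul, coe_prin] at this
        exact this ▸ mem_span_singleton_self x
      have hnJ : nrm J = n * l := by
        rw [h3] at hJn
        exact_mod_cast (mul_left_cancel₀ (nrm_ne_zero I)
          (show (nrm I : ℤ) * nrm J = nrm I * ((n * l : ℕ) : ℤ) by linarith))
      have hle : (J : Ideal (Ord N)) * conjI J ≤ (P : Ideal (Ord N)) := by
        rw [mul_conj, hnJ, span_singleton_le_iff_mem, Nat.cast_mul]
        exact Ideal.mul_mem_left _ _ hlP
      rcases hPm.isPrime.mul_le.mp hle with h | h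
      · exact Or.inl ⟨Ideal.mul_mono le_rfl h hxJ, h3'⟩
      · refine Or.inr ⟨Ideal.mul_mono le_rfl ?_ hxJ, h3'⟩
        rw [coe_conj]
        simpa [conjI_conjI] using conjI_mono h
  have hinter : cntSet (I * P) n ∩ cntSet (I * conj P) n = (fun y => (l : Ord N) * y) ''
      {y | y ∈ (I : Ideal (Ord N)) ∧ y.norm * l = (n : ℤ) * nrm I} := by
    ext x
    simp only [cntSet, Set.mem_inter_iff, Set.mem_ofPred_eq, Set.mem_image, hnorm P hP,
      hnorm _ hQ, Submonoid.coe_mul, coe_conj]
    constructor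
    · rintro ⟨⟨hxP, hn⟩, hxQ, -⟩
      obtain ⟨p, hp, q, hq, hpq⟩ := Submodule.mem_sup.mp (show (1 : Ord N) ∈
        (P : Ideal (Ord N)) ⊔ conjI P by
          rw [hPm.coprime_of_ne (coe_conj P ▸ hQm) fun e => hne (Subtype.ext (by rw [coe_conj]; exact e))]
          trivial)
      refine span_mul_mem I n hl ?_ (by rw [hn]; push_cast; ring)
      rw [← hPQ, ← mul_one x, ← hpq, mul_add]
      refine add_mem ?_ ?_
      · have := mul_mem_mul hxQ hp
        rwa [show (P : Ideal (Ord N)) * conjI (P : Ideal (Ord N)) * (I : Ideal (Ord N)) =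
          (I : Ideal (Ord N)) * conjI (P : Ideal (Ord N)) * (P : Ideal (Ord N)) by ring]
      · have := mul_mem_mul hxP hq
        rwa [show (P : Ideal (Ord N)) * conjI (P : Ideal (Ord N)) * (I : Ideal (Ord N)) =
          (I : Ideal (Ord N)) * (P : Ideal (Ord N)) * conjI (P : Ideal (Ord N)) by ring]
    · rintro ⟨y, ⟨hy, hn⟩, rfl⟩
      have hlQ : (l : Ord N) ∈ conjI (P : Ideal (Ord N)) := by
        rw [← coe_conj, ← hQ]; exact nrm_mem (conj P)
      have hnn : ((l : Ord N) * y).norm = (n : ℤ) * ((nrm I : ℤ) * l) := by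
        rw [norm_natCast_mul]; linear_combination (l : ℤ) * hn
      rw [mul_comm (l : Ord N)] at hnn ⊢
      exact ⟨⟨mul_mem_mul hy hlP, hnn⟩, mul_mem_mul hy hlQ, hnn⟩
  rw [← ncard_lower hl I n, ← Set.ncard_image_of_injective _ (mul_right_injective₀ hlne), ← hinter,
    cnt, ← hunion, Set.ncard_union_add_ncard_inter _ _ (finite_cntSet _ n) (finite_cntSet _ n)]
  rfl

/-- The relation at an inert prime. -/
theorem cnt_inert (hl : l.Prime) (hno : ¬ IsSquare (-(N : ZMod l))) (I : II N) (n : ℕ) :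
    cnt I (n * l) = if l ∣ n then cnt I (n / l) else 0 := by
  have hlne : (l : Ord N) ≠ 0 := natCast_ne_zero_of_pos hl.pos
  have hset : cntSet I (n * l) = (fun y => (l : Ord N) * y) ''
      {y | y ∈ (I : Ideal (Ord N)) ∧ y.norm * l = (n : ℤ) * nrm I} := by
    ext x
    simp only [cntSet, Set.mem_ofPred_eq, Set.mem_image]
    constructor
    · rintro ⟨h1, h3⟩
      refine span_mul_mem I n hl ?_ h3
      by_cases hx0 : x = 0
      · exact hx0 ▸ zero_mem _
      obtain ⟨J, hJ, hJn⟩ := exists_factor_elem hx0 h1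
      have hdvd : l ∣ nrm J := by
        rw [h3] at hJn
        exact ⟨n, by exact_mod_cast (mul_left_cancel₀ (nrm_ne_zero I)
          (show (nrm I : ℤ) * nrm J = nrm I * ((l * n : ℕ) : ℤ) by push_cast at hJn ⊢; linarith))⟩
      have := congrArg (fun K : II N => (K : Ideal (Ord N))) hJ
      simp only [Submonoid.coe_mul, coe_prin] at this
      rw [mul_comm]
      exact Ideal.mul_mono le_rfl (le_span_of_not_isSquare hl hno hdvd)
        (this ▸ mem_span_singleton_self x)
    · rintro ⟨y, ⟨hy, hn⟩, rfl⟩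
      refine ⟨Ideal.mul_mem_left _ _ hy, ?_⟩
      rw [norm_natCast_mul]
      push_cast
      linear_combination (l : ℤ) * hn
  rw [cnt, hset, Set.ncard_image_of_injective _ (mul_right_injective₀ hlne), ncard_lower hl]

end FA.OrderTheta
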