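import Fermat.Agent.Root.SummaryGenus
import Mathlib.NumberTheory.LSeries.PrimesInAP

/-!
# The principal genus

For `n > 1` the residues modulo `4n` of the norms of the ideals in a class, taken modulo the residues
`x² + n y²`, determine the class up to squares.
-/

set_option autoImplicit false
set_option linter.style.haveILetI false

noncomputable section

namespace FA.OrderTheta

/-- The units `x² + n y²` modulo `m`. -/
def normSub (n m : ℕ) : Subgroup (ZMod m)ˣ where
  carrier := {u | ∃ x y : ZMod m, (u : ZMod m) = x ^ 2 + (n : ZMod m) * y ^ 2}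
  one_mem' := ⟨1, 0, by simp⟩
  mul_mem' := by
    rintro u v ⟨x, y, hu⟩ ⟨z, w, hv⟩
    exact ⟨x * z - (n : ZMod m) * y * w, x * w + y * z, by rw [Units.val_mul, hu, hv]; ring⟩
  inv_mem' := by
    rintro u ⟨x, y, hu⟩
    refine ⟨x * ((u⁻¹ : (ZMod m)ˣ) : ZMod m), y * ((u⁻¹ : (ZMod m)ˣ) : ZMod m), ?_⟩
    set i : ZMod m := ((u⁻¹ : (ZMod m)ˣ) : ZMod m)
    have h : (u : ZMod m) * i = 1 := u.mul_inv
    linear_combination (-i) * h + i ^ 2 * hu

theorem sq_mem_normSub (n : ℕ) {m : ℕ} (u : (ZMod m)ˣ) : u * u ∈ normSub n m :=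
  ⟨(u : ZMod m), 0, by rw [Units.val_mul]; ring⟩

/-- The residues modulo `4n` modulo the values of `x² + n y²`. -/
abbrev GenusQt (n : ℕ) := (ZMod (4 * n))ˣ ⧸ normSub n (4 * n)

theorem genusQt_mul_self {n : ℕ} (a : GenusQt n) : a * a = 1 := by
  obtain ⟨u, rfl⟩ := QuotientGroup.mk_surjective a
  rw [← QuotientGroup.mk_mul, QuotientGroup.eq_one_iff]
  exact sq_mem_normSub n u

theorem normSub_congr {n n' m : ℕ} (h : (n : ZMod m) = (n' : ZMod m)) :
    normSub n m = normSub n' m := by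
  ext u
  show (∃ x y : ZMod m, _ = _) ↔ ∃ x y : ZMod m, _ = _
  rw [h]

theorem card_units_quot {n m k t : ℕ} [NeZero m] (hk : Nat.card (normSub n m) = k)
    (ht : Fintype.card (ZMod m)ˣ = t * k) :
    Nat.card ((ZMod m)ˣ ⧸ normSub n m) = t := by
  have h := Subgroup.card_eq_card_quotient_mul_card_subgroup (normSub n m)
  rw [Nat.card_eq_fintype_card, hk, ht] at h
  have hk0 : 0 < k := hk ▸ Nat.card_pos
  exact (Nat.eq_of_mul_eq_mul_right hk0 h).symm

theorem card_quot_four (n : ℕ) (h : n % 2 = 1) :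
    Nat.card ((ZMod 4)ˣ ⧸ normSub n 4) = if n % 4 = 3 then 1 else 2 := by
  have e : normSub n 4 = normSub (n % 4) 4 := normSub_congr (ZMod.natCast_mod n 4).symm
  rw [e]
  rcases (show n % 4 = 1 ∨ n % 4 = 3 by omega) with h4 | h4 <;> rw [h4]
  · refine card_units_quot (k := 1) (t := 2) ?_ (by decide)
    rw [show Nat.card (normSub 1 4) = Nat.card {u : (ZMod 4)ˣ //
      ∃ x y : ZMod 4, (u : ZMod 4) = x ^ 2 + ((1 : ℕ) : ZMod 4) * y ^ 2} from rfl,
      Nat.card_eq_fintype_card]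
    decide +kernel
  · refine card_units_quot (k := 2) (t := 1) ?_ (by decide)
    rw [show Nat.card (normSub 3 4) = Nat.card {u : (ZMod 4)ˣ //
      ∃ x y : ZMod 4, (u : ZMod 4) = x ^ 2 + ((3 : ℕ) : ZMod 4) * y ^ 2} from rfl,
      Nat.card_eq_fintype_card]
    decide +kernel

theorem card_quot_eight (n : ℕ) (h : n % 2 = 0) :
    Nat.card ((ZMod 8)ˣ ⧸ normSub n 8) = if n % 8 = 0 then 4 else 2 := by
  have e : normSub n 8 = normSub (n % 8) 8 := normSub_congr (ZMod.natCast_mod n 8).symm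
  rw [e]
  have key : ∀ r ∈ [0, 2, 4, 6], Fintype.card {u : (ZMod 8)ˣ //
      ∃ x y : ZMod 8, (u : ZMod 8) = x ^ 2 + ((r : ℕ) : ZMod 8) * y ^ 2} = if r = 0 then 1 else 2 := by
    decide +kernel
  have hr : n % 8 ∈ [0, 2, 4, 6] := by simp; omega
  refine card_units_quot (k := if n % 8 = 0 then 1 else 2) ?_ (by split_ifs <;> decide)
  rw [show Nat.card (normSub (n % 8) 8) = Nat.card {u : (ZMod 8)ˣ //
    ∃ x y : ZMod 8, (u : ZMod 8) = x ^ 2 + ((n % 8 : ℕ) : ZMod 8) * y ^ 2} from rfl,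
    Nat.card_eq_fintype_card]
  exact key _ hr

theorem two_le_card_quot_prime {n p : ℕ} [hp : Fact p.Prime] (hp2 : p ≠ 2) (hpn : p ∣ n) :
    2 ≤ Nat.card ((ZMod p)ˣ ⧸ normSub n p) := by
  obtain ⟨a, ha⟩ := FiniteField.exists_nonsquare (F := ZMod p)
    ((ZMod.ringChar_zmod_n p).trans_ne hp2)
  have ha0 : a ≠ 0 := fun e => ha (e ▸ IsSquare.zero)
  have hn : Units.mk0 a ha0 ∉ normSub n p := by
    rintro ⟨x, y, h⟩
    rw [(ZMod.natCast_eq_zero_iff n p).mpr hpn, zero_mul, add_zero] at h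
    exact ha ⟨x, by rw [← pow_two]; exact h⟩
  have : Nontrivial ((ZMod p)ˣ ⧸ normSub n p) :=
    ⟨QuotientGroup.mk (Units.mk0 a ha0), 1, fun e => hn ((QuotientGroup.eq_one_iff _).mp e)⟩
  exact Finite.one_lt_card

theorem map_mem_normSub {n m M : ℕ} (h : m ∣ M) {u : (ZMod M)ˣ} (hu : u ∈ normSub n M) :
    ZMod.unitsMap h u ∈ normSub n m := by
  obtain ⟨x, y, hxy⟩ := hu
  refine ⟨ZMod.castHom h (ZMod m) x, ZMod.castHom h (ZMod m) y, ?_⟩
  show ZMod.castHom h (ZMod m) (u : ZMod M) = _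
  rw [hxy, map_add, map_mul, map_pow, map_pow, map_natCast]

theorem two_pow_le_card_genusQt (n : ℕ) [NeZero n] : 2 ^ genusMu n ≤ Nat.card (GenusQt n) := by
  classical
  have hn0 := NeZero.ne n
  set M₂ := if n % 2 = 0 then 8 else 4 with hM₂
  set P := n.primeFactors.erase 2 with hP
  have hPp : ∀ p ∈ P, p.Prime ∧ p ∣ n ∧ p ≠ 2 := fun p hp => by
    obtain ⟨h2, hp'⟩ := Finset.mem_erase.mp hp
    exact ⟨Nat.prime_of_mem_primeFactors hp', Nat.dvd_of_mem_primeFactors hp', h2⟩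
  set ι := insert M₂ P with hι
  have hMnot : M₂ ∉ P := fun h => by
    have := (hPp _ h).1
    rw [hM₂] at this
    split_ifs at this <;> norm_num at this
  have hdvd : ∀ m ∈ ι, m ∣ 4 * n ∧ m ≠ 0 := fun m hm => by
    rcases Finset.mem_insert.mp hm with rfl | hm
    · rw [hM₂]; split_ifs with h <;> omega
    · exact ⟨(hPp m hm).2.1.mul_left 4, (hPp m hm).1.ne_zero⟩
  have hM2cop : ∀ p ∈ P, M₂.Coprime p := fun p hp => by
    obtain ⟨h1, -, h3⟩ := hPp p hp
    have h2 : (2 : ℕ).Coprime p := (Nat.coprime_primes Nat.prime_two h1).mpr (Ne.symm h3)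
    rw [hM₂]; split_ifs
    · exact (Nat.Coprime.pow_left 3 h2 : (2 ^ 3).Coprime p)
    · exact (Nat.Coprime.pow_left 2 h2 : (2 ^ 2).Coprime p)
  have hcov : ∀ q, q.Prime → q ∣ 4 * n → ∃ m ∈ ι, q ∣ m := fun q hq hd => by
    rcases eq_or_ne q 2 with rfl | h2
    · exact ⟨M₂, Finset.mem_insert_self _ _, by rw [hM₂]; split_ifs <;> norm_num⟩
    · refine ⟨q, Finset.mem_insert_of_mem (Finset.mem_erase.mpr ⟨h2, ?_⟩), dvd_rfl⟩
      refine Nat.mem_primeFactors.mpr ⟨hq, (hq.dvd_mul.mp hd).resolve_left fun h => h2 ?_, hn0⟩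
      exact (Nat.prime_dvd_prime_iff_eq hq Nat.prime_two).mp
        (hq.dvd_of_dvd_pow (show q ∣ 2 ^ 2 from h))
  let F : GenusQt n →* ∀ m : ι, (ZMod (m : ℕ))ˣ ⧸ normSub n m :=
    Pi.monoidHom fun m => QuotientGroup.map _ _ (ZMod.unitsMap (hdvd m m.2).1)
      fun u hu => map_mem_normSub _ hu
  have hF : Function.Surjective F := by
    intro g
    choose u hu using fun m : ι => QuotientGroup.mk_surjective (g m)
    have : ∀ m : ι, NeZero (m : ℕ) := fun m => ⟨(hdvd m m.2).2⟩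
    let a : ℕ → ℕ := fun i => if h : i ∈ ι then ((u ⟨i, h⟩ : ZMod i).val) else 0
    have hpair : (ι : Set ℕ).Pairwise (Function.onFun Nat.Coprime id) := by
      intro i hi j hj hij
      rcases Finset.mem_insert.mp hi with rfl | hi <;> rcases Finset.mem_insert.mp hj with rfl | hj
      · exact absurd rfl hij
      · exact hM2cop j hj
      · exact (hM2cop i hi).symm
      · exact (Nat.coprime_primes (hPp i hi).1 (hPp j hj).1).mpr hij
    obtain ⟨k, hk⟩ := Nat.chineseRemainderOfFinset a id ι (fun i hi => (hdvd i hi).2) hpair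
    have hkm : ∀ m : ι, (k : ZMod (m : ℕ)) = (u m : ZMod (m : ℕ)) := fun m => by
      rw [(ZMod.natCast_eq_natCast_iff _ _ _).mpr (hk m m.2)]
      simp only [a, dif_pos m.2]
      rw [ZMod.natCast_zmod_val]
    have hcop : k.Coprime (4 * n) := Nat.coprime_of_dvd fun q hq h1 h2 => by
      obtain ⟨m, hm, hqm⟩ := hcov q hq h2
      have hu' : IsUnit ((k : ℕ) : ZMod m) := by rw [hkm ⟨m, hm⟩]; exact Units.isUnit _
      exact hq.ne_one (Nat.eq_one_of_dvd_coprimes ((ZMod.isUnit_iff_coprime _ _).mp hu') h1 hqm)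
    refine ⟨QuotientGroup.mk (ZMod.unitOfCoprime k hcop), funext fun m => ?_⟩
    show QuotientGroup.mk (ZMod.unitsMap (hdvd m m.2).1 (ZMod.unitOfCoprime k hcop)) = g m
    rw [← hu m]
    refine congrArg _ (Units.ext ?_)
    show ZMod.castHom (hdvd m m.2).1 (ZMod (m : ℕ)) ((ZMod.unitOfCoprime k hcop : (ZMod (4 * n))ˣ) : ZMod (4 * n)) = _
    rw [ZMod.coe_unitOfCoprime, map_natCast, hkm]
  have hcard := Nat.card_le_card_of_surjective F hF
  rw [Nat.card_pi, Finset.prod_coe_sort ι (fun m => Nat.card ((ZMod m)ˣ ⧸ normSub n m)), hι,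
    Finset.prod_insert hMnot] at hcard
  refine le_trans ?_ hcard
  have hlow : 2 ^ P.card ≤ ∏ p ∈ P, Nat.card ((ZMod p)ˣ ⧸ normSub n p) := by
    rw [← Finset.prod_const]
    exact Finset.prod_le_prod (fun _ _ => Nat.zero_le _) fun p hp =>
      have : Fact p.Prime := ⟨(hPp p hp).1⟩
      two_le_card_quot_prime (hPp p hp).2.2 (hPp p hp).2.1
  refine le_trans (le_of_eq ?_) (Nat.mul_le_mul_left _ hlow)
  unfold genusMu
  rw [hM₂, hP]
  by_cases h2 : n % 2 = 0
  · rw [if_pos h2, card_quot_eight n h2, if_neg (by omega)]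
    split_ifs <;> rw [pow_succ] <;> ring
  · rw [if_neg h2, card_quot_four n (by omega)]
    split_ifs with h3 h8
    · rw [one_mul]
    · omega
    · rw [pow_succ]; ring

/-- A value of `x² + n y²` prime to `4n` has symbol one. -/
theorem jacobiSym_value {n m : ℕ} (hm : m.Coprime (4 * n)) {x y : ℤ}
    (h : (m : ℤ) = x ^ 2 + n * y ^ 2) : jacobiSym (-(n : ℤ)) m = 1 := by
  rcases Nat.eq_zero_or_pos (Int.gcd x y) with hg | hg
  · rw [Int.gcd_eq_zero_iff] at hg
    rw [hg.1, hg.2] at h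
    norm_num at h
    subst h
    rw [Nat.coprime_zero_left] at hm
    omega
  obtain ⟨a, b, hab, hx, hy⟩ := Int.exists_gcd_one hg
  set g := Int.gcd x y
  have hd : ((g * g : ℕ) : ℤ) ∣ (m : ℤ) :=
    ⟨a ^ 2 + n * b ^ 2, by rw [h, hx, hy]; push_cast; ring⟩
  obtain ⟨k, rfl⟩ := Int.natCast_dvd_natCast.mp hd
  have hk : (k : ℤ) = a ^ 2 + n * b ^ 2 := by
    refine mul_left_cancel₀ (show ((g * g : ℕ) : ℤ) ≠ 0 by positivity) ?_
    rw [← Nat.cast_mul, h, hx, hy]; push_cast; ring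
  have hm0 : g * g * k ≠ 0 := fun e => by
    rw [e, Nat.coprime_zero_left] at hm
    omega
  have : NeZero g := ⟨by omega⟩
  have : NeZero k := ⟨right_ne_zero_of_mul hm0⟩
  have : NeZero (g * g) := ⟨left_ne_zero_of_mul hm0⟩
  have hng : Int.gcd (-(n : ℤ)) g = 1 := by
    rw [Int.neg_gcd]
    show Nat.gcd n g = 1
    exact ((hm.coprime_dvd_right (dvd_mul_left n 4)).coprime_dvd_left
      ((dvd_mul_right g g).trans (dvd_mul_right _ k))).symm
  have hgg : jacobiSym (-(n : ℤ)) (g * g) = 1 := by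
    rw [jacobiSym.mul_right, ← pow_two, ← jacobiSym.pow_left]
    exact jacobiSym.sq_one' hng
  rw [jacobiSym.mul_right, hgg, one_mul]
  have hnk : Nat.Coprime k n :=
    (hm.coprime_dvd_right (dvd_mul_left n 4)).coprime_dvd_left (dvd_mul_left k _)
  have hbk : Int.gcd b k = 1 := by
    by_contra hne
    obtain ⟨q, hq, hqd⟩ := Nat.exists_prime_and_dvd hne
    have h1 : (q : ℤ) ∣ b := (Int.natCast_dvd_natCast.mpr hqd).trans (Int.gcd_dvd_left _ _)
    have h2 : (q : ℤ) ∣ (k : ℤ) := (Int.natCast_dvd_natCast.mpr hqd).trans (Int.gcd_dvd_right _ _)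
    have h3 : (q : ℤ) ∣ a ^ 2 := by
      rw [show a ^ 2 = (k : ℤ) - n * b ^ 2 by linarith]
      exact dvd_sub h2 ((h1.pow two_ne_zero).mul_left _)
    have h4 : (q : ℤ) ∣ (Int.gcd a b : ℤ) :=
      Int.dvd_coe_gcd ((Nat.prime_iff_prime_int.mp hq).dvd_of_dvd_pow h3) h1
    rw [hab] at h4
    exact hq.ne_one (Nat.dvd_one.mp (Int.natCast_dvd_natCast.mp h4))
  have hak : Int.gcd a k = 1 := by
    by_contra hne
    obtain ⟨q, hq, hqd⟩ := Nat.exists_prime_and_dvd hne
    have h1 : (q : ℤ) ∣ a := (Int.natCast_dvd_natCast.mpr hqd).trans (Int.gcd_dvd_left _ _)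
    have h2 : (q : ℤ) ∣ (k : ℤ) := (Int.natCast_dvd_natCast.mpr hqd).trans (Int.gcd_dvd_right _ _)
    have h3 : (q : ℤ) ∣ (n : ℤ) * b ^ 2 := by
      rw [show (n : ℤ) * b ^ 2 = (k : ℤ) - a ^ 2 by linarith]
      exact dvd_sub h2 (h1.pow two_ne_zero)
    rcases (Nat.prime_iff_prime_int.mp hq).dvd_or_dvd h3 with h4 | h4
    · exact hq.ne_one (Nat.eq_one_of_dvd_coprimes hnk (Int.natCast_dvd_natCast.mp h2)
        (Int.natCast_dvd_natCast.mp h4))
    · have h5 : (q : ℤ) ∣ (Int.gcd a b : ℤ) :=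
        Int.dvd_coe_gcd h1 ((Nat.prime_iff_prime_int.mp hq).dvd_of_dvd_pow h4)
      rw [hab] at h5
      exact hq.ne_one (Nat.dvd_one.mp (Int.natCast_dvd_natCast.mp h5))
  have e : jacobiSym (-(n : ℤ) * b ^ 2) k = jacobiSym (a ^ 2) k :=
    jacobiSym.mod_left' (Int.emod_eq_emod_iff_emod_sub_eq_zero.mpr
      (Int.emod_eq_zero_of_dvd ⟨-1, by rw [hk]; ring⟩))
  rwa [jacobiSym.mul_left, jacobiSym.sq_one' hbk, mul_one, jacobiSym.sq_one' hak] at e

variable {n : ℕ} [NeZero n]

/-- The residue of the norm of an ideal prime to `4n`. -/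
def normRes (J : II n) (h : (nrm J).Coprime (4 * n)) : GenusQt n :=
  QuotientGroup.mk (ZMod.unitOfCoprime (nrm J) h)

theorem normRes_congr {I J : II n} (hI : (nrm I).Coprime (4 * n)) (hJ : (nrm J).Coprime (4 * n))
    (h : cls I = cls J) : normRes I hI = normRes J hJ := by
  obtain ⟨z, hz0, hz⟩ := exists_gen_of_cls (I := I * conj J)
    (by rw [map_mul, cls_conj, h, mul_inv_cancel])
  have hv : ((nrm I * nrm J : ℕ) : ℤ) = z.re ^ 2 + n * z.im ^ 2 := by
    rw [← norm_eq, ← nrm_prin z hz0, ← hz, map_mul, nrm_conj]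
  have h1 : normRes I hI * normRes J hJ = 1 := by
    rw [normRes, normRes, ← QuotientGroup.mk_mul, QuotientGroup.eq_one_iff]
    refine ⟨(z.re : ZMod (4 * n)), (z.im : ZMod (4 * n)), ?_⟩
    rw [Units.val_mul, ZMod.coe_unitOfCoprime, ZMod.coe_unitOfCoprime, ← Nat.cast_mul,
      ← Int.cast_natCast, hv]
    push_cast
    ring
  exact (mul_eq_one_iff_eq_inv.mp h1).trans (inv_eq_of_mul_eq_one_right (genusQt_mul_self _))

/-- The genus of a class. -/
def genusHom : Cl n →* GenusQt n where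
  toFun g := normRes _ (exists_coprime_rep g (NeZero.ne (4 * n))).choose_spec.1
  map_one' := by
    rw [normRes_congr _ (J := (1 : II n)) (by simp) (by
      rw [(exists_coprime_rep (1 : Cl n) (NeZero.ne (4 * n))).choose_spec.2, map_one])]
    rw [normRes, QuotientGroup.eq_one_iff]
    exact ⟨1, 0, by simp⟩
  map_mul' g g' := by
    obtain ⟨h1, e1⟩ := (exists_coprime_rep g (NeZero.ne (4 * n))).choose_spec
    obtain ⟨h2, e2⟩ := (exists_coprime_rep g' (NeZero.ne (4 * n))).choose_spec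
    have h12 := Nat.Coprime.mul_left h1 h2
    rw [← map_mul nrm] at h12
    rw [normRes_congr _ h12 (by
      rw [(exists_coprime_rep (g * g') (NeZero.ne (4 * n))).choose_spec.2, map_mul, e1, e2])]
    rw [normRes, normRes, normRes, ← QuotientGroup.mk_mul]
    refine congrArg _ (Units.ext ?_)
    rw [Units.val_mul, ZMod.coe_unitOfCoprime, ZMod.coe_unitOfCoprime, ZMod.coe_unitOfCoprime,
      map_mul, Nat.cast_mul]

theorem genusHom_cls {J : II n} (hJ : (nrm J).Coprime (4 * n)) :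
    genusHom (cls J) = normRes J hJ :=
  normRes_congr _ hJ (exists_coprime_rep (cls J) (NeZero.ne (4 * n))).choose_spec.2

theorem exists_norm_of_signChar {u : (ZMod (4 * n))ˣ} (hu : signChar n (u : ZMod (4 * n)) = 1) :
    ∃ (J : II n) (h : (nrm J).Coprime (4 * n)), ZMod.unitOfCoprime (nrm J) h = u := by
  obtain ⟨p, hpgt, hp, hpu⟩ := Nat.forall_exists_prime_gt_and_eq_mod u.isUnit (4 * n)
  have hp4 : ¬ p ∣ 4 * n := fun h => by
    have := Nat.le_of_dvd (Nat.pos_of_ne_zero (NeZero.ne _)) h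
    omega
  rcases signChar_prime hp hp4 with ⟨hs, -⟩ | ⟨-, he⟩
  · obtain ⟨P, hP⟩ := (exists_nrm_iff hp (not_dvd_two_mul hp4)).mpr hs
    refine ⟨P, by rw [hP]; exact (Nat.Prime.coprime_iff_not_dvd hp).mpr hp4, Units.ext ?_⟩
    rw [ZMod.coe_unitOfCoprime, hP, hpu]
  · rw [hpu, hu] at he
    norm_num at he

theorem card_le_two_mul_range : Nat.card (GenusQt n) ≤ 2 * Nat.card (genusHom (n := n)).range := by
  set K := (signChar n).toUnitHom.ker
  have hK : K ≤ (genusHom (n := n)).range.comap (QuotientGroup.mk' _) := fun u hu => by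
    obtain ⟨J, hJ, hJu⟩ := exists_norm_of_signChar (u := u) (by
      rw [← MulChar.coe_toUnitHom, MonoidHom.mem_ker.mp hu, Units.val_one])
    exact ⟨cls J, by rw [genusHom_cls hJ, normRes, hJu]; rfl⟩
  have hidx : K.index ≤ 2 := by
    rw [Subgroup.index_ker]
    refine le_trans (le_of_eq (Nat.card_coe_set_eq ((signChar n).toUnitHom.range : Set ℂˣ))) ?_
    refine (Set.ncard_le_ncard (t := {1, -1}) ?_ (Set.toFinite _)).trans ?_
    · rintro _ ⟨u, rfl⟩
      have h : signChar n (u : ZMod (4 * n)) * signChar n (u : ZMod (4 * n)) = 1 := by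
        rw [signChar]
        exact FA.Twists.twistChar_sq _ u
      rcases mul_self_eq_one_iff.mp h with e | e
      · exact Or.inl (Units.ext (by rw [MulChar.coe_toUnitHom, e]; rfl))
      · exact Or.inr (Units.ext (by rw [MulChar.coe_toUnitHom, e]; simp))
    · exact (Set.ncard_insert_le _ _).trans (by rw [Set.ncard_singleton])
  have h1 := Subgroup.index_antitone hK
  rw [Subgroup.index_comap_of_surjective _ (QuotientGroup.mk'_surjective _)] at h1
  have h2 := Subgroup.card_mul_index (genusHom (n := n)).range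
  rw [← h2, mul_comm]
  exact Nat.mul_le_mul_right _ (h1.trans hidx)

/-- **The principal genus**: a class with trivial genus is a square. -/
theorem genusHom_eq_one_iff (hn : 1 < n) {c : Cl n} :
    genusHom c = 1 ↔ ∃ d : Cl n, d * d = c := by
  have := finite_cl (N := n)
  set S := (powMonoidHom (α := Cl n) 2).range with hS
  have hle : S ≤ (genusHom (n := n)).ker := by
    rintro _ ⟨d, rfl⟩
    rw [MonoidHom.mem_ker, powMonoidHom_apply, map_pow, pow_two, genusQt_mul_self]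
  have hk : Nat.card (powMonoidHom (α := Cl n) 2).ker = 2 ^ (genusMu n - 1) := by
    rw [← (card_sq_eq_one hn).trans (splits_total hn)]
    exact Nat.card_congr (Equiv.subtypeEquivRight fun c => by
      rw [MonoidHom.mem_ker, powMonoidHom_apply, pow_two])
  have hS' : Nat.card S * 2 ^ (genusMu n - 1) = Nat.card (Cl n) := by
    rw [← hk, ← Subgroup.card_mul_index (powMonoidHom (α := Cl n) 2).ker, Subgroup.index_ker,
      mul_comm]
  have hker : Nat.card (genusHom (n := n)).ker * Nat.card (genusHom (n := n)).range =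
      Nat.card (Cl n) := by
    rw [← Subgroup.index_ker]
    exact Subgroup.card_mul_index _
  have hlow : 2 ^ (genusMu n - 1) ≤ Nat.card (genusHom (n := n)).range := by
    have h1 := (two_pow_le_card_genusQt n).trans card_le_two_mul_range
    have h2 := one_le_genusMu hn
    rw [show genusMu n = genusMu n - 1 + 1 by omega, pow_succ] at h1
    omega
  have heq : S = (genusHom (n := n)).ker := Subgroup.eq_of_le_of_card_ge hle (by
    have h := Nat.mul_le_mul_left (Nat.card (genusHom (n := n)).ker) hlow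
    rw [hker, ← hS'] at h
    exact Nat.le_of_mul_le_mul_right h (by positivity))
  rw [← MonoidHom.mem_ker, ← heq, hS]
  simp [MonoidHom.mem_range, powMonoidHom_apply, pow_two]

/-- Euler's criterion when all classes are their own inverses. -/
theorem prime_form_iff_residue (hC : ∀ c : Cl n, c * c = 1) {p : ℕ} (hp : p.Prime)
    (hpn : ¬ p ∣ 4 * n) :
    (∃ x y : ℤ, (p : ℤ) = x ^ 2 + n * y ^ 2) ↔
      ∃ x y : ZMod (4 * n), (p : ZMod (4 * n)) = x ^ 2 + n * y ^ 2 := by
  constructor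
  · rintro ⟨x, y, h⟩
    refine ⟨x, y, ?_⟩
    rw [← Int.cast_natCast, h]
    push_cast
    ring
  rintro ⟨x, y, h⟩
  have hcop : p.Coprime (4 * n) := (Nat.Prime.coprime_iff_not_dvd hp).mpr hpn
  have : Fact p.Prime := ⟨hp⟩
  have hsc : signChar n (p : ZMod (4 * n)) = 1 := by
    obtain ⟨x, rfl⟩ := ZMod.intCast_surjective x
    obtain ⟨y, rfl⟩ := ZMod.intCast_surjective y
    obtain ⟨m, hm⟩ := Int.eq_ofNat_of_zero_le (a := x ^ 2 + n * y ^ 2) (by positivity)
    have hc : ((m : ℕ) : ZMod (4 * n)) = (p : ZMod (4 * n)) := by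
      rw [h, ← Int.cast_natCast, ← hm]
      push_cast
      ring
    have hmc : m.Coprime (4 * n) :=
      (ZMod.isUnit_iff_coprime m _).mp (hc ▸ (ZMod.isUnit_iff_coprime p _).mpr hcop)
    rw [← hc, signChar, FA.Twists.twistChar_natCast _ hmc, jacobiSym_value hmc hm.symm]
    norm_num
  rcases signChar_prime hp hpn with ⟨hs, -⟩ | ⟨-, he⟩
  swap
  · rw [hsc] at he
    norm_num at he
  obtain ⟨P, hP⟩ := (exists_nrm_iff hp (not_dvd_two_mul hpn)).mpr hs
  have hPc : (nrm P).Coprime (4 * n) := by rw [hP]; exact hcop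
  have hg : genusHom (cls P) = 1 := by
    rw [genusHom_cls hPc, normRes, QuotientGroup.eq_one_iff]
    exact ⟨x, y, by rw [ZMod.coe_unitOfCoprime, hP, h]⟩
  have hone : cls P = 1 := by
    rcases Nat.lt_or_ge 1 n with hn | hn
    · obtain ⟨d, hd⟩ := (genusHom_eq_one_iff hn).mp hg
      rw [← hd, hC]
    · obtain rfl : n = 1 := by have := NeZero.pos n; omega
      obtain ⟨hsub, -⟩ := Nat.card_eq_one_iff_unique.mp (card_cl_examples.1)
      exact Subsingleton.elim _ _
  obtain ⟨z, hz0, hz⟩ := exists_gen_of_cls hone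
  exact ⟨z.re, z.im, by rw [← norm_eq, ← nrm_prin z hz0, ← hz, hP]⟩

end FA.OrderTheta
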