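import Fermat.Agent.ThetaOne.SineValue
import Fermat.Agent.Root.SummaryGaussSum
import Mathlib.NumberTheory.LSeries.DirichletContinuation
import Mathlib.NumberTheory.LegendreSymbol.QuadraticReciprocity

/-!
# Self dual odd functions and the character `χ₄ (·/p)`

* `lFunction_one_selfDual`: an odd `Φ` on `ℤ/N` with Fourier transform `-i √N Φ` has
  `L(1, Φ) = -π/(N √N) ∑ Φ(j) j`.
* `dft_fourLegendre`: for `p ≡ 1 (mod 4)` the function `χ₄ (·/p)` modulo `4p` is one.
-/

set_option autoImplicit false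

noncomputable section

open Finset
open scoped Real ZMod

namespace FA.OrderTheta

theorem lFunction_one_selfDual {N : ℕ} [NeZero N] {Φ : ZMod N → ℂ} (hodd : Φ.Odd)
    (hdft : 𝓕 Φ = fun k => (-(Complex.I * (Real.sqrt N : ℂ))) * Φ k) :
    ZMod.LFunction Φ 1 =
      -((π : ℂ) / ((N : ℂ) * (Real.sqrt N : ℂ))) * ∑ j : ZMod N, Φ j * (j.val : ℂ) := by
  have hN : (0 : ℝ) < N := by exact_mod_cast NeZero.pos N
  have h0 : Φ 0 = 0 := hodd.map_zero
  have hsum : ∑ j, Φ j = 0 := hodd.sum_eq_zero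
  have hd := ZMod.LFunction_dft Φ (s := 1) (Or.inl h0)
  rw [hdft] at hd
  have hlin : ZMod.LFunction (fun k => (-(Complex.I * (Real.sqrt N : ℂ))) * Φ k) 1 =
      -(Complex.I * (Real.sqrt N : ℂ)) * ZMod.LFunction Φ 1 := by
    simp only [ZMod.LFunction, Finset.mul_sum]
    exact Finset.sum_congr rfl fun j _ => by ring
  rw [hlin] at hd
  set T := ∑ j : ZMod N, Φ j * HurwitzZeta.expZeta (ZMod.toAddCircle (-j)) 1 with hT
  have hT' : T = -∑ j : ZMod N, Φ j * HurwitzZeta.expZeta (ZMod.toAddCircle j) 1 := by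
    rw [hT, ← Finset.sum_neg_distrib]
    refine Fintype.sum_equiv (Equiv.neg _) _ _ fun j => ?_
    rw [Equiv.neg_apply, hodd, neg_mul, neg_neg]
  have h2 : 2 * T = -(2 * Complex.I) * ∑ j : ZMod N,
      Φ j * HurwitzZeta.sinZeta (ZMod.toAddCircle j) 1 := by
    rw [two_mul T]
    nth_rewrite 2 [hT']
    rw [hT, ← sub_eq_add_neg, ← Finset.sum_sub_distrib, Finset.mul_sum]
    refine Finset.sum_congr rfl fun j _ => ?_
    rw [HurwitzZeta.sinZeta_eq, map_neg]
    field_simp
    ring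
  have hval : ∀ j : ZMod N, Φ j * HurwitzZeta.sinZeta (ZMod.toAddCircle j) 1 =
      (π : ℂ) / 2 * Φ j - (π : ℂ) / N * (Φ j * (j.val : ℂ)) := by
    intro j
    by_cases hj : j = 0
    · rw [hj, h0]; ring
    rw [ZMod.toAddCircle_apply, sinZeta_one]
    · push_cast; ring
    · have h1 : 0 < j.val := Nat.pos_of_ne_zero ((ZMod.val_ne_zero j).mpr hj)
      have h2 : j.val < N := ZMod.val_lt j
      exact ⟨div_pos (by exact_mod_cast h1) hN, (div_lt_one hN).mpr (by exact_mod_cast h2)⟩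
  rw [Finset.sum_congr rfl fun j _ => hval j, Finset.sum_sub_distrib, ← Finset.mul_sum,
    ← Finset.mul_sum, hsum] at h2
  have hsq : (Real.sqrt N : ℂ) ≠ 0 := Complex.ofReal_ne_zero.mpr (Real.sqrt_pos.mpr hN).ne'
  have hNC : (N : ℂ) ≠ 0 := by exact_mod_cast NeZero.ne N
  refine mul_left_cancel₀ (mul_ne_zero (mul_ne_zero two_ne_zero Complex.I_ne_zero) hsq) ?_
  field_simp at h2 hd ⊢
  linear_combination ((N : ℂ) * Complex.I) * hd + (Complex.I / 2) * h2 +
    ((N : ℂ) * (Real.sqrt N : ℂ) * ZMod.LFunction Φ 1 +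
      (π : ℂ) * ∑ j : ZMod N, Φ j * (j.val : ℂ)) * Complex.I_mul_I

/-- The character `χ₄`, complex valued. -/
def chiFourC : DirichletCharacter ℂ 4 := ZMod.χ₄.ringHomComp (Int.castRingHom ℂ)

theorem dft_chiFourC (k : ZMod 4) :
    𝓕 (chiFourC : ZMod 4 → ℂ) k = -(2 * Complex.I) * chiFourC k := by
  have h1 : ZMod.stdAddChar (1 : ZMod 4) = Complex.I := by
    have := ZMod.stdAddChar_coe (N := 4) 1
    rw [Int.cast_one] at this
    rw [this, show 2 * π * Complex.I * ((1 : ℤ) : ℂ) / (4 : ℕ) = π / 2 * Complex.I by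
      push_cast; ring, Complex.exp_pi_div_two_mul_I]
  have h : ∀ n : ℕ, ZMod.stdAddChar ((n : ℕ) : ZMod 4) = Complex.I ^ n := fun n => by
    rw [← h1, ← AddChar.map_nsmul_eq_pow, nsmul_one]
  have e0 : ZMod.stdAddChar (0 : ZMod 4) = (1 : ℂ) := AddChar.map_zero_eq_one _
  have e2 : ZMod.stdAddChar (2 : ZMod 4) = (-1 : ℂ) := (h 2).trans Complex.I_sq
  have e3 : ZMod.stdAddChar (3 : ZMod 4) = -Complex.I := (h 3).trans Complex.I_pow_three
  have c0 : chiFourC 0 = 0 := MulChar.map_nonunit _ (by decide)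
  have c1 : chiFourC 1 = 1 := map_one _
  have c2 : chiFourC 2 = 0 := by
    show ((ZMod.χ₄ 2 : ℤ) : ℂ) = 0
    rw [show ZMod.χ₄ 2 = 0 by decide]; simp
  have c3 : chiFourC 3 = -1 := by
    show ((ZMod.χ₄ 3 : ℤ) : ℂ) = -1
    rw [show ZMod.χ₄ 3 = -1 by decide]; simp
  rw [ZMod.dft_apply]
  simp only [smul_eq_mul]
  rw [show (Finset.univ : Finset (ZMod 4)) = {0, 1, 2, 3} from by decide,
    Finset.sum_insert (by decide), Finset.sum_insert (by decide), Finset.sum_insert (by decide),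
    Finset.sum_singleton, c0, c1, c2, c3]
  rcases (show k = 0 ∨ k = 1 ∨ k = 2 ∨ k = 3 by revert k; decide) with rfl | rfl | rfl | rfl
  · simp [c0, e0]
  · rw [show -((1 : ZMod 4) * 1) = 3 by decide, show -((3 : ZMod 4) * 1) = 1 by decide, e3, h1, c1]
    ring
  · rw [show -((1 : ZMod 4) * 2) = 2 by decide, show -((3 : ZMod 4) * 2) = 2 by decide, e2, c2]
    ring
  · rw [show -((1 : ZMod 4) * 3) = 1 by decide, show -((3 : ZMod 4) * 3) = 3 by decide, e3, h1, c3]
    ring

variable (p : ℕ) [Fact p.Prime]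

/-- The Legendre character. -/
def legendreMulC : DirichletCharacter ℂ p :=
  (quadraticChar (ZMod p)).ringHomComp (Int.castRingHom ℂ)

theorem legendreMulC_natCast (r : ℕ) :
    legendreMulC p (r : ZMod p) = ((legendreSym p r : ℤ) : ℂ) := by
  rw [legendreSym, Int.cast_natCast]; rfl

/-- `χ₄ (·/p)` modulo `4 p`. -/
def fourLegendre : DirichletCharacter ℂ (4 * p) :=
  DirichletCharacter.changeLevel (dvd_mul_right 4 p) chiFourC *
    DirichletCharacter.changeLevel (dvd_mul_left p 4) (legendreMulC p)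

theorem fourLegendre_natCast (m : ℕ) :
    fourLegendre p (m : ZMod (4 * p)) = chiFourC (m : ZMod 4) * legendreMulC p (m : ZMod p) := by
  have : NeZero (4 * p) := ⟨mul_ne_zero four_ne_zero (Fact.out : p.Prime).ne_zero⟩
  by_cases hm : m.Coprime (4 * p)
  · rw [fourLegendre, MulChar.mul_apply, ← ZMod.coe_unitOfCoprime m hm,
      DirichletCharacter.changeLevel_eq_cast_of_dvd, DirichletCharacter.changeLevel_eq_cast_of_dvd,
      ZMod.coe_unitOfCoprime, ZMod.cast_natCast (dvd_mul_right 4 p),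
      ZMod.cast_natCast (dvd_mul_left p 4)]
  · have hu : ¬ IsUnit ((m : ℕ) : ZMod (4 * p)) := fun h => hm ((ZMod.isUnit_iff_coprime m _).mp h)
    rw [MulChar.map_nonunit _ hu]
    rw [Nat.coprime_mul_iff_right, not_and_or] at hm
    rcases hm with h | h
    · rw [MulChar.map_nonunit _ fun h' => h ((ZMod.isUnit_iff_coprime m 4).mp h'), zero_mul]
    · rw [MulChar.map_nonunit (legendreMulC p) fun h' => h ((ZMod.isUnit_iff_coprime m p).mp h'),
        mul_zero]

variable {p} (hp : p % 4 = 1)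

include hp

theorem fourLegendre_odd : (fourLegendre p : ZMod (4 * p) → ℂ).Odd := by
  have : NeZero (4 * p) := ⟨by omega⟩
  have h : fourLegendre p (-1) = -1 := by
    rw [show (-1 : ZMod (4 * p)) = ((4 * p - 1 : ℕ) : ZMod (4 * p)) by
      rw [Nat.cast_sub (by omega), ZMod.natCast_self, Nat.cast_one, zero_sub],
      fourLegendre_natCast, Nat.cast_sub (by omega), Nat.cast_sub (by omega), Nat.cast_mul,
      Nat.cast_mul, ZMod.natCast_self, ZMod.natCast_self, mul_zero, zero_mul, Nat.cast_one,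
      Nat.cast_one, zero_sub, zero_sub]
    show ((ZMod.χ₄ (-1) : ℤ) : ℂ) * ((quadraticChar (ZMod p) (-1) : ℤ) : ℂ) = -1
    rw [quadraticChar_neg_one ((ZMod.ringChar_zmod_n p).trans_ne (by omega)), ZMod.card,
      ZMod.χ₄_nat_one_mod_four hp, show ZMod.χ₄ (-1) = -1 by decide]
    norm_num
  intro j
  rw [← neg_one_mul j, map_mul, h, neg_one_mul]

theorem dft_legendreMulC (k : ZMod p) :
    𝓕 (legendreMulC p : ZMod p → ℂ) k = (Real.sqrt p : ℂ) * legendreMulC p k := by
  have h1 : legendreMulC p (-1) = 1 := by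
    show ((quadraticChar (ZMod p) (-1) : ℤ) : ℂ) = 1
    rw [quadraticChar_neg_one ((ZMod.ringChar_zmod_n p).trans_ne (by omega)), ZMod.card,
      ZMod.χ₄_nat_one_mod_four hp]
    norm_num
  have hne : legendreMulC p ≠ 1 := fun e => by
    obtain ⟨a, ha⟩ := quadraticChar_exists_neg_one ((ZMod.ringChar_zmod_n p).trans_ne (by omega))
    have h := congrArg (fun χ : DirichletCharacter ℂ p => χ a) e
    have ha0 : a ≠ 0 := fun h0 => by rw [h0, MulChar.map_zero] at ha; norm_num at ha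
    simp only [MulChar.one_apply (Ne.isUnit ha0)] at h
    rw [show legendreMulC p a = ((quadraticChar (ZMod p) a : ℤ) : ℂ) from rfl, ha] at h
    norm_num at h
  have hprim : (legendreMulC p).IsPrimitive := by
    rcases (Fact.out : p.Prime).eq_one_or_self_of_dvd _
      (DirichletCharacter.conductor_dvd_level (legendreMulC p)) with h | h
    · exact absurd (DirichletCharacter.eq_one_iff_conductor_eq_one.mpr h) hne
    · exact h
  have hinv : (legendreMulC p)⁻¹ = legendreMulC p :=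
    ((quadraticChar_isQuadratic (ZMod p)).comp _).inv
  have hg : gaussSum (legendreMulC p) ZMod.stdAddChar = (Real.sqrt p : ℂ) := by
    have h := FA.Summary.quadraticGaussSum_sign p (by omega)
    rw [if_pos hp] at h
    exact h
  rw [hprim.fourierTransform_eq_inv_mul_gaussSum k, hinv, hg, ← neg_one_mul k, map_mul, h1]
  ring

theorem dft_fourLegendre [NeZero (4 * p)] :
    𝓕 (fourLegendre p : ZMod (4 * p) → ℂ) =
      fun k => (-(Complex.I * (Real.sqrt ((4 * p : ℕ) : ℝ) : ℂ))) * fourLegendre p k := by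
  funext k
  obtain ⟨m, rfl⟩ : ∃ m : ℕ, (m : ZMod (4 * p)) = k := ⟨k.val, ZMod.natCast_zmod_val k⟩
  have hcop : Nat.Coprime 4 p :=
    Nat.Coprime.pow_left 2 ((Nat.coprime_primes Nat.prime_two Fact.out).mpr (by omega))
  set φ : ZMod 4 × ZMod p → ZMod (4 * p) := fun v => ((p * v.1.val + 4 * v.2.val : ℕ) : ZMod _)
  have hφ : Function.Bijective φ := by
    rw [Fintype.bijective_iff_injective_and_card]
    refine ⟨fun v w e => ?_, by simp [ZMod.card]⟩
    have hp4 : (p : ZMod 4) = 1 := by rw [← ZMod.natCast_mod, hp]; rfl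
    have e1 := congrArg (ZMod.castHom (dvd_mul_right 4 p) (ZMod 4)) e
    have e2 := congrArg (ZMod.castHom (dvd_mul_left p 4) (ZMod p)) e
    simp only [φ, map_add, map_mul, map_natCast, Nat.cast_add, Nat.cast_mul, ZMod.natCast_zmod_val, hp4, one_mul,
      show ((4 : ℕ) : ZMod 4) = 0 from rfl, zero_mul, add_zero] at e1
    simp only [φ, map_add, map_mul, map_natCast, Nat.cast_add, Nat.cast_mul, ZMod.natCast_zmod_val,
      ZMod.natCast_self, zero_mul, zero_add] at e2
    have h4 : ((4 : ℕ) : ZMod p) ≠ 0 := by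
      rw [Ne, ZMod.natCast_eq_zero_iff]
      intro hd
      exact (Fact.out : p.Prime).ne_one (Nat.eq_one_of_dvd_coprimes hcop hd dvd_rfl)
    exact Prod.ext e1 (mul_left_cancel₀ h4 e2)
  have hval : ∀ a : ZMod 4, ∀ b : ZMod p, fourLegendre p (φ (a, b)) =
      chiFourC a * legendreMulC p b := by
    intro a b
    have hp4 : (p : ZMod 4) = 1 := by rw [← ZMod.natCast_mod, hp]; rfl
    show fourLegendre p ((p * a.val + 4 * b.val : ℕ) : ZMod _) = _
    rw [fourLegendre_natCast]
    simp only [Nat.cast_add, Nat.cast_mul, ZMod.natCast_zmod_val, hp4, one_mul,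
      show ((4 : ℕ) : ZMod 4) = 0 from rfl, zero_mul, add_zero, ZMod.natCast_self, zero_add, map_mul]
    have h4 : legendreMulC p ((4 : ℕ) : ZMod p) = 1 := by
      rw [show ((4 : ℕ) : ZMod p) = (2 : ZMod p) ^ 2 by norm_num]
      show ((quadraticChar (ZMod p) ((2 : ZMod p) ^ 2) : ℤ) : ℂ) = 1
      rw [quadraticChar_sq_one', Int.cast_one]
      rw [show (2 : ZMod p) = ((2 : ℕ) : ZMod p) by norm_num, Ne, ZMod.natCast_eq_zero_iff]
      intro hd
      have := Nat.le_of_dvd two_pos hd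
      have := (Fact.out : p.Prime).two_le
      omega
    rw [h4, one_mul]
  have hexp : ∀ a : ZMod 4, ∀ b : ZMod p, ZMod.stdAddChar (-(φ (a, b) * (m : ZMod (4 * p)))) =
      ZMod.stdAddChar (-(a * (m : ZMod 4))) * ZMod.stdAddChar (-(b * (m : ZMod p))) := by
    intro a b
    have e1 : -(φ (a, b) * (m : ZMod (4 * p))) =
        ((-(((p * a.val + 4 * b.val) * m : ℕ) : ℤ) : ℤ) : ZMod (4 * p)) := by
      simp only [φ]; push_cast; ring
    have e2 : -(a * (m : ZMod 4)) = ((-((a.val * m : ℕ) : ℤ) : ℤ) : ZMod 4) := by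
      push_cast; rw [ZMod.natCast_zmod_val]
    have e3 : -(b * (m : ZMod p)) = ((-((b.val * m : ℕ) : ℤ) : ℤ) : ZMod p) := by
      push_cast; rw [ZMod.natCast_zmod_val]
    rw [e1, e2, e3, ZMod.stdAddChar_coe, ZMod.stdAddChar_coe, ZMod.stdAddChar_coe, ← Complex.exp_add]
    congr 1
    have hpC : (p : ℂ) ≠ 0 := by exact_mod_cast (Fact.out : p.Prime).ne_zero
    push_cast
    field_simp
    ring
  rw [ZMod.dft_apply, ← hφ.sum_comp, Fintype.sum_prod_type]
  simp only [smul_eq_mul]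
  calc ∑ a : ZMod 4, ∑ b : ZMod p,
        ZMod.stdAddChar (-(φ (a, b) * (m : ZMod (4 * p)))) * fourLegendre p (φ (a, b))
      = 𝓕 (chiFourC : ZMod 4 → ℂ) (m : ZMod 4) * 𝓕 (legendreMulC p : ZMod p → ℂ) (m : ZMod p) := by
        rw [ZMod.dft_apply, ZMod.dft_apply, Finset.sum_mul_sum]
        refine Finset.sum_congr rfl fun a _ => Finset.sum_congr rfl fun b _ => ?_
        rw [hexp, hval, smul_eq_mul, smul_eq_mul]
        ring
    _ = _ := by
        rw [dft_chiFourC, dft_legendreMulC hp, fourLegendre_natCast, Nat.cast_mul, Nat.cast_ofNat,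
          Real.sqrt_mul (by norm_num), show Real.sqrt 4 = 2 by
            rw [show (4 : ℝ) = 2 ^ 2 by norm_num, Real.sqrt_sq zero_le_two]]
        push_cast
        ring

end FA.OrderTheta
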